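import Fermat.Agent.Corollaries.Diri.LVal

/-!
# `L(1, χ₄) = π/4`

and `L(0, χ₄) = 1/2`, for Mathlib's `DirichletCharacter.LFunction`.
-/

set_option autoImplicit false

open Finset ZMod Complex DirichletCharacter

open scoped Real ZMod

namespace Fermat.Agent.Cor.Diri

/-- The nontrivial character modulo `4`, with complex values. -/
noncomputable def chi4 : DirichletCharacter ℂ 4 := ZMod.χ₄.ringHomComp (Int.castRingHom ℂ)

theorem chi4_apply (a : ZMod 4) : chi4 a = ((ZMod.χ₄ a : ℤ) : ℂ) := rfl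

theorem chi4_zero : chi4 0 = 0 := by
  rw [chi4_apply, show ZMod.χ₄ (0 : ZMod 4) = 0 by decide, Int.cast_zero]

theorem chi4_one : chi4 1 = 1 := by
  rw [chi4_apply, show ZMod.χ₄ (1 : ZMod 4) = 1 by decide, Int.cast_one]

theorem chi4_two : chi4 2 = 0 := by
  rw [chi4_apply, show ZMod.χ₄ (2 : ZMod 4) = 0 by decide, Int.cast_zero]

theorem chi4_three : chi4 3 = -1 := by
  rw [chi4_apply, show ZMod.χ₄ (3 : ZMod 4) = -1 by decide, Int.cast_neg, Int.cast_one]

theorem sum_zmod_four {M : Type*} [AddCommMonoid M] (f : ZMod 4 → M) :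
    ∑ a : ZMod 4, f a = f 0 + f 1 + f 2 + f 3 := by
  have h : (Finset.univ : Finset (ZMod 4)) = {0, 1, 2, 3} := by decide
  rw [h, Finset.sum_insert (by decide), Finset.sum_insert (by decide),
    Finset.sum_insert (by decide), Finset.sum_singleton, add_assoc, add_assoc]

theorem sum_chi4 : ∑ a : ZMod 4, chi4 a = 0 := by
  rw [sum_zmod_four, chi4_zero, chi4_one, chi4_two, chi4_three]
  ring

theorem stdAddChar_four_one : (stdAddChar (1 : ZMod 4) : ℂ) = I := by
  rw [stdAddChar_eq_exp, show (1 : ZMod 4).val = 1 by decide,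
    show (2 * (π : ℂ) * I * ((((1 : ℕ) : ℝ) / ((4 : ℕ) : ℝ) : ℝ) : ℂ)) = π / 2 * I by
      push_cast; ring, exp_pi_div_two_mul_I]

theorem stdAddChar_four_two : (stdAddChar (2 : ZMod 4) : ℂ) = -1 := by
  rw [show (2 : ZMod 4) = 1 + 1 by decide, AddChar.map_add_eq_mul, stdAddChar_four_one, I_mul_I]

theorem stdAddChar_four_three : (stdAddChar (3 : ZMod 4) : ℂ) = -I := by
  rw [show (3 : ZMod 4) = 2 + 1 by decide, AddChar.map_add_eq_mul, stdAddChar_four_two,
    stdAddChar_four_one]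
  ring

theorem log_one_add_I : Complex.log (1 + I) - Complex.log (1 - I) = π / 2 * I := by
  have h1 : (starRingEnd ℂ) (1 + I) = 1 - I := by simp [sub_eq_add_neg]
  have hne : Complex.arg (1 + I) ≠ π := by
    intro h
    rw [Complex.arg_eq_pi_iff] at h
    norm_num at h
  have harg : Complex.arg (1 + I) = π / 4 := by
    have h2 : (1 + I : ℂ) = ((Real.sqrt 2 : ℝ) : ℂ) *
        (Complex.cos ((π / 4 : ℝ) : ℂ) + Complex.sin ((π / 4 : ℝ) : ℂ) * I) := by
      rw [← Complex.ofReal_cos, ← Complex.ofReal_sin, Real.cos_pi_div_four, Real.sin_pi_div_four]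
      have h3 : ((Real.sqrt 2 : ℝ) : ℂ) * ((Real.sqrt 2 / 2 : ℝ) : ℂ) = 1 := by
        rw [← Complex.ofReal_mul, show Real.sqrt 2 * (Real.sqrt 2 / 2) = 1 by
          rw [mul_div_assoc', Real.mul_self_sqrt (by norm_num)]
          norm_num, Complex.ofReal_one]
      rw [mul_add, ← mul_assoc, h3, one_mul]
    rw [h2]
    exact Complex.arg_mul_cos_add_sin_mul_I (Real.sqrt_pos.mpr (by norm_num))
      ⟨by linarith [Real.pi_pos], by linarith [Real.pi_pos]⟩
  rw [← h1, Complex.log_conj _ hne]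
  have h4 : Complex.log (1 + I) - (starRingEnd ℂ) (Complex.log (1 + I)) =
      2 * ((Complex.log (1 + I)).im : ℂ) * I := by
    apply Complex.ext
    · simp
    · simp
      ring
  rw [h4, Complex.log_im, harg]
  push_cast
  ring

/-- **Leibniz: `L(1, χ₄) = π/4`.** -/
theorem LFunction_chi4_one : chi4.LFunction 1 = π / 4 := by
  rw [DirichletCharacter.LFunction, ZMod_LFunction_one _ sum_chi4, sum_zmod_four]
  have hF : ∀ j : ZMod 4, (𝓕⁻ (chi4 : ZMod 4 → ℂ)) j =
      (1 / 4) * (stdAddChar j - stdAddChar (3 * j)) := by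
    intro j
    rw [ZMod.invDFT_apply, sum_zmod_four, chi4_zero, chi4_one, chi4_two, chi4_three]
    simp only [smul_eq_mul, mul_zero, zero_add, mul_one, mul_neg, one_mul, zero_mul, add_zero]
    push_cast
    ring_nf
  have h0 : (1 / 4 : ℂ) * (stdAddChar (0 : ZMod 4) - stdAddChar (3 * 0 : ZMod 4)) = 0 := by
    rw [mul_zero (3 : ZMod 4)]
    ring
  have h1 : (1 / 4 : ℂ) * (stdAddChar (1 : ZMod 4) - stdAddChar (3 * 1 : ZMod 4)) = I / 2 := by
    rw [mul_one (3 : ZMod 4), stdAddChar_four_one, stdAddChar_four_three]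
    ring
  have h2 : (1 / 4 : ℂ) * (stdAddChar (2 : ZMod 4) - stdAddChar (3 * 2 : ZMod 4)) = 0 := by
    rw [show (3 * 2 : ZMod 4) = 2 by decide]
    ring
  have h3 : (1 / 4 : ℂ) * (stdAddChar (3 : ZMod 4) - stdAddChar (3 * 3 : ZMod 4)) = -I / 2 := by
    rw [show (3 * 3 : ZMod 4) = 1 by decide, stdAddChar_four_one, stdAddChar_four_three]
    ring
  have e1 : (1 : ℂ) - stdAddChar (-1 : ZMod 4) = 1 + I := by
    rw [show (-1 : ZMod 4) = 3 by decide, stdAddChar_four_three]
    ring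
  have e3 : (1 : ℂ) - stdAddChar (-3 : ZMod 4) = 1 - I := by
    rw [show (-3 : ZMod 4) = 1 by decide, stdAddChar_four_one]
  rw [hF, hF, hF, hF, h0, h1, h2, h3, e1, e3]
  have h4 := log_one_add_I
  linear_combination (-(I / 2)) * h4 - (π / 4 : ℂ) * I_mul_I

/-- `L(0, χ₄) = 1/2`. -/
theorem LFunction_chi4_zero : chi4.LFunction 0 = 1 / 2 := by
  rw [DirichletCharacter.LFunction, ZMod_LFunction_zero _ sum_chi4, sum_zmod_four, chi4_zero,
    chi4_one, chi4_two, chi4_three, show (0 : ZMod 4).val = 0 by decide,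
    show (1 : ZMod 4).val = 1 by decide, show (2 : ZMod 4).val = 2 by decide,
    show (3 : ZMod 4).val = 3 by decide]
  push_cast
  ring

end Fermat.Agent.Cor.Diri
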