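import Fermat.Agent.Corollaries.Diri.ExpOne

/-!
# `L(0, χ)` and `L(1, χ)` in finite terms

* `LFunction_zero`: `L(0, χ) = -(1/N) Σ_{a mod N} χ(a) a` for every `χ ≠ 1`.
* `LFunction_one`: `L(1, χ) = -(τ(χ)/N) Σ_{a mod N} χ⁻¹(a) log (1 - e^{-2πia/N})` for `χ` primitive,
  `χ ≠ 1`.
-/

set_option autoImplicit false

open Complex HurwitzZeta ZMod Finset

namespace Fermat.Agent.Cor.Diri

section Geom

variable {R : Type*} [CommRing R]

theorem sub_one_mul_sum_nat_mul_pow (z : R) (n : ℕ) :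
    (z - 1) * ∑ k ∈ range n, (k : R) * z ^ k = n * z ^ n - z * ∑ k ∈ range n, z ^ k := by
  induction n with
  | zero => simp
  | succ n ih =>
    rw [sum_range_succ, mul_add, ih, sum_range_succ]
    push_cast
    ring

theorem sum_nat_mul_pow {z : ℂ} {n : ℕ} (hz : z ^ n = 1) (hz1 : z ≠ 1) :
    ∑ k ∈ range n, (k : ℂ) * z ^ k = n / (z - 1) := by
  have h1 : z - 1 ≠ 0 := sub_ne_zero.mpr hz1
  have h2 : ∑ k ∈ range n, z ^ k = 0 := by
    rw [geom_sum_eq hz1, hz, sub_self, zero_div]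
  rw [eq_div_iff h1, mul_comm, sub_one_mul_sum_nat_mul_pow, h2, hz]
  ring

end Geom

section ZModSums

variable {N : ℕ} [NeZero N]

/-- A sum over `ZMod N` as a sum over `0 ≤ a < N`. -/
theorem sum_zmod_eq {M : Type*} [AddCommMonoid M] (f : ZMod N → M) :
    ∑ j : ZMod N, f j = ∑ a ∈ range N, f (a : ZMod N) := by
  obtain ⟨n, hn⟩ : ∃ n, N = n + 1 := ⟨N - 1, by have := NeZero.pos N; omega⟩
  subst hn
  rw [Finset.sum_range]
  refine Finset.sum_congr rfl fun j _ => ?_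
  congr 1
  exact (ZMod.natCast_zmod_val (n := n + 1) j).symm

theorem stdAddChar_pow (j : ZMod N) : (stdAddChar j : ℂ) ^ N = 1 := by
  rw [← AddChar.map_nsmul_eq_pow]
  simp

theorem stdAddChar_ne_one {j : ZMod N} (hj : j ≠ 0) : (stdAddChar j : ℂ) ≠ 1 := by
  intro h
  rw [← (stdAddChar (N := N)).map_zero_eq_one] at h
  exact hj (injective_stdAddChar h)

theorem stdAddChar_eq_exp (j : ZMod N) :
    (stdAddChar j : ℂ) = cexp (2 * Real.pi * I * ((j.val / N : ℝ) : ℂ)) := by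
  have h := stdAddChar_coe (N := N) (j.val : ℤ)
  rw [Int.cast_natCast, ZMod.natCast_zmod_val] at h
  rw [h]
  congr 1
  push_cast
  ring

theorem expZeta_toAddCircle_zero {j : ZMod N} (hj : j ≠ 0) :
    expZeta (toAddCircle j) 0 = stdAddChar j / (1 - stdAddChar j) := by
  have h0 : ((j.val / N : ℝ) : UnitAddCircle) ≠ 0 := by
    rw [← toAddCircle_apply]
    exact toAddCircle_eq_zero.not.mpr hj
  rw [toAddCircle_apply, expZeta_zero h0, ← stdAddChar_eq_exp]

theorem expZeta_toAddCircle_one {j : ZMod N} (hj : j ≠ 0) :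
    expZeta (toAddCircle j) 1 = -Complex.log (1 - stdAddChar j) := by
  have h0 : ((j.val / N : ℝ) : UnitAddCircle) ≠ 0 := by
    rw [← toAddCircle_apply]
    exact toAddCircle_eq_zero.not.mpr hj
  rw [toAddCircle_apply, expZeta_one h0, ← stdAddChar_eq_exp]

theorem sum_val_mul_stdAddChar {j : ZMod N} (hj : j ≠ 0) :
    ∑ k : ZMod N, (k.val : ℂ) * stdAddChar (-(k * j)) = N / (stdAddChar (-j) - 1) := by
  have h1 := sum_nat_mul_pow (stdAddChar_pow (-j)) (stdAddChar_ne_one (neg_ne_zero.mpr hj))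
  rw [← h1, sum_zmod_eq]
  refine Finset.sum_congr rfl fun a ha => ?_
  rw [ZMod.val_cast_of_lt (Finset.mem_range.mp ha), ← AddChar.map_nsmul_eq_pow]
  congr 2
  rw [nsmul_eq_mul, mul_neg]

/-- **The value at `0` of the `L`-function of a function with mean value `0`.** -/
theorem ZMod_LFunction_zero (Φ : ZMod N → ℂ) (hΦ : ∑ j, Φ j = 0) :
    ZMod.LFunction Φ 0 = -(1 / N) * ∑ a : ZMod N, (a.val : ℂ) * Φ a - Φ 0 := by
  have hN : (N : ℂ) ≠ 0 := Nat.cast_ne_zero.mpr (NeZero.ne N)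
  set Ψ : ZMod N → ℂ := 𝓕⁻ Φ with hΨ
  have hF : 𝓕 Ψ = Φ := LinearEquiv.apply_symm_apply dft Φ
  have h0 : Ψ 0 = 0 := by
    rw [hΨ, invDFT_apply', neg_zero, dft_apply_zero, hΦ, smul_zero]
  have hval : ∀ k, Φ k = ∑ j, stdAddChar (-(j * k)) * Ψ j := fun k => by
    have := dft_apply Ψ k
    rw [hF] at this
    simpa [smul_eq_mul] using this
  have h1 : ZMod.LFunction Φ 0 = ∑ j, Ψ j * expZeta (toAddCircle (-j)) 0 := by
    rw [← LFunction_dft Ψ (Or.inl h0), hF]
  have h2 : ∀ j, Ψ j * expZeta (toAddCircle (-j)) 0 =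
      -(1 / N) * ∑ a : ZMod N, (a.val : ℂ) * (stdAddChar (-(j * a)) * Ψ j) - Ψ j := by
    intro j
    by_cases hj : j = 0
    · subst hj
      rw [h0]
      simp
    · have hz : (1 : ℂ) - stdAddChar (-j) ≠ 0 :=
        sub_ne_zero.mpr (stdAddChar_ne_one (neg_ne_zero.mpr hj)).symm
      have hz' : (stdAddChar (-j) : ℂ) - 1 ≠ 0 :=
        sub_ne_zero.mpr (stdAddChar_ne_one (neg_ne_zero.mpr hj))
      have h3 : ∑ a : ZMod N, (a.val : ℂ) * (stdAddChar (-(j * a)) * Ψ j) =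
          Ψ j * (N / (stdAddChar (-j) - 1)) := by
        rw [← sum_val_mul_stdAddChar hj, Finset.mul_sum]
        refine Finset.sum_congr rfl fun a _ => ?_
        rw [mul_comm a j]
        ring
      rw [expZeta_toAddCircle_zero (neg_ne_zero.mpr hj), h3]
      field_simp
      ring
  rw [h1, Finset.sum_congr rfl fun j _ => h2 j, Finset.sum_sub_distrib, ← Finset.mul_sum,
    Finset.sum_comm]
  congr 1
  · congr 1
    refine Finset.sum_congr rfl fun a _ => ?_
    rw [← Finset.mul_sum, hval a]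
  · rw [hval 0]
    simp

/-- **The value at `1` of the `L`-function of a Fourier transform.** -/
theorem ZMod_LFunction_one (Φ : ZMod N → ℂ) (hΦ : ∑ j, Φ j = 0) :
    ZMod.LFunction Φ 1 = -∑ j : ZMod N, 𝓕⁻ Φ j * Complex.log (1 - stdAddChar (-j)) := by
  set Ψ : ZMod N → ℂ := 𝓕⁻ Φ with hΨ
  have hF : 𝓕 Ψ = Φ := LinearEquiv.apply_symm_apply dft Φ
  have h0 : Ψ 0 = 0 := by
    rw [hΨ, invDFT_apply', neg_zero, dft_apply_zero, hΦ, smul_zero]
  have h1 : ZMod.LFunction Φ 1 = ∑ j, Ψ j * expZeta (toAddCircle (-j)) 1 := by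
    rw [← LFunction_dft Ψ (Or.inl h0), hF]
  rw [h1, ← Finset.sum_neg_distrib]
  refine Finset.sum_congr rfl fun j _ => ?_
  by_cases hj : j = 0
  · subst hj
    rw [h0, zero_mul, zero_mul, neg_zero]
  · rw [expZeta_toAddCircle_one (neg_ne_zero.mpr hj), mul_neg]

end ZModSums

section Characters

variable {N : ℕ} [NeZero N] {χ : DirichletCharacter ℂ N}

omit [NeZero N] in
theorem apply_zero_of_ne_one (hχ : χ ≠ 1) : χ (0 : ZMod N) = 0 := by
  refine χ.map_nonunit fun h => hχ ?_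
  have h1 : (0 : ZMod N) = 1 := by
    obtain ⟨u, hu⟩ := h
    have := u.mul_inv
    rw [hu, zero_mul] at this
    exact this
  have : Subsingleton (ZMod N) := subsingleton_of_zero_eq_one h1
  ext a
  have : a = 1 := Subsingleton.elim _ _
  rw [this]
  simp

/-- **`L(0, χ) = -(1/N) Σ a χ(a)`** for every Dirichlet character `χ ≠ 1` modulo `N`. -/
theorem LFunction_zero (hχ : χ ≠ 1) :
    χ.LFunction 0 = -(1 / N) * ∑ a : ZMod N, (a.val : ℂ) * χ a := by
  rw [DirichletCharacter.LFunction, ZMod_LFunction_zero _ (χ.sum_eq_zero_of_ne_one hχ),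
    apply_zero_of_ne_one hχ, sub_zero]

/-- The same with a sum over `0 ≤ a < N`. -/
theorem LFunction_zero' (hχ : χ ≠ 1) :
    χ.LFunction 0 = -(1 / N) * ∑ a ∈ range N, (a : ℂ) * χ (a : ZMod N) := by
  rw [LFunction_zero hχ, sum_zmod_eq]
  congr 1
  refine Finset.sum_congr rfl fun a ha => ?_
  rw [ZMod.val_cast_of_lt (Finset.mem_range.mp ha)]

/-- **`L(1, χ)`** for a primitive character. -/
theorem LFunction_one (hp : χ.IsPrimitive) (hχ : χ ≠ 1) :
    χ.LFunction 1 = -(gaussSum χ stdAddChar / N) *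
      ∑ a : ZMod N, χ⁻¹ a * Complex.log (1 - stdAddChar (-a)) := by
  have hN : (N : ℂ) ≠ 0 := Nat.cast_ne_zero.mpr (NeZero.ne N)
  rw [DirichletCharacter.LFunction, ZMod_LFunction_one _ (χ.sum_eq_zero_of_ne_one hχ), neg_mul,
    Finset.mul_sum]
  congr 1
  refine Finset.sum_congr rfl fun a _ => ?_
  have h1 : (𝓕⁻ (χ : ZMod N → ℂ)) a = (N : ℂ)⁻¹ * (χ⁻¹ a * gaussSum χ stdAddChar) := by
    rw [invDFT_apply', hp.fourierTransform_eq_inv_mul_gaussSum, neg_neg, smul_eq_mul]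
  rw [h1]
  ring

end Characters

end Fermat.Agent.Cor.Diri
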