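import Fermat.Agent.Corollaries.Diri.Decomp

/-!
# Representations of integers by norm forms

`K` imaginary quadratic with discriminant `d` and class number one, `e² - 4c = d`:
`#{(x, y) : x² + exy + cy² = n} = w Σ_{m ∣ n} (d/m)` (Dirichlet).
-/

set_option autoImplicit false

open Finset NumberField NumberField.Units NumberField.InfinitePlace Ideal

universe u

namespace Fermat.Agent.Cor.Diri

section Units

variable {K : Type u} [Field K] [NumberField K]

/-- A number field of unit rank zero has `w` units. -/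
theorem card_units (hr : rank K = 0) : Nat.card (𝓞 K)ˣ = torsionOrder K := by
  have htop : ∀ x : (𝓞 K)ˣ, x ∈ torsion K := by
    intro x
    obtain ⟨ζe, hx, -⟩ := exist_unique_eq_mul_prod K x
    have hE : IsEmpty (Fin (rank K)) := by
      rw [hr]
      exact Fin.isEmpty
    have hprod : ∏ i, fundSystem K i ^ ζe.2 i = 1 := by
      rw [Finset.univ_eq_empty, Finset.prod_empty]
    rw [hprod, mul_one] at hx
    rw [hx]
    exact ζe.1.2
  rw [torsionOrder]
  exact (Nat.card_congr (Equiv.subtypeUnivEquiv htop)).symm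

/-- **Elements of given norm and principal ideals of given norm.** -/
theorem card_norm_eq (hr : rank K = 0) {n : ℕ} (hn : n ≠ 0) :
    Nat.card {α : 𝓞 K // (Algebra.norm ℤ α).natAbs = n} =
      torsionOrder K *
        Nat.card {I : Ideal (𝓞 K) // absNorm I = n ∧ Submodule.IsPrincipal I} := by
  classical
  have hgen : ∀ I : {I : Ideal (𝓞 K) // absNorm I = n ∧ Submodule.IsPrincipal I},
      ∃ g : 𝓞 K, I.1 = span {g} := fun I => I.2.2.principal
  choose gen hg using hgen
  have hng : ∀ I, (Algebra.norm ℤ (gen I)).natAbs = n := by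
    intro I
    rw [← Ideal.absNorm_span_singleton, ← hg I]
    exact I.2.1
  have hg0 : ∀ I, gen I ≠ 0 := by
    intro I h
    have := hng I
    rw [h, Algebra.norm_zero] at this
    exact hn this.symm
  rw [← card_units hr, mul_comm, ← Nat.card_prod]
  refine (Nat.card_eq_of_bijective (fun x : {I : Ideal (𝓞 K) // absNorm I = n ∧
    Submodule.IsPrincipal I} × (𝓞 K)ˣ => (⟨gen x.1 * (x.2 : 𝓞 K), ?_⟩ :
      {α : 𝓞 K // (Algebra.norm ℤ α).natAbs = n})) ⟨?_, ?_⟩).symm
  · rw [← Ideal.absNorm_span_singleton, Ideal.span_singleton_mul_right_unit x.2.isUnit, ← hg]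
    exact x.1.2.1
  · rintro ⟨I, u⟩ ⟨J, v⟩ h
    have h1 : gen I * (u : 𝓞 K) = gen J * (v : 𝓞 K) := congrArg Subtype.val h
    have h2 : I = J := by
      apply Subtype.ext
      rw [hg I, hg J, ← Ideal.span_singleton_mul_right_unit u.isUnit, h1,
        Ideal.span_singleton_mul_right_unit v.isUnit]
    subst h2
    have h3 : (u : 𝓞 K) = v := mul_left_cancel₀ (hg0 I) h1
    rw [Units.ext h3]
  · rintro ⟨α, hα⟩
    let I : {I : Ideal (𝓞 K) // absNorm I = n ∧ Submodule.IsPrincipal I} :=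
      ⟨span {α}, by rw [Ideal.absNorm_span_singleton]; exact hα, ⟨α, rfl⟩⟩
    have h1 : span {gen I} = span {α} := (hg I).symm
    obtain ⟨u, hu⟩ := Ideal.span_singleton_eq_span_singleton.mp h1
    exact ⟨(I, u), Subtype.ext hu⟩

end Units

variable {K : Type u} [Field K] [NumberField K]

/-- Trace and norm through the nontrivial automorphism. -/
theorem exists_conj' (h2 : Module.finrank ℚ K = 2) :
    ∃ s : 𝓞 K ≃+* 𝓞 K, (∀ x : 𝓞 K, ((Algebra.trace ℤ (𝓞 K) x : ℤ) : 𝓞 K) = x + s x) ∧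
      ∀ x : 𝓞 K, ((Algebra.norm ℤ x : ℤ) : 𝓞 K) = x * s x := by
  classical
  have hab := Abel.isAbelianGalois_of_finrank_two K h2
  have hc : Nat.card Gal(K/ℚ) = 2 := (IsGalois.card_aut_eq_finrank ℚ K).trans h2
  obtain ⟨σ, hσ1, hσ⟩ := (Nat.card_eq_two_iff' (1 : Gal(K/ℚ))).mp hc
  have huniv : (Finset.univ : Finset Gal(K/ℚ)) = {1, σ} := by
    ext τ
    simp only [Finset.mem_univ, Finset.mem_insert, Finset.mem_singleton, true_iff]
    by_cases h : τ = 1
    · exact Or.inl h
    · exact Or.inr (hσ τ h)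
  refine ⟨RingOfIntegers.mapRingEquiv σ.toRingEquiv, fun x => ?_, fun x => ?_⟩
  · apply RingOfIntegers.coe_injective
    have h3 := trace_eq_sum_automorphisms (K := ℚ) (L := K) (x : K)
    rw [huniv, Finset.sum_pair (Ne.symm hσ1), ← Algebra.coe_trace_int] at h3
    simpa using h3
  · apply RingOfIntegers.coe_injective
    have h3 := Algebra.norm_eq_prod_automorphisms (L := K) ℚ (x : K)
    rw [huniv, Finset.prod_pair (Ne.symm hσ1), ← Algebra.coe_norm_int] at h3
    simpa using h3

/-- **The ring of integers in coordinates**: for `e² - 4c = d` there is `ω ∈ 𝓞_K` such that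
`𝓞_K = ℤ ⊕ ℤ ω` and `N(x + y ω) = x² + e x y + c y²`. -/
theorem exists_omega (h2 : Module.finrank ℚ K = 2) {e c : ℤ} (hec : e ^ 2 - 4 * c = discr K) :
    ∃ ω : 𝓞 K, (∀ x y : ℤ, Algebra.norm ℤ ((x : 𝓞 K) + y * ω) = x ^ 2 + e * x * y + c * y ^ 2) ∧
      Function.Bijective (fun v : ℤ × ℤ => (v.1 : 𝓞 K) + v.2 * ω) := by
  obtain ⟨s, hs1, hs2⟩ := exists_conj' h2
  obtain ⟨δ, hδ, hall, t, β, hβ⟩ := exists_delta h2
  have hd0 : discr K ≠ 0 := discr_ne_zero K
  have h20 : (2 : 𝓞 K) ≠ 0 := two_ne_zero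
  have hδ0 : δ ≠ 0 := by
    rintro rfl
    rw [zero_pow two_ne_zero] at hδ
    exact hd0 (by exact_mod_cast hδ.symm)
  -- `s δ = -δ`
  have hsδ : s δ = -δ := by
    have h3 : (s δ) ^ 2 = δ ^ 2 := by rw [← map_pow, hδ, map_intCast]
    rcases sq_eq_sq_iff_eq_or_eq_neg.mp h3 with h4 | h4
    · exfalso
      -- then `s = id`
      have hsid : ∀ α : 𝓞 K, s α = α := by
        intro α
        obtain ⟨a, b, hab⟩ := hall α
        have h5 := congrArg s hab
        rw [map_mul, map_add, map_mul, map_intCast, map_intCast, h4, map_ofNat, ← hab] at h5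
        exact mul_left_cancel₀ h20 h5
      have h6 := hs2 δ
      rw [hsid, ← sq, hδ] at h6
      have h7 := hs1 1
      -- the trace of every element would be twice it; the discriminant argument: `δ = t/2 …`
      have h8 := hs1 δ
      rw [hsid] at h8
      have h9 : ((Algebra.trace ℤ (𝓞 K) δ : ℤ) : 𝓞 K) = 2 * δ := by rw [h8]; ring
      -- every `α` satisfies `4 α ∈ ℤ`: contradiction with the rank
      have hall' : ∀ α : 𝓞 K, ∃ k : ℤ, 2 * α = (k : 𝓞 K) := by
        intro α
        refine ⟨Algebra.trace ℤ (𝓞 K) α, ?_⟩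
        rw [hs1, hsid]
        ring
      have hrank := (RingOfIntegers.rank K).trans h2
      have hle : Module.finrank ℤ (𝓞 K) ≤ 1 := by
        have hinj : Function.Injective (Algebra.trace ℤ (𝓞 K)) := by
          intro a b hab
          have h10 : ((Algebra.trace ℤ (𝓞 K) a : ℤ) : 𝓞 K) =
              ((Algebra.trace ℤ (𝓞 K) b : ℤ) : 𝓞 K) := by rw [hab]
          rw [hs1, hs1, hsid, hsid, ← two_mul, ← two_mul] at h10
          exact mul_left_cancel₀ h20 h10
        have := LinearMap.finrank_le_finrank_of_injective hinj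
        rwa [Module.finrank_self] at this
      omega
    · exact h4
  -- `ω = (e + δ)/2`
  have hpar : (2 : ℤ) ∣ e - t := by
    have h3 : ((discr K - t ^ 2 : ℤ) : 𝓞 K) = ((4 : ℤ) : 𝓞 K) * (β ^ 2 - t * β) := by
      push_cast
      rw [← hδ, hβ]
      ring
    obtain ⟨q, hq⟩ : (4 : ℤ) ∣ discr K - t ^ 2 := by
      have h4 := hs2 β
      have h5 := hs1 β
      have hsβ : s β = (t : 𝓞 K) - β := by
        have h6 := congrArg s hβ
        rw [hsδ, map_sub, map_mul, map_intCast, map_ofNat, hβ] at h6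
        have h7 : (2 : 𝓞 K) * s β = 2 * ((t : 𝓞 K) - β) := by linear_combination h6
        exact mul_left_cancel₀ h20 h7
      refine ⟨-Algebra.norm ℤ β, ?_⟩
      have h8 : ((discr K - t ^ 2 : ℤ) : 𝓞 K) = ((4 * -Algebra.norm ℤ β : ℤ) : 𝓞 K) := by
        rw [h3]
        push_cast
        rw [h4, hsβ]
        ring
      exact_mod_cast h8
    have h4 : (2 : ℤ) ∣ (e - t) * (e + t) := ⟨2 * c + 2 * q, by linear_combination hec + hq⟩
    rcases Int.prime_two.dvd_or_dvd h4 with h5 | h5
    · exact h5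
    · have h6 : e - t = (e + t) - 2 * t := by ring
      rw [h6]
      exact dvd_sub h5 (Dvd.intro _ rfl)
  obtain ⟨k, hk⟩ := hpar
  have hω2 : 2 * ((k : 𝓞 K) + t - β) = (e : 𝓞 K) + δ := by
    have h3 : (e : 𝓞 K) = 2 * k + t := by
      have : e = 2 * k + t := by omega
      rw [this]
      push_cast
      ring
    rw [h3, hβ]
    ring
  set ω : 𝓞 K := (k : 𝓞 K) + t - β with hω
  have hsω : s ω = (e : 𝓞 K) - ω := by
    have h3 := congrArg s hω2
    rw [map_mul, map_add, map_ofNat, map_intCast, hsδ] at h3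
    refine mul_left_cancel₀ h20 ?_
    linear_combination h3 + hω2
  have hωω : ω * ω = (e : 𝓞 K) * ω - (c : 𝓞 K) := by
    have h3 : ((e : 𝓞 K)) ^ 2 - 4 * c = δ ^ 2 := by
      rw [hδ, ← hec]
      push_cast
      ring
    refine mul_left_cancel₀ (mul_ne_zero h20 h20) ?_
    linear_combination (2 * ω - e + δ) * hω2 - h3
  refine ⟨ω, fun x y => ?_, ?_, ?_⟩
  · have h3 : ((Algebra.norm ℤ ((x : 𝓞 K) + y * ω) : ℤ) : 𝓞 K) =
        ((x ^ 2 + e * x * y + c * y ^ 2 : ℤ) : 𝓞 K) := by
      rw [hs2, map_add, map_mul, map_intCast, map_intCast, hsω]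
      push_cast
      linear_combination (-(y : 𝓞 K) ^ 2) * hωω
    exact_mod_cast h3
  · -- injective
    rintro ⟨x, y⟩ ⟨x', y'⟩ h
    simp only at h
    have h3 := congrArg s h
    rw [map_add, map_add, map_mul, map_mul, map_intCast, map_intCast, map_intCast, map_intCast,
      hsω] at h3
    -- `(y - y') (2 ω - e) = 0`
    have h4 : ((y : 𝓞 K) - y') * δ = 0 := by
      linear_combination h - h3 - ((y : 𝓞 K) - y') * hω2
    have h5 : (y : 𝓞 K) - y' = 0 := (mul_eq_zero.mp h4).resolve_right hδ0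
    have h6 : y = y' := by
      have : (y : 𝓞 K) = y' := sub_eq_zero.mp h5
      exact_mod_cast this
    subst h6
    have h7 : (x : 𝓞 K) = x' := add_right_cancel h
    have h8 : x = x' := by exact_mod_cast h7
    rw [h8]
  · -- surjective
    intro α
    obtain ⟨a, b, hab⟩ := hall α
    have h3 : 2 * (α - b * ω) = ((a - b * e : ℤ) : 𝓞 K) := by
      push_cast
      linear_combination hab - (b : 𝓞 K) * hω2
    have h4 : (2 : ℤ) ∣ a - b * e := by
      have h5 := hs2 (α - b * ω)
      have h6 : s (α - b * ω) = α - b * ω := by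
        have h7 := congrArg s h3
        rw [map_mul, map_ofNat, map_intCast, ← h3] at h7
        exact mul_left_cancel₀ h20 h7
      rw [h6] at h5
      have h7 : (((a - b * e) ^ 2 : ℤ) : 𝓞 K) = ((4 * Algebra.norm ℤ (α - b * ω) : ℤ) : 𝓞 K) := by
        push_cast
        rw [h5]
        push_cast at h3
        rw [← h3]
        ring
      have h8 : (a - b * e) ^ 2 = 4 * Algebra.norm ℤ (α - b * ω) := by exact_mod_cast h7
      exact Int.prime_two.dvd_of_dvd_pow (n := 2) ⟨2 * Algebra.norm ℤ (α - b * ω), by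
        rw [h8]; ring⟩
    obtain ⟨x, hx⟩ := h4
    refine ⟨(x, b), ?_⟩
    simp only
    refine mul_left_cancel₀ h20 ?_
    rw [hx] at h3
    push_cast at h3
    linear_combination -h3

/-- **Representations by the principal form and principal ideals**: `K` imaginary quadratic,
`e² - 4c = d`: `#{(x, y) : x² + exy + cy² = n} = w #{I principal : N(I) = n}`. -/
theorem card_rep_principal (h2 : Module.finrank ℚ K = 2) (hd : discr K < 0) {e c : ℤ}
    (hec : e ^ 2 - 4 * c = discr K) {n : ℕ} (hn : n ≠ 0) :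
    Nat.card {v : ℤ × ℤ // v.1 ^ 2 + e * v.1 * v.2 + c * v.2 ^ 2 = n} =
      torsionOrder K *
        Nat.card {I : Ideal (𝓞 K) // absNorm I = n ∧ Submodule.IsPrincipal I} := by
  obtain ⟨ω, hN, hbij⟩ := exists_omega h2 hec
  rw [← card_norm_eq (rank_eq_zero_of_imag h2 (nrComplexPlaces_ne_zero_of_discr_neg hd)) hn]
  refine Nat.card_congr ((Equiv.ofBijective _ hbij).subtypeEquiv fun v => ?_)
  rw [Equiv.ofBijective_apply, hN]
  have hnn : 0 ≤ v.1 ^ 2 + e * v.1 * v.2 + c * v.2 ^ 2 := by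
    have h3 : 4 * (v.1 ^ 2 + e * v.1 * v.2 + c * v.2 ^ 2) =
        (2 * v.1 + e * v.2) ^ 2 + (-discr K) * v.2 ^ 2 := by
      rw [← hec]
      ring
    have h4 : 0 ≤ (2 * v.1 + e * v.2) ^ 2 + (-discr K) * v.2 ^ 2 :=
      add_nonneg (sq_nonneg _) (mul_nonneg (by omega) (sq_nonneg _))
    omega
  omega

/-- **Dirichlet (1840)**: `K` imaginary quadratic with discriminant `d` and class number one,
`e² - 4c = d`, `n ≥ 1`: `#{(x, y) : x² + exy + cy² = n} = w Σ_{m ∣ n} (d/m)`. -/
theorem card_rep (h2 : Module.finrank ℚ K = 2) (hd : discr K < 0) (h1 : classNumber K = 1)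
    {e c : ℤ} (hec : e ^ 2 - 4 * c = discr K) {n : ℕ} (hn : n ≠ 0) :
    (Nat.card {v : ℤ × ℤ // v.1 ^ 2 + e * v.1 * v.2 + c * v.2 ^ 2 = n} : ℤ) =
      torsionOrder K * ∑ m ∈ n.divisors, kron (discr K) m := by
  rw [card_rep_principal h2 hd hec hn, ← card_absNorm_eq h2 hn]
  have hpid : IsPrincipalIdealRing (𝓞 K) := classNumber_eq_one_iff.mp h1
  have h3 : Nat.card {I : Ideal (𝓞 K) // absNorm I = n ∧ Submodule.IsPrincipal I} =
      Nat.card {I : Ideal (𝓞 K) // absNorm I = n} :=
    Nat.card_congr (Equiv.subtypeEquivRight fun I =>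
      ⟨fun h => h.1, fun h => ⟨h, IsPrincipalIdealRing.principal I⟩⟩)
  rw [h3]
  push_cast
  rfl

end Fermat.Agent.Cor.Diri
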