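import Mathlib

/-!
# The sum over the first half of the residues

For an odd modulus `N = 2 m + 1` and an odd function `f` on `ℤ/N` with `f (2 a) = ε f a`,
`ε² = 1`, put `S = Σ_{0 ≤ a < N} a f(a)` and `T = Σ_{1 ≤ a ≤ m} f(a)`. Then `N T = (ε - 2) S`.
-/

set_option autoImplicit false

open Finset

namespace Fermat.Agent.Cor.Diri

section Split

variable {R : Type*} [AddCommGroup R]

/-- `Σ_{a < 2m+1} g a = g 0 + Σ_{1 ≤ c ≤ m} (g c + g (2m+1-c))`. -/
theorem sum_range_reflect_half (g : ℕ → R) (m : ℕ) :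
    ∑ a ∈ range (2 * m + 1), g a =
      g 0 + ∑ c ∈ range m, (g (c + 1) + g (2 * m + 1 - (c + 1))) := by
  have h1 : 2 * m + 1 = (m + 1) + m := by ring
  have h2 : ∑ a ∈ range (2 * m + 1), g a =
      ∑ a ∈ range (m + 1), g a + ∑ c ∈ range m, g (m + 1 + c) := by
    rw [h1, Finset.sum_range_add]
  have h3 : ∑ c ∈ range m, g (m + 1 + c) = ∑ c ∈ range m, g (2 * m + 1 - (c + 1)) := by
    rw [← Finset.sum_range_reflect (fun c => g (m + 1 + c)) m]
    refine Finset.sum_congr rfl fun c hc => ?_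
    have := Finset.mem_range.mp hc
    congr 1
    omega
  rw [h2, h3, Finset.sum_range_succ', Finset.sum_add_distrib]
  abel

/-- `Σ_{a < 2m+1} g a = g 0 + Σ_{1 ≤ c ≤ m} (g (2c) + g (2m+1-2c))`. -/
theorem sum_range_even_odd (g : ℕ → R) (m : ℕ) :
    ∑ a ∈ range (2 * m + 1), g a =
      g 0 + ∑ c ∈ range m, (g (2 * (c + 1)) + g (2 * m + 1 - 2 * (c + 1))) := by
  have h1 : ∀ m : ℕ, ∑ a ∈ range (2 * m + 1), g a =
      g 0 + ∑ c ∈ range m, g (2 * (c + 1)) + ∑ c ∈ range m, g (2 * c + 1) := by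
    intro m
    induction m with
    | zero => simp
    | succ m ih =>
      rw [show 2 * (m + 1) + 1 = (2 * m + 1) + 1 + 1 by ring, Finset.sum_range_succ,
        Finset.sum_range_succ, ih, Finset.sum_range_succ, Finset.sum_range_succ,
        show 2 * m + 1 + 1 = 2 * (m + 1) by ring]
      abel
  have h3 : ∑ c ∈ range m, g (2 * c + 1) = ∑ c ∈ range m, g (2 * m + 1 - 2 * (c + 1)) := by
    rw [← Finset.sum_range_reflect (fun c => g (2 * c + 1)) m]
    refine Finset.sum_congr rfl fun c hc => ?_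
    have := Finset.mem_range.mp hc
    congr 1
    omega
  rw [h1, h3, Finset.sum_add_distrib, add_assoc]

end Split

section Half

variable {R : Type*} [CommRing R]

/-- **The half sum.** -/
theorem half_sum {N : ℕ} (m : ℕ) (hN : N = 2 * m + 1) (f : ZMod N → R) (ε : R) (hε : ε ^ 2 = 1)
    (hodd : ∀ a, f (-a) = -f a) (h2 : ∀ a, f (2 * a) = ε * f a) :
    (N : R) * ∑ c ∈ range m, f ((c + 1 : ℕ) : ZMod N) =
      (ε - 2) * ∑ a ∈ range N, (a : R) * f (a : ZMod N) := by
  have hcast : ∀ a : ℕ, a ≤ N → ((N - a : ℕ) : ZMod N) = -(a : ZMod N) := by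
    intro a ha
    rw [Nat.cast_sub ha, ZMod.natCast_self, zero_sub]
  have key1 := sum_range_reflect_half (fun a => (a : R) * f (a : ZMod N)) m
  have key2 := sum_range_even_odd (fun a => (a : R) * f (a : ZMod N)) m
  rw [← hN] at key1 key2
  simp only [Nat.cast_zero, zero_mul, zero_add] at key1 key2
  generalize hS : ∑ a ∈ range N, (a : R) * f (a : ZMod N) = S at key1 key2 ⊢
  generalize hT : ∑ c ∈ range m, f ((c + 1 : ℕ) : ZMod N) = T
  have e1 : S = 2 * ∑ c ∈ range m, ((c + 1 : ℕ) : R) * f ((c + 1 : ℕ) : ZMod N) - N * T := by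
    rw [key1, ← hT, Finset.mul_sum, Finset.mul_sum, ← Finset.sum_sub_distrib]
    refine Finset.sum_congr rfl fun c hc => ?_
    have hc' := Finset.mem_range.mp hc
    rw [hcast (c + 1) (by omega), hodd, Nat.cast_sub (by omega : c + 1 ≤ N)]
    ring
  have e2 : S = ε * (4 * ∑ c ∈ range m, ((c + 1 : ℕ) : R) * f ((c + 1 : ℕ) : ZMod N) -
      N * T) := by
    rw [key2, ← hT, Finset.mul_sum, Finset.mul_sum, ← Finset.sum_sub_distrib, Finset.mul_sum]
    refine Finset.sum_congr rfl fun c hc => ?_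
    have hc' := Finset.mem_range.mp hc
    rw [hcast (2 * (c + 1)) (by omega), hodd, Nat.cast_sub (by omega : 2 * (c + 1) ≤ N)]
    have e : ((2 * (c + 1) : ℕ) : ZMod N) = 2 * ((c + 1 : ℕ) : ZMod N) := by push_cast; ring
    have e' : ((2 * (c + 1) : ℕ) : R) = 2 * ((c + 1 : ℕ) : R) := by push_cast; ring
    rw [e, e', h2]
    ring
  generalize ∑ c ∈ range m, ((c + 1 : ℕ) : R) * f ((c + 1 : ℕ) : ZMod N) = A at e1 e2
  have e3 : ε * S = 4 * A - N * T := by
    rw [e2, ← mul_assoc, ← sq, hε, one_mul]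
  linear_combination 2 * e1 - e3

end Half

end Fermat.Agent.Cor.Diri
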