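import Fermat.Agent.Corollaries.Diri.QuadChar
import Fermat.Agent.Corollaries.Diri.LVal

/-!
# Dirichlet's class number formula in finite terms, imaginary quadratic fields

Let `χ` be a primitive quadratic Dirichlet character modulo `N` with `χ(-1) = -1` and
`F = quadF χ` its quadratic field, an imaginary quadratic field with `|d_F| = N`. Then
`h(F) = -(w / 2N) Σ_{0 ≤ a < N} a χ(a)`, `w` the number of roots of unity of `F`.
-/

set_option autoImplicit false

noncomputable section

namespace Fermat.Agent.Cor.Diri

open NumberField NumberField.InfinitePlace DirichletCharacter Fermat.Agent.Cor.Abel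
open NumberField.Units Finset

attribute [local instance] isCyclotomicExtension_field

variable {N : ℕ} [NeZero N] {χ : DirichletCharacter ℂ N} (hp : χ.IsPrimitive) (h1 : χ ≠ 1)
  (h2 : χ ^ 2 = 1)

omit [NeZero N] in
theorem even_one : (1 : DirichletCharacter ℂ N).Even := by
  rw [DirichletCharacter.Even]
  exact MulChar.one_apply isUnit_neg_one

include h1 h2 in
/-- The field of an odd quadratic character has one complex place. -/
theorem nrComplexPlaces_of_odd (ho : χ.Odd) : nrComplexPlaces (quadF χ) = 1 := by
  classical
  rw [← numOdd_eq (n := N) (quadF χ), numOdd, chars_quadF h1 h2]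
  have e : ({1, χ} : Finset (DirichletCharacter ℂ N)).filter (fun ψ => ¬ ψ.Even) = {χ} := by
    ext ψ
    rw [Finset.mem_filter, Finset.mem_insert, Finset.mem_singleton]
    constructor
    · rintro ⟨rfl | rfl, h⟩
      · exact absurd even_one h
      · rfl
    · intro h
      subst h
      exact ⟨Or.inr rfl, ho.not_even⟩
  convert! Finset.card_singleton χ

include h1 h2 in
/-- The field of an even quadratic character is totally real. -/
theorem nrComplexPlaces_of_even (he : χ.Even) : nrComplexPlaces (quadF χ) = 0 := by
  classical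
  rw [← numOdd_eq (n := N) (quadF χ), numOdd, chars_quadF h1 h2]
  have e : ({1, χ} : Finset (DirichletCharacter ℂ N)).filter (fun ψ => ¬ ψ.Even) = ∅ := by
    ext ψ
    rw [Finset.mem_filter, Finset.mem_insert, Finset.mem_singleton]
    constructor
    · rintro ⟨rfl | rfl, h⟩
      · exact absurd even_one h
      · exact absurd he h
    · intro h
      exact absurd h (Finset.notMem_empty _)
  convert! Finset.card_empty

include h1 h2 in
theorem nrRealPlaces_add : nrRealPlaces (quadF χ) + 2 * nrComplexPlaces (quadF χ) = 2 := by
  rw [card_add_two_mul_card_eq_rank, finrank_quadF h1 h2]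

include h1 h2 in
theorem rank_of_odd (ho : χ.Odd) : rank (quadF χ) = 0 := by
  have h3 := nrRealPlaces_add h1 h2
  have h4 := nrComplexPlaces_of_odd h1 h2 ho
  have h5 := card_eq_nrRealPlaces_add_nrComplexPlaces (K := quadF χ)
  rw [rank, h5]
  omega

include hp h1 h2 in
/-- **`L(0, χ) = 2 h / w`** for an odd primitive quadratic character. -/
theorem LFunction_zero_quad (ho : χ.Odd) :
    χ.LFunction 0 = 2 * classNumber (quadF χ) / torsionOrder (quadF χ) := by
  have h3 := zetaK_zero (quadF χ) (rank_of_odd h1 h2 ho)
  rw [zetaK_quadF hp h1 h2 zero_ne_one, riemannZeta_zero] at h3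
  linear_combination (-2) * h3

include hp h1 h2 in
/-- **Dirichlet's class number formula**, imaginary quadratic case:
`2 N h = - w Σ_{0 ≤ a < N} a χ(a)`. -/
theorem class_number_formula_imag (ho : χ.Odd) :
    (2 * N * classNumber (quadF χ) : ℂ) =
      -(torsionOrder (quadF χ) : ℂ) * ∑ a ∈ range N, (a : ℂ) * χ (a : ZMod N) := by
  have hN : (N : ℂ) ≠ 0 := Nat.cast_ne_zero.mpr (NeZero.ne N)
  have hw : (torsionOrder (quadF χ) : ℂ) ≠ 0 := Nat.cast_ne_zero.mpr (torsionOrder_ne_zero _)
  have h3 := LFunction_zero_quad hp h1 h2 ho
  rw [LFunction_zero' h1] at h3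
  field_simp at h3
  linear_combination -h3

end Fermat.Agent.Cor.Diri
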