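import Fermat.Agent.Corollaries.Diri.QuadRing

/-!
# The discriminant of `ℚ(√m)`

`K` quadratic, `α ∈ K` with `α² = m`, `m` a squarefree integer: `d_K = m` for `m ≡ 1 mod 4`, and
`d_K = 4 m` otherwise. Every squarefree `m ≠ 1` occurs.
-/

set_option autoImplicit false

open NumberField Polynomial

universe u

namespace Fermat.Agent.Cor.Diri

section Sq

variable {m : ℤ}

/-- A squarefree integer which is the square of a rational number is `1`. -/
theorem eq_one_of_squarefree (hm : Squarefree m) {q : ℚ} (hq : q ^ 2 = m) : m = 1 := by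
  have h1 : IsIntegral ℤ q := by
    refine IsIntegral.of_pow (n := 2) (by norm_num) ?_
    rw [hq]
    exact isIntegral_algebraMap (R := ℤ) (A := ℚ) (x := m)
  obtain ⟨c, hc⟩ := IsIntegrallyClosed.isIntegral_iff.mp h1
  have h2 : c ^ 2 = m := by
    have h3 : ((c ^ 2 : ℤ) : ℚ) = ((m : ℤ) : ℚ) := by
      rw [← hq, ← hc]
      push_cast
      rfl
    exact_mod_cast h3
  have h3 : IsUnit c := hm c ⟨1, by rw [mul_one, ← h2, sq]⟩
  rcases Int.isUnit_iff.mp h3 with h4 | h4
  · rw [← h2, h4]; norm_num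
  · rw [← h2, h4]; norm_num

end Sq

variable {K : Type u} [Field K] [NumberField K]

/-- **The discriminant of `ℚ(√m)`.** -/
theorem discr_eq_of_sq (h2 : Module.finrank ℚ K = 2) {m : ℤ} (hm : Squarefree m) (hm1 : m ≠ 1)
    {α : K} (hα : α ^ 2 = m) : discr K = if m % 4 = 1 then m else 4 * m := by
  obtain ⟨δ, hδ, hall, -⟩ := exists_delta h2
  have hm0 : m ≠ 0 := hm.ne_zero
  have hαi : IsIntegral ℤ α := by
    refine IsIntegral.of_pow (n := 2) (by norm_num) ?_
    rw [hα]
    exact isIntegral_algebraMap (R := ℤ) (A := K) (x := m)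
  have hirr : ∀ q : ℚ, (q : K) ≠ α := by
    intro q hq
    apply hm1
    refine eq_one_of_squarefree hm (q := q) ?_
    have h3 : ((q ^ 2 : ℚ) : K) = ((m : ℚ) : K) := by
      push_cast
      rw [hq, hα]
    exact_mod_cast h3
  have hδK : (δ : K) ^ 2 = ((discr K : ℤ) : K) := by
    have := congrArg (fun z : 𝓞 K => (z : K)) hδ
    simpa using this
  -- `2 α = b δ`
  obtain ⟨β, hβ⟩ : ∃ β : 𝓞 K, algebraMap (𝓞 K) K β = α := ⟨⟨α, hαi⟩, rfl⟩
  obtain ⟨a, b, hab⟩ := hall β
  have habK : 2 * α = (a : K) + (b : K) * (δ : K) := by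
    have := congrArg (fun z : 𝓞 K => (z : K)) hab
    simp only [map_mul, map_ofNat, map_add, map_intCast] at this
    rw [← this, hβ]
  have ha0 : a = 0 := by
    have h3 : (a : K) * (2 * α) * 2 = ((4 * m + a ^ 2 - b ^ 2 * discr K : ℤ) : K) := by
      push_cast
      rw [← hδK, ← hα]
      have h4 : (b : K) * (δ : K) = 2 * α - a := by rw [habK]; ring
      have h5 : ((b : K) * (δ : K)) ^ 2 = (2 * α - a) ^ 2 := by rw [h4]
      linear_combination h5
    by_contra ha
    refine hirr (((4 * m + a ^ 2 - b ^ 2 * discr K : ℤ) : ℚ) / (4 * a)) ?_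
    have haK : (a : K) ≠ 0 := by exact_mod_cast ha
    push_cast at h3 ⊢
    rw [← h3]
    field_simp
    ring
  rw [ha0, Int.cast_zero, zero_add] at habK
  have hbd : 4 * m = b ^ 2 * discr K := by
    have h3 : ((4 * m : ℤ) : K) = ((b ^ 2 * discr K : ℤ) : K) := by
      push_cast
      rw [← hδK, ← hα]
      have h5 : ((b : K) * (δ : K)) ^ 2 = (2 * α) ^ 2 := by rw [habK]
      linear_combination -h5
    exact_mod_cast h3
  have hb2 : b ^ 2 = 1 ∨ b ^ 2 = 4 := by
    rcases Int.even_or_odd b with ⟨c, hc⟩ | hodd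
    · -- `b = 2 c`, `c² ∣ m`
      have h3 : m = c * c * discr K := by
        rw [hc] at hbd
        have h4 : 4 * m = 4 * (c * c * discr K) := by rw [hbd]; ring
        omega
      have h4 : IsUnit c := hm c ⟨discr K, h3⟩
      right
      rcases Int.isUnit_iff.mp h4 with h5 | h5
      · rw [hc, h5]; norm_num
      · rw [hc, h5]; norm_num
    · -- `b` odd: `b² ∣ m`
      have h3 : IsCoprime (b ^ 2) 4 := by
        have h4 : IsCoprime b 2 := by
          rw [Int.isCoprime_iff_gcd_eq_one, Int.gcd_comm]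
          exact Int.isCoprime_iff_gcd_eq_one.mp (Int.isCoprime_two_left.mpr hodd)
        have h5 := IsCoprime.pow (m := 2) (n := 2) h4
        simpa using h5
      have h4 : b ^ 2 ∣ m := h3.dvd_of_dvd_mul_left ⟨discr K, hbd⟩
      have h5 : IsUnit b := hm b (by rwa [← sq])
      left
      rcases Int.isUnit_iff.mp h5 with h6 | h6
      · rw [h6]; norm_num
      · rw [h6]; norm_num
  have hmod := discr_mod_four h2
  split_ifs with hm4
  · -- `m ≡ 1 mod 4`
    rcases hb2 with h3 | h3
    · exfalso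
      rw [h3, one_mul] at hbd
      -- `(1 + α)/2` is integral
      have hint : IsIntegral ℤ ((1 + α) / 2) := by
        refine ⟨X ^ 2 - X - C ((m - 1) / 4), ?_, ?_⟩
        · monicity!
        · have h5 : (((m - 1) / 4 : ℤ) : K) = (α ^ 2 - 1) / 4 := by
            rw [hα]
            have h6 : ((4 * ((m - 1) / 4) : ℤ) : K) = ((m - 1 : ℤ) : K) := by
              congr 1
              omega
            push_cast at h6
            rw [eq_div_iff (by norm_num), ← h6]
            ring
          rw [eval₂_sub, eval₂_sub, eval₂_X_pow, eval₂_X, eval₂_C]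
          simp only [algebraMap_int_eq, eq_intCast]
          rw [h5]
          ring
      obtain ⟨γ, hγ⟩ : ∃ γ : 𝓞 K, algebraMap (𝓞 K) K γ = (1 + α) / 2 := ⟨⟨(1 + α) / 2, hint⟩, rfl⟩
      obtain ⟨a', b', hab'⟩ := hall γ
      have habK' : 1 + α = (a' : K) + (b' : K) * (δ : K) := by
        have := congrArg (fun z : 𝓞 K => (z : K)) hab'
        simp only [map_mul, map_ofNat, map_add, map_intCast] at this
        rw [← this, hγ]
        ring
      have hbb : (b : K) * b = 1 := by
        have : ((b ^ 2 : ℤ) : K) = ((1 : ℤ) : K) := by rw [h3]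
        push_cast at this
        rw [← this]
        ring
      have h6 : (1 - 2 * (b' * b : ℤ) : K) * α = ((a' - 1 : ℤ) : K) := by
        push_cast
        have h7 : (δ : K) = (b : K) * (2 * α) := by
          rw [habK, ← mul_assoc, hbb, one_mul]
        rw [h7] at habK'
        linear_combination habK'
      have h7 : ((1 - 2 * (b' * b) : ℤ) : K) ≠ 0 := by
        rw [Ne, Int.cast_eq_zero]
        generalize b' * b = t
        omega
      refine hirr (((a' - 1 : ℤ) : ℚ) / ((1 - 2 * (b' * b) : ℤ) : ℚ)) ?_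
      push_cast at h6 h7 ⊢
      rw [← h6]
      exact mul_div_cancel_left₀ α h7
    · rw [h3] at hbd
      omega
  · rcases hb2 with h3 | h3
    · rw [h3] at hbd
      omega
    · exfalso
      rw [h3] at hbd
      have h4 : discr K = m := by omega
      rw [h4] at hmod
      rcases hmod with h5 | h5
      · have h6 : IsUnit (2 : ℤ) := hm 2 (by omega)
        rw [Int.isUnit_iff] at h6
        omega
      · exact hm4 h5

/-- **Every squarefree `m ≠ 1` gives a quadratic field `ℚ(√m)`.** -/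
theorem exists_quadratic_field {m : ℤ} (hm : Squarefree m) (hm1 : m ≠ 1) :
    ∃ (K : Type) (_ : Field K) (_ : NumberField K) (α : K),
      Module.finrank ℚ K = 2 ∧ α ^ 2 = (m : K) ∧ discr K = if m % 4 = 1 then m else 4 * m := by
  have hirr : Irreducible (X ^ 2 - C (m : ℚ) : ℚ[X]) := by
    rw [X_pow_sub_C_irreducible_iff_of_prime Nat.prime_two]
    intro b hb
    exact hm1 (eq_one_of_squarefree hm hb)
  have hF : Fact (Irreducible (X ^ 2 - C (m : ℚ) : ℚ[X])) := ⟨hirr⟩
  have hne : (X ^ 2 - C (m : ℚ) : ℚ[X]) ≠ 0 := hirr.ne_zero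
  have hfin : Module.Finite ℚ (AdjoinRoot (X ^ 2 - C (m : ℚ) : ℚ[X])) :=
    (AdjoinRoot.powerBasis hne).finite
  have hNF : NumberField (AdjoinRoot (X ^ 2 - C (m : ℚ) : ℚ[X])) :=
    { to_charZero := charZero_of_injective_algebraMap
        (algebraMap ℚ (AdjoinRoot (X ^ 2 - C (m : ℚ) : ℚ[X]))).injective
      to_finiteDimensional := hfin }
  have h2 : Module.finrank ℚ (AdjoinRoot (X ^ 2 - C (m : ℚ) : ℚ[X])) = 2 := by
    rw [(AdjoinRoot.powerBasis hne).finrank, AdjoinRoot.powerBasis_dim,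
      natDegree_X_pow_sub_C]
  have hroot : (AdjoinRoot.root (X ^ 2 - C (m : ℚ) : ℚ[X])) ^ 2 =
      ((m : ℤ) : AdjoinRoot (X ^ 2 - C (m : ℚ) : ℚ[X])) := by
    have h3 := AdjoinRoot.eval₂_root (X ^ 2 - C (m : ℚ) : ℚ[X])
    rw [eval₂_sub, eval₂_X_pow, eval₂_C, sub_eq_zero] at h3
    exact h3.trans (map_intCast (AdjoinRoot.of (X ^ 2 - C (m : ℚ) : ℚ[X])) m)
  exact ⟨_, inferInstance, hNF, _, h2, hroot, discr_eq_of_sq h2 hm hm1 hroot⟩

end Fermat.Agent.Cor.Diri
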