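import Fermat.Agent.Corollaries.Diri.HalfAll
import Fermat.Agent.Corollaries.Diri.QuadDisc

/-!
# The class number of `ℚ(√-p)`, `p ≡ 1 mod 4`, and the first quarter of the residues

`h(-4p) = 2 Σ_{0 < a < p/4} (a/p)` (Dirichlet 1839); more quadratic residues than non-residues
between `0` and `p/4`; `h(-4p) ≡ 2 mod 4` if and only if `p ≡ 5 mod 8`.
-/

set_option autoImplicit false

open Finset NumberField

universe u

namespace Fermat.Agent.Cor.Diri

theorem sum_range_four {R : Type*} [AddCommGroup R] (f : ℕ → R) (m : ℕ) :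
    ∑ a ∈ range (4 * m), f a =
      ∑ k ∈ range m, (f (4 * k) + f (4 * k + 1) + f (4 * k + 2) + f (4 * k + 3)) := by
  induction m with
  | zero => simp
  | succ m ih =>
    rw [show 4 * (m + 1) = 4 * m + 1 + 1 + 1 + 1 by ring, Finset.sum_range_succ,
      Finset.sum_range_succ, Finset.sum_range_succ, Finset.sum_range_succ, ih,
      Finset.sum_range_succ]
    abel

variable {p : ℕ} [hp : Fact p.Prime]

theorem sum_legendre (hp2 : p ≠ 2) : ∑ a ∈ range p, legendreSym p ((a : ℕ) : ℤ) = 0 := by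
  have h1 : ∑ x : ZMod p, quadraticChar (ZMod p) x = 0 :=
    quadraticChar_sum_zero (by rwa [ZMod.ringChar_zmod_n])
  rw [sum_zmod_eq] at h1
  rw [← h1]
  refine Finset.sum_congr rfl fun a _ => ?_
  rw [legendreSym, Int.cast_natCast]

theorem legendre_neg (h : p % 4 = 1) (a : ℤ) : legendreSym p (-a) = legendreSym p a := by
  rw [← neg_one_mul, legendreSym.mul, legendreSym.at_neg_one (by omega),
    ZMod.χ₄_nat_one_mod_four h, one_mul]

theorem legendre_four_mul (hp2 : p ≠ 2) (a : ℤ) : legendreSym p (4 * a) = legendreSym p a := by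
  rw [legendreSym.mul]
  have h1 : legendreSym p 4 = 1 := by
    have h2 := legendreSym.sq_one' p (a := 2) (by
      intro h
      have h4 : ((2 : ℕ) : ZMod p) = 0 := by exact_mod_cast h
      rw [ZMod.natCast_eq_zero_iff] at h4
      have := Nat.le_of_dvd (by norm_num) h4
      have := hp.out.two_le
      omega)
    norm_num at h2
    exact h2
  rw [h1, one_mul]

theorem legendre_congr {a b : ℤ} (h : (p : ℤ) ∣ a - b) : legendreSym p a = legendreSym p b := by
  rw [legendreSym, legendreSym]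
  congr 1
  rw [← sub_eq_zero, ← Int.cast_sub, ZMod.intCast_zmod_eq_zero_iff_dvd]
  exact h

/-- `(-4p / a)` for odd `a`. -/
theorem kron_neg_four_mul (h : p % 4 = 1) {a : ℕ} (ha : Odd a) :
    kron (-(4 * p)) a = ZMod.χ₄ a * legendreSym p a := by
  rw [kron_odd _ ha, jacobiSym.neg _ ha, jacobiSym.mul_left]
  have h1 : jacobiSym 4 a = 1 := by
    have h2 := jacobiSym.sq_one' (a := 2) (b := a) (by
      rw [Int.gcd_comm]
      have : Nat.Coprime a 2 := Nat.coprime_two_right.mpr ha
      exact_mod_cast this)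
    norm_num at h2
    exact h2
  rw [h1, one_mul, jacobiSym.quadratic_reciprocity_one_mod_four h ha,
    jacobiSym.legendreSym.to_jacobiSym]

theorem kron_even {d : ℤ} (hd : d % 2 = 0) {a : ℕ} (ha0 : a ≠ 0) (ha : a % 2 = 0) :
    kron d a = 0 := by
  have h1 : a.factorization 2 ≠ 0 := by
    rw [Ne, Nat.factorization_eq_zero_iff]
    push Not
    exact ⟨Nat.prime_two, by omega, ha0⟩
  have h2 : ZMod.χ₈ (d : ZMod 8) = 0 := by
    obtain ⟨k, hk⟩ : ∃ k : ℤ, d = 2 * k := ⟨d / 2, by omega⟩
    rw [hk]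
    push_cast
    exact (by decide : ∀ x : ZMod 8, ZMod.χ₈ (2 * x) = 0) _
  rw [kron, h2, zero_pow h1, zero_mul]

/-- The combinatorial part: `Σ_{0 < a ≤ 2p} (-4p/a) = 4 Σ_{0 < a < p/4} (a/p)`. -/
theorem sum_kron_neg_four_mul (h : p % 4 = 1) :
    ∑ a ∈ (range (2 * p + 1)).erase 0, kron (-(4 * p)) a =
      4 * ∑ a ∈ range ((p - 1) / 4), legendreSym p ((a + 1 : ℕ) : ℤ) := by
  obtain ⟨n, hn⟩ : ∃ n, (p - 1) / 4 = n := ⟨_, rfl⟩
  have hpn : p = 4 * n + 1 := by
    have := hp.out.pos
    omega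
  have hp2 : p ≠ 2 := by omega
  rw [hn]
  set f : ℕ → ℤ := fun a => if a = 0 then 0 else kron (-(4 * p)) a with hf
  set T : ℤ := ∑ a ∈ range n, legendreSym p ((a + 1 : ℕ) : ℤ) with hT
  have hfe : ∀ a, a % 2 = 0 → f a = 0 := by
    intro a ha
    rw [hf]
    simp only
    split_ifs with h0
    · rfl
    · exact kron_even (by omega) h0 ha
  have e0 : ∑ a ∈ (range (2 * p + 1)).erase 0, kron (-(4 * p)) a =
      ∑ a ∈ range (2 * p + 1), f a := by
    rw [← Finset.sum_erase (s := range (2 * p + 1)) (f := f) (a := 0) (hfe 0 rfl)]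
    refine Finset.sum_congr rfl fun a ha => ?_
    rw [hf]
    simp only
    rw [if_neg (Finset.ne_of_mem_erase ha)]
  -- the terms
  have g1 : ∀ k, f (4 * k + 1) = legendreSym p ((k : ℤ) - n) := by
    intro k
    have h1 : f (4 * k + 1) = kron (-(4 * p)) (4 * k + 1) := by
      rw [hf]
      simp only
      rw [if_neg (by omega)]
    rw [h1, kron_neg_four_mul h (by rw [Nat.odd_iff]; omega),
      ZMod.χ₄_nat_one_mod_four (by omega), one_mul, ← legendre_four_mul hp2 ((k : ℤ) - n)]
    refine legendre_congr ?_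
    refine ⟨1, ?_⟩
    rw [hpn]
    push_cast
    ring
  have g3 : ∀ k, f (4 * k + 3) = -legendreSym p ((n + k + 1 : ℕ) : ℤ) := by
    intro k
    have h1 : f (4 * k + 3) = kron (-(4 * p)) (4 * k + 3) := by
      rw [hf]
      simp only
      rw [if_neg (by omega)]
    rw [h1, kron_neg_four_mul h (by rw [Nat.odd_iff]; omega),
      ZMod.χ₄_nat_three_mod_four (by omega), neg_one_mul,
      ← legendre_four_mul hp2 ((n + k + 1 : ℕ) : ℤ)]
    congr 1
    refine legendre_congr ?_
    refine ⟨-1, ?_⟩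
    rw [hpn]
    push_cast
    ring
  -- the sum
  have e1 : ∑ a ∈ range (2 * p + 1), f a =
      ∑ k ∈ range (2 * n + 1), f (4 * k + 1) + ∑ k ∈ range (2 * n), f (4 * k + 3) := by
    rw [show 2 * p + 1 = 4 * (2 * n) + 1 + 1 + 1 by omega, Finset.sum_range_succ,
      Finset.sum_range_succ, Finset.sum_range_succ, sum_range_four,
      hfe (4 * (2 * n)) (by omega), hfe (4 * (2 * n) + 1 + 1) (by omega), add_zero, add_zero,
      Finset.sum_range_succ (fun k => f (4 * k + 1))]
    have h1 : ∀ k ∈ range (2 * n), f (4 * k) + f (4 * k + 1) + f (4 * k + 2) + f (4 * k + 3) =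
        f (4 * k + 1) + f (4 * k + 3) := by
      intro k _
      rw [hfe (4 * k) (by omega), hfe (4 * k + 2) (by omega)]
      ring
    rw [Finset.sum_congr rfl h1, Finset.sum_add_distrib]
    ring
  have e2 : ∑ k ∈ range (2 * n + 1), f (4 * k + 1) = 2 * T := by
    rw [Finset.sum_congr rfl fun k _ => g1 k, show 2 * n + 1 = n + (n + 1) by ring,
      Finset.sum_range_add, Finset.sum_range_succ']
    have h1 : ∑ k ∈ range n, legendreSym p ((k : ℤ) - n) = T := by
      rw [hT, ← Finset.sum_range_reflect]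
      refine Finset.sum_congr rfl fun k hk => ?_
      have hk' := Finset.mem_range.mp hk
      rw [← legendre_neg h]
      congr 1
      have : ((n - 1 - k : ℕ) : ℤ) = (n : ℤ) - 1 - k := by omega
      rw [this]
      push_cast
      ring
    have h2 : ∑ k ∈ range n, legendreSym p (((n + (k + 1) : ℕ) : ℤ) - n) = T := by
      rw [hT]
      refine Finset.sum_congr rfl fun k _ => ?_
      congr 1
      push_cast
      ring
    have h3 : legendreSym p (((n + 0 : ℕ) : ℤ) - n) = 0 := by
      rw [add_zero, sub_self]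
      exact legendreSym.at_zero p
    rw [h1, h2, h3]
    ring
  have e3 : ∑ k ∈ range (2 * n), f (4 * k + 3) = 2 * T := by
    rw [Finset.sum_congr rfl fun k _ => g3 k, Finset.sum_neg_distrib]
    have h1 := sum_legendre (p := p) hp2
    rw [show range p = range (4 * n + 1) by rw [← hpn], Finset.sum_range_succ',
      show 4 * n = n + (2 * n + n) by ring, Finset.sum_range_add, Finset.sum_range_add] at h1
    have h2 : legendreSym p ((0 : ℕ) : ℤ) = 0 := legendreSym.at_zero p
    have h3 : ∑ k ∈ range n, legendreSym p ((n + (2 * n + k) + 1 : ℕ) : ℤ) = T := by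
      rw [hT, ← Finset.sum_range_reflect]
      refine Finset.sum_congr rfl fun k hk => ?_
      have hk' := Finset.mem_range.mp hk
      rw [← legendre_neg h ((k + 1 : ℕ) : ℤ)]
      refine legendre_congr ?_
      have h4 : ((n + (2 * n + (n - 1 - k)) + 1 : ℕ) : ℤ) = (4 * n : ℤ) - k := by omega
      rw [h4]
      refine ⟨1, ?_⟩
      rw [hpn]
      push_cast
      ring
    rw [h2, h3, add_zero] at h1
    linarith
  rw [e0, e1, e2, e3]
  ring

variable {K : Type u} [Field K] [NumberField K]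

/-- **Dirichlet (1839)**: `K` quadratic with discriminant `-4p`, `p ≡ 1 mod 4` prime:
`h = 2 Σ_{0 < a < p/4} (a/p)`. -/
theorem classNumber_quarter (h2 : Module.finrank ℚ K = 2) (h : p % 4 = 1)
    (hd : discr K = -(4 * p)) :
    (classNumber K : ℤ) = 2 * ∑ a ∈ range ((p - 1) / 4), legendreSym p ((a + 1 : ℕ) : ℤ) := by
  have hp5 : 5 ≤ p := by
    have := hp.out.two_le
    omega
  have h3 := classNumber_half h2 (by rw [hd]; omega)
  have h4 : ZMod.χ₈ ((discr K : ℤ) : ZMod 8) = 0 := by
    rw [hd]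
    push_cast
    exact (by decide : ∀ x : ZMod 8, ZMod.χ₈ (-(4 * x)) = 0) _
  have h5 : (discr K).natAbs / 2 + 1 = 2 * p + 1 := by
    rw [hd]
    omega
  rw [h4, h5, hd, sum_kron_neg_four_mul h] at h3
  linarith

/-- `K = ℚ(√-p)`. -/
theorem classNumber_sqrt_neg (h2 : Module.finrank ℚ K = 2) (h : p % 4 = 1) {α : K}
    (hα : α ^ 2 = -(p : K)) :
    (classNumber K : ℤ) = 2 * ∑ a ∈ range ((p - 1) / 4), legendreSym p ((a + 1 : ℕ) : ℤ) := by
  refine classNumber_quarter h2 h ?_
  have hpi : Prime (p : ℤ) := Nat.prime_iff_prime_int.mp hp.out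
  have h3 := discr_eq_of_sq h2 (m := -(p : ℤ)) (hpi.neg.squarefree) (by
    have := hp.out.pos
    omega) (α := α) (by rw [hα]; push_cast; ring)
  rw [if_neg (by omega)] at h3
  rw [h3]
  ring

/-- **More quadratic residues than non-residues between `0` and `p/4`**, `p ≡ 1 mod 4`. -/
theorem sum_quarter_pos (h : p % 4 = 1) :
    0 < ∑ a ∈ range ((p - 1) / 4), legendreSym p ((a + 1 : ℕ) : ℤ) := by
  have hpi : Prime (p : ℤ) := Nat.prime_iff_prime_int.mp hp.out
  obtain ⟨K, _, _, α, h2, hα, -⟩ := exists_quadratic_field (m := -(p : ℤ)) (hpi.neg.squarefree) (by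
    have := hp.out.pos
    omega)
  have h3 := classNumber_sqrt_neg h2 h (α := α) (by rw [hα]; push_cast; ring)
  have h4 : 0 < (classNumber K : ℤ) := by exact_mod_cast classNumber_pos K
  linarith

/-- The parity of half the class number of `ℚ(√-p)`, `p ≡ 1 mod 4`. -/
theorem classNumber_mod_four (h2 : Module.finrank ℚ K = 2) (h : p % 4 = 1)
    (hd : discr K = -(4 * p)) : classNumber K % 4 = 2 ↔ p % 8 = 5 := by
  have h3 := classNumber_quarter h2 h hd
  have h4 : (∑ a ∈ range ((p - 1) / 4), legendreSym p ((a + 1 : ℕ) : ℤ)) % 2 =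
      (((p - 1) / 4 : ℕ) : ℤ) % 2 := by
    rw [Finset.sum_int_mod]
    have h5 : ∀ a ∈ range ((p - 1) / 4), legendreSym p ((a + 1 : ℕ) : ℤ) % 2 = 1 := by
      intro a ha
      have ha' := Finset.mem_range.mp ha
      have h6 : (((a + 1 : ℕ) : ℤ) : ZMod p) ≠ 0 := by
        rw [Int.cast_natCast, Ne, ZMod.natCast_eq_zero_iff]
        intro h7
        have := Nat.le_of_dvd (by omega) h7
        omega
      rcases legendreSym.eq_one_or_neg_one p h6 with h7 | h7 <;> rw [h7] <;> norm_num
    rw [Finset.sum_congr rfl h5, Finset.sum_const, Finset.card_range]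
    simp
  have := hp.out.pos
  omega

end Fermat.Agent.Cor.Diri
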