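import Fermat.Agent.Corollaries.Diri.Reps
import Fermat.Agent.Corollaries.Diri.Quarter

/-!
# The nine discriminants of class number one

The class number is one for `d = -3, -4, -7, -8, -11, -19, -43, -67, -163`, by Dirichlet's formula,
and the number of representations of `n` by `x² + exy + cy²`, `e² - 4c = d`, is `w Σ_{m ∣ n} (d/m)`.
-/

set_option autoImplicit false

open Finset NumberField NumberField.Units

universe u

namespace Fermat.Agent.Cor.Diri

variable {K : Type u} [Field K] [NumberField K]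

/-- The number of roots of unity of a quadratic field is `2`, `4` or `6`. -/
theorem torsionOrder_cases (h2 : Module.finrank ℚ K = 2) :
    torsionOrder K = 2 ∨ torsionOrder K = 4 ∨ torsionOrder K = 6 := by
  obtain ⟨ζ, hζ⟩ := exists_primitiveRoot_torsion K
  have h3 : (torsionOrder K).totient ≤ 2 := by
    have h4 := minpoly.natDegree_le (A := ℚ) ζ
    rwa [← Polynomial.cyclotomic_eq_minpoly_rat hζ (torsionOrder_pos K),
      Polynomial.natDegree_cyclotomic, h2] at h4
  obtain ⟨k, hk⟩ := even_torsionOrder K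
  rcases totient_le_two (torsionOrder_ne_zero K) h3 with h | h | h | h | h <;> omega

theorem class_three (h2 : Module.finrank ℚ K = 2) (hd : discr K = -3) :
    classNumber K = 1 ∧ torsionOrder K = 6 := by
  have h3 := class_number_kron h2 (by rw [hd]; norm_num)
  have h4 : kron (-3) 1 = 1 := by rw [kron_odd _ (by decide), jacobiSym.one_right]
  have h5 : kron (-3) 2 = -1 := by rw [kron_two]; decide
  rw [hd, show (-3 : ℤ).natAbs = 3 by decide, Finset.sum_range_succ, Finset.sum_range_succ,
    Finset.sum_range_succ, Finset.sum_range_zero, h4, h5] at h3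
  rcases torsionOrder_cases h2 with h | h | h <;> rw [h] at h3 ⊢ <;> norm_num at h3 ⊢ <;> omega

theorem class_four (h2 : Module.finrank ℚ K = 2) (hd : discr K = -4) :
    classNumber K = 1 ∧ torsionOrder K = 4 := by
  have h3 := class_number_kron h2 (by rw [hd]; norm_num)
  have h4 : kron (-4) 1 = 1 := by rw [kron_odd _ (by decide), jacobiSym.one_right]
  have h5 : kron (-4) 2 = 0 := kron_even (by norm_num) (by norm_num) (by norm_num)
  have h6 : kron (-4) 3 = -1 := by rw [kron_odd _ (by decide)]; norm_num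
  rw [hd, show (-4 : ℤ).natAbs = 4 by decide, Finset.sum_range_succ, Finset.sum_range_succ,
    Finset.sum_range_succ, Finset.sum_range_succ, Finset.sum_range_zero, h4, h5, h6] at h3
  rcases torsionOrder_cases h2 with h | h | h <;> rw [h] at h3 ⊢ <;> norm_num at h3 ⊢ <;> omega

theorem class_eight (h2 : Module.finrank ℚ K = 2) (hd : discr K = -8) :
    classNumber K = 1 ∧ torsionOrder K = 2 := by
  have hw := torsionOrder_eq_two h2 (by rw [hd]; decide)
  refine ⟨?_, hw⟩
  have h3 := natAbs_mul_classNumber h2 (by rw [hd]; norm_num)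
  have k1 : kron (-8) 1 = 1 := by rw [kron_odd _ (by decide), jacobiSym.one_right]
  have k2 : kron (-8) 2 = 0 := kron_even (by norm_num) (by norm_num) (by norm_num)
  have k3 : kron (-8) 3 = 1 := by rw [kron_odd _ (by decide)]; norm_num
  have k4 : kron (-8) 4 = 0 := kron_even (by norm_num) (by norm_num) (by norm_num)
  have k5 : kron (-8) 5 = -1 := by rw [kron_odd _ (by decide)]; norm_num
  have k6 : kron (-8) 6 = 0 := kron_even (by norm_num) (by norm_num) (by norm_num)
  have k7 : kron (-8) 7 = -1 := by rw [kron_odd _ (by decide)]; norm_num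
  rw [hd, show (-8 : ℤ).natAbs = 8 by decide] at h3
  simp only [Finset.sum_range_succ, Finset.sum_range_zero, k1, k2, k3, k4, k5, k6, k7] at h3
  norm_num at h3
  omega

theorem class_seven (h2 : Module.finrank ℚ K = 2) (hd : discr K = -7) :
    classNumber K = 1 ∧ torsionOrder K = 2 := by
  have hw := torsionOrder_eq_two h2 (by rw [hd]; decide)
  have hF : Fact (Nat.Prime 7) := ⟨by norm_num⟩
  have h3 := classNumber_seven (p := 7) h2 (by rw [hd]; rfl) (by norm_num)
  refine ⟨?_, hw⟩
  simp only [Finset.sum_range_succ, Finset.sum_range_zero, show (7 - 1) / 2 = 3 by norm_num] at h3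
  norm_num at h3
  omega

theorem class_of_three_mod_eight {p : ℕ} [hp : Fact p.Prime] (h2 : Module.finrank ℚ K = 2)
    (hd : discr K = -p) (h8 : p % 8 = 3) (h3 : 3 < p)
    (hs : ∑ a ∈ range ((p - 1) / 2), legendreSym p ((a + 1 : ℕ) : ℤ) = 3) :
    classNumber K = 1 ∧ torsionOrder K = 2 := by
  have hw := torsionOrder_eq_two h2 (by rw [hd]; omega)
  have h4 := classNumber_three (p := p) h2 (by rw [hd]; simp) h8 h3
  refine ⟨?_, hw⟩
  omega

theorem class_eleven (h2 : Module.finrank ℚ K = 2) (hd : discr K = -11) :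
    classNumber K = 1 ∧ torsionOrder K = 2 := by
  have hF : Fact (Nat.Prime 11) := ⟨by norm_num⟩
  refine class_of_three_mod_eight (p := 11) h2 hd (by norm_num) (by norm_num) ?_
  simp only [Finset.sum_range_succ, Finset.sum_range_zero, show (11 - 1) / 2 = 5 by norm_num]
  norm_num

theorem class_nineteen (h2 : Module.finrank ℚ K = 2) (hd : discr K = -19) :
    classNumber K = 1 ∧ torsionOrder K = 2 := by
  have hF : Fact (Nat.Prime 19) := ⟨by norm_num⟩
  refine class_of_three_mod_eight (p := 19) h2 hd (by norm_num) (by norm_num) ?_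
  simp only [Finset.sum_range_succ, Finset.sum_range_zero, show (19 - 1) / 2 = 9 by norm_num]
  norm_num

theorem class_fortythree (h2 : Module.finrank ℚ K = 2) (hd : discr K = -43) :
    classNumber K = 1 ∧ torsionOrder K = 2 := by
  have hF : Fact (Nat.Prime 43) := ⟨by norm_num⟩
  refine class_of_three_mod_eight (p := 43) h2 hd (by norm_num) (by norm_num) ?_
  simp only [Finset.sum_range_succ, Finset.sum_range_zero, show (43 - 1) / 2 = 21 by norm_num]
  norm_num

theorem class_sixtyseven (h2 : Module.finrank ℚ K = 2) (hd : discr K = -67) :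
    classNumber K = 1 ∧ torsionOrder K = 2 := by
  have hF : Fact (Nat.Prime 67) := ⟨by norm_num⟩
  refine class_of_three_mod_eight (p := 67) h2 hd (by norm_num) (by norm_num) ?_
  simp only [Finset.sum_range_succ, Finset.sum_range_zero, show (67 - 1) / 2 = 33 by norm_num]
  norm_num

theorem class_hundredsixtythree (h2 : Module.finrank ℚ K = 2) (hd : discr K = -163) :
    classNumber K = 1 ∧ torsionOrder K = 2 := by
  have hF : Fact (Nat.Prime 163) := ⟨by norm_num⟩
  refine class_of_three_mod_eight (p := 163) h2 hd (by norm_num) (by norm_num) ?_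
  simp only [Finset.sum_range_succ, Finset.sum_range_zero, show (163 - 1) / 2 = 81 by norm_num]
  norm_num

/-- The nine discriminants. -/
def nineD : Finset ℤ := {-3, -4, -7, -8, -11, -19, -43, -67, -163}

/-- The number of roots of unity. -/
def wD (d : ℤ) : ℤ := if d = -3 then 6 else if d = -4 then 4 else 2

/-- **The nine discriminants of class number one** (Gauss). -/
theorem classNumber_nine (h2 : Module.finrank ℚ K = 2) (hd : discr K ∈ nineD) :
    classNumber K = 1 ∧ (torsionOrder K : ℤ) = wD (discr K) := by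
  simp only [nineD, Finset.mem_insert, Finset.mem_singleton] at hd
  rcases hd with h | h | h | h | h | h | h | h | h
  · obtain ⟨a, b⟩ := class_three h2 h
    exact ⟨a, by rw [b, h]; rfl⟩
  · obtain ⟨a, b⟩ := class_four h2 h
    exact ⟨a, by rw [b, h]; rfl⟩
  · obtain ⟨a, b⟩ := class_seven h2 h
    exact ⟨a, by rw [b, h]; rfl⟩
  · obtain ⟨a, b⟩ := class_eight h2 h
    exact ⟨a, by rw [b, h]; rfl⟩
  · obtain ⟨a, b⟩ := class_eleven h2 h
    exact ⟨a, by rw [b, h]; rfl⟩
  · obtain ⟨a, b⟩ := class_nineteen h2 h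
    exact ⟨a, by rw [b, h]; rfl⟩
  · obtain ⟨a, b⟩ := class_fortythree h2 h
    exact ⟨a, by rw [b, h]; rfl⟩
  · obtain ⟨a, b⟩ := class_sixtyseven h2 h
    exact ⟨a, by rw [b, h]; rfl⟩
  · obtain ⟨a, b⟩ := class_hundredsixtythree h2 h
    exact ⟨a, by rw [b, h]; rfl⟩

/-- The nine fields exist. -/
theorem exists_field_nine {d : ℤ} (hd : d ∈ nineD) :
    ∃ (K : Type) (_ : Field K) (_ : NumberField K), Module.finrank ℚ K = 2 ∧ discr K = d := by
  have key : ∀ m : ℤ, Squarefree m → m ≠ 1 → (if m % 4 = 1 then m else 4 * m) = d →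
      ∃ (K : Type) (_ : Field K) (_ : NumberField K), Module.finrank ℚ K = 2 ∧ discr K = d := by
    intro m hm hm1 h
    obtain ⟨K, i1, i2, α, h2, -, h3⟩ := exists_quadratic_field hm hm1
    exact ⟨K, i1, i2, h2, h3.trans h⟩
  have hsq : ∀ p : ℕ, p.Prime → Squarefree (-(p : ℤ)) := fun p hp =>
    ((Nat.prime_iff_prime_int.mp hp).neg).squarefree
  simp only [nineD, Finset.mem_insert, Finset.mem_singleton] at hd
  rcases hd with h | h | h | h | h | h | h | h | h
  · exact key (-3) (hsq 3 (by norm_num)) (by norm_num) (by rw [h]; norm_num)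
  · exact key (-1) (isUnit_one.neg.squarefree) (by norm_num) (by rw [h]; norm_num)
  · exact key (-7) (hsq 7 (by norm_num)) (by norm_num) (by rw [h]; norm_num)
  · exact key (-2) (hsq 2 (by norm_num)) (by norm_num) (by rw [h]; norm_num)
  · exact key (-11) (hsq 11 (by norm_num)) (by norm_num) (by rw [h]; norm_num)
  · exact key (-19) (hsq 19 (by norm_num)) (by norm_num) (by rw [h]; norm_num)
  · exact key (-43) (hsq 43 (by norm_num)) (by norm_num) (by rw [h]; norm_num)
  · exact key (-67) (hsq 67 (by norm_num)) (by norm_num) (by rw [h]; norm_num)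
  · exact key (-163) (hsq 163 (by norm_num)) (by norm_num) (by rw [h]; norm_num)

/-- **Representation numbers of the nine forms of class number one**: for `n ≥ 1` and
`e² - 4c = d ∈ {-3, -4, -7, -8, -11, -19, -43, -67, -163}`
`#{(x, y) : x² + exy + cy² = n} = w Σ_{m ∣ n} (d/m)`. -/
theorem card_rep_nine {d : ℤ} (hd : d ∈ nineD) {e c : ℤ} (hec : e ^ 2 - 4 * c = d) {n : ℕ}
    (hn : n ≠ 0) :
    (Nat.card {v : ℤ × ℤ // v.1 ^ 2 + e * v.1 * v.2 + c * v.2 ^ 2 = n} : ℤ) =
      wD d * ∑ m ∈ n.divisors, kron d m := by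
  obtain ⟨K, _, _, h2, h3⟩ := exists_field_nine hd
  obtain ⟨h4, h5⟩ := classNumber_nine (K := K) h2 (h3 ▸ hd)
  have hneg : discr K < 0 := by
    rw [h3]
    simp only [nineD, Finset.mem_insert, Finset.mem_singleton] at hd
    omega
  rw [card_rep (K := K) h2 hneg h4 (hec.trans h3.symm) hn, h5, h3]

/-- **Jacobi's theorem on sums of two squares**: `r₂(n) = 4 Σ_{m ∣ n, m odd} (-1)^((m-1)/2)`. -/
theorem card_two_squares {n : ℕ} (hn : n ≠ 0) :
    (Nat.card {v : ℤ × ℤ // v.1 ^ 2 + v.2 ^ 2 = n} : ℤ) = 4 * ∑ m ∈ n.divisors, ZMod.χ₄ m := by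
  have h1 := card_rep_nine (d := -4) (by decide) (e := 0) (c := 1) (by norm_num) hn
  have h2 : Nat.card {v : ℤ × ℤ // v.1 ^ 2 + 0 * v.1 * v.2 + 1 * v.2 ^ 2 = n} =
      Nat.card {v : ℤ × ℤ // v.1 ^ 2 + v.2 ^ 2 = n} :=
    Nat.card_congr (Equiv.subtypeEquivRight fun v => by
      rw [zero_mul, zero_mul, add_zero, one_mul])
  rw [h2] at h1
  rw [h1, show wD (-4) = 4 by rfl]
  congr 1
  refine Finset.sum_congr rfl fun m hm => ?_
  have hm0 : m ≠ 0 := (Nat.pos_of_mem_divisors hm).ne'
  rcases Nat.even_or_odd m with he | ho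
  · rw [kron_even (by norm_num) hm0 (Nat.even_iff.mp he), ZMod.χ₄_nat_eq_if_mod_four,
      if_pos (Nat.even_iff.mp he)]
  · rw [kron_odd _ ho, jacobiSym.neg _ ho, show (4 : ℤ) = 2 ^ 2 by norm_num,
      jacobiSym.sq_one', mul_one]
    rw [Int.gcd_comm]
    have : Nat.Coprime m 2 := Nat.coprime_two_right.mpr ho
    exact_mod_cast this

end Fermat.Agent.Cor.Diri
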