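import Fermat.Agent.Corollaries.Diri.Kron

/-!
# The decomposition of primes and the number of ideals of given norm in a quadratic field

`K` quadratic with discriminant `d`: a prime `p` splits, is inert or ramifies according to
`(d/p) = 1, -1, 0`, and `#{I : N(I) = n} = Σ_{m ∣ n} (d/m)`.
-/

set_option autoImplicit false

open Finset NumberField NumberField.Units NumberField.InfinitePlace Ideal DirichletCharacter
open Fermat.Agent.Cor.ZetaK

universe u

namespace Fermat.Agent.Cor.Diri

variable {K : Type u} [Field K] [NumberField K]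

theorem kron_eq_or {K : Type u} [Field K] [NumberField K] (h2 : Module.finrank ℚ K = 2) {a : ℕ}
    (ha : a ≠ 0) : (kron (discr K) a = 0 ↔ ¬ a.Coprime (discr K).natAbs) ∧
      (kron (discr K) a = 0 ∨ kron (discr K) a = 1 ∨ kron (discr K) a = -1) := by
  obtain ⟨N, hN, χ, hNd, -, -, hsq, -, -, -, hk⟩ := exists_kronecker_character h2
  have h3 := hk a ha
  by_cases hu : IsUnit (a : ZMod N)
  · have hu' := hu
    rw [ZMod.isUnit_iff_coprime, hNd] at hu'
    obtain ⟨u, hu2⟩ := hu
    have h4 := apply_eq_one_or hsq u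
    rw [hu2, h3] at h4
    have h5 : kron (discr K) a = 1 ∨ kron (discr K) a = -1 := by
      rcases h4 with h | h
      · left; exact_mod_cast h
      · right; exact_mod_cast h
    refine ⟨⟨fun h => ?_, fun h => absurd hu' h⟩, Or.inr h5⟩
    rcases h5 with h5 | h5 <;> rw [h5] at h <;> norm_num at h
  · have h4 : χ (a : ZMod N) = 0 := MulChar.map_nonunit _ hu
    rw [h3] at h4
    have h5 : kron (discr K) a = 0 := by exact_mod_cast h4
    refine ⟨⟨fun _ => ?_, fun _ => h5⟩, Or.inl h5⟩
    rwa [ZMod.isUnit_iff_coprime, hNd] at hu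

/-- **The decomposition of a prime (also `p = 2`) in a quadratic field.** -/
theorem decomposition (h2 : Module.finrank ℚ K = 2) {p : ℕ} (hp : p.Prime) (P : Ideal (𝓞 K))
    [P.IsPrime] [P.LiesOver (span {(p : ℤ)})] :
    (kron (discr K) p = 1 ∧ P.inertiaDeg ℤ = 1 ∧
        ((span {(p : ℤ)}).primesOver (𝓞 K)).ncard = 2) ∨
      (kron (discr K) p = -1 ∧ P.inertiaDeg ℤ = 2 ∧
        ((span {(p : ℤ)}).primesOver (𝓞 K)).ncard = 1) ∨
      (kron (discr K) p = 0 ∧ P.inertiaDeg ℤ = 1 ∧
        ((span {(p : ℤ)}).primesOver (𝓞 K)).ncard = 1) := by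
  obtain ⟨N, hN, χ, hNd, -, -, hsq, -, -, -, -, -, hloc⟩ := Abel.exists_quadratic_character K h2
  have hk := char_eq_kron hNd (discr_mod_four h2)
    (fun q _ hq2 => char_prime h2 hNd hsq hloc q hq2) hp.ne_zero
  have hloc' := hloc p hp P
  rw [hk] at hloc'
  have hval := (kron_eq_or h2 hp.ne_zero).2
  generalize ((span {(p : ℤ)}).primesOver (𝓞 K)).ncard = g at hloc' ⊢
  generalize P.inertiaDeg ℤ = f at hloc' ⊢
  have hZ : ∀ T : ℤ, (1 - T) * (1 - kron (discr K) p * T) = (1 - T ^ f) ^ g := by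
    intro T
    have := hloc' (T : ℂ)
    exact_mod_cast this
  have hg : g ≠ 0 := by
    rintro rfl
    have := hZ 1
    rw [sub_self, zero_mul, pow_zero] at this
    exact zero_ne_one this
  have key : ∀ m : ℕ, 0 < m → (2 : ℤ) ^ g = 2 ^ m → g = m := fun m _ h =>
    Int.pow_right_injective (by norm_num) h
  have hunit : IsUnit (1 - 2 ^ f : ℤ) → f = 1 := by
    intro h5
    rcases Int.isUnit_iff.mp h5 with h6 | h6
    · have : (0 : ℤ) < 2 ^ f := by positivity
      omega
    · have h7 : (2 : ℤ) ^ f = 2 ^ 1 := by omega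
      exact Int.pow_right_injective (by norm_num) h7
  rcases hval with h | h | h
  · right; right
    rw [h] at hZ
    have h3 := hZ 2
    have hf : f = 1 := hunit ((isUnit_pow_iff hg).mp (by
      rw [← h3]
      norm_num))
    refine ⟨h, hf, ?_⟩
    have h4 := hZ (-1)
    rw [hf] at h4
    exact key 1 one_pos (by rw [← (show (1 - (-1 : ℤ) ^ 1) = 2 by norm_num), ← h4]; norm_num)
  · left
    rw [h] at hZ
    have h3 := hZ 2
    have hf : f = 1 := hunit ((isUnit_pow_iff hg).mp (by
      rw [← h3]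
      norm_num))
    refine ⟨h, hf, ?_⟩
    have h4 := hZ (-1)
    rw [hf] at h4
    exact key 2 two_pos (by
      have h5 : (1 - (-1 : ℤ) ^ 1) = 2 := by norm_num
      rw [h5] at h4
      rw [← h4]
      norm_num)
  · right; left
    rw [h] at hZ
    have h3 := hZ 2
    norm_num at h3
    have hf1 : f ≠ 0 := by
      rintro rfl
      rw [pow_zero, sub_self, zero_pow hg] at h3
      norm_num at h3
    have hdvd : (1 - 2 ^ f : ℤ) ∣ -3 := by
      rw [h3]
      exact dvd_pow_self _ hg
    have hle : (2 : ℤ) ^ f - 1 ≤ 3 := by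
      have h5 : (2 ^ f - 1 : ℤ) ∣ 3 := by
        have := (neg_dvd.mpr ((dvd_neg.mp hdvd)))
        rwa [neg_sub] at this
      exact Int.le_of_dvd (by norm_num) h5
    have hf2 : f ≤ 2 := by
      by_contra hh
      push Not at hh
      have : (2 : ℤ) ^ 3 ≤ 2 ^ f := pow_le_pow_right₀ (by norm_num) hh
      omega
    have hf : f = 2 := by
      rcases (by omega : f = 1 ∨ f = 2) with h5 | h5
      · exfalso
        rw [h5] at h3
        norm_num at h3
        rcases neg_one_pow_eq_or ℤ g with h6 | h6 <;> rw [h6] at h3 <;> norm_num at h3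
      · exact h5
    refine ⟨h, hf, ?_⟩
    rw [hf] at h3
    norm_num at h3
    have h5 : (3 : ℕ) ^ g = 3 ^ 1 := by
      have h6 := congrArg Int.natAbs h3
      rw [Int.natAbs_pow] at h6
      norm_num at h6
      rw [pow_one]
      exact h6.symm
    exact Nat.pow_right_injective (by norm_num) h5

/-- `p` ramifies in the quadratic field `K` if and only if `p ∣ d`, i.e. `(d/p) = 0`. -/
theorem kron_eq_zero_iff (h2 : Module.finrank ℚ K = 2) {p : ℕ} (hp : p.Prime) :
    kron (discr K) p = 0 ↔ (p : ℤ) ∣ discr K := by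
  rw [(kron_eq_or h2 hp.ne_zero).1, Nat.Prime.coprime_iff_not_dvd hp, not_not, Int.natCast_dvd]

/-- **The number of ideals of norm `n` in a quadratic field is `Σ_{m ∣ n} (d/m)`.** -/
theorem card_absNorm_eq (h2 : Module.finrank ℚ K = 2) {n : ℕ} (hn : n ≠ 0) :
    (Nat.card {I : Ideal (𝓞 K) // absNorm I = n} : ℤ) = ∑ m ∈ n.divisors, kron (discr K) m := by
  have ha : LSeries.abscissaOfAbsConv
      (fun n => (Nat.card {I : Ideal (𝓞 K) // absNorm I = n} : ℂ)) < ⊤ := by
    obtain ⟨k, κ, Ξ, σ, -, -, hσ, H⟩ := Fermat.Agent.Classic.Zeta.zetaFE K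
    have h1 := (H ((σ + 1 : ℝ) : ℂ) (by rw [Complex.ofReal_re]; linarith)).1
    exact h1.abscissaOfAbsConv_le.trans_lt (EReal.coe_lt_top _)
  set b : ℕ → ℂ := LSeries.convolution 1 (fun n => ((kron (discr K) n : ℤ) : ℂ)) with hb
  have hks : ∀ s : ℂ, 1 < s.re → LSeriesSummable (fun n => ((kron (discr K) n : ℤ) : ℂ)) s := by
    intro s hs
    refine LSeriesSummable_of_bounded_of_one_lt_re (m := 1) (fun n hn => ?_) hs
    rcases (kron_eq_or h2 hn).2 with h | h | h <;> rw [h] <;> simp
  have hbs : ∀ s : ℂ, 1 < s.re → LSeriesSummable b s := fun s hs =>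
    (LSeriesSummable_one_iff.mpr hs).convolution (hks s hs)
  have hb' : LSeries.abscissaOfAbsConv b < ⊤ :=
    (hbs 2 (by norm_num)).abscissaOfAbsConv_le.trans_lt (EReal.coe_lt_top _)
  have h3 := LSeries.eq_of_LSeries_eventually_eq ha hb' (by
    filter_upwards [Filter.eventually_gt_atTop (1 : ℝ)] with x hx
    have hx' : 1 < ((x : ℝ) : ℂ).re := by rwa [Complex.ofReal_re]
    have h4 := dedekindZeta_eq_kron h2 hx'
    rw [dedekindZeta] at h4
    rw [h4, hb, LSeries_convolution' (LSeriesSummable_one_iff.mpr hx') (hks _ hx'),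
      LSeries_one_eq_riemannZeta hx']) hn
  have h4 : b n = ((∑ m ∈ n.divisors, kron (discr K) m : ℤ) : ℂ) := by
    rw [hb, LSeries.convolution_def]
    simp only [Pi.one_apply, one_mul]
    rw [Nat.sum_divisorsAntidiagonal' (fun _ m => ((kron (discr K) m : ℤ) : ℂ))]
    push_cast
    rfl
  rw [h4] at h3
  exact_mod_cast h3

end Fermat.Agent.Cor.Diri
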