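import Fermat.Agent.Corollaries.Diri.FormRep

/-!
# Elementary forms of Dirichlet's theorems

The form class number and the Kronecker symbol; primes represented by the forms of a given
fundamental discriminant; class numbers by enumeration of the reduced forms; the analytic class
number formula with `L(1, χ_d)`; Jacobi's formula `Σ n - Σ r = p h`.
-/

set_option autoImplicit false

open Finset NumberField NumberField.Units NumberField.InfinitePlace
open Fermat.Agent.Cor.Ray (BForm)

universe u

namespace Fermat.Agent.Cor.Diri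

/-! ### Forms -/

/-- **Dirichlet's class number formula for forms**: `D < -4` a fundamental discriminant, `h(D)` the
number of proper equivalence classes of primitive positive definite forms:
`(2 - (D/2)) h(D) = Σ_{0 < a < |D|/2} (D/a)`. -/
theorem hForm_half {m D : ℤ} (hm : Squarefree m) (hm0 : m < 0)
    (hD : D = if m % 4 = 1 then m else 4 * m) (hD4 : D < -4) :
    (2 - ZMod.χ₈ (D : ZMod 8)) * BForm.hForm D =
      ∑ a ∈ (range (D.natAbs / 2 + 1)).erase 0, kron D a := by
  obtain ⟨K, _, _, α, h2, -, h3⟩ := exists_quadratic_field hm (by omega)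
  rw [← hD] at h3
  have h4 := classNumber_half (K := K) h2 (by rw [h3]; exact hD4)
  rw [classNumber_eq_hForm h2 (by rw [h3]; omega), h3] at h4
  exact h4

/-- `|D| h(D) = -Σ_{a < |D|} a (D/a)`. -/
theorem natAbs_mul_hForm {m D : ℤ} (hm : Squarefree m) (hm0 : m < 0)
    (hD : D = if m % 4 = 1 then m else 4 * m) (hD4 : D < -4) :
    |D| * BForm.hForm D = -∑ a ∈ range D.natAbs, (a : ℤ) * kron D a := by
  obtain ⟨K, _, _, α, h2, -, h3⟩ := exists_quadratic_field hm (by omega)
  rw [← hD] at h3
  have h4 := natAbs_mul_classNumber (K := K) h2 (by rw [h3]; exact hD4)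
  rw [classNumber_eq_hForm h2 (by rw [h3]; omega), h3] at h4
  exact h4

/-- **Primes represented by the forms of discriminant `D`** (`D < 0` fundamental): a prime `p` is
represented by some reduced form of discriminant `D` if and only if `(D/p) ≠ -1`. -/
theorem exists_rep_prime_iff {m D : ℤ} (hm : Squarefree m) (hm0 : m < 0)
    (hD : D = if m % 4 = 1 then m else 4 * m) {p : ℕ} (hp : p.Prime) :
    (∃ f : BForm, f.Red ∧ 0 < f.a ∧ f.disc = D ∧ ∃ x y : ℤ, f.val x y = p) ↔
      kron D p ≠ -1 := by
  have hsum : ∀ d : ℤ, ∑ l ∈ p.divisors, kron d l = 1 + kron d p := by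
    intro d
    rw [hp.divisors, Finset.sum_pair hp.one_lt.ne, kron_odd d odd_one, jacobiSym.one_right]
  constructor
  · rintro ⟨f, -, ha, hf, x, y, hxy⟩ hk
    obtain ⟨K, _, _, α, h2, -, h3⟩ := exists_quadratic_field hm (by omega)
    rw [← hD] at h3
    have hneg : discr K < 0 := by
      rw [h3, hD]
      split_ifs <;> omega
    have hf' : f.disc = discr K := hf.trans h3.symm
    obtain ⟨F⟩ := exists_frame h2
    obtain ⟨e1⟩ := F.exists_equiv_val hneg hf' ha p
    obtain ⟨e2⟩ := exists_equiv_elements (F.idl_ne_bot hf' ha.ne') hp.ne_zero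
    obtain ⟨⟨I, hI, -⟩, -⟩ := e2 (e1 ⟨(x, y), hxy⟩)
    have h4 := card_absNorm_eq h2 hp.ne_zero
    rw [hsum, h3, hk] at h4
    have hfin : Finite {I : Ideal (𝓞 K) // Ideal.absNorm I = p} :=
      (Ideal.finite_setOfPred_absNorm_eq p).to_subtype
    have h5 : 0 < Nat.card {I : Ideal (𝓞 K) // Ideal.absNorm I = p} :=
      Nat.card_pos_iff.mpr ⟨⟨⟨I, hI⟩⟩, hfin⟩
    omega
  · intro hk
    have h4 := card_rep_fundamental hm hm0 hD hp.ne_zero
    have h5 : kron D p = 0 ∨ kron D p = 1 ∨ kron D p = -1 := by
      obtain ⟨K, _, _, α, h2, -, h3⟩ := exists_quadratic_field hm (by omega)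
      rw [← hD] at h3
      have := (kron_eq_or (K := K) h2 hp.ne_zero).2
      rwa [h3] at this
    have hw : 0 < wD D := by
      rw [wD]
      split_ifs <;> norm_num
    rw [hsum] at h4
    have h6 : (0 : ℤ) < Nat.card {x : BForm × ℤ × ℤ // x.1.Red ∧ 0 < x.1.a ∧ x.1.disc = D ∧
        x.1.val x.2.1 x.2.2 = p} := by
      rw [h4]
      refine mul_pos hw ?_
      rcases h5 with h | h | h
      · rw [h]; norm_num
      · rw [h]; norm_num
      · exact absurd h hk
    have h7 := (Nat.card_pos_iff.mp (by exact_mod_cast h6)).1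
    obtain ⟨⟨⟨f, x, y⟩, hr, ha, hd, hv⟩⟩ := h7
    exact ⟨f, hr, ha, hd, x, y, hv⟩

/-! ### Class numbers by enumeration -/

/-- **The class number by enumeration of the reduced forms.** -/
theorem classNumber_eq_card_redSet {K : Type u} [Field K] [NumberField K]
    (h2 : Module.finrank ℚ K = 2) {n A : ℕ} (hd : discr K = -n) (hA : n < 3 * (A + 1) ^ 2) :
    classNumber K = (BForm.redSet n A).card := by
  have hn : n ≠ 0 := by
    rintro rfl
    exact discr_ne_zero K (by rw [hd]; rfl)
  rw [classNumber_eq_hForm h2 (by rw [hd]; omega), hd,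
    BForm.hForm_eq (Nat.pos_of_ne_zero hn) hA]

section Table

variable {K : Type u} [Field K] [NumberField K]

/-- `h(ℚ(√-5)) = 2` -/
theorem classNumber_20 (h2 : Module.finrank ℚ K = 2) (hd : discr K = -20) : classNumber K = 2 :=
  (classNumber_eq_card_redSet (n := 20) (A := 2) h2 hd (by norm_num)).trans (by decide +kernel)

/-- `h(ℚ(√-23)) = 3` -/
theorem classNumber_23 (h2 : Module.finrank ℚ K = 2) (hd : discr K = -23) : classNumber K = 3 :=
  (classNumber_eq_card_redSet (n := 23) (A := 2) h2 hd (by norm_num)).trans (by decide +kernel)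

/-- `h(ℚ(√-14)) = 4` -/
theorem classNumber_56 (h2 : Module.finrank ℚ K = 2) (hd : discr K = -56) : classNumber K = 4 :=
  (classNumber_eq_card_redSet (n := 56) (A := 4) h2 hd (by norm_num)).trans (by decide +kernel)

/-- `h(ℚ(√-47)) = 5` -/
theorem classNumber_47 (h2 : Module.finrank ℚ K = 2) (hd : discr K = -47) : classNumber K = 5 :=
  (classNumber_eq_card_redSet (n := 47) (A := 3) h2 hd (by norm_num)).trans (by decide +kernel)

/-- `h(ℚ(√-71)) = 7` -/
theorem classNumber_71 (h2 : Module.finrank ℚ K = 2) (hd : discr K = -71) : classNumber K = 7 :=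
  (classNumber_eq_card_redSet (n := 71) (A := 4) h2 hd (by norm_num)).trans (by decide +kernel)

/-- `h(ℚ(√-1365)) = 16` (one class in each genus: `2^4`, five prime divisors) -/
theorem classNumber_5460 (h2 : Module.finrank ℚ K = 2) (hd : discr K = -5460) :
    classNumber K = 16 :=
  (classNumber_eq_card_redSet (n := 5460) (A := 42) h2 hd (by norm_num)).trans
    (by decide +kernel)

end Table

/-! ### The analytic class number formula -/

section Analytic

variable {K : Type u} [Field K] [NumberField K]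

/-- **The analytic class number formula for quadratic fields**: with the Kronecker character `χ_d`,
`h = w √|d| L(1, χ_d) / 2π` for `d < 0`, `h R = √d L(1, χ_d) / 2` for `d > 0`. -/
theorem analytic_class_number (h2 : Module.finrank ℚ K = 2) :
    ∃ (N : ℕ) (_ : NeZero N) (χ : DirichletCharacter ℂ N), N = (discr K).natAbs ∧
      (∀ a : ℕ, a ≠ 0 → χ a = ((kron (discr K) a : ℤ) : ℂ)) ∧
      (discr K < 0 → (classNumber K : ℂ) =
        torsionOrder K * Real.sqrt N * χ.LFunction 1 / (2 * Real.pi)) ∧
      (0 < discr K → ((classNumber K * regulator K : ℝ) : ℂ) =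
        Real.sqrt N * χ.LFunction 1 / 2) := by
  obtain ⟨N, hN, χ, hNd, -, h1, -, -, hres, -, hk⟩ := exists_kronecker_character h2
  have hN0 : (0 : ℝ) < N := Nat.cast_pos.mpr (NeZero.pos N)
  have hs0 : Real.sqrt N ≠ 0 := (Real.sqrt_pos.mpr hN0).ne'
  have hs : Real.sqrt |(discr K : ℝ)| = Real.sqrt N := by
    congr 1
    rw [← Int.cast_abs, Int.abs_eq_natAbs, hNd]
    rfl
  have hw : (torsionOrder K : ℝ) ≠ 0 := Nat.cast_ne_zero.mpr (torsionOrder_ne_zero _)
  have hpi := Real.pi_ne_zero
  have hcard := card_add_two_mul_card_eq_rank (K := K)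
  rw [h2] at hcard
  refine ⟨N, hN, χ, hNd, hk, fun hd => ?_, fun hd => ?_⟩
  · have hc := nrComplexPlaces_ne_zero_of_discr_neg (K := K) hd
    have hr1 : nrRealPlaces K = 0 := by omega
    have hr2 : nrComplexPlaces K = 1 := by omega
    have hreg : regulator K = 1 := regulator_of_rank_eq_zero K (rank_eq_zero_of_imag h2 hc)
    have h3 : (classNumber K : ℝ) =
        torsionOrder K * Real.sqrt N * dedekindZeta_residue K / (2 * Real.pi) := by
      rw [dedekindZeta_residue_def, hr1, hr2, hreg, hs]
      field_simp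
    have h4 : ((classNumber K : ℝ) : ℂ) =
        ((torsionOrder K * Real.sqrt N * dedekindZeta_residue K / (2 * Real.pi) : ℝ) : ℂ) := by
      rw [h3]
    push_cast at h4
    rw [hres] at h4
    exact h4
  · have hc := nrComplexPlaces_eq_zero_of_discr_pos h2 hd
    have hr1 : nrRealPlaces K = 2 := by omega
    have hw2 : torsionOrder K = 2 := torsionOrder_of_real (by rw [hr1]; norm_num)
    have h3 : (classNumber K : ℝ) * regulator K =
        Real.sqrt N * dedekindZeta_residue K / 2 := by
      rw [dedekindZeta_residue_def, hr1, hc, hw2, hs]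
      push_cast
      field_simp
    rw [← hres, h3]
    push_cast
    ring

end Analytic

/-! ### Jacobi's formula -/

/-- **Jacobi (1832)**: `K` quadratic, `|d_K| = p > 3` prime, `p ≡ 3 mod 4`: the sum of the
quadratic non-residues minus the sum of the quadratic residues between `0` and `p` is `p h`. -/
theorem sum_nonresidues_sub {K : Type u} [Field K] [NumberField K] {p : ℕ} [hp : Fact p.Prime]
    (h2 : Module.finrank ℚ K = 2) (hd : (discr K).natAbs = p) (h : p % 4 = 3) (h3 : 3 < p) :
    (∑ a ∈ (Finset.Ioo 0 p).filter (fun a : ℕ => ¬ IsSquare (a : ZMod p)), (a : ℤ)) -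
      ∑ a ∈ (Finset.Ioo 0 p).filter (fun a : ℕ => IsSquare (a : ZMod p)), (a : ℤ) =
        p * classNumber K := by
  rw [mul_classNumber h2 hd h h3]
  have h4 : ∑ a ∈ range p, (a : ℤ) * legendreSym p a =
      ∑ a ∈ Finset.Ioo 0 p, (a : ℤ) * legendreSym p a := by
    have h5 : range p = insert 0 (Finset.Ioo 0 p) := by
      ext a
      simp only [Finset.mem_range, Finset.mem_insert, Finset.mem_Ioo]
      have := hp.out.pos
      omega
    rw [h5, Finset.sum_insert (by simp), Nat.cast_zero, zero_mul, zero_add]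
  have hne : ∀ a ∈ Finset.Ioo 0 p, ((a : ℤ) : ZMod p) ≠ 0 := by
    intro a ha
    rw [Int.cast_natCast, Ne, ZMod.natCast_eq_zero_iff]
    intro hdvd
    obtain ⟨h5, h6⟩ := Finset.mem_Ioo.mp ha
    have := Nat.le_of_dvd h5 hdvd
    omega
  have e1 : ∑ a ∈ (Finset.Ioo 0 p).filter (fun a : ℕ => IsSquare (a : ZMod p)),
      (a : ℤ) * legendreSym p a =
        ∑ a ∈ (Finset.Ioo 0 p).filter (fun a : ℕ => IsSquare (a : ZMod p)), (a : ℤ) := by
    refine Finset.sum_congr rfl fun a ha => ?_
    obtain ⟨h5, h6⟩ := Finset.mem_filter.mp ha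
    have h7 : legendreSym p a = 1 := (legendreSym.eq_one_iff p (hne a h5)).mpr (by
      rwa [Int.cast_natCast])
    rw [h7, mul_one]
  have e2 : ∑ a ∈ (Finset.Ioo 0 p).filter (fun a : ℕ => ¬ IsSquare (a : ZMod p)),
      (a : ℤ) * legendreSym p a =
        -∑ a ∈ (Finset.Ioo 0 p).filter (fun a : ℕ => ¬ IsSquare (a : ZMod p)), (a : ℤ) := by
    rw [← Finset.sum_neg_distrib]
    refine Finset.sum_congr rfl fun a ha => ?_
    obtain ⟨h5, h6⟩ := Finset.mem_filter.mp ha
    have h7 : legendreSym p a = -1 := (legendreSym.eq_neg_one_iff p).mpr (by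
      rwa [Int.cast_natCast])
    rw [h7, mul_neg_one]
  rw [h4, ← Finset.sum_filter_add_sum_filter_not (Finset.Ioo 0 p)
    (fun a : ℕ => IsSquare (a : ZMod p)), e1, e2]
  ring

end Fermat.Agent.Cor.Diri
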