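import Fermat.Agent.Corollaries.Diri.Real
import Fermat.Agent.Corollaries.ZetaK.AbelField

/-!
# Dirichlet's class number formulas for every quadratic field

* `class_number_imag`: `K` imaginary quadratic, `N = |d_K|`: there is a primitive odd quadratic
  character `χ` modulo `N`, with `ζ_K(s) = ζ(s) L(s, χ)`, and `2 N h = - w Σ_{a < N} a χ(a)`;
* `class_number_real`: `K` real quadratic: `h R = - (1/2) Σ_{a < N} χ(a) log (sin (π a / N))`;
* `K` of discriminant `-p`, `p > 3` prime: `classNumber_neg_prime`: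
  `(2 - (2/p)) h = Σ_{0 < a < p/2} (a/p)`, `mul_classNumber`: `p h = - Σ_{a < p} a (a/p)`,
  `odd_classNumber`: `h` is odd;
* `K` of discriminant `p`: `exp_classNumber_mul_regulator`.
-/

set_option autoImplicit false

noncomputable section

namespace Fermat.Agent.Cor.Diri

open NumberField NumberField.InfinitePlace NumberField.Units DirichletCharacter Finset

universe u

section General

variable {K : Type u} [Field K] [NumberField K]

theorem rank_eq_zero_of_imag (h2 : Module.finrank ℚ K = 2) (hc : nrComplexPlaces K ≠ 0) :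
    rank K = 0 := by
  have h3 := card_add_two_mul_card_eq_rank (K := K)
  have h5 := card_eq_nrRealPlaces_add_nrComplexPlaces (K := K)
  rw [rank, h5]
  omega

/-- `L(0, χ) = 2 h / w` for an imaginary quadratic field. -/
theorem LFunction_zero_of {N : ℕ} [NeZero N] {χ : DirichletCharacter ℂ N} (hr : rank K = 0)
    (hz : ∀ s : ℂ, s ≠ 1 → zetaK K s = riemannZeta s * χ.LFunction s) :
    χ.LFunction 0 = 2 * classNumber K / torsionOrder K := by
  have h3 := zetaK_zero K hr
  rw [hz 0 zero_ne_one, riemannZeta_zero] at h3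
  linear_combination (-2) * h3

theorem class_number_of {N : ℕ} [NeZero N] {χ : DirichletCharacter ℂ N} (hr : rank K = 0)
    (h1 : χ ≠ 1) (hz : ∀ s : ℂ, s ≠ 1 → zetaK K s = riemannZeta s * χ.LFunction s) :
    (2 * N * classNumber K : ℂ) =
      -(torsionOrder K : ℂ) * ∑ a ∈ range N, (a : ℂ) * χ (a : ZMod N) := by
  have hN : (N : ℂ) ≠ 0 := Nat.cast_ne_zero.mpr (NeZero.ne N)
  have hw : (torsionOrder K : ℂ) ≠ 0 := Nat.cast_ne_zero.mpr (torsionOrder_ne_zero _)
  have h3 := LFunction_zero_of hr hz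
  rw [LFunction_zero' h1] at h3
  field_simp at h3
  linear_combination -h3

/-- **Dirichlet's class number formula for every imaginary quadratic field.** -/
theorem class_number_imag (h2 : Module.finrank ℚ K = 2) (hc : nrComplexPlaces K ≠ 0) :
    ∃ (N : ℕ) (_ : NeZero N) (χ : DirichletCharacter ℂ N), N = (discr K).natAbs ∧
      χ.IsPrimitive ∧ χ ≠ 1 ∧ χ ^ 2 = 1 ∧ χ.Odd ∧
      (∀ s : ℂ, s ≠ 1 → zetaK K s = riemannZeta s * χ.LFunction s) ∧
      (2 * N * classNumber K : ℂ) =
        -(torsionOrder K : ℂ) * ∑ a ∈ range N, (a : ℂ) * χ (a : ZMod N) := by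
  obtain ⟨N, hN, χ, hNd, hp, h1, hsq, hz, -, -, -, hev, -⟩ := Abel.exists_quadratic_character K h2
  refine ⟨N, hN, χ, hNd, hp, h1, hsq, ?_, hz,
    class_number_of (rank_eq_zero_of_imag h2 hc) h1 hz⟩
  exact χ.even_or_odd.resolve_left fun he => hc (hev.mp he)

/-- `h R` from the residue, for two real quadratic fields with the same discriminant. -/
theorem hR_eq {K' : Type*} [Field K'] [NumberField K'] {N : ℕ} [NeZero N]
    (h2 : Module.finrank ℚ K = 2) (h2' : Module.finrank ℚ K' = 2)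
    (hc : nrComplexPlaces K = 0) (hc' : nrComplexPlaces K' = 0)
    (hd : (discr K).natAbs = N) (hd' : (discr K').natAbs = N)
    (hres : dedekindZeta_residue K = dedekindZeta_residue K') :
    (classNumber K : ℝ) * regulator K = classNumber K' * regulator K' := by
  have hN : (0 : ℝ) < N := Nat.cast_pos.mpr (NeZero.pos N)
  have hsN : 0 < Real.sqrt N := Real.sqrt_pos.mpr hN
  have e1 : nrRealPlaces K = 2 := by
    have := card_add_two_mul_card_eq_rank (K := K)
    omega
  have e2 : nrRealPlaces K' = 2 := by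
    have := card_add_two_mul_card_eq_rank (K := K')
    omega
  have w1 : torsionOrder K = 2 := torsionOrder_of_real (by rw [e1]; norm_num)
  have w2 : torsionOrder K' = 2 := torsionOrder_of_real (by rw [e2]; norm_num)
  have d1 : Real.sqrt |(discr K : ℝ)| = Real.sqrt N := by
    congr 1
    rw [← Int.cast_abs, Int.abs_eq_natAbs, hd]
    rfl
  have d2 : Real.sqrt |(discr K' : ℝ)| = Real.sqrt N := by
    congr 1
    rw [← Int.cast_abs, Int.abs_eq_natAbs, hd']
    rfl
  rw [dedekindZeta_residue_def, dedekindZeta_residue_def, e1, e2, hc, hc', w1, w2, d1, d2] at hres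
  field_simp at hres
  linarith

/-- **Dirichlet's class number formula for every real quadratic field.** -/
theorem class_number_real (h2 : Module.finrank ℚ K = 2) (hc : nrComplexPlaces K = 0) :
    ∃ (N : ℕ) (_ : NeZero N) (χ : DirichletCharacter ℂ N), N = (discr K).natAbs ∧
      χ.IsPrimitive ∧ χ ≠ 1 ∧ χ ^ 2 = 1 ∧ χ.Even ∧
      (∀ s : ℂ, s ≠ 1 → zetaK K s = riemannZeta s * χ.LFunction s) ∧
      (classNumber K : ℝ) * regulator K =
        -(1 / 2) * ∑ a ∈ range N, (χ (a : ZMod N)).re * Real.log (Real.sin (Real.pi * a / N)) := by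
  obtain ⟨N, hN, χ, hNd, hp, h1, hsq, hz, -, hres, -, hev, -⟩ :=
    Abel.exists_quadratic_character K h2
  have he := hev.mpr hc
  refine ⟨N, hN, χ, hNd, hp, h1, hsq, he, hz, ?_⟩
  rw [← class_number_formula_real hp h1 hsq he]
  refine hR_eq h2 (finrank_quadF h1 hsq) hc (nrComplexPlaces_of_even h1 hsq he) hNd.symm
    (natAbs_discr_quadF hp h1 hsq) ?_
  have h3 := hres.trans (residue_quadF hp h1 hsq).symm
  exact_mod_cast h3

end General

section Prime

variable {p : ℕ} [hp : Fact p.Prime]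

/-- The Legendre symbol is the only quadratic character modulo `p`. -/
theorem eq_leg {χ : DirichletCharacter ℂ p} (h1 : χ ≠ 1) (hsq : χ ^ 2 = 1) (hp2 : p ≠ 2) :
    χ = leg p := by
  obtain ⟨g, hg⟩ := IsCyclic.exists_generator (α := (ZMod p)ˣ)
  have key : ∀ ψ : DirichletCharacter ℂ p, ψ ≠ 1 → ψ ^ 2 = 1 → ψ g = -1 := by
    intro ψ hψ hψ2
    refine (apply_eq_one_or hψ2 g).resolve_left fun h => hψ ?_
    ext u
    obtain ⟨k, rfl⟩ := Subgroup.mem_zpowers_iff.mp (hg u)
    have h3 : ψ.toUnitHom (g ^ k) = 1 := by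
      rw [map_zpow]
      have : ψ.toUnitHom g = 1 := Units.ext h
      rw [this, one_zpow]
    rw [MulChar.one_apply_coe]
    exact congrArg Units.val h3
  have k1 := key χ h1 hsq
  have k2 := key (leg p) (leg_ne_one hp2) (leg_sq p)
  ext u
  obtain ⟨k, rfl⟩ := Subgroup.mem_zpowers_iff.mp (hg u)
  have h3 : χ.toUnitHom (g ^ k) = (leg p).toUnitHom (g ^ k) := by
    rw [map_zpow, map_zpow]
    congr 1
    exact Units.ext (k1.trans k2.symm)
  exact congrArg Units.val h3

variable {K : Type u} [Field K] [NumberField K]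

/-- A quadratic field with `|d_K| = p`, `p` an odd prime, belongs to the Legendre symbol. -/
theorem legendre_of_discr (h2 : Module.finrank ℚ K = 2) (hd : (discr K).natAbs = p)
    (hp2 : p ≠ 2) :
    (∀ s : ℂ, s ≠ 1 → zetaK K s = riemannZeta s * (leg p).LFunction s) ∧
      (dedekindZeta_residue K : ℂ) = (leg p).LFunction 1 ∧
      ((leg p).Even ↔ nrComplexPlaces K = 0) := by
  obtain ⟨N, hN, χ, hNd, -, h1, hsq, hz, -, hres, -, hev, -⟩ :=
    Abel.exists_quadratic_character K h2
  have hNp : N = p := hNd.trans hd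
  subst hNp
  have h3 := eq_leg h1 hsq hp2
  subst h3
  exact ⟨hz, hres, hev⟩

theorem rank_of_discr (h2 : Module.finrank ℚ K = 2) (hd : (discr K).natAbs = p)
    (h : p % 4 = 3) : rank K = 0 := by
  refine rank_eq_zero_of_imag h2 fun hc => ?_
  have h3 := (legendre_of_discr h2 hd (by omega)).2.2.mpr hc
  exact absurd h3 (leg_odd h).not_even

/-- **Dirichlet (1839)**: `K` quadratic, `|d_K| = p > 3` prime, `p ≡ 3 mod 4` (so `d_K = -p`):
`(2 - (2/p)) h = Σ_{0 < a < p/2} (a/p)`. -/
theorem classNumber_neg_prime (h2 : Module.finrank ℚ K = 2) (hd : (discr K).natAbs = p)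
    (h : p % 4 = 3) (h3 : 3 < p) :
    (2 - legendreSym p 2) * (classNumber K : ℤ) =
      ∑ a ∈ range ((p - 1) / 2), legendreSym p ((a + 1 : ℕ) : ℤ) := by
  have hw : torsionOrder K = 2 := torsionOrder_eq_two h2 (by rw [hd]; omega)
  have h4 := LFunction_zero_of (rank_of_discr h2 hd h) (legendre_of_discr h2 hd (by omega)).1
  have h5 := sum_half_eq_LFunction h
  rw [h4, hw] at h5
  have h6 : (((2 - legendreSym p 2) * (classNumber K : ℤ) : ℤ) : ℂ) =
      ((∑ a ∈ range ((p - 1) / 2), legendreSym p ((a + 1 : ℕ) : ℤ) : ℤ) : ℂ) := by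
    rw [h5]
    push_cast
    ring
  exact_mod_cast h6

/-- `p ≡ 7 mod 8`: `h = Σ_{0 < a < p/2} (a/p)`. -/
theorem classNumber_seven (h2 : Module.finrank ℚ K = 2) (hd : (discr K).natAbs = p)
    (h : p % 8 = 7) :
    (classNumber K : ℤ) = ∑ a ∈ range ((p - 1) / 2), legendreSym p ((a + 1 : ℕ) : ℤ) := by
  have h4 : legendreSym p 2 = 1 := by
    rw [legendreSym.at_two (by omega), ZMod.χ₈_nat_mod_eight, h]
    rfl
  rw [← classNumber_neg_prime h2 hd (by omega) (by omega), h4]
  ring

/-- `p ≡ 3 mod 8`, `p > 3`: `3 h = Σ_{0 < a < p/2} (a/p)`. -/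
theorem classNumber_three (h2 : Module.finrank ℚ K = 2) (hd : (discr K).natAbs = p)
    (h : p % 8 = 3) (h3 : 3 < p) :
    3 * (classNumber K : ℤ) = ∑ a ∈ range ((p - 1) / 2), legendreSym p ((a + 1 : ℕ) : ℤ) := by
  have h4 : legendreSym p 2 = -1 := by
    rw [legendreSym.at_two (by omega), ZMod.χ₈_nat_mod_eight, h]
    rfl
  rw [← classNumber_neg_prime h2 hd (by omega) h3, h4]
  ring

/-- **`p h = - Σ_{a < p} a (a/p)`** (conjectured by Jacobi, proved by Dirichlet). -/
theorem mul_classNumber (h2 : Module.finrank ℚ K = 2) (hd : (discr K).natAbs = p)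
    (h : p % 4 = 3) (h3 : 3 < p) :
    (p : ℤ) * classNumber K = -∑ a ∈ range p, (a : ℤ) * legendreSym p a := by
  have hw : torsionOrder K = 2 := torsionOrder_eq_two h2 (by rw [hd]; omega)
  have h4 := class_number_of (rank_of_discr h2 hd h) (leg_ne_one (by omega))
    (legendre_of_discr h2 hd (by omega)).1
  rw [hw] at h4
  have h5 : (∑ a ∈ range p, (a : ℂ) * leg p (a : ZMod p)) =
      ((∑ a ∈ range p, (a : ℤ) * legendreSym p a : ℤ) : ℂ) := by
    rw [Int.cast_sum]
    refine Finset.sum_congr rfl fun a _ => ?_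
    rw [leg_natCast]
    push_cast
    rfl
  rw [h5] at h4
  have h6 : (((p : ℤ) * classNumber K : ℤ) : ℂ) =
      ((-∑ a ∈ range p, (a : ℤ) * legendreSym p a : ℤ) : ℂ) := by
    push_cast at h4 ⊢
    linear_combination h4 / 2
  exact_mod_cast h6

/-- **The class number of `ℚ(√-p)` is odd**, `p ≡ 3 mod 4`, `p > 3`. -/
theorem odd_classNumber (h2 : Module.finrank ℚ K = 2) (hd : (discr K).natAbs = p)
    (h : p % 4 = 3) (h3 : 3 < p) : Odd (classNumber K) := by
  have h4 := mul_classNumber h2 hd h h3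
  have h5 : ∀ a ∈ range p, ((a : ℤ) * legendreSym p a) % 2 = (a : ℤ) % 2 := by
    intro a ha
    by_cases ha0 : ((a : ℤ) : ZMod p) = 0
    · have : a = 0 := by
        rw [ZMod.intCast_zmod_eq_zero_iff_dvd, Int.natCast_dvd_natCast] at ha0
        exact Nat.eq_zero_of_dvd_of_lt ha0 (Finset.mem_range.mp ha)
      subst this
      simp
    · rcases legendreSym.eq_one_or_neg_one p ha0 with h6 | h6
      · rw [h6, mul_one]
      · rw [h6]
        omega
  have h6 : (∑ a ∈ range p, (a : ℤ) * legendreSym p a) % 2 = (∑ a ∈ range p, (a : ℤ)) % 2 := by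
    rw [Finset.sum_int_mod, Finset.sum_congr rfl h5, ← Finset.sum_int_mod]
  have h7 : (∑ a ∈ range p, (a : ℤ)) = ((∑ a ∈ range p, a : ℕ) : ℤ) := by push_cast; rfl
  have h8 := Finset.sum_range_id_mul_two p
  obtain ⟨k, hk⟩ : ∃ k, p = 4 * k + 3 := ⟨p / 4, by omega⟩
  have h9 : ∑ a ∈ range p, a = (4 * k + 3) * (2 * k + 1) := by
    have e : p * (p - 1) = (4 * k + 3) * (2 * k + 1) * 2 := by
      rw [hk, show 4 * k + 3 - 1 = 4 * k + 2 by omega]
      ring
    rw [e] at h8
    exact Nat.eq_of_mul_eq_mul_right two_pos h8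
  rw [h7, h9] at h6
  by_contra hodd
  rw [Nat.not_odd_iff_even] at hodd
  obtain ⟨c, hc⟩ := hodd
  rw [hc] at h4
  have e3 : ((((4 * k + 3) * (2 * k + 1) : ℕ) : ℤ)) % 2 = 1 := by
    have : (4 * k + 3) * (2 * k + 1) = 2 * (4 * k * k + 5 * k + 1) + 1 := by ring
    rw [this]
    omega
  rw [e3] at h6
  have e4 : (p : ℤ) * ((c + c : ℕ) : ℤ) = 2 * ((p : ℤ) * c) := by push_cast; ring
  rw [e4] at h4
  omega

/-- **Dirichlet (1839)**: `K` quadratic, `|d_K| = p`, `p ≡ 1 mod 4` prime (so `d_K = p`):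
`exp (h R)`, `R` the logarithm of the fundamental unit, is `∏ sin (π n / p) / ∏ sin (π r / p)`, `n`
the non-residues and `r` the residues in `(0, p/2)`. -/
theorem exp_classNumber_mul_regulator (h2 : Module.finrank ℚ K = 2)
    (hd : (discr K).natAbs = p) (h : p % 4 = 1) :
    Real.exp (classNumber K * regulator K) =
      (∏ n ∈ (Finset.Icc 1 ((p - 1) / 2)).filter (fun n : ℕ => ¬ IsSquare (n : ZMod p)),
        Real.sin (Real.pi * n / p)) /
      ∏ r ∈ (Finset.Icc 1 ((p - 1) / 2)).filter (fun r : ℕ => IsSquare (r : ZMod p)),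
        Real.sin (Real.pi * r / p) := by
  have hp2 : p ≠ 2 := by omega
  obtain ⟨-, hres, hev⟩ := legendre_of_discr h2 hd hp2
  have he := leg_even h
  have h3 : (classNumber K : ℝ) * regulator K =
      classNumber (quadF (leg p)) * regulator (quadF (leg p)) := by
    refine hR_eq h2 (finrank_quadF (leg_ne_one hp2) (leg_sq p)) (hev.mp he)
      (nrComplexPlaces_of_even (leg_ne_one hp2) (leg_sq p) he) hd
      (natAbs_discr_quadF (leg_isPrimitive hp2) (leg_ne_one hp2) (leg_sq p)) ?_
    have h4 := hres.trans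
      (residue_quadF (leg_isPrimitive hp2) (leg_ne_one hp2) (leg_sq p)).symm
    exact_mod_cast h4
  rw [h3]
  exact exp_class_number_mul_regulator h

end Prime

end Fermat.Agent.Cor.Diri
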