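import Mathlib

/-!
# The exponential zeta function at `s = 0` and `s = 1`

For `z = exp (2 π i a) ≠ 1` the function `Σ zⁿ / nˢ` is entire and takes the values `z / (1 - z)` at
`s = 0` and `- log (1 - z)` at `s = 1`. Proof: `Γ(s + 1) Σ zⁿ / nˢ` is the Mellin transform at
`s + 1` of `z e⁻ᵗ / (1 - z e⁻ᵗ)²` for `Re s > 1`, hence for `Re s > -1`.
-/

set_option autoImplicit false

open Complex Filter Topology MeasureTheory Set HurwitzZeta

namespace Fermat.Agent.Cor.Diri

section Kernel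

variable {z : ℂ}

/-- `1 - z e⁻ᵗ` does not vanish and is in the slit plane. -/
theorem one_sub_mem_slitPlane (hz : ‖z‖ = 1) (hz1 : z ≠ 1) {t : ℝ} (ht : 0 ≤ t) :
    1 - z * (Real.exp (-t) : ℂ) ∈ slitPlane := by
  have he : Real.exp (-t) ≤ 1 := Real.exp_le_one_iff.mpr (by linarith)
  have he0 : 0 < Real.exp (-t) := Real.exp_pos _
  have hre : z.re ≤ 1 := by
    have := Complex.re_le_norm z
    rwa [hz] at this
  have hre1 : z.re < 1 := by
    refine lt_of_le_of_ne hre fun h => hz1 ?_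
    have h2 : z.re ^ 2 + z.im ^ 2 = 1 := by
      have := Complex.sq_norm z
      rw [hz, Complex.normSq_apply] at this
      nlinarith
    have h3 : z.im = 0 := by nlinarith
    exact Complex.ext h h3
  rw [mem_slitPlane_iff]
  left
  rw [Complex.sub_re, Complex.one_re, Complex.re_mul_ofReal]
  nlinarith

theorem one_sub_ne_zero (hz : ‖z‖ = 1) (hz1 : z ≠ 1) {t : ℝ} (ht : 0 ≤ t) :
    1 - z * (Real.exp (-t) : ℂ) ≠ 0 := slitPlane_ne_zero (one_sub_mem_slitPlane hz hz1 ht)

/-- The kernel `z e⁻ᵗ / (1 - z e⁻ᵗ)²`. -/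
noncomputable def ker (z : ℂ) (t : ℝ) : ℂ :=
  z * (Real.exp (-t) : ℂ) / (1 - z * (Real.exp (-t) : ℂ)) ^ 2

theorem continuous_aux (z : ℂ) : Continuous fun t : ℝ => z * (Real.exp (-t) : ℂ) := by
  fun_prop

theorem continuousAt_ker (hz : ‖z‖ = 1) (hz1 : z ≠ 1) {t : ℝ} (ht : 0 ≤ t) :
    ContinuousAt (ker z) t := by
  have h1 := (continuous_aux z).continuousAt (x := t)
  exact h1.div ((continuousAt_const.sub h1).pow 2) (pow_ne_zero 2 (one_sub_ne_zero hz hz1 ht))

theorem tendsto_exp_neg : Tendsto (fun t : ℝ => z * (Real.exp (-t) : ℂ)) atTop (𝓝 0) := by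
  have h1 : Tendsto (fun t : ℝ => (Real.exp (-t) : ℂ)) atTop (𝓝 ((0 : ℝ) : ℂ)) :=
    (Complex.continuous_ofReal.tendsto 0).comp (Real.tendsto_exp_neg_atTop_nhds_zero)
  have h2 := h1.const_mul z
  rwa [Complex.ofReal_zero, mul_zero] at h2

theorem ker_isBigO_top : ker z =O[atTop] fun t : ℝ => Real.exp (-1 * t) := by
  have h1 : Tendsto (fun t : ℝ => z / (1 - z * (Real.exp (-t) : ℂ)) ^ 2) atTop
      (𝓝 (z / (1 - 0) ^ 2)) :=
    tendsto_const_nhds.div ((tendsto_const_nhds.sub tendsto_exp_neg).pow 2) (by norm_num)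
  have h2 := h1.isBigO_one ℝ
  have h3 : (fun t : ℝ => (Real.exp (-t) : ℂ)) =O[atTop] fun t : ℝ => Real.exp (-1 * t) := by
    refine Asymptotics.isBigO_of_le _ fun _ => ?_
    rw [neg_one_mul, Complex.norm_real]
  have h4 := h2.mul h3
  refine (h4.congr_left fun t => ?_).trans (Asymptotics.isBigO_of_le _ fun _ => ?_)
  · rw [ker]; ring
  · rw [one_mul]

theorem ker_isBigO_zero (hz : ‖z‖ = 1) (hz1 : z ≠ 1) :
    ker z =O[𝓝[>] 0] fun t : ℝ => t ^ (-(0 : ℝ)) := by
  have h1 : Tendsto (ker z) (𝓝[>] 0) (𝓝 (ker z 0)) :=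
    (continuousAt_ker hz hz1 le_rfl).tendsto.mono_left nhdsWithin_le_nhds
  refine (h1.isBigO_one ℝ).congr_right fun _ => ?_
  rw [neg_zero, Real.rpow_zero]

theorem locallyIntegrableOn_ker (hz : ‖z‖ = 1) (hz1 : z ≠ 1) :
    LocallyIntegrableOn (ker z) (Ioi 0) :=
  ContinuousOn.locallyIntegrableOn
    (fun _ ht => (continuousAt_ker hz hz1 (le_of_lt ht)).continuousWithinAt) measurableSet_Ioi

theorem hasSum_ker (hz : ‖z‖ = 1) {t : ℝ} (ht : 0 < t) :
    HasSum (fun n : ℕ => ((n : ℂ) * z ^ n) * (Real.exp (-(n : ℝ) * t) : ℂ)) (ker z t) := by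
  have h1 : ‖z * (Real.exp (-t) : ℂ)‖ < 1 := by
    rw [norm_mul, hz, one_mul, Complex.norm_real, Real.norm_eq_abs, abs_of_pos (Real.exp_pos _)]
    exact Real.exp_lt_one_iff.mpr (by linarith)
  refine (hasSum_coe_mul_geometric_of_norm_lt_one h1).congr_fun fun n => ?_
  rw [mul_pow, ← Complex.ofReal_pow, ← Real.exp_nat_mul, mul_assoc]
  congr 4
  ring

/-- The antiderivative of the kernel. -/
noncomputable def prim₀ (z : ℂ) (t : ℝ) : ℂ :=
  -(z * (Real.exp (-t) : ℂ) / (1 - z * (Real.exp (-t) : ℂ)))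

/-- The antiderivative of `t` times the kernel. -/
noncomputable def prim₁ (z : ℂ) (t : ℝ) : ℂ :=
  t * prim₀ z t + Complex.log (1 - z * (Real.exp (-t) : ℂ))

theorem hasDerivAt_aux (z : ℂ) (t : ℝ) :
    HasDerivAt (fun t : ℝ => z * (Real.exp (-t) : ℂ)) (-(z * (Real.exp (-t) : ℂ))) t := by
  have h1 : HasDerivAt (fun t : ℝ => Real.exp (-t)) (-Real.exp (-t)) t := by
    have := (hasDerivAt_neg t).exp
    rwa [mul_neg_one] at this
  have h2 := (h1.ofReal_comp).const_mul z
  refine h2.congr_deriv ?_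
  push_cast
  ring

theorem hasDerivAt_prim₀ (hz : ‖z‖ = 1) (hz1 : z ≠ 1) {t : ℝ} (ht : 0 ≤ t) :
    HasDerivAt (prim₀ z) (ker z t) t := by
  have h0 := one_sub_ne_zero hz hz1 ht
  have h1 := hasDerivAt_aux z t
  have h2 := ((h1.div (h1.const_sub 1) h0)).neg
  refine h2.congr_deriv ?_
  rw [ker]
  field_simp
  ring

theorem hasDerivAt_prim₁ (hz : ‖z‖ = 1) (hz1 : z ≠ 1) {t : ℝ} (ht : 0 ≤ t) :
    HasDerivAt (prim₁ z) (t * ker z t) t := by
  have h0 := one_sub_ne_zero hz hz1 ht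
  have h1 := hasDerivAt_aux z t
  have h2 := (h1.const_sub 1).clog_real (one_sub_mem_slitPlane hz hz1 ht)
  have h3 := ((hasDerivAt_id t).ofReal_comp).mul (hasDerivAt_prim₀ hz hz1 ht)
  refine (h3.add h2).congr_deriv ?_
  simp only [id, prim₀]
  push_cast
  field_simp
  ring

theorem tendsto_prim₀ : Tendsto (prim₀ z) atTop (𝓝 0) := by
  have h1 := (tendsto_exp_neg (z := z)).div (tendsto_const_nhds.sub (tendsto_exp_neg (z := z)))
    (a := (0 : ℂ)) (b := (1 : ℂ) - 0) (by norm_num)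
  have h2 := h1.neg
  rw [zero_div, neg_zero] at h2
  exact h2

theorem tendsto_prim₁ : Tendsto (prim₁ z) atTop (𝓝 0) := by
  have h1 : Tendsto (fun t : ℝ => (t : ℂ) * (Real.exp (-t) : ℂ)) atTop (𝓝 ((0 : ℝ) : ℂ)) := by
    have h := Real.tendsto_pow_mul_exp_neg_atTop_nhds_zero 1
    simp only [pow_one] at h
    have h2 := (Complex.continuous_ofReal.tendsto 0).comp h
    refine h2.congr fun t => ?_
    simp
  have h2 : Tendsto (fun t : ℝ => -(z / (1 - z * (Real.exp (-t) : ℂ)))) atTop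
      (𝓝 (-(z / (1 - 0)))) :=
    (tendsto_const_nhds.div (tendsto_const_nhds.sub tendsto_exp_neg) (by norm_num)).neg
  have h3 := h1.mul h2
  have h4 : Tendsto (fun t : ℝ => Complex.log (1 - z * (Real.exp (-t) : ℂ))) atTop
      (𝓝 (Complex.log (1 - 0))) := by
    refine (continuousAt_clog ?_).tendsto.comp (tendsto_const_nhds.sub tendsto_exp_neg)
    rw [sub_zero]
    exact one_mem_slitPlane
  have h5 := h3.add h4
  rw [sub_zero, Complex.log_one, Complex.ofReal_zero, zero_mul, add_zero] at h5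
  refine h5.congr fun t => ?_
  rw [prim₁, prim₀]
  ring

end Kernel

section Mellin

variable {z : ℂ}

theorem mellinConvergent_ker (hz : ‖z‖ = 1) (hz1 : z ≠ 1) {s : ℂ} (hs : 0 < s.re) :
    MellinConvergent (ker z) s :=
  mellinConvergent_of_isBigO_rpow_exp one_pos (locallyIntegrableOn_ker hz hz1) ker_isBigO_top
    (ker_isBigO_zero hz hz1) hs

theorem differentiableAt_mellin_ker (hz : ‖z‖ = 1) (hz1 : z ≠ 1) {s : ℂ} (hs : 0 < s.re) :
    DifferentiableAt ℂ (mellin (ker z)) s :=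
  mellin_differentiableAt_of_isBigO_rpow_exp one_pos (locallyIntegrableOn_ker hz hz1)
    ker_isBigO_top (ker_isBigO_zero hz hz1) hs

theorem mellin_ker_one (hz : ‖z‖ = 1) (hz1 : z ≠ 1) : mellin (ker z) 1 = z / (1 - z) := by
  have hint := mellinConvergent_ker hz hz1 (s := 1) (by norm_num)
  have hint' : IntegrableOn (ker z) (Ioi 0) := by
    refine hint.congr_fun (fun t _ => ?_) measurableSet_Ioi
    simp
  have h1 := integral_Ioi_of_hasDerivAt_of_tendsto (f := prim₀ z) (f' := ker z) (a := 0) (m := 0)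
    (hasDerivAt_prim₀ hz hz1 le_rfl).continuousAt.continuousWithinAt
    (fun t ht => hasDerivAt_prim₀ hz hz1 (le_of_lt ht)) hint' tendsto_prim₀
  rw [mellin]
  have h2 : ∫ t in Ioi (0 : ℝ), (t : ℂ) ^ ((1 : ℂ) - 1) • ker z t = ∫ t in Ioi (0 : ℝ), ker z t := by
    refine setIntegral_congr_fun measurableSet_Ioi fun t _ => ?_
    simp
  rw [h2, h1, prim₀]
  simp

theorem mellin_ker_two (hz : ‖z‖ = 1) (hz1 : z ≠ 1) :
    mellin (ker z) 2 = -Complex.log (1 - z) := by
  have hint := mellinConvergent_ker hz hz1 (s := 2) (by norm_num)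
  have hint' : IntegrableOn (fun t : ℝ => (t : ℂ) * ker z t) (Ioi 0) := by
    refine hint.congr_fun (fun t _ => ?_) measurableSet_Ioi
    have e : (2 : ℂ) - 1 = 1 := by norm_num
    rw [e]
    simp
  have h1 := integral_Ioi_of_hasDerivAt_of_tendsto (f := prim₁ z)
    (f' := fun t : ℝ => (t : ℂ) * ker z t) (a := 0) (m := 0)
    (hasDerivAt_prim₁ hz hz1 le_rfl).continuousAt.continuousWithinAt
    (fun t ht => hasDerivAt_prim₁ hz hz1 (le_of_lt ht)) hint' tendsto_prim₁
  rw [mellin]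
  have h2 : ∫ t in Ioi (0 : ℝ), (t : ℂ) ^ ((2 : ℂ) - 1) • ker z t =
      ∫ t in Ioi (0 : ℝ), (t : ℂ) * ker z t := by
    refine setIntegral_congr_fun measurableSet_Ioi fun t _ => ?_
    have e : (2 : ℂ) - 1 = 1 := by norm_num
    simp only [e]
    simp
  rw [h2, h1, prim₁, prim₀]
  simp

end Mellin

section ExpZeta

variable {a : ℝ}

theorem norm_exp_two_pi (a : ℝ) : ‖cexp (2 * Real.pi * I * a)‖ = 1 := by
  have : (2 * Real.pi * I * a : ℂ) = ((2 * Real.pi * a : ℝ) : ℂ) * I := by push_cast; ring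
  rw [this, norm_exp_ofReal_mul_I]

theorem exp_ne_one (ha : (a : UnitAddCircle) ≠ 0) : cexp (2 * Real.pi * I * a) ≠ 1 := by
  intro h
  rw [Complex.exp_eq_one_iff] at h
  obtain ⟨n, hn⟩ := h
  apply ha
  have h2 : (a : ℂ) = n := by
    have h3 : (2 * Real.pi * I : ℂ) ≠ 0 := Complex.two_pi_I_ne_zero
    apply mul_left_cancel₀ h3
    rw [hn]
    ring
  have h4 : a = n := by exact_mod_cast h2
  rw [AddCircle.coe_eq_zero_iff]
  exact ⟨n, by rw [h4]; simp⟩

/-- `Γ(s + 1) Σ zⁿ / nˢ` as a Mellin transform, `Re s > 1`. -/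
theorem gamma_mul_expZeta_of_one_lt (a : ℝ) {s : ℂ} (hs : 1 < s.re) :
    Gamma (s + 1) * expZeta a s = mellin (ker (cexp (2 * Real.pi * I * a))) (s + 1) := by
  set z := cexp (2 * Real.pi * I * a) with hz
  have hz1 : ‖z‖ = 1 := norm_exp_two_pi a
  have h1 := hasSum_mellin (ι := ℕ) (a := fun n : ℕ => (n : ℂ) * z ^ n) (p := fun n : ℕ => (n : ℝ))
    (F := ker z) (s := s + 1) (fun n => by
      rcases Nat.eq_zero_or_pos n with rfl | hn
      · left; simp
      · right; exact_mod_cast hn)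
    (by rw [add_re, one_re]; linarith)
    (fun t ht => hasSum_ker hz1 ht)
    (by
      have h2 : Summable fun n : ℕ => 1 / (n : ℝ) ^ s.re := Real.summable_one_div_nat_rpow.mpr hs
      refine h2.congr fun n => ?_
      rw [norm_mul, norm_pow, hz1, one_pow, mul_one, Complex.norm_natCast, add_re, one_re]
      rcases Nat.eq_zero_or_pos n with rfl | hn
      · have : s.re ≠ 0 := by linarith
        simp [Real.zero_rpow this]
      · have hn' : (0 : ℝ) < n := by exact_mod_cast hn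
        rw [Real.rpow_add hn', Real.rpow_one]
        field_simp)
  have h3 := (hasSum_expZeta_of_one_lt_re a hs).mul_left (Gamma (s + 1))
  refine h3.unique (h1.congr_fun fun n => ?_)
  rcases Nat.eq_zero_or_pos n with rfl | hn
  · have : s ≠ 0 := by rintro rfl; norm_num at hs
    simp [Complex.zero_cpow this]
  · have hn' : (n : ℂ) ≠ 0 := by exact_mod_cast hn.ne'
    rw [Complex.ofReal_natCast, Complex.cpow_add _ _ hn', Complex.cpow_one]
    have e : cexp (2 * Real.pi * I * a * n) = z ^ n := by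
      rw [hz, ← Complex.exp_nat_mul]
      congr 1
      ring
    rw [e]
    field_simp

/-- The same for `Re s > -1`. -/
theorem gamma_mul_expZeta (ha : (a : UnitAddCircle) ≠ 0) {s : ℂ} (hs : -1 < s.re) :
    Gamma (s + 1) * expZeta a s = mellin (ker (cexp (2 * Real.pi * I * a))) (s + 1) := by
  have hz := norm_exp_two_pi a
  have hz1 := exp_ne_one ha
  have hU : IsOpen {s : ℂ | -1 < s.re} := isOpen_lt continuous_const Complex.continuous_re
  have hc : IsPreconnected {s : ℂ | -1 < s.re} :=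
    (convex_halfSpace_re_gt (-1)).isPreconnected
  have hf : AnalyticOnNhd ℂ (fun s => Gamma (s + 1) * expZeta a s) {s : ℂ | -1 < s.re} := by
    refine DifferentiableOn.analyticOnNhd (fun s hs => ?_) hU
    refine (DifferentiableAt.mul ?_ ((differentiable_expZeta_of_ne_zero ha) s)).differentiableWithinAt
    refine (differentiableAt_Gamma (s + 1) fun m h => ?_).comp s (differentiableAt_id.add_const 1)
    have h1 := congrArg Complex.re h
    have h2 : -1 < s.re := hs
    simp only [add_re, one_re, neg_re, natCast_re] at h1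
    have : (0 : ℝ) ≤ m := Nat.cast_nonneg m
    linarith
  have hg : AnalyticOnNhd ℂ (fun s => mellin (ker (cexp (2 * Real.pi * I * a))) (s + 1))
      {s : ℂ | -1 < s.re} := by
    refine DifferentiableOn.analyticOnNhd (fun s hs => ?_) hU
    have h2 : -1 < s.re := hs
    exact ((differentiableAt_mellin_ker hz hz1 (s := s + 1) (by
      rw [add_re, one_re]; linarith)).comp s
        (differentiableAt_id.add_const 1)).differentiableWithinAt
  have h2 : (2 : ℂ) ∈ {s : ℂ | -1 < s.re} := by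
    change (-1 : ℝ) < (2 : ℂ).re
    norm_num
  refine hf.eqOn_of_preconnected_of_eventuallyEq hg hc h2 ?_ hs
  have h3 : {s : ℂ | 1 < s.re} ∈ 𝓝 (2 : ℂ) :=
    (isOpen_lt continuous_const Complex.continuous_re).mem_nhds (by
      change (1 : ℝ) < (2 : ℂ).re
      norm_num)
  filter_upwards [h3] with s hs
  exact gamma_mul_expZeta_of_one_lt a hs

/-- **The value at `s = 0`.** -/
theorem expZeta_zero (ha : (a : UnitAddCircle) ≠ 0) :
    expZeta a 0 = cexp (2 * Real.pi * I * a) / (1 - cexp (2 * Real.pi * I * a)) := by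
  have h := gamma_mul_expZeta ha (s := 0) (by norm_num)
  rw [zero_add, Complex.Gamma_one, one_mul, mellin_ker_one (norm_exp_two_pi a) (exp_ne_one ha)] at h
  exact h

/-- **The value at `s = 1`.** -/
theorem expZeta_one (ha : (a : UnitAddCircle) ≠ 0) :
    expZeta a 1 = -Complex.log (1 - cexp (2 * Real.pi * I * a)) := by
  have h := gamma_mul_expZeta ha (s := 1) (by norm_num)
  have hG : Gamma (1 + 1) = 1 := by
    rw [Complex.Gamma_add_one 1 one_ne_zero, Complex.Gamma_one, one_mul]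
  have e : (1 : ℂ) + 1 = 2 := by norm_num
  rw [hG, one_mul, e, mellin_ker_two (norm_exp_two_pi a) (exp_ne_one ha)] at h
  exact h

end ExpZeta

end Fermat.Agent.Cor.Diri
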