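import Fermat.Agent.Corollaries.Diri.FormIdeal

/-!
# Ideal classes and classes of binary quadratic forms

`K` imaginary quadratic with discriminant `d`: the proper equivalence classes of the (primitive)
positive definite forms of discriminant `d` correspond to the ideal classes; in particular
`h(K) = h(d)` is the number of reduced forms.
-/

set_option autoImplicit false

open Finset NumberField NumberField.Units NumberField.InfinitePlace Ideal
open Fermat.Agent.Cor.Ray (BForm)
open scoped nonZeroDivisors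

universe u

namespace Fermat.Agent.Cor.Diri

variable {K : Type u} [Field K] [NumberField K]

namespace Frame

variable (F : Frame K) {f g : BForm}

/-! ### Equivalent forms -/

theorem th_subst (hf : f.disc = discr K) {p q r t : ℤ} (hdet : p * t - q * r = 1)
    (hg : (f.subst p q r t).disc = discr K) :
    F.th hg = F.th hf - ((f.a * p * q + f.b * q * r + f.c * r * t : ℤ) : 𝓞 K) := by
  have h1 := F.two_th hg
  have h2 := F.two_th hf
  have hb : (((f.subst p q r t).b : ℤ) : 𝓞 K) =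
      2 * f.a * p * q + f.b * (p * t + q * r) + 2 * f.c * r * t := by
    simp only [BForm.subst]
    push_cast
    ring
  have hdet' : (p : 𝓞 K) * t - q * r = 1 := by exact_mod_cast congrArg (Int.cast : ℤ → 𝓞 K) hdet
  rw [hb] at h1
  refine mul_left_cancel₀ (two_ne_zero (α := 𝓞 K)) ?_
  push_cast
  linear_combination h1 - h2 - (f.b : 𝓞 K) * hdet'

/-- The ideals of properly equivalent forms are in the same class. -/
theorem span_mul_idl_of_subst (hf : f.disc = discr K) {p q r t : ℤ} (hdet : p * t - q * r = 1)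
    (hg : (f.subst p q r t).disc = discr K) :
    span {F.s ((p : 𝓞 K) * f.a - r * F.th hf)} * F.idl hf =
      span {(f.a : 𝓞 K)} * F.idl hg := by
  have hdet' : (p : 𝓞 K) * t - q * r = 1 := by exact_mod_cast congrArg (Int.cast : ℤ → 𝓞 K) hdet
  have hθ := F.th_mul_th hf
  have key1 : F.s ((p : 𝓞 K) * f.a - r * F.th hf) * ((p : 𝓞 K) * f.a - r * F.th hf) =
      f.a * ((f.subst p q r t).a : ℤ) := by
    have h1 := F.norm ((p : 𝓞 K) * f.a - r * F.th hf)
    rw [F.norm_comb] at h1
    rw [mul_comm, ← h1]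
    simp only [BForm.subst]
    push_cast
    ring
  have key2 : F.s ((p : 𝓞 K) * f.a - r * F.th hf) * (-(q : 𝓞 K) * f.a + t * F.th hf) =
      f.a * F.th hg := by
    rw [F.th_subst hf hdet hg, map_sub, map_mul, map_mul, map_intCast, map_intCast, map_intCast,
      F.s_th]
    push_cast
    linear_combination ((r : 𝓞 K) * t) * hθ + (f.a * F.th hf) * hdet'
  generalize F.s ((p : 𝓞 K) * f.a - r * F.th hf) = A at key1 key2 ⊢
  rw [Ideal.span_singleton_mul_eq_span_singleton_mul]
  constructor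
  · intro z hz
    obtain ⟨x, y, rfl⟩ := (F.mem_idl hf).mp hz
    refine ⟨((x * t - y * q : ℤ) : 𝓞 K) * ((f.subst p q r t).a : ℤ) -
      ((y * p - x * r : ℤ) : 𝓞 K) * F.th hg, (F.mem_idl hg).mpr ⟨_, _, rfl⟩, ?_⟩
    push_cast
    linear_combination ((x : 𝓞 K) * t - y * q) * key1 + ((x : 𝓞 K) * r - y * p) * key2 -
      (A * ((x : 𝓞 K) * f.a - y * F.th hf)) * hdet'
  · intro z hz
    obtain ⟨x, y, rfl⟩ := (F.mem_idl hg).mp hz
    refine ⟨((x * p + y * q : ℤ) : 𝓞 K) * f.a - ((x * r + y * t : ℤ) : 𝓞 K) * F.th hf,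
      (F.mem_idl hf).mpr ⟨_, _, rfl⟩, ?_⟩
    push_cast
    linear_combination (x : 𝓞 K) * key1 - (y : 𝓞 K) * key2

/-- Forms whose ideals are in the same class are properly equivalent. -/
theorem eqv_of_mul_eq (hd : discr K < 0) (hf : f.disc = discr K) (hg : g.disc = discr K)
    (ha : 0 < f.a) (ha' : 0 < g.a) {l m : 𝓞 K} (hl : l ≠ 0)
    (h : span {l} * F.idl hf = span {m} * F.idl hg) : f.Eqv g := by
  have hnorm : Algebra.norm ℤ l * f.a = Algebra.norm ℤ m * g.a := by
    have h1 := congrArg absNorm h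
    rw [map_mul, map_mul, absNorm_span_singleton, absNorm_span_singleton, F.absNorm_idl,
      F.absNorm_idl] at h1
    have h2 := F.norm_nonneg hd l
    have h3 := F.norm_nonneg hd m
    have h4 : (((Algebra.norm ℤ l).natAbs * f.a.natAbs : ℕ) : ℤ) =
        (((Algebra.norm ℤ m).natAbs * g.a.natAbs : ℕ) : ℤ) := by rw [h1]
    push_cast at h4
    rwa [abs_of_nonneg h2, abs_of_nonneg h3, abs_of_pos ha, abs_of_pos ha'] at h4
  have hnl : Algebra.norm ℤ l ≠ 0 := by rwa [Ne, Algebra.norm_eq_zero_iff]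
  obtain ⟨-, hgf⟩ := (Ideal.span_singleton_mul_eq_span_singleton_mul _ _).mp h
  obtain ⟨z, hz, hlz⟩ := hgf (g.a : 𝓞 K) (Ideal.subset_span (Set.mem_insert _ _))
  obtain ⟨w, hw, hlw⟩ := hgf (F.th hg) (Ideal.subset_span (Set.mem_insert_of_mem _ rfl))
  obtain ⟨P, R, rfl⟩ := (F.mem_idl hf).mp hz
  obtain ⟨Q', T', rfl⟩ := (F.mem_idl hf).mp hw
  obtain ⟨Q, rfl⟩ : ∃ Q, Q' = -Q := ⟨-Q', by ring⟩
  obtain ⟨T, rfl⟩ : ∃ T, T' = -T := ⟨-T', by ring⟩
  -- the values
  have hval : ∀ x y : ℤ, g.val x y = f.val (P * x + Q * y) (R * x + T * y) := by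
    intro x y
    have h1 : l * (((P * x + Q * y : ℤ) : 𝓞 K) * f.a - ((R * x + T * y : ℤ) : 𝓞 K) * F.th hf) =
        m * ((x : 𝓞 K) * g.a - y * F.th hg) := by
      push_cast at hlw ⊢
      linear_combination (x : 𝓞 K) * hlz - (y : 𝓞 K) * hlw
    have h2 := congrArg (Algebra.norm ℤ) h1
    rw [map_mul, map_mul, F.norm_comb, F.norm_comb, ← mul_assoc, ← mul_assoc, hnorm] at h2
    exact (mul_left_cancel₀ (by rw [← hnorm]; exact mul_ne_zero hnl ha.ne') h2).symm
  -- the orientation
  have hdet : P * T - Q * R = 1 := by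
    have e1 := congrArg F.s hlz
    have e2 := congrArg F.s hlw
    simp only [map_mul, map_sub, map_intCast] at e1 e2
    have h1 : (F.s l * (P * f.a - R * F.s (F.th hf))) *
        (l * (((-Q : ℤ) : 𝓞 K) * f.a - ((-T : ℤ) : 𝓞 K) * F.th hf)) =
          (F.s m * g.a) * (m * F.th hg) := by rw [e1, hlw]
    have h2 : (l * ((P : 𝓞 K) * f.a - R * F.th hf)) *
        (F.s l * (((-Q : ℤ) : 𝓞 K) * f.a - ((-T : ℤ) : 𝓞 K) * F.s (F.th hf))) =
          (m * g.a) * (F.s m * F.s (F.th hg)) := by rw [hlz, e2]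
    have n1 := F.norm l
    have n2 := F.norm m
    have d1 : F.th hf - F.s (F.th hf) = F.δ := by
      rw [F.s_th]
      linear_combination F.two_th hf
    have d2 : F.th hg - F.s (F.th hg) = F.δ := by
      rw [F.s_th]
      linear_combination F.two_th hg
    have h3 : ((Algebra.norm ℤ l * f.a * (P * T - Q * R) : ℤ) : 𝓞 K) * F.δ =
        ((Algebra.norm ℤ m * g.a : ℤ) : 𝓞 K) * F.δ := by
      push_cast at h1 h2 ⊢
      rw [n1, n2]
      linear_combination h1 - h2 -
        (l * F.s l * f.a * ((P : 𝓞 K) * T - Q * R)) * d1 + (m * F.s m * g.a) * d2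
    have h4 : ((Algebra.norm ℤ l * f.a * (P * T - Q * R) : ℤ) : 𝓞 K) =
        ((Algebra.norm ℤ m * g.a : ℤ) : 𝓞 K) := mul_right_cancel₀ F.δ_ne_zero h3
    have h5 : Algebra.norm ℤ l * f.a * (P * T - Q * R) = Algebra.norm ℤ l * f.a * 1 := by
      rw [mul_one, hnorm]
      rw [hnorm] at h4
      exact_mod_cast h4
    exact mul_left_cancel₀ (mul_ne_zero hnl ha.ne') h5
  refine ⟨P, Q, R, T, hdet, ?_⟩
  have h10 := hval 1 0
  have h01 := hval 0 1
  have h11 := hval 1 1
  simp only [BForm.val] at h10 h01 h11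
  ext
  · simp only [BForm.subst, BForm.val]
    linear_combination -h10
  · simp only [BForm.subst, BForm.val]
    linear_combination -h11 + h10 + h01
  · simp only [BForm.subst, BForm.val]
    linear_combination -h01

/-! ### Primitivity -/

include F in
/-- Every form whose discriminant is the discriminant of a quadratic field is primitive. -/
theorem prim (hf : f.disc = discr K) : f.Prim := by
  rintro q hq ⟨⟨a, ha⟩, ⟨b, hb⟩, ⟨c, hc⟩⟩
  have hq0 : (q : K) ≠ 0 := Nat.cast_ne_zero.mpr hq.ne_zero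
  have hθ : (algebraMap (𝓞 K) K (F.th hf)) * algebraMap (𝓞 K) K (F.th hf) =
      -((q : K) * b) * algebraMap (𝓞 K) K (F.th hf) - (q : K) * a * (q * c) := by
    have h1 := congrArg (algebraMap (𝓞 K) K) (F.th_mul_th hf)
    rw [ha, hb, hc] at h1
    simpa using h1
  have hint : IsIntegral ℤ (algebraMap (𝓞 K) K (F.th hf) / q) := by
    refine ⟨Polynomial.X ^ 2 + Polynomial.C b * Polynomial.X + Polynomial.C (a * c), ?_, ?_⟩
    · monicity!
    · rw [Polynomial.eval₂_add, Polynomial.eval₂_add, Polynomial.eval₂_X_pow,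
        Polynomial.eval₂_mul, Polynomial.eval₂_C, Polynomial.eval₂_C, Polynomial.eval₂_X]
      simp only [algebraMap_int_eq, eq_intCast, Int.cast_mul]
      field_simp
      linear_combination hθ
  obtain ⟨κ, hκ⟩ : ∃ κ : 𝓞 K, algebraMap (𝓞 K) K κ = algebraMap (𝓞 K) K (F.th hf) / q :=
    ⟨⟨_, hint⟩, rfl⟩
  obtain ⟨u, v, rfl⟩ := F.exists_comb hf κ
  have h1 : ((0 : ℤ) : 𝓞 K) + ((1 : ℤ) : 𝓞 K) * F.th hf =
      ((q * u : ℤ) : 𝓞 K) + ((q * v : ℤ) : 𝓞 K) * F.th hf := by
    apply FaithfulSMul.algebraMap_injective (𝓞 K) K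
    have h2 : algebraMap (𝓞 K) K (F.th hf) =
        (q : K) * algebraMap (𝓞 K) K ((u : 𝓞 K) + v * F.th hf) := by
      rw [hκ]
      field_simp
    simp only [map_add, map_mul, map_intCast, Int.cast_zero, Int.cast_one, zero_add, one_mul,
      Int.cast_mul, Int.cast_natCast, map_natCast] at h2 ⊢
    linear_combination h2
  obtain ⟨-, h3⟩ := F.comb_inj hf h1
  have h4 : IsUnit (q : ℤ) := IsUnit.of_mul_eq_one _ h3.symm
  rw [Int.isUnit_iff] at h4
  have := hq.two_le
  omega

end Frame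

end Fermat.Agent.Cor.Diri
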