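import Fermat.Agent.Corollaries.Diri.FormClass

/-!
# The form class number and Dirichlet's formula for the number of representations

`K` imaginary quadratic with discriminant `d`: `h(K)` is the number of reduced forms of
discriminant `d`, and the total number of representations of `n ≥ 1` by these forms is
`w Σ_{m ∣ n} (d/m)`.
-/

set_option autoImplicit false

open Finset NumberField NumberField.Units NumberField.InfinitePlace Ideal
open Fermat.Agent.Cor.Ray (BForm)
open scoped nonZeroDivisors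

universe u

namespace Fermat.Agent.Cor.Diri

variable {K : Type u} [Field K] [NumberField K]

namespace Frame

variable (F : Frame K) {f g : BForm}

/-- An ideal which is not contained in `q 𝓞_K`, `q ≥ 2`, is the ideal of a form. -/
theorem exists_form (h2 : Module.finrank ℚ K = 2) {I : Ideal (𝓞 K)} (hI : I ≠ ⊥)
    (hprim : ∀ q : ℕ, 2 ≤ q → ¬ I ≤ span {(q : 𝓞 K)}) :
    ∃ (f : BForm) (hf : f.disc = discr K), 0 < f.a ∧ F.idl hf = I := by
  obtain ⟨e, c, hec⟩ : ∃ e c : ℤ, e ^ 2 - 4 * c = discr K := by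
    rcases discr_mod_four h2 with h | h
    · exact ⟨0, -(discr K / 4), by omega⟩
    · exact ⟨1, -((discr K - 1) / 4), by omega⟩
  have hf0 : (⟨1, e, c⟩ : BForm).disc = discr K := by
    rw [BForm.disc, ← hec]
    ring
  obtain ⟨θ, hθ⟩ : ∃ θ, θ = F.th hf0 := ⟨_, rfl⟩
  have hcomb := F.exists_comb hf0
  have hθθ := F.th_mul_th hf0
  have hsθ := F.s_th hf0
  have h2θ := F.two_th hf0
  rw [← hθ] at hθθ hsθ h2θ
  simp only [← hθ] at hcomb
  simp only [Int.cast_one, one_mul] at hθθ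
  -- the ideal of the coefficients of `θ`
  let G : Ideal ℤ :=
    { carrier := {y : ℤ | ∃ x : ℤ, (x : 𝓞 K) + y * θ ∈ I}
      add_mem' := by
        rintro y y' ⟨x, hx⟩ ⟨x', hx'⟩
        refine ⟨x + x', ?_⟩
        have h3 := I.add_mem hx hx'
        have h4 : ((x + x' : ℤ) : 𝓞 K) + ((y + y' : ℤ) : 𝓞 K) * θ =
            (x : 𝓞 K) + y * θ + (x' + y' * θ) := by push_cast; ring
        rwa [h4]
      zero_mem' := ⟨0, by
        rw [Int.cast_zero, zero_mul, add_zero]
        exact I.zero_mem⟩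
      smul_mem' := by
        rintro k y ⟨x, hx⟩
        refine ⟨k * x, ?_⟩
        have h3 := I.mul_mem_left (k : 𝓞 K) hx
        have h4 : ((k * x : ℤ) : 𝓞 K) + ((k • y : ℤ) : 𝓞 K) * θ = (k : 𝓞 K) * (x + y * θ) := by
          rw [smul_eq_mul]
          push_cast
          ring
        rwa [h4] }
  obtain ⟨gg, hgg⟩ := (IsPrincipalIdealRing.principal G).principal
  have hGmem : ∀ y : ℤ, (∃ x : ℤ, (x : 𝓞 K) + y * θ ∈ I) ↔ gg ∣ y := by
    intro y
    have h3 : y ∈ G ↔ y ∈ span {gg} := by rw [hgg]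
    rw [Ideal.mem_span_singleton] at h3
    exact h3
  have hle : I ≤ span {(gg : 𝓞 K)} := by
    intro z hz
    obtain ⟨x, y, rfl⟩ := hcomb z
    obtain ⟨k, hk⟩ := (hGmem y).mp ⟨x, hz⟩
    have h3 : ((-(c * y) : ℤ) : 𝓞 K) + ((x - e * y : ℤ) : 𝓞 K) * θ ∈ I := by
      have h4 := I.mul_mem_left θ hz
      have h5 : ((-(c * y) : ℤ) : 𝓞 K) + ((x - e * y : ℤ) : 𝓞 K) * θ =
          θ * ((x : 𝓞 K) + y * θ) := by
        push_cast
        linear_combination (-(y : 𝓞 K)) * hθθ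
      rwa [h5]
    obtain ⟨k', hk'⟩ := (hGmem _).mp ⟨_, h3⟩
    rw [Ideal.mem_span_singleton']
    refine ⟨((k' + e * k : ℤ) : 𝓞 K) + k * θ, ?_⟩
    have hx : x = gg * (k' + e * k) := by
      have : x = gg * k' + e * y := by omega
      rw [this, hk]
      ring
    rw [hk, hx]
    push_cast
    ring
  have hgg1 : gg.natAbs = 1 := by
    rcases Nat.lt_or_ge gg.natAbs 2 with h3 | h3
    · rcases (by omega : gg.natAbs = 0 ∨ gg.natAbs = 1) with h4 | h4
      · exfalso
        rw [Int.natAbs_eq_zero] at h4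
        rw [h4, Int.cast_zero, Ideal.span_singleton_zero] at hle
        exact hI (le_bot_iff.mp hle)
      · exact h4
    · exfalso
      refine hprim gg.natAbs h3 (hle.trans ?_)
      rw [Ideal.span_singleton_le_span_singleton]
      have h4 : ((gg.natAbs : ℤ) : 𝓞 K) ∣ (gg : 𝓞 K) := by
        obtain ⟨k, hk⟩ : ((gg.natAbs : ℤ)) ∣ gg := Int.natAbs_dvd.mpr dvd_rfl
        exact ⟨(k : 𝓞 K), by exact_mod_cast congrArg (Int.cast : ℤ → 𝓞 K) hk⟩
      simpa using h4
  obtain ⟨x₀, hx₀⟩ := (hGmem 1).mpr (by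
    rw [← Int.natAbs_dvd, hgg1]
    exact one_dvd _)
  rw [Int.cast_one, one_mul] at hx₀
  -- `I ∩ ℤ`
  obtain ⟨A, hA⟩ := (IsPrincipalIdealRing.principal (I.comap (Int.castRingHom (𝓞 K)))).principal
  have hAmem : ∀ n : ℤ, ((n : ℤ) : 𝓞 K) ∈ I ↔ A ∣ n := by
    intro n
    have h3 : n ∈ I.comap (Int.castRingHom (𝓞 K)) ↔ n ∈ span {A} := by rw [hA]
    rw [Ideal.mem_comap, Ideal.mem_span_singleton, eq_intCast] at h3
    exact h3
  have hA0 : A ≠ 0 := by
    intro h
    have h3 : (((absNorm I : ℕ) : ℤ) : 𝓞 K) ∈ I := by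
      rw [Int.cast_natCast]
      exact Ideal.absNorm_mem I
    rw [hAmem, h, zero_dvd_iff] at h3
    have h4 : absNorm I = 0 := by exact_mod_cast h3
    exact hI (Ideal.absNorm_eq_zero_iff.mp h4)
  -- the form
  have hN : (((x₀ ^ 2 - e * x₀ + c : ℤ)) : 𝓞 K) ∈ I := by
    have h3 := I.mul_mem_right (F.s ((x₀ : 𝓞 K) + θ)) hx₀
    have h4 : ((x₀ : 𝓞 K) + θ) * F.s ((x₀ : 𝓞 K) + θ) = ((x₀ ^ 2 - e * x₀ + c : ℤ) : 𝓞 K) := by
      rw [map_add, map_intCast, hsθ]
      push_cast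
      linear_combination -hθθ
    rwa [h4] at h3
  obtain ⟨c', hc'⟩ : |A| ∣ x₀ ^ 2 - e * x₀ + c := (abs_dvd _ _).mpr ((hAmem _).mp hN)
  have hf : (⟨|A|, e - 2 * x₀, c'⟩ : BForm).disc = discr K := by
    rw [BForm.disc, ← hec]
    linear_combination 4 * hc'
  have hth : F.th hf = (x₀ : 𝓞 K) + θ := by
    have h3 := F.two_th hf
    simp only [Int.cast_sub, Int.cast_mul, Int.cast_ofNat] at h3
    refine mul_left_cancel₀ (two_ne_zero (α := 𝓞 K)) ?_
    linear_combination h3 - h2θ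
  refine ⟨⟨|A|, e - 2 * x₀, c'⟩, hf, abs_pos.mpr hA0, le_antisymm ?_ ?_⟩
  · rw [idl, Ideal.span_le]
    rintro z (rfl | rfl)
    · exact (hAmem _).mpr ((dvd_abs _ _).mpr dvd_rfl)
    · rw [hth]
      exact hx₀
  · intro z hz
    obtain ⟨u, v, rfl⟩ := F.exists_comb hf z
    have h3 : (u : 𝓞 K) ∈ I := by
      have h4 := I.sub_mem hz (I.mul_mem_left (v : 𝓞 K) hx₀)
      rwa [← hth, add_sub_cancel_right] at h4
    obtain ⟨k, hk⟩ : |A| ∣ u := (abs_dvd _ _).mpr ((hAmem _).mp h3)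
    refine (F.mem_idl hf).mpr ⟨k, -v, ?_⟩
    rw [hk]
    push_cast
    ring

/-- The ideal class of a form. -/
noncomputable def cls (f : BForm.PForm (discr K)) : ClassGroup (𝓞 K) :=
  ClassGroup.mk0 ⟨F.idl f.2.2.1, mem_nonZeroDivisors_of_ne_zero
    (F.idl_ne_bot f.2.2.1 f.2.2.2.ne')⟩

theorem cls_eq_iff (hd : discr K < 0) (f g : BForm.PForm (discr K)) :
    F.cls f = F.cls g ↔ f.1.Eqv g.1 := by
  constructor
  · intro h
    obtain ⟨l, m, hl, -, h3⟩ := ClassGroup.mk0_eq_mk0_iff.mp h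
    exact F.eqv_of_mul_eq hd f.2.2.1 g.2.2.1 f.2.2.2 g.2.2.2 hl h3
  · intro h
    obtain ⟨f, hfp, hf, ha⟩ := f
    obtain ⟨g, hgp, hg, ha'⟩ := g
    obtain ⟨p, q, r, t, hdet, h3⟩ := h
    simp only at h3
    subst h3
    refine ClassGroup.mk0_eq_mk0_iff.mpr ⟨_, _, ?_, ?_, F.span_mul_idl_of_subst hf hdet hg⟩
    · intro h0
      have h1 : ((p : 𝓞 K) * f.a - r * F.th hf) = 0 := (map_eq_zero_iff F.s F.s.injective).mp h0
      have h4 := F.norm_comb hf p r
      rw [h1, Algebra.norm_zero] at h4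
      have h5 : f.val p r ≠ 0 := by
        have h6 : (f.subst p q r t).a = f.val p r := rfl
        rw [← h6]
        exact ha'.ne'
      exact (mul_ne_zero ha.ne' h5) h4.symm
    · exact_mod_cast ha.ne'

theorem cls_surjective (h2 : Module.finrank ℚ K = 2) : Function.Surjective F.cls := by
  classical
  intro C
  have hex : ∃ n : ℕ, ∃ I : (Ideal (𝓞 K))⁰, ClassGroup.mk0 I = C ∧
      absNorm (I : Ideal (𝓞 K)) = n := by
    obtain ⟨I, hI⟩ := ClassGroup.mk0_surjective C
    exact ⟨_, I, hI, rfl⟩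
  obtain ⟨I, hIC, hIn⟩ := Nat.find_spec hex
  have hmin : ∀ J : (Ideal (𝓞 K))⁰, ClassGroup.mk0 J = C →
      absNorm (I : Ideal (𝓞 K)) ≤ absNorm (J : Ideal (𝓞 K)) := by
    intro J hJ
    rw [hIn]
    exact Nat.find_min' hex ⟨J, hJ, rfl⟩
  have hI0 : (I : Ideal (𝓞 K)) ≠ ⊥ := nonZeroDivisors.coe_ne_zero I
  obtain ⟨f, hf, ha, hfI⟩ := F.exists_form h2 hI0 (by
    intro q hq hle
    obtain ⟨J, hJ⟩ := Ideal.dvd_iff_le.mpr hle
    have hJ0 : J ≠ ⊥ := by
      rintro rfl
      rw [Ideal.mul_bot] at hJ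
      exact hI0 hJ
    have hJC : ClassGroup.mk0 ⟨J, mem_nonZeroDivisors_of_ne_zero hJ0⟩ = C := by
      rw [← hIC, eq_comm, ClassGroup.mk0_eq_mk0_iff]
      refine ⟨1, (q : 𝓞 K), one_ne_zero, Nat.cast_ne_zero.mpr (by omega), ?_⟩
      rw [Ideal.span_singleton_one, Ideal.top_mul]
      exact hJ
    have h3 := hmin _ hJC
    simp only at h3
    rw [hJ, map_mul, absNorm_span_singleton] at h3
    have hJpos : 0 < absNorm J := Nat.pos_of_ne_zero (by
      rw [Ne, Ideal.absNorm_eq_zero_iff]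
      exact hJ0)
    have h4 : 2 ≤ (Algebra.norm ℤ (q : 𝓞 K)).natAbs := by
      have h5 : Algebra.norm ℤ ((q : ℕ) : 𝓞 K) = (q : ℤ) ^ 2 := by
        have h6 := F.norm ((q : ℕ) : 𝓞 K)
        rw [map_natCast F.s] at h6
        have h7 : ((Algebra.norm ℤ ((q : ℕ) : 𝓞 K) : ℤ) : 𝓞 K) = (((q : ℤ) ^ 2 : ℤ) : 𝓞 K) := by
          rw [h6]
          push_cast
          ring
        exact_mod_cast h7
      rw [h5, Int.natAbs_pow, Int.natAbs_natCast]
      nlinarith
    nlinarith)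
  refine ⟨⟨f, F.prim hf, hf, ha⟩, ?_⟩
  rw [← hIC, cls]
  congr 1
  exact Subtype.ext hfI

/-- **Gauss' correspondence**: the proper equivalence classes of primitive positive definite forms
of discriminant `d` and the ideal classes of the imaginary quadratic field of discriminant `d`. -/
noncomputable def classEquiv (h2 : Module.finrank ℚ K = 2) (hd : discr K < 0) :
    Quotient (BForm.setoid (discr K)) ≃ ClassGroup (𝓞 K) :=
  Equiv.ofBijective (Quotient.lift F.cls fun f g h => (F.cls_eq_iff hd f g).mpr h) (by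
    constructor
    · intro x y
      refine Quotient.inductionOn₂ x y fun f g h => ?_
      exact Quotient.sound ((F.cls_eq_iff hd f g).mp h)
    · intro C
      obtain ⟨f, hf⟩ := F.cls_surjective h2 C
      exact ⟨Quotient.mk _ f, hf⟩)

end Frame

/-- **The class number of an imaginary quadratic field is the number of proper equivalence classes
of primitive positive definite forms of discriminant `d`.** -/
theorem classNumber_eq_hForm (h2 : Module.finrank ℚ K = 2) (hd : discr K < 0) :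
    classNumber K = BForm.hForm (discr K) := by
  obtain ⟨F⟩ := exists_frame h2
  rw [BForm.hForm, Nat.card_congr (F.classEquiv h2 hd), classNumber, Nat.card_eq_fintype_card]

end Fermat.Agent.Cor.Diri
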