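import Fermat.Agent.Corollaries.Diri.Reps
import Fermat.Agent.Corollaries.Ray.ClassNum

/-!
# Binary quadratic forms and ideals of an imaginary quadratic field

`K` imaginary quadratic with discriminant `d`. A form `f = (a, b, c)` of discriminant `d` gives
`θ_f = (-b + √d)/2` and the ideal `ℤ a + ℤ θ_f`; the proper equivalence classes of the positive
definite forms of discriminant `d` correspond to the ideal classes of `K`.
-/

set_option autoImplicit false

open Finset NumberField NumberField.Units NumberField.InfinitePlace Ideal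
open Fermat.Agent.Cor.Ray (BForm)
open scoped nonZeroDivisors

universe u

namespace Fermat.Agent.Cor.Diri

variable {K : Type u} [Field K] [NumberField K]

/-- The conjugation and `√d` in the ring of integers of a quadratic field. -/
structure Frame (K : Type u) [Field K] [NumberField K] where
  /-- the conjugation -/
  s : 𝓞 K ≃+* 𝓞 K
  /-- the square root of the discriminant -/
  δ : 𝓞 K
  norm : ∀ x : 𝓞 K, ((Algebra.norm ℤ x : ℤ) : 𝓞 K) = x * s x
  sq : δ ^ 2 = ((discr K : ℤ) : 𝓞 K)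
  conj : s δ = -δ
  half : ∀ e c : ℤ, e ^ 2 - 4 * c = discr K → ∃ ω : 𝓞 K, 2 * ω = (e : 𝓞 K) + δ
  all : ∀ α : 𝓞 K, ∃ a b : ℤ, 2 * α = (a : 𝓞 K) + b * δ

theorem exists_frame (h2 : Module.finrank ℚ K = 2) : Nonempty (Frame K) := by
  obtain ⟨s, hs1, hs2⟩ := exists_conj' h2
  obtain ⟨δ, hδ, hall, t, β, hβ⟩ := exists_delta h2
  have hd0 : discr K ≠ 0 := discr_ne_zero K
  have h20 : (2 : 𝓞 K) ≠ 0 := two_ne_zero
  have hsδ : s δ = -δ := by
    have h3 : (s δ) ^ 2 = δ ^ 2 := by rw [← map_pow, hδ, map_intCast]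
    rcases sq_eq_sq_iff_eq_or_eq_neg.mp h3 with h4 | h4
    · exfalso
      have hsid : ∀ α : 𝓞 K, s α = α := by
        intro α
        obtain ⟨a, b, hab⟩ := hall α
        have h5 := congrArg s hab
        rw [map_mul, map_add, map_mul, map_intCast, map_intCast, h4, map_ofNat, ← hab] at h5
        exact mul_left_cancel₀ h20 h5
      have hrank := (RingOfIntegers.rank K).trans h2
      have hle : Module.finrank ℤ (𝓞 K) ≤ 1 := by
        have hinj : Function.Injective (Algebra.trace ℤ (𝓞 K)) := by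
          intro a b hab
          have h10 : ((Algebra.trace ℤ (𝓞 K) a : ℤ) : 𝓞 K) =
              ((Algebra.trace ℤ (𝓞 K) b : ℤ) : 𝓞 K) := by rw [hab]
          rw [hs1, hs1, hsid, hsid, ← two_mul, ← two_mul] at h10
          exact mul_left_cancel₀ h20 h10
        have := LinearMap.finrank_le_finrank_of_injective hinj
        rwa [Module.finrank_self] at this
      omega
    · exact h4
  refine ⟨⟨s, δ, hs2, hδ, hsδ, fun e c hec => ?_, hall⟩⟩
  have hpar : (2 : ℤ) ∣ e - t := by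
    have h3 : ((discr K - t ^ 2 : ℤ) : 𝓞 K) = ((4 : ℤ) : 𝓞 K) * (β ^ 2 - t * β) := by
      push_cast
      rw [← hδ, hβ]
      ring
    obtain ⟨q, hq⟩ : (4 : ℤ) ∣ discr K - t ^ 2 := by
      have h4 := hs2 β
      have hsβ : s β = (t : 𝓞 K) - β := by
        have h6 := congrArg s hβ
        rw [hsδ, map_sub, map_mul, map_intCast, map_ofNat, hβ] at h6
        have h7 : (2 : 𝓞 K) * s β = 2 * ((t : 𝓞 K) - β) := by linear_combination h6
        exact mul_left_cancel₀ h20 h7
      refine ⟨-Algebra.norm ℤ β, ?_⟩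
      have h8 : ((discr K - t ^ 2 : ℤ) : 𝓞 K) = ((4 * -Algebra.norm ℤ β : ℤ) : 𝓞 K) := by
        rw [h3]
        push_cast
        rw [h4, hsβ]
        ring
      exact_mod_cast h8
    have h4 : (2 : ℤ) ∣ (e - t) * (e + t) := ⟨2 * c + 2 * q, by linear_combination hec + hq⟩
    rcases Int.prime_two.dvd_or_dvd h4 with h5 | h5
    · exact h5
    · have h6 : e - t = (e + t) - 2 * t := by ring
      rw [h6]
      exact dvd_sub h5 (Dvd.intro _ rfl)
  obtain ⟨k, hk⟩ := hpar
  refine ⟨(k : 𝓞 K) + t - β, ?_⟩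
  have h3 : (e : 𝓞 K) = 2 * k + t := by
    have : e = 2 * k + t := by omega
    rw [this]
    push_cast
    ring
  rw [h3, hβ]
  ring

namespace Frame

variable (F : Frame K)

theorem δ_ne_zero : F.δ ≠ 0 := by
  intro h
  have h3 := F.sq
  rw [h, zero_pow two_ne_zero] at h3
  exact discr_ne_zero K (by exact_mod_cast h3.symm)

include F in
theorem norm_nonneg (hd : discr K < 0) (α : 𝓞 K) : 0 ≤ Algebra.norm ℤ α := by
  obtain ⟨a, b, hab⟩ := F.all α
  have h3 := congrArg F.s hab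
  rw [map_mul, map_add, map_mul, map_intCast, map_intCast, F.conj, map_ofNat] at h3
  have h4 : ((4 * Algebra.norm ℤ α : ℤ) : 𝓞 K) = ((a ^ 2 - b ^ 2 * discr K : ℤ) : 𝓞 K) := by
    push_cast
    rw [F.norm, ← F.sq]
    linear_combination (2 * F.s α) * hab + ((a : 𝓞 K) + b * F.δ) * h3
  have h5 : 4 * Algebra.norm ℤ α = a ^ 2 - b ^ 2 * discr K := by exact_mod_cast h4
  have h6 : 0 ≤ a ^ 2 + b ^ 2 * (-discr K) :=
    add_nonneg (sq_nonneg _) (mul_nonneg (sq_nonneg _) (by omega))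
  linarith

variable {f g : BForm}

/-- `θ_f = (-b + √d)/2` -/
noncomputable def th (hf : f.disc = discr K) : 𝓞 K :=
  (F.half (-f.b) (f.a * f.c) (by rw [← hf, BForm.disc]; ring)).choose

theorem two_th (hf : f.disc = discr K) : 2 * F.th hf = -(f.b : 𝓞 K) + F.δ := by
  have := (F.half (-f.b) (f.a * f.c) (by rw [← hf, BForm.disc]; ring)).choose_spec
  exact this.trans (by push_cast; ring)

theorem s_th (hf : f.disc = discr K) : F.s (F.th hf) = -(f.b : 𝓞 K) - F.th hf := by
  have h3 := congrArg F.s (F.two_th hf)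
  rw [map_mul, map_add, map_ofNat, map_neg, map_intCast, F.conj] at h3
  refine mul_left_cancel₀ (two_ne_zero (α := 𝓞 K)) ?_
  linear_combination h3 + F.two_th hf

theorem th_mul_th (hf : f.disc = discr K) :
    F.th hf * F.th hf = -(f.b : 𝓞 K) * F.th hf - (f.a : 𝓞 K) * f.c := by
  have h3 : (f.b : 𝓞 K) ^ 2 - 4 * f.a * f.c = F.δ ^ 2 := by
    rw [F.sq, ← hf, BForm.disc]
    push_cast
    ring
  refine mul_left_cancel₀ (mul_ne_zero (two_ne_zero (α := 𝓞 K)) (two_ne_zero (α := 𝓞 K))) ?_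
  linear_combination (2 * F.th hf + f.b + F.δ) * F.two_th hf - h3

theorem exists_comb (hf : f.disc = discr K) (α : 𝓞 K) :
    ∃ x y : ℤ, α = (x : 𝓞 K) + y * F.th hf := by
  obtain ⟨a, b, hab⟩ := F.all α
  have h20 : (2 : 𝓞 K) ≠ 0 := two_ne_zero
  have h3 : 2 * (α - b * F.th hf) = ((a + b * f.b : ℤ) : 𝓞 K) := by
    push_cast
    linear_combination hab - (b : 𝓞 K) * F.two_th hf
  have h4 : (2 : ℤ) ∣ a + b * f.b := by
    have h5 := F.norm (α - b * F.th hf)
    have h6 : F.s (α - b * F.th hf) = α - b * F.th hf := by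
      have h7 := congrArg F.s h3
      rw [map_mul, map_ofNat, map_intCast, ← h3] at h7
      exact mul_left_cancel₀ h20 h7
    rw [h6] at h5
    have h7 : (((a + b * f.b) ^ 2 : ℤ) : 𝓞 K) =
        ((4 * Algebra.norm ℤ (α - b * F.th hf) : ℤ) : 𝓞 K) := by
      push_cast
      rw [h5]
      push_cast at h3
      rw [← h3]
      ring
    have h8 : (a + b * f.b) ^ 2 = 4 * Algebra.norm ℤ (α - b * F.th hf) := by exact_mod_cast h7
    exact Int.prime_two.dvd_of_dvd_pow (n := 2) ⟨2 * Algebra.norm ℤ (α - b * F.th hf), by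
      rw [h8]; ring⟩
  obtain ⟨x, hx⟩ := h4
  refine ⟨x, b, mul_left_cancel₀ h20 ?_⟩
  rw [hx] at h3
  push_cast at h3
  linear_combination h3

theorem comb_inj (hf : f.disc = discr K) {x y x' y' : ℤ}
    (h : (x : 𝓞 K) + y * F.th hf = x' + y' * F.th hf) : x = x' ∧ y = y' := by
  have h3 := congrArg F.s h
  rw [map_add, map_add, map_mul, map_mul, map_intCast, map_intCast, map_intCast, map_intCast,
    F.s_th] at h3
  have h4 : ((y : 𝓞 K) - y') * F.δ = 0 := by
    linear_combination h - h3 - ((y : 𝓞 K) - y') * F.two_th hf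
  have h5 : (y : 𝓞 K) - y' = 0 := (mul_eq_zero.mp h4).resolve_right F.δ_ne_zero
  have h6 : y = y' := by
    have : (y : 𝓞 K) = y' := sub_eq_zero.mp h5
    exact_mod_cast this
  subst h6
  have h7 : (x : 𝓞 K) = x' := add_right_cancel h
  exact ⟨by exact_mod_cast h7, rfl⟩

/-- the ideal of a form -/
noncomputable def idl (hf : f.disc = discr K) : Ideal (𝓞 K) := span {(f.a : 𝓞 K), F.th hf}

theorem mem_idl (hf : f.disc = discr K) {α : 𝓞 K} :
    α ∈ F.idl hf ↔ ∃ x y : ℤ, α = (x : 𝓞 K) * f.a - y * F.th hf := by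
  constructor
  · intro h
    obtain ⟨u, v, rfl⟩ := Ideal.mem_span_pair.mp h
    obtain ⟨u0, u1, rfl⟩ := F.exists_comb hf u
    obtain ⟨v0, v1, rfl⟩ := F.exists_comb hf v
    refine ⟨u0 - v1 * f.c, -(u1 * f.a + v0 - v1 * f.b), ?_⟩
    push_cast
    linear_combination (v1 : 𝓞 K) * F.th_mul_th hf
  · rintro ⟨x, y, rfl⟩
    exact Ideal.sub_mem _ (Ideal.mul_mem_left _ _ (Ideal.subset_span (Set.mem_insert _ _)))
      (Ideal.mul_mem_left _ _ (Ideal.subset_span (Set.mem_insert_of_mem _ rfl)))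

/-- `N(x a - y θ_f) = a f(x, y)` -/
theorem norm_comb (hf : f.disc = discr K) (x y : ℤ) :
    Algebra.norm ℤ ((x : 𝓞 K) * f.a - y * F.th hf) = f.a * f.val x y := by
  have h3 : ((Algebra.norm ℤ ((x : 𝓞 K) * f.a - y * F.th hf) : ℤ) : 𝓞 K) =
      ((f.a * f.val x y : ℤ) : 𝓞 K) := by
    rw [F.norm, map_sub, map_mul, map_mul, map_intCast, map_intCast, map_intCast, F.s_th,
      BForm.val]
    push_cast
    linear_combination (-(y : 𝓞 K) ^ 2) * F.th_mul_th hf
  exact_mod_cast h3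

theorem intCast_mem_idl (hf : f.disc = discr K) {n : ℤ} :
    ((n : ℤ) : 𝓞 K) ∈ F.idl hf ↔ f.a ∣ n := by
  constructor
  · intro h
    obtain ⟨x, y, hxy⟩ := (F.mem_idl hf).mp h
    have h3 : ((n : ℤ) : 𝓞 K) + ((0 : ℤ) : 𝓞 K) * F.th hf =
        ((x * f.a : ℤ) : 𝓞 K) + ((-y : ℤ) : 𝓞 K) * F.th hf := by
      rw [hxy]
      push_cast
      ring
    obtain ⟨h4, -⟩ := F.comb_inj hf h3
    exact ⟨x, by rw [h4]; ring⟩
  · rintro ⟨k, rfl⟩
    push_cast
    exact Ideal.mul_mem_right _ _ (Ideal.subset_span (Set.mem_insert _ _))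

/-- `N(𝔞_f) = |a|` -/
theorem absNorm_idl (hf : f.disc = discr K) : absNorm (F.idl hf) = f.a.natAbs := by
  let φ : ℤ →+* 𝓞 K ⧸ F.idl hf := (Ideal.Quotient.mk (F.idl hf)).comp (Int.castRingHom _)
  have hsurj : Function.Surjective φ := by
    intro q
    obtain ⟨z, rfl⟩ := Ideal.Quotient.mk_surjective q
    obtain ⟨x, y, rfl⟩ := F.exists_comb hf z
    refine ⟨x, ?_⟩
    rw [RingHom.comp_apply, eq_intCast, eq_comm, Ideal.Quotient.eq, add_sub_cancel_left]
    exact Ideal.mul_mem_left _ _ (Ideal.subset_span (Set.mem_insert_of_mem _ rfl))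
  have hker : RingHom.ker φ = span {f.a} := by
    ext n
    rw [RingHom.mem_ker, RingHom.comp_apply, eq_intCast, Ideal.Quotient.eq_zero_iff_mem,
      F.intCast_mem_idl, Ideal.mem_span_singleton]
  have h3 : absNorm (span {f.a} : Ideal ℤ) = f.a.natAbs := by
    rw [Ideal.absNorm_span_singleton, Algebra.norm_self]
    rfl
  rw [← h3, ← hker, absNorm_apply, absNorm_apply, Submodule.cardQuot_apply,
    Submodule.cardQuot_apply]
  exact (Nat.card_congr (RingHom.quotientKerEquivOfSurjective hsurj).toEquiv).symm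

theorem idl_ne_bot (hf : f.disc = discr K) (ha : f.a ≠ 0) : F.idl hf ≠ ⊥ := by
  intro h
  have h1 := F.absNorm_idl hf
  rw [h, Ideal.absNorm_bot] at h1
  exact ha (Int.natAbs_eq_zero.mp h1.symm)

end Frame

end Fermat.Agent.Cor.Diri
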