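import Fermat.Agent.Corollaries.Diri.FormCount
import Fermat.Agent.Corollaries.Diri.ClassOne

/-!
# Dirichlet's formula for the number of representations

`d < 0` a fundamental discriminant: the number of the `(f, x, y)`, `f` a reduced positive definite
form of discriminant `d`, with `f(x, y) = n`, is `w Σ_{m ∣ n} (d/m)`, for every `n ≥ 1`.
-/

set_option autoImplicit false

open Finset NumberField NumberField.Units NumberField.InfinitePlace Ideal
open Fermat.Agent.Cor.Ray (BForm)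
open scoped nonZeroDivisors

universe u

namespace Fermat.Agent.Cor.Diri

variable {K : Type u} [Field K] [NumberField K]

/-- **Elements of an ideal and ideals of the inverse class.** -/
theorem exists_equiv_elements {𝔞 : Ideal (𝓞 K)} (h𝔞 : 𝔞 ≠ ⊥) {n : ℕ} (hn : n ≠ 0) :
    Nonempty ({α : 𝓞 K // α ∈ 𝔞 ∧ (Algebra.norm ℤ α).natAbs = absNorm 𝔞 * n} ≃
      {I : Ideal (𝓞 K) // absNorm I = n ∧ Submodule.IsPrincipal (I * 𝔞)} × (𝓞 K)ˣ) := by
  classical
  have hgen : ∀ I : {I : Ideal (𝓞 K) // absNorm I = n ∧ Submodule.IsPrincipal (I * 𝔞)},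
      ∃ g : 𝓞 K, I.1 * 𝔞 = span {g} := fun I => I.2.2.principal
  choose gen hg using hgen
  have h𝔞0 : absNorm 𝔞 ≠ 0 := by rwa [Ne, Ideal.absNorm_eq_zero_iff]
  have hng : ∀ I, (Algebra.norm ℤ (gen I)).natAbs = absNorm 𝔞 * n := by
    intro I
    rw [← Ideal.absNorm_span_singleton, ← hg I, map_mul, I.2.1, mul_comm]
  have hg0 : ∀ I, gen I ≠ 0 := by
    intro I h
    have := hng I
    rw [h, Algebra.norm_zero] at this
    exact mul_ne_zero h𝔞0 hn this.symm
  have hmem : ∀ (I : {I : Ideal (𝓞 K) // absNorm I = n ∧ Submodule.IsPrincipal (I * 𝔞)})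
      (u : (𝓞 K)ˣ), gen I * (u : 𝓞 K) ∈ 𝔞 ∧
        (Algebra.norm ℤ (gen I * (u : 𝓞 K))).natAbs = absNorm 𝔞 * n := by
    intro I u
    constructor
    · have h1 : gen I ∈ I.1 * 𝔞 := by
        rw [hg]
        exact Ideal.mem_span_singleton_self _
      have h2 : gen I ∈ 𝔞 := Ideal.mul_le_right h1
      exact Ideal.mul_mem_right _ _ h2
    · rw [← Ideal.absNorm_span_singleton, Ideal.span_singleton_mul_right_unit u.isUnit,
        Ideal.absNorm_span_singleton, hng]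
  refine ⟨(Equiv.ofBijective (fun x : {I : Ideal (𝓞 K) // absNorm I = n ∧
    Submodule.IsPrincipal (I * 𝔞)} × (𝓞 K)ˣ =>
      (⟨gen x.1 * (x.2 : 𝓞 K), hmem x.1 x.2⟩ :
        {α : 𝓞 K // α ∈ 𝔞 ∧ (Algebra.norm ℤ α).natAbs = absNorm 𝔞 * n})) ⟨?_, ?_⟩).symm⟩
  · rintro ⟨I, u⟩ ⟨J, v⟩ h
    have h1 : gen I * (u : 𝓞 K) = gen J * (v : 𝓞 K) := congrArg Subtype.val h
    have h2 : I = J := by
      apply Subtype.ext
      refine mul_right_cancel₀ (b := 𝔞) h𝔞 ?_
      rw [hg I, hg J, ← Ideal.span_singleton_mul_right_unit u.isUnit, h1,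
        Ideal.span_singleton_mul_right_unit v.isUnit]
    subst h2
    have h3 : (u : 𝓞 K) = v := mul_left_cancel₀ (hg0 I) h1
    rw [Units.ext h3]
  · rintro ⟨α, hα, hα'⟩
    obtain ⟨J, hJ⟩ := Ideal.dvd_span_singleton.mpr hα
    have hJn : absNorm J = n := by
      have h1 := congrArg absNorm hJ
      rw [Ideal.absNorm_span_singleton, hα', map_mul] at h1
      exact (Nat.eq_of_mul_eq_mul_left (Nat.pos_of_ne_zero h𝔞0) h1).symm
    let I : {I : Ideal (𝓞 K) // absNorm I = n ∧ Submodule.IsPrincipal (I * 𝔞)} :=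
      ⟨J, hJn, by
        rw [mul_comm, ← hJ]
        exact ⟨α, rfl⟩⟩
    have h1 : span {gen I} = span {α} := by
      rw [← hg I, hJ]
      exact mul_comm _ _
    obtain ⟨u, hu⟩ := Ideal.span_singleton_eq_span_singleton.mp h1
    exact ⟨(I, u), Subtype.ext hu⟩

namespace Frame

variable (F : Frame K) {f g : BForm}

/-- The representations of `n` by `f` and the elements of norm `a n` of the ideal. -/
theorem exists_equiv_val (hd : discr K < 0) (hf : f.disc = discr K) (ha : 0 < f.a) (n : ℕ) :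
    Nonempty ({v : ℤ × ℤ // f.val v.1 v.2 = n} ≃
      {α : 𝓞 K // α ∈ F.idl hf ∧ (Algebra.norm ℤ α).natAbs = absNorm (F.idl hf) * n}) := by
  rw [F.absNorm_idl]
  refine ⟨Equiv.ofBijective (fun v => ⟨(v.1.1 : 𝓞 K) * f.a - v.1.2 * F.th hf,
    (F.mem_idl hf).mpr ⟨_, _, rfl⟩, ?_⟩) ⟨?_, ?_⟩⟩
  · rw [F.norm_comb, v.2, Int.natAbs_mul, Int.natAbs_natCast]
  · rintro ⟨⟨x, y⟩, hv⟩ ⟨⟨x', y'⟩, hv'⟩ h
    have h1 : (x : 𝓞 K) * f.a - y * F.th hf = (x' : 𝓞 K) * f.a - y' * F.th hf :=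
      congrArg Subtype.val h
    have h2 : ((x * f.a : ℤ) : 𝓞 K) + ((-y : ℤ) : 𝓞 K) * F.th hf =
        ((x' * f.a : ℤ) : 𝓞 K) + ((-y' : ℤ) : 𝓞 K) * F.th hf := by
      push_cast
      linear_combination h1
    obtain ⟨h3, h4⟩ := F.comb_inj hf h2
    have h5 : x = x' := mul_right_cancel₀ ha.ne' h3
    have h6 : y = y' := neg_injective h4
    subst h5
    subst h6
    rfl
  · rintro ⟨α, hα, hα'⟩
    obtain ⟨x, y, rfl⟩ := (F.mem_idl hf).mp hα
    refine ⟨⟨(x, y), ?_⟩, rfl⟩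
    have h1 := F.norm_nonneg hd ((x : 𝓞 K) * f.a - y * F.th hf)
    rw [F.norm_comb] at h1 hα'
    have h2 : ((f.a * f.val x y).natAbs : ℤ) = ((f.a.natAbs * n : ℕ) : ℤ) := by rw [hα']
    rw [Int.natCast_natAbs, abs_of_nonneg h1] at h2
    push_cast at h2
    rw [abs_of_pos ha] at h2
    exact mul_left_cancel₀ ha.ne' h2

theorem isPrincipal_iff (f : BForm.PForm (discr K)) {I : Ideal (𝓞 K)} (hI : I ≠ ⊥) :
    Submodule.IsPrincipal (I * F.idl f.2.2.1) ↔
      F.cls f = (ClassGroup.mk0 ⟨I, mem_nonZeroDivisors_of_ne_zero hI⟩)⁻¹ := by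
  have h0 := F.idl_ne_bot f.2.2.1 f.2.2.2.ne'
  rw [← ClassGroup.mk0_eq_one_iff (mem_nonZeroDivisors_of_ne_zero (mul_ne_zero hI h0)),
    eq_inv_iff_mul_eq_one, cls, mul_comm (ClassGroup.mk0 _) (ClassGroup.mk0 _), ← map_mul]
  rfl

end Frame

/-- **Representations by one form**: `f` of discriminant `d`, `n ≥ 1`: the number of
representations of `n` by `f` is `w` times the number of the ideals of norm `n` in the class
inverse to the class of `f`. -/
theorem card_rep_form (F : Frame K) (h2 : Module.finrank ℚ K = 2) (hd : discr K < 0)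
    (f : BForm.PForm (discr K)) {n : ℕ} (hn : n ≠ 0) :
    Nat.card {v : ℤ × ℤ // f.1.val v.1 v.2 = n} = torsionOrder K *
      Nat.card {I : Ideal (𝓞 K) // absNorm I = n ∧
        Submodule.IsPrincipal (I * F.idl f.2.2.1)} := by
  obtain ⟨e1⟩ := F.exists_equiv_val hd f.2.2.1 f.2.2.2 n
  obtain ⟨e2⟩ := exists_equiv_elements (F.idl_ne_bot f.2.2.1 f.2.2.2.ne') hn
  rw [Nat.card_congr (e1.trans e2), Nat.card_prod, mul_comm,
    card_units (rank_eq_zero_of_imag h2 (nrComplexPlaces_ne_zero_of_discr_neg hd))]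

/-- **Dirichlet's formula (1840)**: the number of all representations of `n ≥ 1` by the reduced
forms of discriminant `d` is `w Σ_{m ∣ n} (d/m)`. -/
theorem card_rep_reduced (h2 : Module.finrank ℚ K = 2) (hd : discr K < 0) {n : ℕ} (hn : n ≠ 0) :
    (Nat.card {x : BForm × ℤ × ℤ // x.1.Red ∧ 0 < x.1.a ∧ x.1.disc = discr K ∧
      x.1.val x.2.1 x.2.2 = n} : ℤ) =
      torsionOrder K * ∑ m ∈ n.divisors, kron (discr K) m := by
  classical
  obtain ⟨F⟩ := exists_frame h2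
  rw [← card_absNorm_eq h2 hn]
  have he1 := fun f : BForm.RForm (discr K) => F.exists_equiv_val hd f.1.2.2.1 f.1.2.2.2 n
  have he2 := fun f : BForm.RForm (discr K) =>
    exists_equiv_elements (F.idl_ne_bot f.1.2.2.1 f.1.2.2.2.ne') hn
  let e1 := fun f : BForm.RForm (discr K) => (he1 f).some
  let e2 := fun f : BForm.RForm (discr K) => (he2 f).some
  -- triples and pairs
  let E0 : {x : BForm × ℤ × ℤ // x.1.Red ∧ 0 < x.1.a ∧ x.1.disc = discr K ∧
      x.1.val x.2.1 x.2.2 = n} ≃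
      Σ f : BForm.RForm (discr K), {v : ℤ × ℤ // f.1.1.val v.1 v.2 = n} :=
    { toFun := fun x => ⟨⟨⟨x.1.1, F.prim x.2.2.2.1, x.2.2.2.1, x.2.2.1⟩, x.2.1⟩,
        ⟨x.1.2, x.2.2.2.2⟩⟩
      invFun := fun y => ⟨(y.1.1.1, y.2.1), y.1.2, y.1.1.2.2.2, y.1.1.2.2.1, y.2.2⟩
      left_inv := fun x => rfl
      right_inv := fun y => rfl }
  let E1 : (Σ f : BForm.RForm (discr K), {v : ℤ × ℤ // f.1.1.val v.1 v.2 = n}) ≃
      Σ f : BForm.RForm (discr K), ({I : Ideal (𝓞 K) // absNorm I = n ∧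
        Submodule.IsPrincipal (I * F.idl f.1.2.2.1)} × (𝓞 K)ˣ) :=
    Equiv.sigmaCongrRight fun f => (e1 f).trans (e2 f)
  let E2 : (Σ f : BForm.RForm (discr K), ({I : Ideal (𝓞 K) // absNorm I = n ∧
        Submodule.IsPrincipal (I * F.idl f.1.2.2.1)} × (𝓞 K)ˣ)) ≃
      (Σ f : BForm.RForm (discr K), {I : Ideal (𝓞 K) // absNorm I = n ∧
        Submodule.IsPrincipal (I * F.idl f.1.2.2.1)}) × (𝓞 K)ˣ :=
    { toFun := fun x => (⟨x.1, x.2.1⟩, x.2.2)
      invFun := fun y => ⟨y.1.1, (y.1.2, y.2)⟩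
      left_inv := fun x => rfl
      right_inv := fun y => rfl }
  have hbij : Function.Bijective (fun x : (Σ f : BForm.RForm (discr K),
      {I : Ideal (𝓞 K) // absNorm I = n ∧ Submodule.IsPrincipal (I * F.idl f.1.2.2.1)}) =>
      (⟨x.2.1, x.2.2.1⟩ : {I : Ideal (𝓞 K) // absNorm I = n})) := by
    have hne : ∀ {I : Ideal (𝓞 K)}, absNorm I = n → I ≠ ⊥ := by
      rintro I hI rfl
      rw [Ideal.absNorm_bot] at hI
      exact hn hI.symm
    constructor
    · rintro ⟨f, I, hI, hfI⟩ ⟨g, J, hJ, hgJ⟩ h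
      have h1 : I = J := congrArg Subtype.val h
      subst h1
      have h3 := (F.isPrincipal_iff f.1 (hne hI)).mp hfI
      have h4 := (F.isPrincipal_iff g.1 (hne hI)).mp hgJ
      have h5 : f.1.1.Eqv g.1.1 := (F.cls_eq_iff hd f.1 g.1).mp (h3.trans h4.symm)
      have h6 : f.1.1 = g.1.1 := BForm.Red.eq_of_eqv f.1.2.2.2 f.2 g.2 h5
      have h7 : f = g := Subtype.ext (Subtype.ext h6)
      subst h7
      rfl
    · rintro ⟨I, hI⟩
      obtain ⟨f, hf⟩ := F.cls_surjective h2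
        (ClassGroup.mk0 ⟨I, mem_nonZeroDivisors_of_ne_zero (hne hI)⟩)⁻¹
      obtain ⟨g, hg⟩ := (BForm.quotientEquiv hd).surjective (Quotient.mk _ f)
      have h3 : g.1.1.Eqv f.1 := Quotient.exact hg
      have h4 := ((F.cls_eq_iff hd g.1 f).mpr h3).trans hf
      exact ⟨⟨g, I, hI, (F.isPrincipal_iff g.1 (hne hI)).mpr h4⟩, rfl⟩
  rw [Nat.card_congr (E0.trans (E1.trans E2)), Nat.card_prod, Nat.card_eq_of_bijective _ hbij,
    card_units (rank_eq_zero_of_imag h2 (nrComplexPlaces_ne_zero_of_discr_neg hd))]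
  push_cast
  ring

/-- **Dirichlet's formula for every fundamental discriminant `D < 0`** (`D = m` or `4 m`, `m`
squarefree): the number of all representations of `n ≥ 1` by the reduced forms of discriminant `D`
is `w Σ_{l ∣ n} (D/l)`, `w = 6, 4, 2` for `D = -3`, `D = -4`, `D < -4`. -/
theorem card_rep_fundamental {m D : ℤ} (hm : Squarefree m) (hm0 : m < 0)
    (hD : D = if m % 4 = 1 then m else 4 * m) {n : ℕ} (hn : n ≠ 0) :
    (Nat.card {x : BForm × ℤ × ℤ // x.1.Red ∧ 0 < x.1.a ∧ x.1.disc = D ∧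
      x.1.val x.2.1 x.2.2 = n} : ℤ) = wD D * ∑ l ∈ n.divisors, kron D l := by
  obtain ⟨K, _, _, α, h2, -, h3⟩ := exists_quadratic_field hm (by omega)
  rw [← hD] at h3
  have hneg : discr K < 0 := by
    rw [h3, hD]
    split_ifs <;> omega
  have h4 := card_rep_reduced h2 hneg hn
  have hw : (torsionOrder K : ℤ) = wD D := by
    rw [← h3]
    by_cases h5 : discr K = -3
    · rw [(class_three h2 h5).2, h5]
      rfl
    by_cases h6 : discr K = -4
    · rw [(class_four h2 h6).2, h6]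
      rfl
    · have h7 := discr_mod_four h2
      rw [torsionOrder_eq_two h2 (by omega), wD, if_neg h5, if_neg h6]
      rfl
  rw [hw, h3] at h4
  exact h4

end Fermat.Agent.Cor.Diri
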