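import Fermat.Agent.Corollaries.Diri.Quarter

/-!
# The fundamental unit of a real quadratic field

The regulator of a real quadratic field is `log ε`, `ε > 1` the fundamental unit. Dirichlet's
formula `ε^(2h) = ∏_{0 < a < d} sin (π a / d)^(-(d/a))`.
-/

set_option autoImplicit false

open Finset NumberField NumberField.Units NumberField.InfinitePlace

universe u

namespace Fermat.Agent.Cor.Diri

variable {K : Type u} [Field K] [NumberField K]

/-- All units are `± ε^n`. -/
def Fund (ε : (𝓞 K)ˣ) : Prop := ∀ u : (𝓞 K)ˣ, ∃ n : ℤ, u = ε ^ n ∨ u = -ε ^ n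

omit [NumberField K] in
theorem Fund.neg {ε : (𝓞 K)ˣ} (h : Fund ε) : Fund (-ε) := by
  intro u
  obtain ⟨n, hn⟩ := h u
  refine ⟨n, ?_⟩
  rcases Int.even_or_odd n with he | ho
  · rwa [he.neg_zpow]
  · rw [ho.neg_zpow, neg_neg]
    exact hn.symm

omit [NumberField K] in
theorem Fund.inv {ε : (𝓞 K)ˣ} (h : Fund ε) : Fund ε⁻¹ := by
  intro u
  obtain ⟨n, hn⟩ := h u
  refine ⟨-n, ?_⟩
  rwa [inv_zpow, zpow_neg, inv_inv]

/-- **The fundamental unit of a real quadratic field**: for every real embedding `σ` there is a unit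
`ε` with `σ ε > 1`, `R = log (σ ε)`, and all units are `± ε^n`. -/
theorem exists_fundamental_unit (h2 : Module.finrank ℚ K = 2) (hd : 0 < discr K) (σ : K →+* ℝ) :
    ∃ ε : (𝓞 K)ˣ, 1 < σ ε ∧ regulator K = Real.log (σ ε) ∧ Fund ε := by
  classical
  have hc := nrComplexPlaces_eq_zero_of_discr_pos h2 hd
  have hr : nrRealPlaces K = 2 := by
    have := card_add_two_mul_card_eq_rank (K := K)
    omega
  have hcard : Fintype.card (InfinitePlace K) = 2 := by
    rw [card_eq_nrRealPlaces_add_nrComplexPlaces, hr, hc]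
  have hrank : rank K = 1 := by rw [rank, hcard]
  have hw2 : torsionOrder K = 2 := torsionOrder_of_real (by rw [hr]; norm_num)
  obtain ⟨w, hw⟩ : ∃ w : InfinitePlace K, w = InfinitePlace.mk (Complex.ofRealHom.comp σ) :=
    ⟨_, rfl⟩
  have hwx : ∀ x : K, w x = |σ x| := by
    intro x
    rw [hw, InfinitePlace.apply]
    exact Complex.norm_real _
  have hreal : w.IsReal := by
    by_contra h
    have h3 : w.IsComplex := not_isReal_iff_isComplex.mp h
    have h4 : 0 < nrComplexPlaces K := Fintype.card_pos_iff.mpr ⟨⟨w, h3⟩⟩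
    omega
  obtain ⟨w', hw'⟩ : ∃ w' : InfinitePlace K, w ≠ w' := by
    have h3 : 1 < Fintype.card (InfinitePlace K) := by rw [hcard]; norm_num
    obtain ⟨w', h4⟩ := Fintype.exists_ne_of_one_lt_card h3 w
    exact ⟨w', h4.symm⟩
  have hcard1 : Fintype.card {v : InfinitePlace K // v ≠ w'} = 1 := by
    rw [Fintype.card_subtype_compl, hcard, Fintype.card_subtype_eq]
  have e : {v : InfinitePlace K // v ≠ w'} ≃ Fin (rank K) :=
    Fintype.equivOfCardEq (by rw [hcard1, Fintype.card_fin, hrank])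
  have hsub : Subsingleton {v : InfinitePlace K // v ≠ w'} :=
    Fintype.card_le_one_iff_subsingleton.mp hcard1.le
  let uq : Unique {v : InfinitePlace K // v ≠ w'} :=
    { default := ⟨w, hw'⟩, uniq := fun v => Subsingleton.elim _ _ }
  have hreg := regulator_eq_det K w' e
  obtain ⟨ε₀, hε₀⟩ : ∃ ε₀ : (𝓞 K)ˣ, ε₀ = fundSystem K (e ⟨w, hw'⟩) := ⟨_, rfl⟩
  have hreg2 : regulator K = |Real.log (|σ ε₀|)| := by
    rw [hreg, Matrix.det_unique, Matrix.of_apply]
    have h3 : (default : {v : InfinitePlace K // v ≠ w'}) = ⟨w, hw'⟩ := Subsingleton.elim _ _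
    rw [h3, ← hε₀, InfinitePlace.mult, if_pos hreal, Nat.cast_one, one_mul, hwx]
  -- all units
  have hF : Fund ε₀ := by
    intro u
    obtain ⟨ζe, hu, -⟩ := exist_unique_eq_mul_prod K u
    have hsubF : Subsingleton (Fin (rank K)) := by
      rw [hrank]
      infer_instance
    have hprod : ∏ i, fundSystem K i ^ ζe.2 i = ε₀ ^ ζe.2 (e ⟨w, hw'⟩) := by
      rw [hε₀]
      exact Fintype.prod_eq_single (e ⟨w, hw'⟩) fun i hi => absurd (Subsingleton.elim i _) hi
    rw [hprod] at hu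
    have hζ : (ζe.1 : (𝓞 K)ˣ) ^ 2 = 1 := by
      have h3 : ζe.1 ^ 2 = 1 := by
        have h4 : ζe.1 ^ Nat.card (torsion K) = 1 := pow_card_eq_one'
        rwa [← torsionOrder, hw2] at h4
      exact_mod_cast congrArg (Subtype.val) h3
    have hζ' : (ζe.1 : (𝓞 K)ˣ) = 1 ∨ (ζe.1 : (𝓞 K)ˣ) = -1 := by
      have h3 : (((ζe.1 : (𝓞 K)ˣ) : 𝓞 K)) ^ 2 = 1 := by
        rw [← Units.val_pow_eq_pow_val, hζ, Units.val_one]
      rw [sq] at h3
      rcases mul_self_eq_one_iff.mp h3 with h4 | h4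
      · exact Or.inl (Units.ext h4)
      · exact Or.inr (Units.ext h4)
    refine ⟨ζe.2 (e ⟨w, hw'⟩), ?_⟩
    rcases hζ' with h3 | h3
    · left
      rw [hu, h3, one_mul]
    · right
      rw [hu, h3, neg_one_mul]
  -- the sign
  obtain ⟨ε₁, h1, h3, h4⟩ : ∃ ε₁ : (𝓞 K)ˣ, 0 < σ ε₁ ∧ σ ε₁ = |σ ε₀| ∧ Fund ε₁ := by
    have hne : σ ε₀ ≠ 0 := by
      rw [Ne, map_eq_zero, FaithfulSMul.algebraMap_eq_zero_iff]
      exact ε₀.ne_zero
    rcases lt_or_gt_of_ne hne with h | h
    · refine ⟨-ε₀, ?_, ?_, hF.neg⟩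
      · have : σ ((-ε₀ : (𝓞 K)ˣ) : 𝓞 K) = -σ ε₀ := by simp
        rw [this]
        linarith
      · rw [abs_of_neg h]
        simp
    · exact ⟨ε₀, h, (abs_of_pos h).symm, hF⟩
  have hlog : regulator K = |Real.log (σ ε₁)| := by rw [hreg2, h3]
  have hpos := regulator_pos K
  rcases lt_trichotomy (σ ε₁) 1 with h | h | h
  · refine ⟨ε₁⁻¹, ?_, ?_, h4.inv⟩
    · have h5 : σ ((ε₁⁻¹ : (𝓞 K)ˣ) : 𝓞 K) = (σ ε₁)⁻¹ := by
        refine eq_inv_of_mul_eq_one_left ?_
        rw [← map_mul, ← map_mul, Units.inv_mul, map_one, map_one]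
      rw [h5]
      exact (one_lt_inv₀ h1).mpr h
    · have h5 : σ ((ε₁⁻¹ : (𝓞 K)ˣ) : 𝓞 K) = (σ ε₁)⁻¹ := by
        refine eq_inv_of_mul_eq_one_left ?_
        rw [← map_mul, ← map_mul, Units.inv_mul, map_one, map_one]
      rw [h5, Real.log_inv, hlog, abs_of_neg (Real.log_neg h1 h)]
  · exfalso
    rw [h, Real.log_one, abs_zero] at hlog
    linarith
  · exact ⟨ε₁, h, by rw [hlog, abs_of_pos (Real.log_pos h)], h4⟩

/-- A real quadratic field has a real embedding. -/
theorem exists_real_embedding (h2 : Module.finrank ℚ K = 2) (hd : 0 < discr K) :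
    Nonempty (K →+* ℝ) := by
  classical
  have hc := nrComplexPlaces_eq_zero_of_discr_pos h2 hd
  have hr : nrRealPlaces K = 2 := by
    have := card_add_two_mul_card_eq_rank (K := K)
    omega
  obtain ⟨⟨w, hw⟩⟩ : Nonempty {w : InfinitePlace K // w.IsReal} := by
    rw [← Fintype.card_pos_iff]
    have : nrRealPlaces K = Fintype.card {w : InfinitePlace K // w.IsReal} := rfl
    omega
  exact ⟨embedding_of_isReal hw⟩

/-- **Dirichlet's class number formula for a real quadratic field with the fundamental unit**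
`ε > 1`: `ε^(2h) = ∏_{0 < a < d} sin (π a / d)^(-(d/a))`. -/
theorem fundamental_unit_pow_two_mul (h2 : Module.finrank ℚ K = 2) (hd : 0 < discr K)
    (σ : K →+* ℝ) : ∃ ε : (𝓞 K)ˣ, 1 < σ ε ∧ Fund ε ∧
      σ ε ^ (2 * classNumber K) =
        ∏ a ∈ (range (discr K).natAbs).erase 0,
          Real.sin (Real.pi * a / discr K) ^ (-kron (discr K) a) := by
  obtain ⟨ε, h1, h3, h4⟩ := exists_fundamental_unit h2 hd σ
  refine ⟨ε, h1, h4, ?_⟩
  have hd0 : (0 : ℝ) < (discr K : ℝ) := by exact_mod_cast hd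
  have hsin : ∀ a ∈ (range (discr K).natAbs).erase 0,
      0 < Real.sin (Real.pi * a / discr K) := by
    intro a ha
    obtain ⟨ha0, ha1⟩ := Finset.mem_erase.mp ha
    have ha2 := Finset.mem_range.mp ha1
    have h5 : (0 : ℝ) < a := by exact_mod_cast Nat.pos_of_ne_zero ha0
    have h6 : (a : ℝ) < discr K := by
      have : (a : ℤ) < discr K := by omega
      exact_mod_cast this
    refine Real.sin_pos_of_pos_of_lt_pi (by positivity) ?_
    rw [div_lt_iff₀ hd0]
    exact mul_lt_mul_of_pos_left h6 Real.pi_pos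
  have hf := class_number_regulator_kron h2 hd
  refine Real.log_injOn_pos (Set.mem_Ioi.mpr (pow_pos (by linarith) _))
    (Set.mem_Ioi.mpr (Finset.prod_pos fun a ha => zpow_pos (hsin a ha) _)) ?_
  rw [Real.log_pow, ← h3, Real.log_prod (fun a ha => (zpow_pos (hsin a ha) _).ne')]
  have h5 : ∀ a ∈ (range (discr K).natAbs).erase 0,
      Real.log (Real.sin (Real.pi * a / discr K) ^ (-kron (discr K) a)) =
        -((kron (discr K) a : ℝ) * Real.log (Real.sin (Real.pi * a / discr K))) := by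
    intro a _
    rw [Real.log_zpow]
    push_cast
    ring
  rw [Finset.sum_congr rfl h5, Finset.sum_neg_distrib]
  push_cast
  linear_combination 2 * hf

variable {p : ℕ} [hp : Fact p.Prime]

/-- **Dirichlet**: `d_K = p ≡ 1 mod 4` prime, `ε > 1` the fundamental unit:
`ε^h = ∏ sin (π n / p) / ∏ sin (π r / p)`, `n` (`r`) over the non-residues (residues) in
`1, …, (p-1)/2`. -/
theorem fundamental_unit_pow (h2 : Module.finrank ℚ K = 2) (hd : discr K = p) (h : p % 4 = 1)
    (σ : K →+* ℝ) : ∃ ε : (𝓞 K)ˣ, 1 < σ ε ∧ Fund ε ∧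
      σ ε ^ classNumber K =
        (∏ n ∈ (Finset.Icc 1 ((p - 1) / 2)).filter (fun n : ℕ => ¬ IsSquare (n : ZMod p)),
          Real.sin (Real.pi * n / p)) /
        ∏ r ∈ (Finset.Icc 1 ((p - 1) / 2)).filter (fun r : ℕ => IsSquare (r : ZMod p)),
          Real.sin (Real.pi * r / p) := by
  have hd' : 0 < discr K := by
    rw [hd]
    exact_mod_cast hp.out.pos
  obtain ⟨ε, h1, h3, h4⟩ := exists_fundamental_unit h2 hd' σ
  refine ⟨ε, h1, h4, ?_⟩
  rw [← exp_classNumber_mul_regulator h2 (by rw [hd]; simp) h, h3, ← Real.log_pow,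
    Real.exp_log (pow_pos (by linarith) _)]

/-- `p ≡ 1 mod 4` prime: the product of the `sin (π r / p)` over the quadratic residues
`r < p/2` is smaller than the product over the non-residues. -/
theorem prod_sin_lt (h : p % 4 = 1) :
    ∏ r ∈ (Finset.Icc 1 ((p - 1) / 2)).filter (fun r : ℕ => IsSquare (r : ZMod p)),
        Real.sin (Real.pi * r / p) <
      ∏ n ∈ (Finset.Icc 1 ((p - 1) / 2)).filter (fun n : ℕ => ¬ IsSquare (n : ZMod p)),
        Real.sin (Real.pi * n / p) := by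
  have hpi : Prime (p : ℤ) := Nat.prime_iff_prime_int.mp hp.out
  obtain ⟨K, _, _, α, h2, hα, hdK⟩ := exists_quadratic_field (m := (p : ℤ)) hpi.squarefree (by
    have := hp.out.two_le
    omega)
  rw [if_pos (by omega)] at hdK
  have hd' : 0 < discr K := by
    rw [hdK]
    exact_mod_cast hp.out.pos
  obtain ⟨σ⟩ := exists_real_embedding h2 hd'
  obtain ⟨ε, h1, -, h3⟩ := fundamental_unit_pow h2 hdK h σ
  have h4 : 1 < σ ε ^ classNumber K := one_lt_pow₀ h1 (classNumber_pos K).ne'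
  rw [h3] at h4
  have hp0 : (0 : ℝ) < p := Nat.cast_pos.mpr hp.out.pos
  have hpos : 0 < ∏ r ∈ (Finset.Icc 1 ((p - 1) / 2)).filter (fun r : ℕ => IsSquare (r : ZMod p)),
      Real.sin (Real.pi * r / p) := by
    refine Finset.prod_pos fun r hr => ?_
    have hr' := Finset.mem_Icc.mp (Finset.mem_filter.mp hr).1
    have hrp : (r : ℝ) < p := by
      have : r < p := by omega
      exact_mod_cast this
    have hr0 : (0 : ℝ) < r := by
      have : 0 < r := by omega
      exact_mod_cast this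
    refine Real.sin_pos_of_pos_of_lt_pi (by positivity) ?_
    rw [div_lt_iff₀ hp0]
    exact mul_lt_mul_of_pos_left hrp Real.pi_pos
  exact (one_lt_div hpos).mp h4

end Fermat.Agent.Cor.Diri
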