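import Fermat.Agent.Corollaries.Diri.Kron

/-!
# The class number and the first half of the residues

`K` imaginary quadratic with discriminant `d < -4`: `(2 - (d/2)) h = Σ_{0 < a < |d|/2} (d/a)`.
-/

set_option autoImplicit false

open Finset NumberField NumberField.Units NumberField.InfinitePlace DirichletCharacter
open Fermat.Agent.Cor.ZetaK

universe u

namespace Fermat.Agent.Cor.Diri

section Even

variable {N : ℕ} [NeZero N] {χ : DirichletCharacter ℂ N}

/-- A primitive quadratic character of modulus `2 M`, `M` even: `χ(1 + M) = -1`. -/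
theorem char_one_add_half (hp : χ.IsPrimitive) (hsq : χ ^ 2 = 1) {M : ℕ} (hN : N = 2 * M)
    (hM : 2 ∣ M) : χ ((1 + M : ℕ) : ZMod N) = -1 := by
  have hM0 : M ≠ 0 := by
    rintro rfl
    exact NeZero.ne N (by omega)
  have hco : Nat.Coprime (1 + M) N := by
    rw [hN]
    refine Nat.Coprime.mul_right ?_ ?_
    · rw [Nat.coprime_two_right, Nat.odd_iff]
      omega
    · simp
  have h3 := apply_eq_one_or hsq (ZMod.unitOfCoprime (1 + M) hco)
  rw [ZMod.coe_unitOfCoprime] at h3
  refine h3.resolve_left fun h => ?_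
  have hdvd : M ∣ N := hN ▸ Dvd.intro_left 2 rfl
  have hf : χ.FactorsThrough M := by
    rw [factorsThrough_iff_ker_unitsMap hdvd]
    intro v hv
    rw [MonoidHom.mem_ker] at hv ⊢
    have hv' := congrArg Units.val hv
    rw [ZMod.unitsMap_val, Units.val_one] at hv'
    have hval : ((v : ZMod N).val : ZMod M) = ((1 : ℕ) : ZMod M) := by
      rw [Nat.cast_one, ← hv', ZMod.natCast_val]
    have hmod := (ZMod.natCast_eq_natCast_iff _ _ M).mp hval
    have hlt := ZMod.val_lt (v : ZMod N)
    have hcases : (v : ZMod N).val = 1 ∨ (v : ZMod N).val = 1 + M := by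
      have h4 : (M : ℤ) ∣ (v : ZMod N).val - 1 := by
        have := (Nat.modEq_iff_dvd.mp hmod.symm)
        exact_mod_cast this
      obtain ⟨c, hc⟩ := h4
      have hMpos : (0 : ℤ) < M := by omega
      have hlt' : (((v : ZMod N).val : ℕ) : ℤ) < 2 * M := by omega
      have hc2 : c < 2 := by nlinarith
      have hc0 : -1 < c := by
        by_contra hh
        push Not at hh
        have : (M : ℤ) * c ≤ -M := by nlinarith
        omega
      have h5 : c = 0 ∨ c = 1 := by omega
      rcases h5 with rfl | rfl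
      · left; omega
      · right; omega
    apply Units.ext
    have h6 : (χ.toUnitHom v : ℂ) = χ (v : ZMod N) := MulChar.coe_toUnitHom χ v
    rw [h6, Units.val_one]
    rcases hcases with h7 | h7
    · have h8 : (v : ZMod N) = 1 := by
        rw [← ZMod.natCast_zmod_val (v : ZMod N), h7, Nat.cast_one]
      rw [h8, map_one]
    · have h8 : (v : ZMod N) = ((1 + M : ℕ) : ZMod N) := by
        rw [← ZMod.natCast_zmod_val (v : ZMod N), h7]
      rw [h8, h]
  have h9 : χ.conductor ∣ M := (mem_conductorSet_iff_conductor_dvd χ hdvd).mp hf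
  rw [isPrimitive_def] at hp
  rw [hp, hN] at h9
  have := Nat.le_of_dvd (Nat.pos_of_ne_zero hM0) h9
  omega

theorem char_add_half (hp : χ.IsPrimitive) (hsq : χ ^ 2 = 1) {M : ℕ} (hN : N = 2 * M)
    (hM : 2 ∣ M) (a : ℕ) : χ ((a + M : ℕ) : ZMod N) = -χ (a : ZMod N) := by
  rcases Nat.even_or_odd a with ha | ha
  · have h1 : ∀ b : ℕ, _root_.Even b → χ (b : ZMod N) = 0 := by
      intro b hb
      refine MulChar.map_nonunit _ fun h => ?_
      rw [ZMod.isUnit_iff_coprime, hN] at h
      have h2 := Nat.Coprime.coprime_dvd_right (Dvd.intro M rfl) h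
      rw [Nat.coprime_two_right] at h2
      exact Nat.not_even_iff_odd.mpr h2 hb
    rw [h1 a ha, h1 (a + M) (ha.add ((even_iff_two_dvd).mpr hM)), neg_zero]
  · obtain ⟨k, hk⟩ := ha
    have h1 : ((a + M : ℕ) : ZMod N) = (a : ZMod N) * ((1 + M : ℕ) : ZMod N) := by
      have h2 : ((2 * M : ℕ) : ZMod N) = 0 := by rw [← hN]; exact ZMod.natCast_self N
      rw [hk]
      push_cast at h2 ⊢
      linear_combination (-(k : ZMod N)) * h2
    rw [h1, map_mul, char_one_add_half hp hsq hN hM, mul_neg_one]

/-- The first moment of a primitive quadratic character of even modulus. -/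
theorem sum_mul_even (hp : χ.IsPrimitive) (hsq : χ ^ 2 = 1) {M : ℕ} (hN : N = 2 * M)
    (hM : 2 ∣ M) : ∑ a ∈ range N, (a : ℂ) * χ (a : ZMod N) =
      -(M : ℂ) * ∑ a ∈ range M, χ (a : ZMod N) := by
  have h1 : N = M + M := by omega
  rw [show range N = range (M + M) by rw [← h1], Finset.sum_range_add, ← Finset.sum_add_distrib,
    Finset.mul_sum]
  refine Finset.sum_congr rfl fun a _ => ?_
  rw [add_comm M a, char_add_half hp hsq hN hM]
  push_cast
  ring

end Even

variable {K : Type u} [Field K] [NumberField K]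

/-- **Dirichlet (1839)**: `K` imaginary quadratic with discriminant `d < -4`:
`(2 - (d/2)) h = Σ_{0 < a < |d|/2} (d/a)`. -/
theorem classNumber_half (h2 : Module.finrank ℚ K = 2) (hd : discr K < -4) :
    (2 - ZMod.χ₈ (discr K : ZMod 8)) * classNumber K =
      ∑ a ∈ (range ((discr K).natAbs / 2 + 1)).erase 0, kron (discr K) a := by
  obtain ⟨N, hN, χ, hNd, hp, h1, hsq, hz, -, hev, hk⟩ := exists_kronecker_character h2
  have hc := nrComplexPlaces_ne_zero_of_discr_neg (K := K) (by omega)
  have ho : χ.Odd := χ.even_or_odd.resolve_left fun he => hc (hev.mp he)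
  have h3 := class_number_of (rank_eq_zero_of_imag h2 hc) h1 hz
  rw [torsionOrder_eq_two h2 (by omega)] at h3
  have hN4 : 4 < N := by omega
  have hN0 : (N : ℂ) ≠ 0 := Nat.cast_ne_zero.mpr (NeZero.ne N)
  have hchi2 : χ ((2 : ℕ) : ZMod N) = ((ZMod.χ₈ (discr K : ZMod 8) : ℤ) : ℂ) := by
    rw [hk 2 (by norm_num), kron_two]
  have hT : ((∑ a ∈ (range ((discr K).natAbs / 2 + 1)).erase 0, kron (discr K) a : ℤ) : ℂ) =
      ∑ a ∈ (range (N / 2 + 1)).erase 0, χ (a : ZMod N) := by
    rw [← hNd]
    push_cast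
    exact Finset.sum_congr rfl fun a ha => (hk a (Finset.ne_of_mem_erase ha)).symm
  have hchi0 : χ ((0 : ℕ) : ZMod N) = 0 := by
    refine MulChar.map_nonunit _ fun h => ?_
    rw [ZMod.isUnit_iff_coprime, Nat.coprime_zero_left] at h
    omega
  have hmain : (2 - χ ((2 : ℕ) : ZMod N)) * classNumber K =
      ∑ a ∈ (range (N / 2 + 1)).erase 0, χ (a : ZMod N) := by
    rcases Nat.even_or_odd N with hE | hO
    · -- `N` even
      obtain ⟨M, hM⟩ := hE
      have hN2 : N = 2 * M := by omega
      have h4 := discr_mod_four h2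
      have hM2 : 2 ∣ M := by omega
      have h5 := sum_mul_even hp hsq hN2 hM2
      rw [h5] at h3
      have h6 : χ ((2 : ℕ) : ZMod N) = 0 := by
        refine MulChar.map_nonunit _ fun h => ?_
        rw [ZMod.isUnit_iff_coprime, Nat.coprime_two_left, Nat.odd_iff] at h
        omega
      have h7 : ∑ a ∈ (range (N / 2 + 1)).erase 0, χ (a : ZMod N) =
          ∑ a ∈ range M, χ (a : ZMod N) := by
        have hNM : N / 2 = M := by omega
        have h8 : χ ((M : ℕ) : ZMod N) = 0 := by
          refine MulChar.map_nonunit _ fun h => ?_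
          rw [ZMod.isUnit_iff_coprime, hN2] at h
          have := Nat.Coprime.eq_one_of_dvd h (Dvd.intro_left 2 rfl)
          omega
        rw [hNM, Finset.sum_erase (f := fun a : ℕ => χ ((a : ℕ) : ZMod N)) _ hchi0,
          Finset.sum_range_succ, h8, add_zero]
      rw [h6, h7, sub_zero]
      have h8 : (M : ℂ) ≠ 0 := by
        intro h
        rw [Nat.cast_eq_zero] at h
        omega
      have h9 : (N : ℂ) = 2 * M := by rw [hN2]; push_cast; ring
      rw [h9] at h3
      refine mul_left_cancel₀ h8 ?_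
      push_cast at h3
      linear_combination (1 / 2 : ℂ) * h3
    · -- `N` odd
      obtain ⟨m, hm⟩ := hO
      have hco : Nat.Coprime 2 N := by
        rw [Nat.coprime_two_left, Nat.odd_iff]
        omega
      have hε : χ ((2 : ℕ) : ZMod N) ^ 2 = 1 := by
        rcases apply_eq_one_or hsq (ZMod.unitOfCoprime 2 hco) with h | h <;>
        · rw [ZMod.coe_unitOfCoprime] at h
          rw [h]
          norm_num
      have h5 := half_sum m hm (fun a => χ a) (χ ((2 : ℕ) : ZMod N)) hε
        (fun a => by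
          rw [← neg_one_mul, map_mul, ho, neg_one_mul])
        (fun a => by rw [map_mul]; norm_cast)
      have h6 : ∑ a ∈ (range (N / 2 + 1)).erase 0, χ (a : ZMod N) =
          ∑ c ∈ range m, χ ((c + 1 : ℕ) : ZMod N) := by
        have hNm : N / 2 = m := by omega
        rw [hNm, Finset.sum_erase (f := fun a : ℕ => χ ((a : ℕ) : ZMod N)) _ hchi0,
          Finset.sum_range_succ', hchi0, add_zero]
      rw [h6]
      refine mul_left_cancel₀ hN0 ?_
      rw [h5]
      push_cast at h3
      linear_combination ((2 - χ ((2 : ℕ) : ZMod N)) / 2) * h3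
  have h10 : (((2 - ZMod.χ₈ (discr K : ZMod 8)) * classNumber K : ℤ) : ℂ) =
      ((∑ a ∈ (range ((discr K).natAbs / 2 + 1)).erase 0, kron (discr K) a : ℤ) : ℂ) := by
    rw [hT, ← hmain, hchi2]
    push_cast
    ring
  exact_mod_cast h10

end Fermat.Agent.Cor.Diri
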