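import Fermat.Agent.Corollaries.Diri.QuadRing
import Fermat.Agent.Corollaries.Diri.Every

/-!
# The character of a quadratic field is the Kronecker symbol

`K` quadratic with discriminant `d`, `(d/a)` the Kronecker symbol:
`ζ_K(s) = ζ(s) L(s, (d/·))`, and Dirichlet's class number formulas with the symbol explicit.
-/

set_option autoImplicit false

open Finset NumberField NumberField.Units NumberField.InfinitePlace Ideal DirichletCharacter
open scoped BigOperators
open Fermat.Agent.Cor.ZetaK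

universe u

namespace Fermat.Agent.Cor.Diri

/-- **The Kronecker symbol** `(d/a)`, for `a ≥ 1` and `d ≡ 0, 1 mod 4`: `(d/2) = χ₈(d)`, the Jacobi
symbol for odd `a`. -/
def kron (d : ℤ) (a : ℕ) : ℤ :=
  ZMod.χ₈ (d : ZMod 8) ^ a.factorization 2 * jacobiSym d (a / 2 ^ a.factorization 2)

theorem kron_odd (d : ℤ) {a : ℕ} (ha : Odd a) : kron d a = jacobiSym d a := by
  have h1 : a.factorization 2 = 0 :=
    Nat.factorization_eq_zero_of_not_dvd fun h => by
      rw [Nat.odd_iff] at ha
      omega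
  rw [kron, h1, pow_zero, one_mul, pow_zero, Nat.div_one]

theorem kron_two (d : ℤ) : kron d 2 = ZMod.χ₈ (d : ZMod 8) := by
  have h1 : Nat.factorization 2 2 = 1 := Nat.prime_two.factorization_self
  rw [kron, h1, pow_one, pow_one, Nat.div_self (by norm_num), jacobiSym.one_right, mul_one]

theorem kron_prime (d : ℤ) (p : ℕ) [hp : Fact p.Prime] (hp2 : p ≠ 2) :
    kron d p = legendreSym p d := by
  rw [kron_odd d (hp.out.odd_of_ne_two hp2), jacobiSym.legendreSym.to_jacobiSym]

section Char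

variable {N : ℕ} [NeZero N] {χ : DirichletCharacter ℂ N} {d : ℤ}

omit [NeZero N] in
/-- A character with `χ(p) = (d/p)` for all odd primes is the Jacobi symbol on odd numbers. -/
theorem char_odd (hodd : ∀ (p : ℕ) [Fact p.Prime], p ≠ 2 → χ p = ((legendreSym p d : ℤ) : ℂ))
    {a : ℕ} (ha : Odd a) : χ a = ((jacobiSym d a : ℤ) : ℂ) := by
  induction a using Nat.strong_induction_on with
  | _ a ih =>
    rcases eq_or_ne a 1 with rfl | h1
    · rw [jacobiSym.one_right, Nat.cast_one, map_one, Int.cast_one]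
    have hp := Nat.minFac_prime h1
    have hpF : Fact (a.minFac).Prime := ⟨hp⟩
    obtain ⟨b, hb⟩ := Nat.minFac_dvd a
    have ha0 : a ≠ 0 := by rintro rfl; exact absurd ha (by decide)
    have hb0 : b ≠ 0 := by
      rintro rfl
      rw [mul_zero] at hb
      exact ha0 hb
    have hodd2 : Odd (a.minFac) ∧ Odd b := by
      rw [hb] at ha
      exact Nat.odd_mul.mp (by rwa [← hb] at ha ⊢ )
    have hlt : b < a := by
      have h3 := hp.two_le
      have h4 : 0 < b := Nat.pos_of_ne_zero hb0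
      calc b < 2 * b := by omega
        _ ≤ a.minFac * b := Nat.mul_le_mul_right b h3
        _ = a := hb.symm
    have h5 := ih b hlt hodd2.2
    have h6 := hodd a.minFac (by
      intro h7
      rw [h7] at hodd2
      exact absurd hodd2.1 (by decide))
    have : NeZero b := ⟨hb0⟩
    have : NeZero a.minFac := ⟨hp.ne_zero⟩
    have e1 : χ (a : ZMod N) = χ (a.minFac : ZMod N) * χ (b : ZMod N) := by
      rw [← map_mul, ← Nat.cast_mul, ← hb]
    have e2 : jacobiSym d a = jacobiSym d a.minFac * jacobiSym d b := by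
      rw [← jacobiSym.mul_right, ← hb]
    rw [e1, e2, h5, h6, jacobiSym.legendreSym.to_jacobiSym]
    push_cast
    rfl

theorem chi8_neg : ∀ x : ZMod 8, ZMod.χ₈ (-x) = ZMod.χ₈ x := by decide

theorem jacobi_two (hd : d % 4 = 1) : jacobiSym d (d.natAbs + 2) = ZMod.χ₈ (d : ZMod 8) := by
  rcases le_or_gt 0 d with h | h
  · obtain ⟨n, rfl⟩ : ∃ n : ℕ, d = n := ⟨d.toNat, by omega⟩
    rw [Int.natAbs_natCast]
    have h1 : n % 4 = 1 := by omega
    have ho : Odd n := by rw [Nat.odd_iff]; omega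
    rw [jacobiSym.quadratic_reciprocity_one_mod_four h1 (by rw [Nat.odd_iff]; omega),
      jacobiSym.mod_left, show (((n + 2 : ℕ) : ℤ)) % n = 2 % n by push_cast; simp,
      ← jacobiSym.mod_left, jacobiSym.at_two ho, Int.cast_natCast]
  · obtain ⟨n, rfl⟩ : ∃ n : ℕ, d = -n := ⟨d.natAbs, by omega⟩
    rw [Int.natAbs_neg, Int.natAbs_natCast]
    have h1 : (n + 2) % 4 = 1 := by omega
    have ho : Odd n := by rw [Nat.odd_iff]; omega
    rw [jacobiSym.neg _ (by rw [Nat.odd_iff]; omega), ZMod.χ₄_nat_one_mod_four h1, one_mul,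
      ← jacobiSym.quadratic_reciprocity_one_mod_four h1 ho,
      jacobiSym.mod_left, show (((n + 2 : ℕ) : ℤ)) % n = 2 % n by push_cast; simp,
      ← jacobiSym.mod_left, jacobiSym.at_two ho, Int.cast_neg, chi8_neg, Int.cast_natCast]

omit [NeZero N] in
theorem char_two (hN : N = d.natAbs) (hd : d % 4 = 0 ∨ d % 4 = 1)
    (hodd : ∀ (p : ℕ) [Fact p.Prime], p ≠ 2 → χ p = ((legendreSym p d : ℤ) : ℂ)) :
    χ (2 : ℕ) = ((ZMod.χ₈ (d : ZMod 8) : ℤ) : ℂ) := by
  rcases hd with hd | hd
  · have h1 : ¬ IsUnit (((2 : ℕ) : ZMod N)) := by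
      rw [ZMod.isUnit_iff_coprime]
      intro h2
      rw [Nat.coprime_two_left] at h2
      rw [hN, Nat.odd_iff] at h2
      omega
    rw [MulChar.map_nonunit _ h1]
    obtain ⟨k, hk⟩ : ∃ k : ℤ, d = 4 * k := ⟨d / 4, by omega⟩
    have h3 : ZMod.χ₈ (d : ZMod 8) = 0 := by
      rw [hk]
      push_cast
      exact (by decide : ∀ x : ZMod 8, ZMod.χ₈ (4 * x) = 0) _
    rw [h3, Int.cast_zero]
  · have h1 : ((2 : ℕ) : ZMod N) = ((d.natAbs + 2 : ℕ) : ZMod N) := by
      rw [Nat.cast_add, ← hN, ZMod.natCast_self, zero_add]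
    rw [h1, char_odd hodd (by rw [Nat.odd_iff]; omega), jacobi_two hd]

omit [NeZero N] in
/-- **The character is the Kronecker symbol.** -/
theorem char_eq_kron (hN : N = d.natAbs) (hd : d % 4 = 0 ∨ d % 4 = 1)
    (hodd : ∀ (p : ℕ) [Fact p.Prime], p ≠ 2 → χ p = ((legendreSym p d : ℤ) : ℂ)) {a : ℕ}
    (ha : a ≠ 0) : χ a = ((kron d a : ℤ) : ℂ) := by
  have h1 := Nat.ordProj_mul_ordCompl_eq_self a 2
  have h2 : _root_.Odd (a / 2 ^ a.factorization 2) := by
    rw [← Nat.coprime_two_left]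
    exact Nat.coprime_ordCompl Nat.prime_two ha
  have h3 : χ (a : ZMod N) =
      χ ((2 : ℕ) : ZMod N) ^ a.factorization 2 * χ ((a / 2 ^ a.factorization 2 : ℕ) : ZMod N) := by
    conv_lhs => rw [← h1]
    rw [Nat.cast_mul, map_mul, Nat.cast_pow, map_pow]
  rw [h3, char_two hN hd hodd, char_odd hodd h2, kron]
  push_cast
  rfl

end Char

variable {K : Type u} [Field K] [NumberField K]

/-- The value at an odd prime, from the decomposition of the prime. -/
theorem char_prime (h2 : Module.finrank ℚ K = 2) {N : ℕ} [NeZero N] {χ : DirichletCharacter ℂ N}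
    (hN : N = (discr K).natAbs) (hsq : χ ^ 2 = 1)
    (hloc : ∀ (p : ℕ), p.Prime → ∀ (P : Ideal (𝓞 K)) [P.IsPrime] [P.LiesOver (span {(p : ℤ)})]
      (T : ℂ), (1 - T) * (1 - χ p * T) =
        (1 - T ^ P.inertiaDeg ℤ) ^ ((span {(p : ℤ)}).primesOver (𝓞 K)).ncard)
    (p : ℕ) [hp : Fact p.Prime] (hp2 : p ≠ 2) : χ p = ((legendreSym p (discr K) : ℤ) : ℂ) := by
  by_cases h0 : ((discr K : ℤ) : ZMod p) = 0
  · rw [(legendreSym.eq_zero_iff p _).mpr h0, Int.cast_zero]
    refine MulChar.map_nonunit _ fun h1 => ?_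
    rw [ZMod.isUnit_iff_coprime, hp.out.coprime_iff_not_dvd, hN] at h1
    rw [ZMod.intCast_zmod_eq_zero_iff_dvd] at h0
    exact h1 (Int.natCast_dvd.mp h0)
  have hpi : Prime (p : ℤ) := Nat.prime_iff_prime_int.mp hp.out
  have hprime : (span {(p : ℤ)}).IsPrime := by
    rw [span_singleton_prime hpi.ne_zero]
    exact hpi
  obtain ⟨P, hP, hPo⟩ := (inferInstance : Nonempty ((span {(p : ℤ)}).primesOver (𝓞 K)))
  have hloc' := hloc p hp.out P
  generalize ((span {(p : ℤ)}).primesOver (𝓞 K)).ncard = g at hloc'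
  have hg : g ≠ 0 := by
    rintro rfl
    have := hloc' 1
    rw [sub_self, zero_mul, pow_zero] at this
    exact zero_ne_one this
  have h3 := hloc' 2
  have hunit : IsUnit ((p : ℕ) : ZMod N) := by
    rw [ZMod.isUnit_iff_coprime, hp.out.coprime_iff_not_dvd, hN]
    intro h4
    apply h0
    rw [ZMod.intCast_zmod_eq_zero_iff_dvd]
    exact Int.natCast_dvd.mpr h4
  obtain ⟨u, hu⟩ := hunit
  have hval := apply_eq_one_or hsq u
  rw [hu] at hval
  have hpo : Odd p := hp.out.odd_of_ne_two hp2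
  by_cases hs : IsSquare ((discr K : ℤ) : ZMod p)
  · rw [(legendreSym.eq_one_iff p h0).mpr hs, Int.cast_one]
    refine hval.resolve_right fun hneg => ?_
    obtain ⟨y, hy⟩ := hs
    have hf := inertiaDeg_le_one_of_isSquare (p := p) P h2 hp.out hpo (x := (y.val : ℤ)) (by
      rw [← ZMod.intCast_zmod_eq_zero_iff_dvd]
      push_cast
      rw [ZMod.natCast_zmod_val, hy]
      ring)
    rw [hneg] at h3
    interval_cases hfe : P.inertiaDeg ℤ
    · rw [pow_zero, sub_self, zero_pow hg] at h3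
      norm_num at h3
    · rw [pow_one] at h3
      rcases neg_one_pow_eq_or ℂ g with h4 | h4
      · rw [show (1 : ℂ) - 2 = -1 by norm_num, h4] at h3
        norm_num at h3
      · rw [show (1 : ℂ) - 2 = -1 by norm_num, h4] at h3
        norm_num at h3
  · rw [(legendreSym.eq_neg_one_iff p).mpr hs, Int.cast_neg, Int.cast_one]
    refine hval.resolve_left fun hone => hs ?_
    rw [hone] at h3
    have h4 : (1 - 2 ^ P.inertiaDeg ℤ : ℤ) ^ g = 1 := by
      have h5 : (((1 - 2 ^ P.inertiaDeg ℤ : ℤ) ^ g : ℤ) : ℂ) = ((1 : ℤ) : ℂ) := by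
        push_cast
        rw [← h3]
        norm_num
      exact_mod_cast h5
    have h5 : IsUnit (1 - 2 ^ P.inertiaDeg ℤ : ℤ) := IsUnit.of_pow_eq_one h4 hg
    have hf : P.inertiaDeg ℤ = 1 := by
      rcases Int.isUnit_iff.mp h5 with h6 | h6
      · have : (0 : ℤ) < 2 ^ P.inertiaDeg ℤ := by positivity
        omega
      · have h7 : (2 : ℤ) ^ P.inertiaDeg ℤ = 2 ^ 1 := by omega
        exact Int.pow_right_injective (by norm_num) h7
    obtain ⟨x, hx⟩ := exists_sq_of_inertiaDeg_eq_one P h2 hp.out hf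
    refine ⟨(x : ZMod p), ?_⟩
    rw [← ZMod.intCast_zmod_eq_zero_iff_dvd] at hx
    push_cast at hx
    linear_combination hx

/-- **The character of a quadratic field is the Kronecker symbol of its discriminant.** -/
theorem exists_kronecker_character (h2 : Module.finrank ℚ K = 2) :
    ∃ (N : ℕ) (_ : NeZero N) (χ : DirichletCharacter ℂ N),
      N = (discr K).natAbs ∧ χ.IsPrimitive ∧ χ ≠ 1 ∧ χ ^ 2 = 1 ∧
      (∀ s : ℂ, s ≠ 1 → zetaK K s = riemannZeta s * χ.LFunction s) ∧
      (dedekindZeta_residue K : ℂ) = χ.LFunction 1 ∧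
      (χ.Even ↔ nrComplexPlaces K = 0) ∧
      ∀ a : ℕ, a ≠ 0 → χ a = ((kron (discr K) a : ℤ) : ℂ) := by
  obtain ⟨N, hN, χ, hNd, hp, h1, hsq, hz, -, hres, -, hev, hloc⟩ :=
    Abel.exists_quadratic_character K h2
  exact ⟨N, hN, χ, hNd, hp, h1, hsq, hz, hres, hev, fun a ha =>
    char_eq_kron hNd (discr_mod_four h2) (fun p _ hp2 => char_prime h2 hNd hsq hloc p hp2) ha⟩

/-- **`ζ_K(s) = ζ(s) Σ (d/n) n^{-s}`**, `Re s > 1`, for every quadratic field. -/
theorem dedekindZeta_eq_kron (h2 : Module.finrank ℚ K = 2) {s : ℂ} (hs : 1 < s.re) :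
    dedekindZeta K s =
      riemannZeta s * LSeries (fun n => ((kron (discr K) n : ℤ) : ℂ)) s := by
  obtain ⟨N, hN, χ, -, -, -, -, hz, -, -, hk⟩ := exists_kronecker_character h2
  have hs1 : s ≠ 1 := by
    rintro rfl
    simp at hs
  rw [← zetaK_eq K hs, hz s hs1, DirichletCharacter.LFunction_eq_LSeries χ hs]
  congr 1
  exact LSeries_congr (fun {n} hn => hk n hn) s

theorem nrComplexPlaces_ne_zero_of_discr_neg (hd : discr K < 0) : nrComplexPlaces K ≠ 0 := by
  intro h
  have h3 := sign_discr K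
  rw [h, pow_zero, Int.sign_eq_one_iff_pos] at h3
  omega

theorem nrComplexPlaces_eq_zero_of_discr_pos (h2 : Module.finrank ℚ K = 2) (hd : 0 < discr K) :
    nrComplexPlaces K = 0 := by
  have h3 := sign_discr K
  have h4 := card_add_two_mul_card_eq_rank (K := K)
  rw [h2] at h4
  rw [Int.sign_eq_one_of_pos hd] at h3
  by_contra h
  have h5 : nrComplexPlaces K = 1 := by omega
  rw [h5] at h3
  norm_num at h3

/-- **Dirichlet's class number formula** (1839): `K` imaginary quadratic with discriminant `d`: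
`2 |d| h = -w Σ_{0 ≤ a < |d|} a (d/a)`. -/
theorem class_number_kron (h2 : Module.finrank ℚ K = 2) (hd : discr K < 0) :
    2 * |discr K| * classNumber K =
      -(torsionOrder K : ℤ) * ∑ a ∈ range (discr K).natAbs, (a : ℤ) * kron (discr K) a := by
  obtain ⟨N, hN, χ, hNd, -, h1, -, hz, -, -, hk⟩ := exists_kronecker_character h2
  have h3 := class_number_of (rank_eq_zero_of_imag h2 (nrComplexPlaces_ne_zero_of_discr_neg hd)) h1 hz
  have h4 : ∑ a ∈ range N, (a : ℂ) * χ (a : ZMod N) =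
      ((∑ a ∈ range (discr K).natAbs, (a : ℤ) * kron (discr K) a : ℤ) : ℂ) := by
    rw [← hNd]
    push_cast
    refine Finset.sum_congr rfl fun a _ => ?_
    rcases eq_or_ne a 0 with rfl | ha
    · rw [Nat.cast_zero, zero_mul, zero_mul]
    · rw [hk a ha]
  rw [h4] at h3
  have h5 : ((|discr K| : ℤ) : ℂ) = (N : ℂ) := by
    rw [hNd, Int.abs_eq_natAbs, Int.cast_natCast]
  have h6 : ((2 * |discr K| * classNumber K : ℤ) : ℂ) =
      ((-(torsionOrder K : ℤ) *
        ∑ a ∈ range (discr K).natAbs, (a : ℤ) * kron (discr K) a : ℤ) : ℂ) := by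
    rw [Int.cast_mul, Int.cast_mul, h5]
    push_cast at h3 ⊢
    exact h3
  exact_mod_cast h6

/-- `d < -4`: `|d| h = -Σ a (d/a)`. -/
theorem natAbs_mul_classNumber (h2 : Module.finrank ℚ K = 2) (hd : discr K < -4) :
    |discr K| * classNumber K =
      -∑ a ∈ range (discr K).natAbs, (a : ℤ) * kron (discr K) a := by
  have h3 := class_number_kron h2 (by omega)
  rw [torsionOrder_eq_two h2 (by omega)] at h3
  push_cast at h3
  linarith

/-- **Dirichlet's class number formula**, `K` real quadratic with discriminant `d`: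
`h R = -(1/2) Σ_{0 < a < d} (d/a) log sin (π a / d)`. -/
theorem class_number_regulator_kron (h2 : Module.finrank ℚ K = 2) (hd : 0 < discr K) :
    (classNumber K : ℝ) * regulator K =
      -(1 / 2) * ∑ a ∈ (range (discr K).natAbs).erase 0,
        (kron (discr K) a : ℝ) * Real.log (Real.sin (Real.pi * a / discr K)) := by
  obtain ⟨N, hN, χ, hNd, hp, h1, hsq, hz, hres, hev, hk⟩ := exists_kronecker_character h2
  have hc := nrComplexPlaces_eq_zero_of_discr_pos h2 hd
  have he := hev.mpr hc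
  have h3 : (classNumber K : ℝ) * regulator K =
      -(1 / 2) * ∑ a ∈ range N, (χ (a : ZMod N)).re * Real.log (Real.sin (Real.pi * a / N)) := by
    rw [← class_number_formula_real hp h1 hsq he]
    refine hR_eq h2 (finrank_quadF h1 hsq) hc (nrComplexPlaces_of_even h1 hsq he) hNd.symm
      (natAbs_discr_quadF hp h1 hsq) ?_
    have h3 := hres.trans (residue_quadF hp h1 hsq).symm
    exact_mod_cast h3
  have hdN : ((discr K : ℤ) : ℝ) = (N : ℝ) := by
    rw [hNd, ← Int.cast_natCast, Int.natAbs_of_nonneg hd.le]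
  rw [h3, hdN, ← hNd]
  congr 1
  rw [← Finset.add_sum_erase (range N) _ (Finset.mem_range.mpr (NeZero.pos N))]
  rw [Nat.cast_zero (R := ℝ), mul_zero, zero_div, Real.sin_zero, Real.log_zero, mul_zero, zero_add]
  refine Finset.sum_congr rfl fun a ha => ?_
  rw [hk a (Finset.ne_of_mem_erase ha), Complex.intCast_re]

end Fermat.Agent.Cor.Diri
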