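import Fermat.Agent.Corollaries.Diri.ClassNumber
import Fermat.Agent.Corollaries.Diri.Half

/-!
# The Legendre symbol: sign of the Gauss sum, and residues in the first half

* `gauss_sum_legendre`: `Σ_{a < p} (a/p) e^{2πia/p} = √p` for `p ≡ 1 mod 4` and `i √p` for
  `p ≡ 3 mod 4` (Gauss 1811); `gauss_sum_sq`: the same for `Σ_{n < p} e^{2πin²/p}`.
* `sum_half_legendre`: for `p ≡ 3 mod 4`, `w Σ_{1 ≤ a < p/2} (a/p) = 2 (2 - (2/p)) h` (Dirichlet
  1839), `h` and `w` the class number and the number of roots of unity of the quadratic field of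
  `(·/p)`, of discriminant `-p`;
* `residues_first_half`: for `p ≡ 3 mod 4` there are more quadratic residues than non-residues
  among `1, ..., (p - 1)/2`.
-/

set_option autoImplicit false

noncomputable section

namespace Fermat.Agent.Cor.Diri

open NumberField NumberField.Units DirichletCharacter Finset

variable (p : ℕ) [hp : Fact p.Prime]

/-- The Legendre symbol as a Dirichlet character. -/
def leg : DirichletCharacter ℂ p := (quadraticChar (ZMod p)).ringHomComp (Int.castRingHom ℂ)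

theorem leg_apply (a : ZMod p) : leg p a = ((quadraticChar (ZMod p) a : ℤ) : ℂ) := rfl

theorem leg_intCast (a : ℤ) : leg p (a : ZMod p) = (legendreSym p a : ℂ) := rfl

theorem leg_natCast (a : ℕ) : leg p (a : ZMod p) = (legendreSym p a : ℂ) := by
  rw [← leg_intCast, Int.cast_natCast]

theorem leg_sq : leg p ^ 2 = 1 := by
  have h : (leg p).IsQuadratic := (quadraticChar_isQuadratic (ZMod p)).comp _
  exact h.sq_eq_one

variable {p}

theorem leg_ne_one (h2 : p ≠ 2) : leg p ≠ 1 := by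
  intro h
  have hF : ringChar (ZMod p) ≠ 2 := by rwa [ZMod.ringChar_zmod_n]
  obtain ⟨a, ha⟩ := quadraticChar_exists_neg_one hF
  have ha0 : IsUnit a := by
    by_contra hu
    rw [MulChar.map_nonunit _ hu] at ha
    norm_num at ha
  have h3 : leg p a = 1 := by rw [h, MulChar.one_apply ha0]
  rw [leg_apply, ha] at h3
  norm_num at h3

theorem leg_isPrimitive (h2 : p ≠ 2) : (leg p).IsPrimitive := by
  rw [isPrimitive_def]
  rcases (Nat.dvd_prime hp.out).mp (leg p).conductor_dvd_level with h | h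
  · exact absurd (eq_one_iff_conductor_eq_one.mpr h) (leg_ne_one h2)
  · exact h

theorem leg_neg_one (h2 : p ≠ 2) : leg p (-1) = ((ZMod.χ₄ p : ℤ) : ℂ) := by
  have h := legendreSym.at_neg_one h2
  have h3 := leg_intCast p (-1)
  rw [h] at h3
  simpa using h3

theorem leg_even (h : p % 4 = 1) : (leg p).Even := by
  rw [DirichletCharacter.Even, leg_neg_one (by omega), ZMod.χ₄_nat_one_mod_four h]
  norm_num

theorem leg_odd (h : p % 4 = 3) : (leg p).Odd := by
  rw [DirichletCharacter.Odd, leg_neg_one (by omega), ZMod.χ₄_nat_three_mod_four h]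
  norm_num

/-! ### The Gauss sum -/

theorem stdAddChar_natCast (a : ℕ) :
    (ZMod.stdAddChar (a : ZMod p) : ℂ) = Complex.exp (2 * Real.pi * Complex.I * a / p) := by
  have h := ZMod.stdAddChar_coe (N := p) (a : ℤ)
  rw [Int.cast_natCast] at h
  rw [h]
  push_cast
  rfl

theorem gaussSum_eq_sum : gaussSum (leg p) ZMod.stdAddChar =
    ∑ a ∈ range p, (legendreSym p a : ℂ) * Complex.exp (2 * Real.pi * Complex.I * a / p) := by
  rw [gaussSum, sum_zmod_eq]
  refine Finset.sum_congr rfl fun a _ => ?_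
  rw [leg_natCast, stdAddChar_natCast]

/-- **Gauss (1811), `p ≡ 1 mod 4`.** -/
theorem gauss_sum_legendre_one (h : p % 4 = 1) :
    ∑ a ∈ range p, (legendreSym p a : ℂ) * Complex.exp (2 * Real.pi * Complex.I * a / p) =
      (Real.sqrt p : ℂ) := by
  have h2 : p ≠ 2 := by omega
  rw [← gaussSum_eq_sum]
  exact (gaussSum_quad (leg_isPrimitive h2) (leg_ne_one h2) (leg_sq p)).1 (leg_even h)

/-- **Gauss (1811), `p ≡ 3 mod 4`.** -/
theorem gauss_sum_legendre_three (h : p % 4 = 3) :
    ∑ a ∈ range p, (legendreSym p a : ℂ) * Complex.exp (2 * Real.pi * Complex.I * a / p) =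
      Complex.I * (Real.sqrt p : ℂ) := by
  have h2 : p ≠ 2 := by omega
  rw [← gaussSum_eq_sum]
  exact (gaussSum_quad (leg_isPrimitive h2) (leg_ne_one h2) (leg_sq p)).2 (leg_odd h)

/-- `Σ_n ψ(n²) = Σ_a (a/p) ψ(a)`. -/
theorem sum_stdAddChar_sq (h2 : p ≠ 2) :
    ∑ n : ZMod p, (ZMod.stdAddChar (n ^ 2) : ℂ) = gaussSum (leg p) ZMod.stdAddChar := by
  classical
  have hF : ringChar (ZMod p) ≠ 2 := by rwa [ZMod.ringChar_zmod_n]
  have h3 : ∀ a : ZMod p, ((Finset.univ.filter fun n : ZMod p => n ^ 2 = a).card : ℂ) =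
      leg p a + 1 := by
    intro a
    have h4 := quadraticChar_card_sqrts hF a
    rw [leg_apply]
    have h5 : ((Finset.univ.filter fun n : ZMod p => n ^ 2 = a).card : ℤ) =
        quadraticChar (ZMod p) a + 1 := by
      rw [← h4]
      congr 2
      ext n
      simp
    exact_mod_cast congrArg (fun z : ℤ => (z : ℂ)) h5
  have h6 : ∑ n : ZMod p, (ZMod.stdAddChar (n ^ 2) : ℂ) =
      ∑ a : ZMod p, ((Finset.univ.filter fun n : ZMod p => n ^ 2 = a).card : ℂ) *
        ZMod.stdAddChar a := by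
    rw [← Finset.sum_fiberwise (s := Finset.univ) (g := fun n : ZMod p => n ^ 2)]
    refine Finset.sum_congr rfl fun a _ => ?_
    rw [← nsmul_eq_mul, ← Finset.sum_const]
    refine Finset.sum_congr rfl fun n hn => ?_
    rw [(Finset.mem_filter.mp hn).2]
  have h7 : ∑ a : ZMod p, (ZMod.stdAddChar a : ℂ) = 0 := by
    refine AddChar.sum_eq_zero_of_ne_one fun h => ?_
    have h8 := stdAddChar_ne_one (N := p) (j := 1) one_ne_zero
    rw [h] at h8
    exact h8 rfl
  rw [h6, gaussSum]
  have h8 : ∀ a : ZMod p, ((Finset.univ.filter fun n : ZMod p => n ^ 2 = a).card : ℂ) *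
      ZMod.stdAddChar a = leg p a * ZMod.stdAddChar a + ZMod.stdAddChar a := by
    intro a
    rw [h3]
    ring
  rw [Finset.sum_congr rfl fun a _ => h8 a, Finset.sum_add_distrib, h7, add_zero]

theorem sum_exp_sq (h2 : p ≠ 2) :
    ∑ n ∈ range p, Complex.exp (2 * Real.pi * Complex.I * (n : ℂ) ^ 2 / p) =
      gaussSum (leg p) ZMod.stdAddChar := by
  rw [← sum_stdAddChar_sq h2, sum_zmod_eq]
  refine Finset.sum_congr rfl fun n _ => ?_
  have e : (n : ZMod p) ^ 2 = ((n ^ 2 : ℕ) : ZMod p) := by push_cast; rfl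
  rw [e, stdAddChar_natCast]
  push_cast
  rfl

/-- **Gauss (1811)**: `Σ_{n < p} e^{2πin²/p} = √p` for a prime `p ≡ 1 mod 4`. -/
theorem gauss_sum_sq_one (h : p % 4 = 1) :
    ∑ n ∈ range p, Complex.exp (2 * Real.pi * Complex.I * (n : ℂ) ^ 2 / p) =
      (Real.sqrt p : ℂ) := by
  rw [sum_exp_sq (by omega), gaussSum_eq_sum, gauss_sum_legendre_one h]

/-- **Gauss (1811)**: `Σ_{n < p} e^{2πin²/p} = i √p` for a prime `p ≡ 3 mod 4`. -/
theorem gauss_sum_sq_three (h : p % 4 = 3) :
    ∑ n ∈ range p, Complex.exp (2 * Real.pi * Complex.I * (n : ℂ) ^ 2 / p) =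
      Complex.I * (Real.sqrt p : ℂ) := by
  rw [sum_exp_sq (by omega), gaussSum_eq_sum, gauss_sum_legendre_three h]

/-! ### The first half -/

theorem leg_two_sq (h2 : p ≠ 2) : leg p 2 ^ 2 = 1 := by
  have h0 : ((2 : ℤ) : ZMod p) ≠ 0 := by
    intro h
    rw [ZMod.intCast_zmod_eq_zero_iff_dvd] at h
    have h3 := Int.le_of_dvd (by norm_num) h
    have h4 := hp.out.two_le
    omega
  have h3 := legendreSym.sq_one p h0
  have h4 := leg_intCast p 2
  have h5 : leg p 2 = (legendreSym p 2 : ℂ) := by simpa using h4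
  rw [h5]
  exact_mod_cast h3

/-- The sum over the first half and `L(0, ·)`. -/
theorem sum_half_eq_LFunction (h : p % 4 = 3) :
    ((∑ a ∈ range ((p - 1) / 2), legendreSym p ((a + 1 : ℕ) : ℤ) : ℤ) : ℂ) =
      (2 - (legendreSym p 2 : ℂ)) * (leg p).LFunction 0 := by
  have h2 : p ≠ 2 := by omega
  have hp0 : (p : ℂ) ≠ 0 := Nat.cast_ne_zero.mpr hp.out.ne_zero
  have hneg : ∀ a : ZMod p, leg p (-a) = -leg p a := fun a => by
    rw [← neg_one_mul, map_mul, leg_odd h, neg_one_mul]
  have h3 := half_sum (N := p) ((p - 1) / 2) (by omega) (fun a : ZMod p => leg p a) (leg p 2)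
    (leg_two_sq h2) hneg (fun a => map_mul (leg p) 2 a)
  have h4 : leg p 2 = (legendreSym p 2 : ℂ) := by simpa using leg_intCast p 2
  rw [h4] at h3
  rw [LFunction_zero' (leg_ne_one h2)]
  have h5 : ((∑ a ∈ range ((p - 1) / 2), legendreSym p ((a + 1 : ℕ) : ℤ) : ℤ) : ℂ) =
      ∑ c ∈ range ((p - 1) / 2), leg p ((c + 1 : ℕ) : ZMod p) := by
    rw [Int.cast_sum]
    refine Finset.sum_congr rfl fun c _ => ?_
    rw [leg_natCast]
  rw [h5]
  refine mul_left_cancel₀ hp0 (h3.trans ?_)
  field_simp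
  ring

/-- **Dirichlet (1839)**: for a prime `p ≡ 3 mod 4`,
`w Σ_{1 ≤ a ≤ (p-1)/2} (a/p) = 2 (2 - (2/p)) h`, where `h` and `w` are the class number and the
number of roots of unity of the quadratic field of the character `(·/p)`. -/
theorem sum_half_legendre (h : p % 4 = 3) :
    (torsionOrder (quadF (leg p)) : ℤ) *
      ∑ a ∈ range ((p - 1) / 2), legendreSym p ((a + 1 : ℕ) : ℤ) =
      2 * (2 - legendreSym p 2) * classNumber (quadF (leg p)) := by
  have h2 : p ≠ 2 := by omega
  have hw : (torsionOrder (quadF (leg p)) : ℂ) ≠ 0 :=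
    Nat.cast_ne_zero.mpr (torsionOrder_ne_zero _)
  have h3 := sum_half_eq_LFunction h
  rw [LFunction_zero_quad (leg_isPrimitive h2) (leg_ne_one h2) (leg_sq p) (leg_odd h)] at h3
  have h4 : (((torsionOrder (quadF (leg p)) : ℤ) *
      ∑ a ∈ range ((p - 1) / 2), legendreSym p ((a + 1 : ℕ) : ℤ) : ℤ) : ℂ) =
      ((2 * (2 - legendreSym p 2) * classNumber (quadF (leg p)) : ℤ) : ℂ) := by
    rw [Int.cast_mul, h3]
    push_cast
    field_simp
  exact_mod_cast h4

theorem legendreSym_two_le (h2 : p ≠ 2) : legendreSym p 2 ≤ 1 := by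
  have h := leg_two_sq h2
  have h4 : leg p 2 = (legendreSym p 2 : ℂ) := by simpa using leg_intCast p 2
  rw [h4] at h
  have h5 : legendreSym p 2 ^ 2 = 1 := by exact_mod_cast h
  nlinarith

/-- The sum of the Legendre symbols over the first half is positive. -/
theorem sum_half_pos (h : p % 4 = 3) :
    0 < ∑ a ∈ range ((p - 1) / 2), legendreSym p ((a + 1 : ℕ) : ℤ) := by
  have h3 := sum_half_legendre h
  have hw : 0 < (torsionOrder (quadF (leg p)) : ℤ) := by exact_mod_cast torsionOrder_pos _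
  have hh : 0 < (classNumber (quadF (leg p)) : ℤ) := by exact_mod_cast classNumber_pos _
  have h4 := legendreSym_two_le (p := p) (by omega)
  have h5 : 0 < (torsionOrder (quadF (leg p)) : ℤ) *
      ∑ a ∈ range ((p - 1) / 2), legendreSym p ((a + 1 : ℕ) : ℤ) := by
    rw [h3]
    have : 0 < 2 * (2 - legendreSym p 2) := by omega
    exact mul_pos this hh
  exact (mul_pos_iff_of_pos_left hw).mp h5

/-- **Dirichlet's theorem on quadratic residues**: for a prime `p ≡ 3 mod 4` there are more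
quadratic residues than non-residues among `1, 2, ..., (p - 1)/2`. -/
theorem residues_first_half (h : p % 4 = 3) :
    ((Finset.Icc 1 ((p - 1) / 2)).filter fun a : ℕ => ¬ IsSquare (a : ZMod p)).card <
      ((Finset.Icc 1 ((p - 1) / 2)).filter fun a : ℕ => IsSquare (a : ZMod p)).card := by
  classical
  have h3 := sum_half_pos h
  have h4 : ∑ a ∈ range ((p - 1) / 2), legendreSym p ((a + 1 : ℕ) : ℤ) =
      ∑ a ∈ Finset.Icc 1 ((p - 1) / 2), legendreSym p (a : ℤ) := by
    rw [Finset.range_eq_Ico, Finset.sum_Ico_add' (fun a : ℕ => legendreSym p (a : ℤ)) 0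
      ((p - 1) / 2) 1]
    rfl
  rw [h4, ← Finset.sum_filter_add_sum_filter_not _ (fun a : ℕ => IsSquare (a : ZMod p))] at h3
  have hne : ∀ a ∈ Finset.Icc 1 ((p - 1) / 2), (((a : ℕ) : ℤ) : ZMod p) ≠ 0 := by
    intro a ha hz
    rw [Finset.mem_Icc] at ha
    rw [ZMod.intCast_zmod_eq_zero_iff_dvd, Int.natCast_dvd_natCast] at hz
    have := Nat.le_of_dvd (by omega) hz
    have := hp.out.two_le
    omega
  have e1 : ∑ a ∈ (Finset.Icc 1 ((p - 1) / 2)).filter (fun a : ℕ => IsSquare (a : ZMod p)),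
      legendreSym p (a : ℤ) =
      (((Finset.Icc 1 ((p - 1) / 2)).filter fun a : ℕ => IsSquare (a : ZMod p)).card : ℤ) := by
    rw [Finset.card_eq_sum_ones, Nat.cast_sum]
    refine Finset.sum_congr rfl fun a ha => ?_
    rw [Finset.mem_filter] at ha
    rw [(legendreSym.eq_one_iff p (hne a ha.1)).mpr (by simpa using ha.2)]
    rfl
  have e2 : ∑ a ∈ (Finset.Icc 1 ((p - 1) / 2)).filter (fun a : ℕ => ¬ IsSquare (a : ZMod p)),
      legendreSym p (a : ℤ) =
      -(((Finset.Icc 1 ((p - 1) / 2)).filter fun a : ℕ => ¬ IsSquare (a : ZMod p)).card : ℤ) := by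
    rw [Finset.card_eq_sum_ones, Nat.cast_sum, ← Finset.sum_neg_distrib]
    refine Finset.sum_congr rfl fun a ha => ?_
    rw [Finset.mem_filter] at ha
    rw [(legendreSym.eq_neg_one_iff p).mpr (by simpa using ha.2)]
    rfl
  rw [e1, e2] at h3
  omega

end Fermat.Agent.Cor.Diri
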