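import Fermat.Agent.Corollaries.Diri.MeanRed

/-!
# The average of the class numbers

`h(-n)` = the number of the proper equivalence classes of the primitive positive definite binary
quadratic forms of discriminant `-n`:
`Σ_{n ≤ N} h(-n) = π / (18 ζ(3)) N^{3/2} + O(N log N)`
(Gauss, *Disquisitiones* art. 302; Lipschitz 1865, Mertens 1874; Siegel 1944).
-/

set_option autoImplicit false

open Finset Filter Topology
open Fermat.Agent.Cor.Ray (BForm)
open scoped ArithmeticFunction.Moebius ArithmeticFunction.zeta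

namespace Fermat.Agent.Cor.Diri.Mean

/-! ### The content -/

/-- the greatest common divisor of the coefficients -/
def cont (f : BForm) : ℕ := Int.gcd f.a (Int.gcd f.b f.c)

theorem dvd_cont {g : ℕ} {f : BForm} :
    g ∣ cont f ↔ (g : ℤ) ∣ f.a ∧ (g : ℤ) ∣ f.b ∧ (g : ℤ) ∣ f.c := by
  rw [cont]
  constructor
  · intro h
    have h1 : (g : ℤ) ∣ (Int.gcd f.a (Int.gcd f.b f.c) : ℤ) := by exact_mod_cast h
    have h2 := h1.trans (Int.gcd_dvd_right (a := f.a) (b := (Int.gcd f.b f.c : ℤ)))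
    exact ⟨h1.trans (Int.gcd_dvd_left (a := f.a) (b := (Int.gcd f.b f.c : ℤ))),
      h2.trans (Int.gcd_dvd_left (a := f.b) (b := f.c)),
      h2.trans (Int.gcd_dvd_right (a := f.b) (b := f.c))⟩
  · rintro ⟨h1, h2, h3⟩
    exact Int.dvd_gcd h1 (Int.dvd_coe_gcd h2 h3)

/-- The reduced forms with content divisible by `g`. -/
theorem card_dvd (X : ℝ) {g : ℕ} (hg : 0 < g) :
    ((redF X).filter fun f => g ∣ cont f).card = (redF (X / (g : ℝ) ^ 2)).card := by
  have hg' : (0 : ℤ) < g := by exact_mod_cast hg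
  have hgr : (0 : ℝ) < (g : ℝ) ^ 2 := by positivity
  symm
  refine Finset.card_bij (fun f _ => ⟨g * f.a, g * f.b, g * f.c⟩) ?_ ?_ ?_
  · intro f hf
    rw [mem_redF] at hf
    obtain ⟨⟨h1, h2, h3⟩, h4, h5⟩ := hf
    rw [Finset.mem_filter, mem_redF, dvd_cont]
    refine ⟨⟨⟨?_, ?_, ?_⟩, ?_, ?_⟩, Dvd.intro _ rfl, Dvd.intro _ rfl, Dvd.intro _ rfl⟩
    · show |(g : ℤ) * f.b| ≤ g * f.a
      rw [abs_mul, abs_of_pos hg']
      exact mul_le_mul_of_nonneg_left h1 hg'.le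
    · exact mul_le_mul_of_nonneg_left h2 hg'.le
    · intro h
      refine mul_nonneg hg'.le (h3 ?_)
      rcases h with h | h
      · left
        have h6 : |(g : ℤ) * f.b| = g * f.a := h
        rw [abs_mul, abs_of_pos hg'] at h6
        exact mul_left_cancel₀ hg'.ne' h6
      · right
        exact mul_left_cancel₀ hg'.ne' h
    · exact mul_pos hg' h4
    · rw [le_div_iff₀ hgr] at h5
      refine le_trans (le_of_eq ?_) h5
      simp only [BForm.disc]
      push_cast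
      ring
  · intro f _ f' _ h
    simp only [BForm.mk.injEq] at h
    exact BForm.ext (mul_left_cancel₀ hg'.ne' h.1) (mul_left_cancel₀ hg'.ne' h.2.1)
      (mul_left_cancel₀ hg'.ne' h.2.2)
  · intro f hf
    rw [Finset.mem_filter, mem_redF, dvd_cont] at hf
    obtain ⟨⟨⟨h1, h2, h3⟩, h4, h5⟩, ⟨a, ha⟩, ⟨b, hb⟩, ⟨c, hc⟩⟩ := hf
    refine ⟨⟨a, b, c⟩, ?_, ?_⟩
    · rw [mem_redF]
      refine ⟨⟨?_, ?_, ?_⟩, ?_, ?_⟩
      · rw [ha, hb, abs_mul, abs_of_pos hg'] at h1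
        exact le_of_mul_le_mul_left h1 hg'
      · rw [ha, hc] at h2
        exact le_of_mul_le_mul_left h2 hg'
      · intro h
        have h6 : 0 ≤ f.b := by
          refine h3 ?_
          rcases h with h | h
          · left
            have h7 : |b| = a := h
            rw [ha, hb, abs_mul, abs_of_pos hg', h7]
          · right
            have h7 : a = c := h
            rw [ha, hc, h7]
        rw [hb] at h6
        exact nonneg_of_mul_nonneg_right h6 hg'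
      · rw [ha] at h4
        exact (mul_pos_iff_of_pos_left hg').mp h4
      · rw [le_div_iff₀ hgr]
        refine le_trans (le_of_eq ?_) h5
        simp only [BForm.disc]
        rw [ha, hb, hc]
        push_cast
        ring
    · exact BForm.ext ha.symm hb.symm hc.symm

theorem sum_moebius_dvd (n : ℕ) :
    ∑ g ∈ n.divisors, (μ g : ℤ) = if n = 1 then 1 else 0 := by
  rw [← ArithmeticFunction.coe_mul_zeta_apply, ArithmeticFunction.moebius_mul_coe_zeta,
    ArithmeticFunction.one_apply]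

open Classical in
/-- **Moebius inversion.** -/
theorem card_prim {X : ℝ} {G : ℕ} (hG : √X < G + 1) :
    (((redF X).filter BForm.Prim).card : ℝ) =
      ∑ g ∈ Icc 1 G, (μ g : ℝ) * (redF (X / (g : ℝ) ^ 2)).card := by
  have h1 : ∀ f ∈ redF X, (if f.Prim then (1 : ℝ) else 0) =
      ∑ g ∈ Icc 1 G, if g ∣ cont f then (μ g : ℝ) else 0 := by
    intro f hf
    rw [mem_redF] at hf
    obtain ⟨h2, h3, h4⟩ := hf
    have h5 : cont f ≠ 0 := by
      intro h
      have h6 : (0 : ℤ) ∣ f.a := by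
        have := (dvd_cont (g := 0) (f := f)).mp (by rw [h])
        exact_mod_cast this.1
      exact h3.ne' (zero_dvd_iff.mp h6)
    have h7 : f.a.toNat ≤ G := by
      have h8 := h2.three_mul_sq_le
      have h9 : f.a ^ 2 ≤ -f.disc := by nlinarith
      have h10 : (f.a : ℝ) ^ 2 ≤ X := le_trans (by exact_mod_cast h9) h4
      have h11 : (f.a : ℝ) ≤ √X := Real.le_sqrt_of_sq_le h10
      have h12 : (f.a : ℝ) < ((G + 1 : ℤ) : ℝ) := by push_cast; linarith
      have h13 : f.a < G + 1 := by exact_mod_cast h12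
      omega
    have h14 : (cont f).divisors = (Icc 1 G).filter fun g => g ∣ cont f := by
      ext g
      rw [Nat.mem_divisors, Finset.mem_filter, Finset.mem_Icc]
      constructor
      · rintro ⟨h15, -⟩
        have h16 : (g : ℤ) ≤ f.a := Int.le_of_dvd h3 (dvd_cont.mp h15).1
        have h17 : g ≠ 0 := by
          rintro rfl
          exact h5 (zero_dvd_iff.mp h15)
        exact ⟨⟨by omega, by omega⟩, h15⟩
      · rintro ⟨-, h15⟩
        exact ⟨h15, h5⟩
    rw [← Finset.sum_filter, ← h14]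
    have h18 := sum_moebius_dvd (cont f)
    have h19 : ∑ g ∈ (cont f).divisors, (μ g : ℝ) = ((if cont f = 1 then 1 else 0 : ℤ) : ℝ) := by
      rw [← h18]
      push_cast
      rfl
    rw [h19]
    have h20 : f.Prim ↔ cont f = 1 := BForm.prim_iff
    by_cases h21 : f.Prim
    · rw [if_pos h21, if_pos (h20.mp h21), Int.cast_one]
    · rw [if_neg h21, if_neg (fun h => h21 (h20.mpr h)), Int.cast_zero]
  rw [Finset.card_filter]
  push_cast
  rw [Finset.sum_congr rfl h1, Finset.sum_comm]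
  refine Finset.sum_congr rfl fun g hg => ?_
  rw [← card_dvd X (Finset.mem_Icc.mp hg).1, Finset.card_filter]
  push_cast
  rw [Finset.mul_sum]
  refine Finset.sum_congr rfl fun f _ => ?_
  split_ifs <;> simp

/-! ### `ζ(3)` -/

/-- `ζ(3)` -/
noncomputable def zeta3 : ℝ := ∑' n : ℕ, 1 / (n : ℝ) ^ 3

theorem riemannZeta_three : riemannZeta 3 = (zeta3 : ℂ) := by
  have h1 := zeta_nat_eq_tsum_of_gt_one (k := 3) (by norm_num)
  rw [zeta3]
  push_cast
  exact_mod_cast h1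

theorem zeta3_pos : 0 < zeta3 := by
  have h1 : Summable fun n : ℕ => 1 / (n : ℝ) ^ 3 :=
    Real.summable_one_div_nat_pow.mpr (by norm_num)
  exact h1.tsum_pos (fun n => by positivity) 1 (by norm_num)

theorem abs_moebius_div_le (n : ℕ) : |(μ n : ℝ) / (n : ℝ) ^ 3| ≤ 1 / (n : ℝ) ^ 3 := by
  rw [abs_div, abs_of_nonneg (by positivity : (0 : ℝ) ≤ (n : ℝ) ^ 3)]
  refine div_le_div_of_nonneg_right ?_ (by positivity)
  have := ArithmeticFunction.abs_moebius_le_one (n := n)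
  exact_mod_cast this

theorem summable_moebius : Summable fun n : ℕ => (μ n : ℝ) / (n : ℝ) ^ 3 := by
  refine Summable.of_norm_bounded (Real.summable_one_div_nat_pow.mpr (by norm_num : 1 < 3)) ?_
  intro n
  rw [Real.norm_eq_abs]
  exact abs_moebius_div_le n

/-- `Σ μ(n) / n³ = 1 / ζ(3)` -/
theorem tsum_moebius : ∑' n : ℕ, (μ n : ℝ) / (n : ℝ) ^ 3 = 1 / zeta3 := by
  have h1 : (1 : ℝ) < (3 : ℂ).re := by norm_num
  have h2 := ArithmeticFunction.LSeries_zeta_mul_Lseries_moebius h1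
  rw [ArithmeticFunction.LSeries_zeta_eq_riemannZeta h1, riemannZeta_three] at h2
  have h3 : LSeries (fun n => ((μ n : ℤ) : ℂ)) 3 =
      ((∑' n : ℕ, (μ n : ℝ) / (n : ℝ) ^ 3 : ℝ) : ℂ) := by
    rw [LSeries]
    push_cast
    refine tsum_congr fun n => ?_
    rcases Nat.eq_zero_or_pos n with rfl | hn
    · simp
    · rw [LSeries.term_of_ne_zero hn.ne']
      norm_cast
  rw [h3] at h2
  have h4 : zeta3 * (∑' n : ℕ, (μ n : ℝ) / (n : ℝ) ^ 3) = 1 := by exact_mod_cast h2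
  rw [eq_div_iff zeta3_pos.ne', mul_comm]
  exact h4

theorem abs_sum_moebius_sub (G : ℕ) :
    |∑ g ∈ Icc 1 G, (μ g : ℝ) / (g : ℝ) ^ 3 - 1 / zeta3| ≤ 2 / (G + 1) := by
  have h1 : Tendsto (fun M : ℕ => ∑ g ∈ range (M + 1), (μ g : ℝ) / (g : ℝ) ^ 3) atTop
      (𝓝 (1 / zeta3)) := by
    rw [← tsum_moebius]
    exact (summable_moebius.hasSum.tendsto_sum_nat).comp (tendsto_add_atTop_nat 1)
  have h2 : ∀ M : ℕ, ∑ g ∈ range (M + 1), (μ g : ℝ) / (g : ℝ) ^ 3 =
      ∑ g ∈ Icc 1 M, (μ g : ℝ) / (g : ℝ) ^ 3 := by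
    intro M
    symm
    refine Finset.sum_subset ?_ ?_
    · intro g hg
      rw [Finset.mem_Icc] at hg
      rw [Finset.mem_range]
      omega
    · intro g hg hg'
      rw [Finset.mem_range] at hg
      rw [Finset.mem_Icc] at hg'
      have : g = 0 := by omega
      rw [this]
      simp
  have h3 : Tendsto (fun M : ℕ => |∑ g ∈ Icc 1 G, (μ g : ℝ) / (g : ℝ) ^ 3 -
      ∑ g ∈ range (M + 1), (μ g : ℝ) / (g : ℝ) ^ 3|) atTop
      (𝓝 |∑ g ∈ Icc 1 G, (μ g : ℝ) / (g : ℝ) ^ 3 - 1 / zeta3|) :=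
    (tendsto_const_nhds.sub h1).abs
  refine le_of_tendsto h3 ?_
  filter_upwards [eventually_ge_atTop G] with M hM
  rw [h2]
  have h4 : ∑ g ∈ Icc 1 M, (μ g : ℝ) / (g : ℝ) ^ 3 =
      ∑ g ∈ Icc 1 G, (μ g : ℝ) / (g : ℝ) ^ 3 +
        ∑ g ∈ Ioo G (M + 1), (μ g : ℝ) / (g : ℝ) ^ 3 := by
    rw [← Finset.sum_union]
    · congr 1
      ext g
      simp only [Finset.mem_Icc, Finset.mem_union, Finset.mem_Ioo]
      omega
    · rw [Finset.disjoint_left]
      intro g
      simp only [Finset.mem_Icc, Finset.mem_Ioo]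
      omega
  rw [h4, sub_add_cancel_left, abs_neg]
  refine (Finset.abs_sum_le_sum_abs _ _).trans (le_trans (Finset.sum_le_sum fun g hg => ?_)
    (sum_Ioo_inv_sq_le G (M + 1)))
  rw [Finset.mem_Ioo] at hg
  have hg1 : (1 : ℝ) ≤ g := by exact_mod_cast (by omega : 1 ≤ g)
  refine (abs_moebius_div_le g).trans ?_
  rw [one_div]
  refine inv_anti₀ (by positivity) ?_
  nlinarith [sq_nonneg (g : ℝ)]

/-! ### The theorem -/

open Classical in
/-- **The number of the primitive reduced forms** of discriminant `≥ -X` is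
`π / (18 ζ(3)) X^{3/2} + O(X log X)`. -/
theorem card_prim_redF {X : ℝ} (hX : 1 ≤ X) :
    |(((redF X).filter BForm.Prim).card : ℝ) - Real.pi / (18 * zeta3) * (X * √X)| ≤
      7 * X * (1 + Real.log X) := by
  have hX0 : 0 ≤ X := by linarith
  obtain ⟨G, hG⟩ : ∃ G, G = ⌊√X⌋₊ := ⟨_, rfl⟩
  have hlt : √X < G + 1 := by
    rw [hG]
    exact Nat.lt_floor_add_one _
  have hle : (G : ℝ) ≤ √X := by
    rw [hG]
    exact Nat.floor_le (Real.sqrt_nonneg _)
  have hlog := Real.log_nonneg hX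
  rw [card_prim hlt]
  have h1 : ∀ g ∈ Icc 1 G, |(μ g : ℝ) * (redF (X / (g : ℝ) ^ 2)).card -
      Real.pi / 18 * (X * √X) * ((μ g : ℝ) / (g : ℝ) ^ 3)| ≤
        3 * X * (1 + Real.log X) * ((g : ℝ) ^ 2)⁻¹ := by
    intro g hg
    rw [Finset.mem_Icc] at hg
    have hg1 : (1 : ℝ) ≤ g := by exact_mod_cast hg.1
    have hg0 : (0 : ℝ) < g := by linarith
    have hgG : (g : ℝ) ≤ √X := le_trans (by exact_mod_cast hg.2) hle
    have h2 : (g : ℝ) ^ 2 ≤ X := by
      have := pow_le_pow_left₀ hg0.le hgG 2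
      rwa [Real.sq_sqrt hX0] at this
    have h3 : 1 ≤ X / (g : ℝ) ^ 2 := by rwa [le_div_iff₀ (by positivity), one_mul]
    have h4 := card_redF h3
    have h5 : X / (g : ℝ) ^ 2 * √(X / (g : ℝ) ^ 2) = X * √X / (g : ℝ) ^ 3 := by
      rw [Real.sqrt_div hX0, Real.sqrt_sq hg0.le]
      field_simp
    have h6 : Real.log (X / (g : ℝ) ^ 2) ≤ Real.log X :=
      Real.log_le_log (by linarith) (div_le_self hX0 (by nlinarith))
    rw [h5] at h4
    have h7 : (μ g : ℝ) * (redF (X / (g : ℝ) ^ 2)).card -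
        Real.pi / 18 * (X * √X) * ((μ g : ℝ) / (g : ℝ) ^ 3) =
        (μ g : ℝ) * ((redF (X / (g : ℝ) ^ 2)).card -
          Real.pi / 18 * (X * √X / (g : ℝ) ^ 3)) := by
      field_simp
    have h8 : |(μ g : ℝ)| ≤ 1 := by exact_mod_cast ArithmeticFunction.abs_moebius_le_one (n := g)
    rw [h7, abs_mul]
    calc |(μ g : ℝ)| * |((redF (X / (g : ℝ) ^ 2)).card : ℝ) -
          Real.pi / 18 * (X * √X / (g : ℝ) ^ 3)|
        ≤ 1 * (3 * (X / (g : ℝ) ^ 2) * (1 + Real.log (X / (g : ℝ) ^ 2))) :=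
          mul_le_mul h8 h4 (abs_nonneg _) zero_le_one
      _ ≤ 1 * (3 * (X / (g : ℝ) ^ 2) * (1 + Real.log X)) := by
          have : 0 ≤ X / (g : ℝ) ^ 2 := by positivity
          gcongr
      _ = 3 * X * (1 + Real.log X) * ((g : ℝ) ^ 2)⁻¹ := by
          rw [div_eq_mul_inv]
          ring
  have h9 : |∑ g ∈ Icc 1 G, (μ g : ℝ) * (redF (X / (g : ℝ) ^ 2)).card -
      Real.pi / 18 * (X * √X) * ∑ g ∈ Icc 1 G, (μ g : ℝ) / (g : ℝ) ^ 3| ≤
        6 * X * (1 + Real.log X) := by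
    rw [Finset.mul_sum, ← Finset.sum_sub_distrib]
    refine (Finset.abs_sum_le_sum_abs _ _).trans ((Finset.sum_le_sum h1).trans ?_)
    rw [← Finset.mul_sum]
    have h10 := sum_Ioo_inv_sq_le (α := ℝ) 0 (G + 1)
    have h11 : Ioo 0 (G + 1) = Icc 1 G := by
      ext g
      simp only [Finset.mem_Ioo, Finset.mem_Icc]
      omega
    rw [h11, Nat.cast_zero, zero_add, div_one] at h10
    calc 3 * X * (1 + Real.log X) * ∑ g ∈ Icc 1 G, ((g : ℝ) ^ 2)⁻¹
        ≤ 3 * X * (1 + Real.log X) * 2 := mul_le_mul_of_nonneg_left h10 (by positivity)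
      _ = 6 * X * (1 + Real.log X) := by ring
  have h12 : |Real.pi / 18 * (X * √X) * ∑ g ∈ Icc 1 G, (μ g : ℝ) / (g : ℝ) ^ 3 -
      Real.pi / (18 * zeta3) * (X * √X)| ≤ X := by
    have h13 : Real.pi / 18 * (X * √X) * ∑ g ∈ Icc 1 G, (μ g : ℝ) / (g : ℝ) ^ 3 -
        Real.pi / (18 * zeta3) * (X * √X) =
        Real.pi / 18 * (X * √X) * (∑ g ∈ Icc 1 G, (μ g : ℝ) / (g : ℝ) ^ 3 - 1 / zeta3) := by
      have := zeta3_pos.ne'
      field_simp
    have hpi := Real.pi_pos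
    have hpi4 := Real.pi_le_four
    rw [h13, abs_mul, abs_of_nonneg (by positivity : 0 ≤ Real.pi / 18 * (X * √X))]
    calc Real.pi / 18 * (X * √X) * |∑ g ∈ Icc 1 G, (μ g : ℝ) / (g : ℝ) ^ 3 - 1 / zeta3|
        ≤ Real.pi / 18 * (X * √X) * (2 / (G + 1)) :=
          mul_le_mul_of_nonneg_left (abs_sum_moebius_sub G) (by positivity)
      _ ≤ 1 / 2 * (X * (G + 1)) * (2 / (G + 1)) := by
          have h14 : 0 ≤ 2 / ((G : ℝ) + 1) := by positivity
          refine mul_le_mul_of_nonneg_right ?_ h14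
          have h15 : X * √X ≤ X * (G + 1) := mul_le_mul_of_nonneg_left hlt.le hX0
          have h16 : 0 ≤ X * √X := by positivity
          nlinarith
      _ = X := by field_simp
  rw [abs_le] at h9 h12 ⊢
  have h17 : 0 ≤ X * Real.log X := mul_nonneg hX0 hlog
  constructor <;> nlinarith [h9.1, h9.2, h12.1, h12.2]

open Classical in
theorem sum_hForm_eq (N : ℕ) :
    ∑ n ∈ Icc 1 N, BForm.hForm (-(n : ℤ)) = ((redF (N : ℝ)).filter BForm.Prim).card := by
  have h1 : ∀ f ∈ (redF (N : ℝ)).filter BForm.Prim, (-f.disc).toNat ∈ Icc 1 N := by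
    intro f hf
    rw [Finset.mem_filter, mem_redF] at hf
    obtain ⟨⟨h2, h3, h4⟩, -⟩ := hf
    have h5 := h2.three_mul_sq_le
    have h6 : -f.disc ≤ N := by exact_mod_cast h4
    have h7 : 3 ≤ -f.disc := by nlinarith
    rw [Finset.mem_Icc]
    omega
  rw [Finset.card_eq_sum_card_fiberwise h1]
  refine Finset.sum_congr rfl fun n hn => ?_
  rw [Finset.mem_Icc] at hn
  rw [BForm.hForm_eq_card_red (by omega)]
  have h2 : ∀ f : BForm, f ∈ ((redF (N : ℝ)).filter BForm.Prim).filter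
      (fun f => (-f.disc).toNat = n) ↔ (f.Prim ∧ f.disc = -(n : ℤ) ∧ 0 < f.a) ∧ f.Red := by
    intro f
    rw [Finset.mem_filter, Finset.mem_filter, mem_redF]
    constructor
    · rintro ⟨⟨⟨h3, h4, h5⟩, h6⟩, h7⟩
      have h8 := h3.three_mul_sq_le
      have h9 : 3 ≤ -f.disc := by nlinarith
      exact ⟨⟨h6, by omega, h4⟩, h3⟩
    · rintro ⟨⟨h3, h4, h5⟩, h6⟩
      refine ⟨⟨⟨h6, h5, ?_⟩, h3⟩, by omega⟩
      rw [h4, neg_neg]
      exact_mod_cast hn.2
  rw [← Fintype.card_coe, ← Nat.card_eq_fintype_card]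
  exact Nat.card_congr
    { toFun := fun f => ⟨f.1.1, (h2 _).mpr ⟨f.1.2, f.2⟩⟩
      invFun := fun f => ⟨⟨f.1, ((h2 _).mp f.2).1⟩, ((h2 _).mp f.2).2⟩
      left_inv := fun _ => rfl
      right_inv := fun _ => rfl }

/-- **The average of the class numbers** (Gauss, *Disquisitiones* art. 302; Lipschitz, Mertens;
Siegel 1944 with the error term): `h(-n)` the number of the proper equivalence classes of the
primitive positive definite forms of discriminant `-n`,
`Σ_{n ≤ N} h(-n) = π / (18 ζ(3)) N^{3/2} + O(N log N)`. -/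
theorem sum_hForm {N : ℕ} (hN : 1 ≤ N) :
    |∑ n ∈ Icc 1 N, (BForm.hForm (-(n : ℤ)) : ℝ) -
      Real.pi / (18 * (riemannZeta 3).re) * (N : ℝ) ^ (3 / 2 : ℝ)| ≤
        7 * N * (1 + Real.log N) := by
  classical
  have hN' : (1 : ℝ) ≤ N := by exact_mod_cast hN
  have h1 := card_prim_redF hN'
  have h2 : ∑ n ∈ Icc 1 N, (BForm.hForm (-(n : ℤ)) : ℝ) =
      (((redF (N : ℝ)).filter BForm.Prim).card : ℝ) := by
    rw [← sum_hForm_eq]
    push_cast
    rfl
  have h3 : (N : ℝ) ^ (3 / 2 : ℝ) = N * √N := by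
    rw [Real.sqrt_eq_rpow, show (3 / 2 : ℝ) = 1 + 1 / 2 by norm_num,
      Real.rpow_add (by linarith), Real.rpow_one]
  rw [h2, h3, riemannZeta_three, Complex.ofReal_re]
  exact h1

/-- `Σ_{n ≤ N} h(-n) ~ π / (18 ζ(3)) N^{3/2}` -/
theorem tendsto_sum_hForm :
    Tendsto (fun N : ℕ => (∑ n ∈ Icc 1 N, (BForm.hForm (-(n : ℤ)) : ℝ)) / (N : ℝ) ^ (3 / 2 : ℝ))
      atTop (𝓝 (Real.pi / (18 * (riemannZeta 3).re))) := by
  rw [tendsto_iff_norm_sub_tendsto_zero]
  have h1 : Tendsto (fun x : ℝ => 7 * (x ^ (-(1 / 2) : ℝ)) +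
      7 * (Real.log x / x ^ (1 / 2 : ℝ))) atTop (𝓝 (7 * 0 + 7 * 0)) := by
    refine ((tendsto_rpow_neg_atTop (by norm_num)).const_mul 7).add
      (Tendsto.const_mul 7 ?_)
    exact (isLittleO_log_rpow_atTop (by norm_num : (0 : ℝ) < 1 / 2)).tendsto_div_nhds_zero
  rw [mul_zero, add_zero] at h1
  refine squeeze_zero' (Eventually.of_forall fun _ => norm_nonneg _) ?_
    (h1.comp tendsto_natCast_atTop_atTop)
  filter_upwards [eventually_ge_atTop 1] with N hN
  have hN' : (1 : ℝ) ≤ N := by exact_mod_cast hN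
  have hN0 : (0 : ℝ) < N := by linarith
  have h2 := sum_hForm hN
  have h3 : (0 : ℝ) < (N : ℝ) ^ (3 / 2 : ℝ) := by positivity
  rw [Real.norm_eq_abs, Function.comp_apply]
  have h4 : (∑ n ∈ Icc 1 N, (BForm.hForm (-(n : ℤ)) : ℝ)) / (N : ℝ) ^ (3 / 2 : ℝ) -
      Real.pi / (18 * (riemannZeta 3).re) =
      (∑ n ∈ Icc 1 N, (BForm.hForm (-(n : ℤ)) : ℝ) -
        Real.pi / (18 * (riemannZeta 3).re) * (N : ℝ) ^ (3 / 2 : ℝ)) /
        (N : ℝ) ^ (3 / 2 : ℝ) := by
    rw [sub_div, mul_div_assoc, div_self h3.ne', mul_one]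
  rw [h4, abs_div, abs_of_pos h3, div_le_iff₀ h3]
  refine h2.trans (le_of_eq ?_)
  have h5 : (N : ℝ) ^ (3 / 2 : ℝ) = N * (N : ℝ) ^ (1 / 2 : ℝ) := by
    rw [show (3 / 2 : ℝ) = 1 + 1 / 2 by norm_num, Real.rpow_add hN0, Real.rpow_one]
  have h6 : (N : ℝ) ^ (-(1 / 2) : ℝ) * (N : ℝ) ^ (1 / 2 : ℝ) = 1 := by
    rw [← Real.rpow_add hN0]
    norm_num
  have h7 : (N : ℝ) ^ (1 / 2 : ℝ) ≠ 0 := (by positivity : (0 : ℝ) < (N : ℝ) ^ (1 / 2 : ℝ)).ne'
  rw [h5]
  field_simp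
  linear_combination (-1 : ℝ) * h6

end Fermat.Agent.Cor.Diri.Mean
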