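import Fermat.Agent.Corollaries.Diri.MeanPrim

/-!
# The classes of order at most two are negligible on the average

On the average over the discriminants almost all classes of primitive positive definite forms have
order `> 2`: the proportion of the forms which are properly equivalent to their inverse tends
to 0.
-/

set_option autoImplicit false

open Finset Filter Topology
open Fermat.Agent.Cor.Ray (BForm)

namespace Fermat.Agent.Cor.Diri.Mean

/-- A reduced form which is properly equivalent to its inverse has `b = 0`, `b = a` or `a = c`. -/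
theorem cases_of_eqv_inv {f : BForm} (ha : 0 < f.a) (hr : f.Red)
    (h : f.Eqv ⟨f.a, -f.b, f.c⟩) : f.b = 0 ∨ f.b = f.a ∨ f.a = f.c := by
  by_contra hn
  push Not at hn
  obtain ⟨h0, h1, h2⟩ := hn
  have hg : (⟨f.a, -f.b, f.c⟩ : BForm).Red := by
    refine ⟨?_, hr.2.1, ?_⟩
    · show |(-f.b)| ≤ f.a
      rw [abs_neg]
      exact hr.1
    · rintro (h3 | h3)
      · exfalso
        have h4 : |f.b| = f.a := by
          rw [← abs_neg]
          exact h3
        have h5 := hr.2.2 (Or.inl h4)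
        rw [abs_of_nonneg h5] at h4
        exact h1 h4
      · exact absurd h3 h2
  have h3 := BForm.Red.eq_of_eqv ha hr hg h
  have h4 : f.b = -f.b := congrArg BForm.b h3
  omega

open Classical in
/-- the reduced forms with `b = 0`, `b = a` or `a = c` -/
noncomputable def ambF (X : ℝ) : Finset BForm :=
  (redF X).filter fun f => f.b = 0 ∨ f.b = f.a ∨ f.a = f.c

theorem card_ambF {X : ℝ} (hX : 1 ≤ X) : ((ambF X).card : ℝ) ≤ 3 * X * (1 + Real.log X) := by
  classical
  have hX0 : 0 ≤ X := by linarith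
  obtain ⟨A, hA⟩ : ∃ A, A = bd X := ⟨_, rfl⟩
  have hA2 : (A : ℝ) ^ 2 ≤ X / 3 := hA ▸ bd_sq_le hX0
  have hAA : (A : ℝ) ≤ (A : ℝ) ^ 2 := by
    have : A ≤ A ^ 2 := Nat.le_self_pow (by norm_num) A
    exact_mod_cast this
  have hA0 : (0 : ℝ) ≤ A := Nat.cast_nonneg A
  obtain ⟨S, hS⟩ : ∃ S : Finset (Σ _ : ℤ, ℤ), S = (Icc (1 : ℤ) A).sigma fun a =>
      Icc 1 ⌊(X + (a : ℝ) ^ 2) / (4 * a)⌋ := ⟨_, rfl⟩
  obtain ⟨S', hS'⟩ : ∃ S' : Finset (Σ _ : ℤ, ℤ), S' = (Icc (1 : ℤ) A).sigma fun a =>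
      Ioc (-a) a := ⟨_, rfl⟩
  have hsub : ambF X ⊆ S.image (fun x => (⟨x.1, 0, x.2⟩ : BForm)) ∪
      S.image (fun x => (⟨x.1, x.1, x.2⟩ : BForm)) ∪
        S'.image (fun x => (⟨x.1, x.2, x.1⟩ : BForm)) := by
    intro f hf
    rw [ambF, Finset.mem_filter, redF, Finset.mem_image] at hf
    obtain ⟨⟨⟨a, b, c⟩, hx, rfl⟩, h⟩ := hf
    rw [Finset.mem_filter] at hx
    have hx1 := hx.1
    have h7 : a ∈ Icc (1 : ℤ) A := hA ▸ (Finset.mem_sigma.mp hx1).1
    rw [mem_trip] at hx1
    obtain ⟨k1, k2, k3, k4, k5⟩ := hx1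
    have ha' : (0 : ℝ) < a := by exact_mod_cast k1
    simp only at h
    have hc : c ∈ Icc (1 : ℤ) ⌊(X + (a : ℝ) ^ 2) / (4 * a)⌋ := by
      rw [Finset.mem_Icc, Int.le_floor, le_div_iff₀ (by linarith)]
      refine ⟨by omega, ?_⟩
      push_cast at k5
      have hb2 : (b : ℝ) ^ 2 ≤ (a : ℝ) ^ 2 := by
        have : b ^ 2 ≤ a ^ 2 := by nlinarith
        exact_mod_cast this
      linarith
    rcases h with h | h | h
    · refine Finset.mem_union_left _ (Finset.mem_union_left _ (Finset.mem_image.mpr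
        ⟨⟨a, c⟩, ?_, by rw [h]⟩))
      rw [hS]
      exact Finset.mem_sigma.mpr ⟨h7, hc⟩
    · refine Finset.mem_union_left _ (Finset.mem_union_right _ (Finset.mem_image.mpr
        ⟨⟨a, c⟩, ?_, by rw [h]⟩))
      rw [hS]
      exact Finset.mem_sigma.mpr ⟨h7, hc⟩
    · refine Finset.mem_union_right _ (Finset.mem_image.mpr ⟨⟨a, b⟩, ?_, by rw [← h]⟩)
      rw [hS']
      exact Finset.mem_sigma.mpr ⟨h7, Finset.mem_Ioc.mpr ⟨k2, k3⟩⟩
  have hcard : (ambF X).card ≤ S.card + S.card + S'.card := by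
    refine (Finset.card_le_card hsub).trans ((Finset.card_union_le _ _).trans ?_)
    refine Nat.add_le_add ((Finset.card_union_le _ _).trans ?_) Finset.card_image_le
    exact Nat.add_le_add Finset.card_image_le Finset.card_image_le
  have hcS : (S.card : ℝ) ≤ ∑ i ∈ range A, (X / 4 * (1 / ((i : ℝ) + 1)) + ((i : ℝ) + 1)) := by
    rw [hS, Finset.card_sigma]
    push_cast
    rw [sum_Icc_int]
    refine Finset.sum_le_sum fun i _ => ?_
    rw [Int.card_Icc, add_sub_cancel_right]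
    have hi : (0 : ℝ) < (i : ℝ) + 1 := by positivity
    have h1 : 0 ≤ (X + (((i : ℤ) + 1 : ℤ) : ℝ) ^ 2) / (4 * (((i : ℤ) + 1 : ℤ) : ℝ)) := by
      push_cast
      positivity
    have h2 : 0 ≤ ⌊(X + (((i : ℤ) + 1 : ℤ) : ℝ) ^ 2) / (4 * (((i : ℤ) + 1 : ℤ) : ℝ))⌋ :=
      Int.floor_nonneg.mpr h1
    have h3 := Int.floor_le ((X + (((i : ℤ) + 1 : ℤ) : ℝ) ^ 2) / (4 * (((i : ℤ) + 1 : ℤ) : ℝ)))
    have h4 : ((⌊(X + (((i : ℤ) + 1 : ℤ) : ℝ) ^ 2) /
        (4 * (((i : ℤ) + 1 : ℤ) : ℝ))⌋.toNat : ℕ) : ℝ) =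
        (⌊(X + (((i : ℤ) + 1 : ℤ) : ℝ) ^ 2) / (4 * (((i : ℤ) + 1 : ℤ) : ℝ))⌋ : ℝ) := by
      exact_mod_cast congrArg (Int.cast : ℤ → ℝ) (Int.toNat_of_nonneg h2)
    rw [h4]
    refine h3.trans ?_
    push_cast
    rw [div_le_iff₀ (by positivity)]
    have h5 : (X / 4 * (1 / ((i : ℝ) + 1)) + ((i : ℝ) + 1)) * (4 * ((i : ℝ) + 1)) =
        X + 4 * ((i : ℝ) + 1) ^ 2 := by
      field_simp
    rw [h5]
    nlinarith [sq_nonneg ((i : ℝ) + 1)]
  have hcS' : (S'.card : ℝ) ≤ ∑ i ∈ range A, 2 * ((i : ℝ) + 1) := by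
    rw [hS', Finset.card_sigma]
    push_cast
    rw [sum_Icc_int]
    refine Finset.sum_le_sum fun i _ => ?_
    rw [Int.card_Ioc]
    have h1 : ((i : ℤ) + 1 - -((i : ℤ) + 1)).toNat = 2 * (i + 1) := by omega
    rw [h1]
    push_cast
    exact le_rfl
  have h13 : 2 * ∑ i ∈ range A, ((i : ℝ) + 1) = A * (A + 1) := by
    clear hcS hcS' hcard hsub hS hS' hAA hA2 hA hA0
    induction A with
    | zero => simp
    | succ n ih =>
      rw [Finset.sum_range_succ, mul_add, ih]
      push_cast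
      ring
  have h14 : ∑ i ∈ range A, 1 / ((i : ℝ) + 1) ≤ 1 + Real.log X := by
    have h15 : ∑ i ∈ range A, 1 / ((i : ℝ) + 1) = ((harmonic A : ℚ) : ℝ) := by
      rw [harmonic]
      push_cast
      refine Finset.sum_congr rfl fun i _ => ?_
      rw [one_div]
    rw [h15]
    refine (harmonic_le_one_add_log A).trans ?_
    rcases Nat.eq_zero_or_pos A with h16 | h16
    · rw [h16, Nat.cast_zero, Real.log_zero]
      linarith [Real.log_nonneg hX]
    · have : Real.log A ≤ Real.log X :=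
        Real.log_le_log (by exact_mod_cast h16) (by nlinarith)
      linarith
  rw [Finset.sum_add_distrib, ← Finset.mul_sum] at hcS
  rw [← Finset.mul_sum] at hcS'
  have h17 : X / 4 * ∑ i ∈ range A, 1 / ((i : ℝ) + 1) ≤ X / 4 * (1 + Real.log X) :=
    mul_le_mul_of_nonneg_left h14 (by linarith)
  have h18 : ((ambF X).card : ℝ) ≤ S.card + S.card + S'.card := by exact_mod_cast hcard
  have h19 : 0 ≤ X * Real.log X := mul_nonneg hX0 (Real.log_nonneg hX)
  nlinarith

open Classical in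
/-- **Almost all classes have order `> 2`** (on the average over the discriminants): the proportion
of the primitive reduced forms of discriminant `≥ -X` which are properly equivalent to their
inverse `a x² - b x y + c y²` tends to 0 for `X → ∞`. -/
theorem tendsto_eqv_inv :
    Tendsto (fun X : ℝ => ((((redF X).filter BForm.Prim).filter
      fun f => f.Eqv ⟨f.a, -f.b, f.c⟩).card : ℝ) / ((redF X).filter BForm.Prim).card)
      atTop (𝓝 0) := by
  have h1 := tendsto_of_abs_le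
    (u := fun X => ((((redF X).filter BForm.Prim).filter
      fun f => f.Eqv ⟨f.a, -f.b, f.c⟩).card : ℝ)) (κ := 0) (C := 3) (by
      intro X hX
      rw [zero_mul, sub_zero, abs_of_nonneg (Nat.cast_nonneg _)]
      refine le_trans ?_ (card_ambF hX)
      have h2 : (((redF X).filter BForm.Prim).filter
          fun f => f.Eqv ⟨f.a, -f.b, f.c⟩) ⊆ ambF X := by
        intro f hf
        rw [Finset.mem_filter, Finset.mem_filter] at hf
        rw [ambF, Finset.mem_filter]
        have h3 := mem_redF.mp hf.1.1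
        exact ⟨hf.1.1, cases_of_eqv_inv h3.2.1 h3.1 hf.2⟩
      exact_mod_cast Finset.card_le_card h2)
  have h2 := tendsto_of_abs_le (u := fun X => (((redF X).filter BForm.Prim).card : ℝ))
    (κ := Real.pi / (18 * zeta3)) (C := 7) fun X hX => card_prim_redF hX
  have hz := zeta3_pos
  have h3 := h1.div h2 (by positivity)
  rw [zero_div] at h3
  refine h3.congr' ?_
  filter_upwards [eventually_ge_atTop 1] with X hX
  have hX0 : (0 : ℝ) < X := by linarith
  have h5 : X * √X ≠ 0 := by positivity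
  simp only [Pi.div_apply]
  rw [div_div_div_cancel_right₀ h5]

end Fermat.Agent.Cor.Diri.Mean
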