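import Fermat.Agent.Corollaries.Diri.Mean

/-!
# Forms with an even middle coefficient

`#{reduced forms with an even middle coefficient, |disc| ≤ X} = (π / 36) X^{3/2} + O(X log X)`.
-/

set_option autoImplicit false

open Finset Filter Topology
open Fermat.Agent.Cor.Ray (BForm)
open scoped ArithmeticFunction.Moebius ArithmeticFunction.zeta

namespace Fermat.Agent.Cor.Diri.Mean

/-! ### The forms with an even middle coefficient -/

/-- the sum over the even `b`, `-a < b ≤ a` -/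
theorem sum_section_even {X : ℝ} (hX : 0 ≤ X) (a : ℕ) :
    |(∑ i ∈ range ((a + 1) / 2), max 0 (X - 4 * (a : ℝ) ^ 2 + (2 * (i : ℝ)) ^ 2) +
      ∑ i ∈ range (a / 2), max 0 (X - 4 * (a : ℝ) ^ 2 + (2 * ((i : ℝ) + 1)) ^ 2)) -
        a * J X a| ≤ 3 * X := by
  obtain ⟨f, hf⟩ : ∃ f : ℝ → ℝ, f = fun t => max 0 (X - 4 * (a : ℝ) ^ 2 + t ^ 2) := ⟨_, rfl⟩
  obtain ⟨h, hh⟩ : ∃ h : ℝ → ℝ, h = fun t => f (2 * t) := ⟨_, rfl⟩
  obtain ⟨m, hm⟩ : ∃ m, m = a / 2 := ⟨_, rfl⟩
  have hcont : Continuous h := by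
    rw [hh, hf]
    fun_prop
  have hmono : MonotoneOn h (Set.Icc 0 (0 + (m : ℝ))) := by
    intro x hx y _ hxy
    rw [hh, hf]
    refine max_le_max le_rfl ?_
    have := pow_le_pow_left₀ (by linarith [hx.1] : 0 ≤ 2 * x) (by linarith : 2 * x ≤ 2 * y) 2
    linarith
  have h1 := hmono.sum_le_integral
  have h2 := hmono.integral_le_sum
  simp only [zero_add] at h1 h2
  have h3 : 2 * ∫ x in (0 : ℝ)..(a / 2), h x = a * J X a := by
    have h4 := intervalIntegral.mul_integral_comp_mul_left (a := 0) (b := 1) (f := f) (a : ℝ)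
    have h4' := intervalIntegral.mul_integral_comp_mul_left (a := 0) (b := (a : ℝ) / 2) (f := f)
      (2 : ℝ)
    rw [mul_zero, mul_one] at h4
    rw [mul_zero, mul_div_cancel₀ _ (two_ne_zero' ℝ)] at h4'
    rw [hh, h4', ← h4, J]
    congr 1
    refine intervalIntegral.integral_congr fun r _ => ?_
    simp only [hf]
    congr 1
    ring
  have hnn : ∀ t, 0 ≤ h t := fun t => by rw [hh, hf]; exact le_max_left _ _
  have hma : 2 * (m : ℝ) ≤ a := by
    have : 2 * m ≤ a := by omega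
    exact_mod_cast this
  have hle : ∀ t : ℝ, 0 ≤ t → 2 * t ≤ a → h t ≤ X := by
    intro t ht0 ht
    rw [hh, hf]
    refine max_le hX ?_
    have : (2 * t) ^ 2 ≤ (a : ℝ) ^ 2 := pow_le_pow_left₀ (by linarith) ht 2
    nlinarith [sq_nonneg (a : ℝ)]
  have hm0 : (0 : ℝ) ≤ m := Nat.cast_nonneg m
  have h5 : ∑ i ∈ range m, h ((i + 1 : ℕ) : ℝ) = ∑ i ∈ range m, h i + h m - h 0 := by
    have h6 := Finset.sum_range_succ (fun i : ℕ => h i) m
    have h7 := Finset.sum_range_succ' (fun i : ℕ => h i) m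
    rw [Nat.cast_zero] at h7
    linarith
  have h9 : h m ≤ X := hle m hm0 hma
  -- the rest of the integral
  have hint : ∀ u v : ℝ, IntervalIntegrable h MeasureTheory.volume u v := fun u v =>
    hcont.intervalIntegrable u v
  have h10 : ∫ x in (0 : ℝ)..(a / 2), h x =
      (∫ x in (0 : ℝ)..m, h x) + ∫ x in (m : ℝ)..(a / 2), h x :=
    (intervalIntegral.integral_add_adjacent_intervals (hint _ _) (hint _ _)).symm
  have hma2 : (m : ℝ) ≤ a / 2 := by linarith
  have hma3 : (a : ℝ) / 2 - m ≤ 1 / 2 := by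
    have : a ≤ 2 * m + 1 := by omega
    have : (a : ℝ) ≤ 2 * m + 1 := by exact_mod_cast this
    linarith
  have h11 : 0 ≤ ∫ x in (m : ℝ)..(a / 2), h x :=
    intervalIntegral.integral_nonneg hma2 fun u _ => hnn u
  have h12 : ∫ x in (m : ℝ)..(a / 2), h x ≤ X / 2 := by
    have h13 := intervalIntegral.norm_integral_le_of_norm_le_const (a := (m : ℝ))
      (b := (a : ℝ) / 2) (C := X) (f := h) ?_
    · rw [abs_of_nonneg (by linarith), Real.norm_eq_abs] at h13
      have h14 := le_abs_self (∫ x in (m : ℝ)..(a / 2), h x)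
      nlinarith
    · intro t ht
      rw [Set.uIoc_of_le hma2] at ht
      rw [Real.norm_eq_abs, abs_of_nonneg (hnn t)]
      exact hle t (by linarith [ht.1]) (by linarith [ht.2])
  have e2 : ∑ i ∈ range (a / 2), max 0 (X - 4 * (a : ℝ) ^ 2 + (2 * ((i : ℝ) + 1)) ^ 2) =
      ∑ i ∈ range m, h ((i + 1 : ℕ) : ℝ) := by
    rw [hh, hf, hm]
    refine Finset.sum_congr rfl fun i _ => ?_
    push_cast
    rfl
  have e1 : ∃ ε : ℝ, 0 ≤ ε ∧ ε ≤ X ∧
      ∑ i ∈ range ((a + 1) / 2), max 0 (X - 4 * (a : ℝ) ^ 2 + (2 * (i : ℝ)) ^ 2) =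
        ∑ i ∈ range m, h i + ε := by
    have e3 : ∑ i ∈ range ((a + 1) / 2), max 0 (X - 4 * (a : ℝ) ^ 2 + (2 * (i : ℝ)) ^ 2) =
        ∑ i ∈ range ((a + 1) / 2), h i := by rw [hh, hf]
    rw [e3]
    rcases (by omega : (a + 1) / 2 = m ∨ (a + 1) / 2 = m + 1) with h15 | h15
    · exact ⟨0, le_rfl, hX, by rw [h15, add_zero]⟩
    · exact ⟨h m, hnn _, h9, by rw [h15, Finset.sum_range_succ]⟩
  obtain ⟨ε, hε0, hε1, hε⟩ := e1
  have h8 := hnn 0
  rw [hε, e2, ← h3, h10, abs_le]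
  constructor <;> linarith

theorem sum_Ioc_even (n : ℕ) (g : ℤ → ℝ) :
    ∑ b ∈ (Ioc (-(n : ℤ)) n).filter (fun b => 2 ∣ b), g b =
      ∑ i ∈ range ((n + 1) / 2), g (-(2 * (i : ℤ))) + ∑ i ∈ range (n / 2), g (2 * (i + 1)) := by
  have h1 : ∑ b ∈ (Ioc (-(n : ℤ)) n).filter (fun b => 2 ∣ b), g b =
      ∑ b ∈ (Ioc (-(n : ℤ)) 0).filter (fun b => 2 ∣ b), g b +
        ∑ b ∈ (Icc (1 : ℤ) n).filter (fun b => 2 ∣ b), g b := by
    rw [← Finset.sum_union]
    · congr 1
      ext b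
      simp only [Finset.mem_Ioc, Finset.mem_union, Finset.mem_Icc, Finset.mem_filter]
      omega
    · rw [Finset.disjoint_left]
      intro b
      simp only [Finset.mem_Ioc, Finset.mem_Icc, Finset.mem_filter]
      omega
  rw [h1]
  congr 1
  · refine Finset.sum_nbij' (fun b => (-b / 2).toNat) (fun i => -(2 * (i : ℤ))) ?_ ?_ ?_ ?_ ?_
    · intro b hb
      rw [Finset.mem_filter, Finset.mem_Ioc] at hb
      rw [Finset.mem_range]
      omega
    · intro i hi
      rw [Finset.mem_range] at hi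
      rw [Finset.mem_filter, Finset.mem_Ioc]
      omega
    · intro b hb
      rw [Finset.mem_filter, Finset.mem_Ioc] at hb
      omega
    · intro i _
      omega
    · intro b hb
      rw [Finset.mem_filter, Finset.mem_Ioc] at hb
      congr 1
      omega
  · refine Finset.sum_nbij' (fun b => (b / 2 - 1).toNat) (fun i => 2 * ((i : ℤ) + 1))
      ?_ ?_ ?_ ?_ ?_
    · intro b hb
      rw [Finset.mem_filter, Finset.mem_Icc] at hb
      rw [Finset.mem_range]
      omega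
    · intro i hi
      rw [Finset.mem_range] at hi
      rw [Finset.mem_filter, Finset.mem_Icc]
      omega
    · intro b hb
      rw [Finset.mem_filter, Finset.mem_Icc] at hb
      omega
    · intro i _
      omega
    · intro b hb
      rw [Finset.mem_filter, Finset.mem_Icc] at hb
      congr 1
      omega

theorem filter_trip (X : ℝ) :
    (trip X).filter (fun x => 2 ∣ x.2.1) =
      (Icc (1 : ℤ) (bd X)).sigma fun a => ((Ioc (-a) a).filter fun b => 2 ∣ b).sigma fun b =>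
        Icc a ⌊(X + (b : ℝ) ^ 2) / (4 * a)⌋ := by
  ext ⟨a, b, c⟩
  simp only [trip, Finset.mem_filter, Finset.mem_sigma]
  tauto

theorem card_trip_even {X : ℝ} (hX : 1 ≤ X) :
    |(((trip X).filter fun x => 2 ∣ x.2.1).card : ℝ) - Real.pi / 36 * (X * √X)| ≤
      2 * X * (1 + Real.log X) := by
  have hX0 : 0 ≤ X := by linarith
  obtain ⟨A, hA⟩ : ∃ A, A = bd X := ⟨_, rfl⟩
  have hA2 : (A : ℝ) ^ 2 ≤ X / 3 := hA ▸ bd_sq_le hX0
  have hAA : (A : ℝ) ≤ (A : ℝ) ^ 2 := by
    have : A ≤ A ^ 2 := Nat.le_self_pow (by norm_num) A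
    exact_mod_cast this
  have hA0 : (0 : ℝ) ≤ A := Nat.cast_nonneg A
  have hlt : √(X / 3) < A + 1 := by
    rw [hA, bd]
    exact Nat.lt_floor_add_one _
  obtain ⟨T, hT⟩ : ∃ T : ℕ → ℝ, T = fun a : ℕ => ∑ b ∈ (Ioc (-(a : ℤ)) a).filter (fun b => 2 ∣ b),
      ((Icc (a : ℤ) ⌊(X + (b : ℝ) ^ 2) / (4 * ((a : ℤ) : ℝ))⌋).card : ℝ) := ⟨_, rfl⟩
  have h1 : (((trip X).filter fun x => 2 ∣ x.2.1).card : ℝ) = ∑ i ∈ range A, T (i + 1) := by
    rw [filter_trip, Finset.card_sigma, ← hA]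
    push_cast
    rw [sum_Icc_int]
    refine Finset.sum_congr rfl fun i _ => ?_
    rw [Finset.card_sigma, hT]
    push_cast
    rfl
  have h2 : ∀ i ∈ range A, |T (i + 1) - J X (i + 1) / 4| ≤
      2 * ((i : ℝ) + 1) + 3 * X / 4 * (1 / ((i : ℝ) + 1)) := by
    intro i _
    have h3 := sum_section_even hX0 (i + 1)
    obtain ⟨a, ha⟩ : ∃ a, a = i + 1 := ⟨_, rfl⟩
    have ha0 : 0 < a := by omega
    have ha' : (0 : ℝ) < a := by exact_mod_cast ha0
    have hia : (i : ℝ) + 1 = a := by rw [ha]; push_cast; rfl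
    rw [← ha] at h3
    rw [← ha, hia]
    obtain ⟨m, hm⟩ : ∃ m : ℤ → ℝ, m = fun b : ℤ => max 0 (X - 4 * (a : ℝ) ^ 2 + (b : ℝ) ^ 2) :=
      ⟨_, rfl⟩
    have h4 : ∑ i ∈ range ((a + 1) / 2), max 0 (X - 4 * (a : ℝ) ^ 2 + (2 * (i : ℝ)) ^ 2) +
        ∑ i ∈ range (a / 2), max 0 (X - 4 * (a : ℝ) ^ 2 + (2 * ((i : ℝ) + 1)) ^ 2) =
        ∑ b ∈ (Ioc (-(a : ℤ)) a).filter (fun b => 2 ∣ b), m b := by
      rw [sum_Ioc_even, hm]
      push_cast
      simp only [neg_sq]
    rw [h4] at h3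
    have h5 : ∑ b ∈ (Ioc (-(a : ℤ)) a).filter (fun b => 2 ∣ b), m b / (4 * a) ≤ T a := by
      rw [hT]
      refine Finset.sum_le_sum fun b _ => ?_
      have := (card_Icc_floor (X := X) (a := (a : ℤ)) (by exact_mod_cast ha0) (b : ℝ)).1
      rw [hm]
      simpa using this
    have h6 : T a ≤ ∑ b ∈ (Ioc (-(a : ℤ)) a).filter (fun b => 2 ∣ b), m b / (4 * a) + 2 * a := by
      have h7 : T a ≤ ∑ b ∈ (Ioc (-(a : ℤ)) a).filter (fun b => 2 ∣ b), (m b / (4 * a) + 1) := by
        rw [hT]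
        refine Finset.sum_le_sum fun b _ => ?_
        have := (card_Icc_floor (X := X) (a := (a : ℤ)) (by exact_mod_cast ha0) (b : ℝ)).2
        rw [hm]
        simpa using this
      rw [Finset.sum_add_distrib, Finset.sum_const, nsmul_eq_mul, mul_one] at h7
      have h8 : (((Ioc (-(a : ℤ)) a).filter (fun b => 2 ∣ b)).card : ℝ) ≤ 2 * a := by
        have h9 : ((Ioc (-(a : ℤ)) a).filter (fun b => 2 ∣ b)).card ≤ 2 * a := by
          refine (Finset.card_filter_le _ _).trans ?_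
          rw [Int.card_Ioc]
          omega
        exact_mod_cast h9
      linarith
    rw [← Finset.sum_div] at h5 h6
    have h9 : |(∑ b ∈ (Ioc (-(a : ℤ)) a).filter (fun b => 2 ∣ b), m b) / (4 * a) - J X a / 4| ≤
        3 * X / 4 * (1 / a) := by
      have h10 : (∑ b ∈ (Ioc (-(a : ℤ)) a).filter (fun b => 2 ∣ b), m b) / (4 * a) - J X a / 4 =
          (∑ b ∈ (Ioc (-(a : ℤ)) a).filter (fun b => 2 ∣ b), m b - a * J X a) / (4 * a) := by
        field_simp
      rw [h10, abs_div, abs_of_pos (by linarith : (0 : ℝ) < 4 * a)]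
      rw [div_le_iff₀ (by linarith)]
      calc _ ≤ 3 * X := h3
        _ = 3 * X / 4 * (1 / a) * (4 * a) := by field_simp
    rw [abs_le] at h9 ⊢
    constructor <;> linarith [h9.1, h9.2]
  have h11 : |∑ i ∈ range A, T (i + 1) - (∑ i ∈ range A, J X (i + 1)) / 4| ≤
      ∑ i ∈ range A, (2 * ((i : ℝ) + 1) + 3 * X / 4 * (1 / ((i : ℝ) + 1))) := by
    rw [Finset.sum_div, ← Finset.sum_sub_distrib]
    exact (Finset.abs_sum_le_sum_abs _ _).trans (Finset.sum_le_sum h2)
  have h12 : ∑ i ∈ range A, (2 * ((i : ℝ) + 1) + 3 * X / 4 * (1 / ((i : ℝ) + 1))) ≤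
      2 / 3 * X + 3 * X / 4 * (1 + Real.log X) := by
    rw [Finset.sum_add_distrib, ← Finset.mul_sum, ← Finset.mul_sum]
    have h13 : 2 * ∑ i ∈ range A, ((i : ℝ) + 1) = A * (A + 1) := by
      clear h11 h2 h1 hlt hAA hA2 hA hA0
      induction A with
      | zero => simp
      | succ n ih =>
        rw [Finset.sum_range_succ, mul_add, ih]
        push_cast
        ring
    have h14 : ∑ i ∈ range A, 1 / ((i : ℝ) + 1) ≤ 1 + Real.log X := by
      have h15 : ∑ i ∈ range A, 1 / ((i : ℝ) + 1) = ((harmonic A : ℚ) : ℝ) := by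
        rw [harmonic]
        push_cast
        refine Finset.sum_congr rfl fun i _ => ?_
        rw [one_div]
      rw [h15]
      refine (harmonic_le_one_add_log A).trans ?_
      rcases Nat.eq_zero_or_pos A with h16 | h16
      · rw [h16, Nat.cast_zero, Real.log_zero]
        linarith [Real.log_nonneg hX]
      · have : Real.log A ≤ Real.log X :=
          Real.log_le_log (by exact_mod_cast h16) (by linarith)
        linarith
    have h17 : 3 * X / 4 * ∑ i ∈ range A, 1 / ((i : ℝ) + 1) ≤ 3 * X / 4 * (1 + Real.log X) :=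
      mul_le_mul_of_nonneg_left h14 (by linarith)
    nlinarith
  have h18 := sum_J hX0 hlt
  have h19 : 0 ≤ X * Real.log X := mul_nonneg hX0 (Real.log_nonneg hX)
  rw [h1]
  rw [abs_le] at h11 h18 ⊢
  constructor <;> nlinarith [h11.1, h11.2, h18.1, h18.2]

/-- the reduced forms of discriminant `≥ -X` with an even middle coefficient -/
noncomputable def redE (X : ℝ) : Finset BForm := (redF X).filter fun f => 2 ∣ f.b

/-- **The number of the reduced forms with an even middle coefficient** of discriminant `≥ -X` is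
`(π / 36) X^{3/2} + O(X log X)`. -/
theorem card_redE {X : ℝ} (hX : 1 ≤ X) :
    |((redE X).card : ℝ) - Real.pi / 36 * (X * √X)| ≤ 3 * X * (1 + Real.log X) := by
  classical
  have hX0 : 0 ≤ X := by linarith
  have h1 : (redE X).card = (((trip X).filter fun x => 2 ∣ x.2.1).filter
      fun x => x.1 = x.2.2 → 0 ≤ x.2.1).card := by
    have h2 : redE X = (((trip X).filter fun x => 2 ∣ x.2.1).filter
        fun x => x.1 = x.2.2 → 0 ≤ x.2.1).image fun x => (⟨x.1, x.2.1, x.2.2⟩ : BForm) := by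
      ext f
      rw [redE, Finset.mem_filter, redF, Finset.mem_image, Finset.mem_image]
      constructor
      · rintro ⟨⟨x, hx, rfl⟩, h3⟩
        rw [Finset.mem_filter] at hx
        exact ⟨x, Finset.mem_filter.mpr ⟨Finset.mem_filter.mpr ⟨hx.1, h3⟩, hx.2⟩, rfl⟩
      · rintro ⟨x, hx, rfl⟩
        rw [Finset.mem_filter, Finset.mem_filter] at hx
        exact ⟨⟨x, Finset.mem_filter.mpr ⟨hx.1.1, hx.2⟩, rfl⟩, hx.1.2⟩
    rw [h2]
    refine Finset.card_image_of_injective _ ?_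
    rintro ⟨a, b, c⟩ ⟨a', b', c'⟩ h
    simp only [BForm.mk.injEq] at h
    obtain ⟨rfl, rfl, rfl⟩ := h
    rfl
  obtain ⟨E, hE⟩ : ∃ E, E = (trip X).filter fun x => 2 ∣ x.2.1 := ⟨_, rfl⟩
  have hEt : E ⊆ trip X := hE ▸ Finset.filter_subset _ _
  rw [← hE] at h1
  have h2 := Finset.card_filter_add_card_filter_not (s := E)
    (fun x => x.1 = x.2.2 → 0 ≤ x.2.1)
  have h3 : (E.filter fun x => ¬ (x.1 = x.2.2 → 0 ≤ x.2.1)).card ≤ bd X * bd X := by
    have h4 : (Icc (1 : ℤ) (bd X) ×ˢ Icc (-(bd X : ℤ)) (-1)).card = bd X * bd X := by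
      rw [Finset.card_product, Int.card_Icc, Int.card_Icc]
      congr 1 <;> omega
    rw [← h4]
    refine Finset.card_le_card_of_injOn (fun x => (x.1, x.2.1)) ?_ ?_
    · rintro ⟨a, b, c⟩ hx
      rw [Finset.mem_coe, Finset.mem_filter] at hx
      obtain ⟨h5, h6⟩ := hx
      have h5 := hEt h5
      have h7 : a ∈ Icc (1 : ℤ) (bd X) := (Finset.mem_sigma.mp h5).1
      rw [mem_trip] at h5
      simp only [Classical.not_imp, not_le] at h6
      rw [Finset.mem_Icc] at h7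
      simp only [Finset.coe_product, Finset.coe_Icc, Set.mem_prod, Set.mem_Icc]
      omega
    · rintro ⟨a, b, c⟩ hx ⟨a', b', c'⟩ hx' h
      rw [Finset.mem_coe, Finset.mem_filter] at hx hx'
      have h6 := hx.2
      have h6' := hx'.2
      simp only [Classical.not_imp, not_le] at h6 h6'
      simp only [Prod.mk.injEq] at h
      obtain ⟨rfl, rfl⟩ := h
      have : c = c' := h6.1.symm.trans h6'.1
      rw [this]
  have h8 : ((E.filter fun x => ¬ (x.1 = x.2.2 → 0 ≤ x.2.1)).card : ℝ) ≤ X / 3 := by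
    have h9 := bd_sq_le hX0
    have h10 : ((E.filter fun x => ¬ (x.1 = x.2.2 → 0 ≤ x.2.1)).card : ℝ) ≤
        bd X * bd X := by exact_mod_cast h3
    nlinarith
  have h11 := card_trip_even hX
  rw [← hE] at h11
  have h12 : ((redE X).card : ℝ) +
      ((E.filter fun x => ¬ (x.1 = x.2.2 → 0 ≤ x.2.1)).card : ℝ) = E.card := by
    rw [h1]
    exact_mod_cast h2
  have h13 : (0 : ℝ) ≤ ((E.filter fun x => ¬ (x.1 = x.2.2 → 0 ≤ x.2.1)).card : ℝ) :=
    Nat.cast_nonneg _
  have h19 : 0 ≤ X * Real.log X := mul_nonneg hX0 (Real.log_nonneg hX)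
  rw [abs_le] at h11 ⊢
  constructor <;> nlinarith [h11.1, h11.2]

end Fermat.Agent.Cor.Diri.Mean
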