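import Fermat.Agent.Corollaries.Diri.MeanEven

/-!
# Gauss's mean value: the discriminants `-4 n`

`Σ_{n ≤ N} h(-4 n) = 4 π / (21 ζ(3)) N^{3/2} + O(N log N)` (Gauss, *Disquisitiones* art. 302).
-/

set_option autoImplicit false

open Finset Filter Topology
open Fermat.Agent.Cor.Ray (BForm)
open scoped ArithmeticFunction.Moebius ArithmeticFunction.zeta

namespace Fermat.Agent.Cor.Diri.Mean

/-! ### The local factor at 2 -/

/-- `μ(g) / g³` -/
noncomputable def mm (g : ℕ) : ℝ := (μ g : ℝ) / (g : ℝ) ^ 3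

theorem mm_four_mul (k : ℕ) : mm (2 * (2 * k)) = 0 := by
  have h1 : ¬ Squarefree (2 * (2 * k)) := by
    intro h
    have h2 := h 2 ⟨k, by ring⟩
    rw [Nat.isUnit_iff] at h2
    omega
  rw [mm, ArithmeticFunction.moebius_eq_zero_of_not_squarefree h1, Int.cast_zero, zero_div]

theorem mm_two_mul_odd (k : ℕ) : mm (2 * (2 * k + 1)) = -(mm (2 * k + 1) / 8) := by
  have h1 : Nat.Coprime 2 (2 * k + 1) := by
    rw [Nat.coprime_two_left]
    exact odd_two_mul_add_one k
  rw [mm, mm, ArithmeticFunction.isMultiplicative_moebius.map_mul_of_coprime h1,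
    ArithmeticFunction.moebius_apply_prime Nat.prime_two]
  have h2 : (0 : ℝ) < ((2 * k + 1 : ℕ) : ℝ) := by positivity
  push_cast
  push_cast at h2
  field_simp
  ring

theorem summable_mm : Summable mm := summable_moebius

theorem tsum_mm : ∑' g, mm g = 1 / zeta3 := tsum_moebius

theorem injective_two_mul : Function.Injective fun k : ℕ => 2 * k := fun a b h => by
  simp only at h
  omega

theorem injective_two_mul_add_one : Function.Injective fun k : ℕ => 2 * k + 1 := fun a b h => by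
  simp only at h
  omega

theorem tsum_mm_even_odd :
    ∑' k, mm (2 * k) = -(1 / (7 * zeta3)) ∧ ∑' k, mm (2 * k + 1) = 8 / (7 * zeta3) := by
  have hs := summable_mm
  have he : Summable fun k => mm (2 * k) := hs.comp_injective injective_two_mul
  have ho : Summable fun k => mm (2 * k + 1) := hs.comp_injective injective_two_mul_add_one
  have h1 : ∑' k, mm (2 * k) + ∑' k, mm (2 * k + 1) = 1 / zeta3 := by
    rw [tsum_even_add_odd he ho, tsum_mm]
  have h2 : ∑' k, mm (2 * k) = -((∑' k, mm (2 * k + 1)) / 8) := by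
    rw [← tsum_even_add_odd (f := fun k => mm (2 * k)) (he.comp_injective injective_two_mul)
      (he.comp_injective injective_two_mul_add_one)]
    simp only [mm_four_mul, mm_two_mul_odd, tsum_zero, zero_add]
    rw [tsum_neg, tsum_div_const]
  have h3 := zeta3_pos.ne'
  rw [h2] at h1
  have h4 : ∑' k, mm (2 * k + 1) = 8 / (7 * zeta3) := by
    have h5 : (7 / 8 : ℝ) * ∑' k, mm (2 * k + 1) = 1 / zeta3 := by linarith
    field_simp at h5 ⊢
    linarith
  refine ⟨?_, h4⟩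
  rw [h2, h4]
  field_simp

/-- the weight: `2` for even `g`, `1` for odd `g` -/
def wt (g : ℕ) : ℝ := if 2 ∣ g then 2 else 1

theorem wt_nonneg (g : ℕ) : 0 ≤ wt g := by
  rw [wt]
  split_ifs <;> norm_num

theorem wt_le (g : ℕ) : wt g ≤ 2 := by
  rw [wt]
  split_ifs <;> norm_num

theorem abs_mul_mm_le (g : ℕ) : |wt g * mm g| ≤ 2 * (1 / (g : ℝ) ^ 3) := by
  rw [abs_mul, abs_of_nonneg (wt_nonneg g)]
  exact mul_le_mul (wt_le g) (abs_moebius_div_le g) (abs_nonneg _) zero_le_two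

theorem summable_wt : Summable fun g => wt g * mm g := by
  refine Summable.of_norm_bounded
    ((Real.summable_one_div_nat_pow.mpr (by norm_num : 1 < 3)).mul_left 2) fun g => ?_
  rw [Real.norm_eq_abs]
  exact abs_mul_mm_le g

theorem tsum_wt : ∑' g, wt g * mm g = 6 / (7 * zeta3) := by
  have hs := summable_wt
  have he : Summable fun k => wt (2 * k) * mm (2 * k) := hs.comp_injective injective_two_mul
  have ho : Summable fun k => wt (2 * k + 1) * mm (2 * k + 1) :=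
    hs.comp_injective injective_two_mul_add_one
  rw [← tsum_even_add_odd (f := fun g => wt g * mm g) he ho]
  have h1 : ∀ k, wt (2 * k) = 2 := fun k => if_pos ⟨k, rfl⟩
  have h2 : ∀ k, wt (2 * k + 1) = 1 := fun k => if_neg (by omega)
  simp only [h1, h2, one_mul]
  rw [tsum_mul_left, tsum_mm_even_odd.1, tsum_mm_even_odd.2]
  have h3 := zeta3_pos.ne'
  field_simp
  norm_num

theorem abs_sum_wt_sub (G : ℕ) :
    |∑ g ∈ Icc 1 G, wt g * mm g - 6 / (7 * zeta3)| ≤ 4 / (G + 1) := by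
  have h1 : Tendsto (fun M : ℕ => ∑ g ∈ range (M + 1), wt g * mm g) atTop
      (𝓝 (6 / (7 * zeta3))) := by
    rw [← tsum_wt]
    exact (summable_wt.hasSum.tendsto_sum_nat).comp (tendsto_add_atTop_nat 1)
  have h2 : ∀ M : ℕ, ∑ g ∈ range (M + 1), wt g * mm g = ∑ g ∈ Icc 1 M, wt g * mm g := by
    intro M
    symm
    refine Finset.sum_subset ?_ ?_
    · intro g hg
      rw [Finset.mem_Icc] at hg
      rw [Finset.mem_range]
      omega
    · intro g hg hg'
      rw [Finset.mem_range] at hg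
      rw [Finset.mem_Icc] at hg'
      have : g = 0 := by omega
      rw [this, mm]
      simp
  have h3 : Tendsto (fun M : ℕ => |∑ g ∈ Icc 1 G, wt g * mm g -
      ∑ g ∈ range (M + 1), wt g * mm g|) atTop
      (𝓝 |∑ g ∈ Icc 1 G, wt g * mm g - 6 / (7 * zeta3)|) :=
    (tendsto_const_nhds.sub h1).abs
  refine le_of_tendsto h3 ?_
  filter_upwards [eventually_ge_atTop G] with M hM
  rw [h2]
  have h4 : ∑ g ∈ Icc 1 M, wt g * mm g =
      ∑ g ∈ Icc 1 G, wt g * mm g + ∑ g ∈ Ioo G (M + 1), wt g * mm g := by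
    rw [← Finset.sum_union]
    · congr 1
      ext g
      simp only [Finset.mem_Icc, Finset.mem_union, Finset.mem_Ioo]
      omega
    · rw [Finset.disjoint_left]
      intro g
      simp only [Finset.mem_Icc, Finset.mem_Ioo]
      omega
  rw [h4, sub_add_cancel_left, abs_neg]
  have h5 : ∑ g ∈ Ioo G (M + 1), |wt g * mm g| ≤
      ∑ g ∈ Ioo G (M + 1), 2 * ((g : ℝ) ^ 2)⁻¹ := by
    refine Finset.sum_le_sum fun g hg => ?_
    rw [Finset.mem_Ioo] at hg
    have hg1 : (1 : ℝ) ≤ g := by exact_mod_cast (by omega : 1 ≤ g)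
    refine (abs_mul_mm_le g).trans ?_
    rw [one_div]
    refine mul_le_mul_of_nonneg_left (inv_anti₀ (by positivity) ?_) zero_le_two
    nlinarith [sq_nonneg (g : ℝ)]
  refine (Finset.abs_sum_le_sum_abs _ _).trans (h5.trans ?_)
  rw [← Finset.mul_sum]
  have h6 := sum_Ioo_inv_sq_le (α := ℝ) G (M + 1)
  have h7 : (4 : ℝ) / (G + 1) = 2 * (2 / (G + 1)) := by ring
  rw [h7]
  exact mul_le_mul_of_nonneg_left h6 zero_le_two

/-! ### Moebius inversion -/

theorem mem_redF_mul {X : ℝ} {g : ℕ} (hg : 0 < g) {f : BForm} :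
    (⟨g * f.a, g * f.b, g * f.c⟩ : BForm) ∈ redF X ↔ f ∈ redF (X / (g : ℝ) ^ 2) := by
  have hg' : (0 : ℤ) < g := by exact_mod_cast hg
  have hgr : (0 : ℝ) < (g : ℝ) ^ 2 := by positivity
  have hdisc : (((-(⟨g * f.a, g * f.b, g * f.c⟩ : BForm).disc : ℤ)) : ℝ) =
      ((-f.disc : ℤ) : ℝ) * (g : ℝ) ^ 2 := by
    simp only [BForm.disc]
    push_cast
    ring
  have habs : |(g : ℤ) * f.b| = g * |f.b| := by rw [abs_mul, abs_of_pos hg']
  rw [mem_redF, mem_redF, hdisc, le_div_iff₀ hgr]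
  refine and_congr ?_ (and_congr ?_ Iff.rfl)
  · constructor
    · rintro ⟨h1, h2, h3⟩
      simp only at h1 h2 h3
      rw [habs] at h1 h3
      refine ⟨le_of_mul_le_mul_left h1 hg', le_of_mul_le_mul_left h2 hg', fun h => ?_⟩
      refine nonneg_of_mul_nonneg_right (h3 ?_) hg'
      rcases h with h | h
      · exact Or.inl (by rw [h])
      · exact Or.inr (by rw [h])
    · rintro ⟨h1, h2, h3⟩
      refine ⟨?_, mul_le_mul_of_nonneg_left h2 hg'.le, fun h => mul_nonneg hg'.le (h3 ?_)⟩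
      · simp only
        rw [habs]
        exact mul_le_mul_of_nonneg_left h1 hg'.le
      · simp only at h
        rw [habs] at h
        rcases h with h | h
        · exact Or.inl (mul_left_cancel₀ hg'.ne' h)
        · exact Or.inr (mul_left_cancel₀ hg'.ne' h)
  · exact mul_pos_iff_of_pos_left hg'

/-- the number of the forms with content divisible by `g` and an even middle coefficient -/
noncomputable def cE (X : ℝ) (g : ℕ) : ℕ :=
  if 2 ∣ g then (redF (X / (g : ℝ) ^ 2)).card else (redE (X / (g : ℝ) ^ 2)).card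

theorem card_dvd_even (X : ℝ) {g : ℕ} (hg : 0 < g) :
    ((redE X).filter fun f => g ∣ cont f).card = cE X g := by
  have hg' : (0 : ℤ) < g := by exact_mod_cast hg
  rw [cE]
  split_ifs with h2
  · rw [← card_dvd X hg, redE, Finset.filter_filter]
    congr 1
    refine Finset.filter_congr fun f _ => ?_
    refine ⟨fun h => h.2, fun h => ⟨?_, h⟩⟩
    have h3 : (2 : ℤ) ∣ g := by exact_mod_cast h2
    exact h3.trans (dvd_cont.mp h).2.1
  · have hcop : IsCoprime (2 : ℤ) g := by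
      have h3 : Nat.Coprime 2 g := (Nat.Prime.coprime_iff_not_dvd Nat.prime_two).mpr h2
      exact_mod_cast Nat.isCoprime_iff_coprime.mpr h3
    symm
    refine Finset.card_bij (fun f _ => ⟨g * f.a, g * f.b, g * f.c⟩) ?_ ?_ ?_
    · intro f hf
      rw [redE, Finset.mem_filter] at hf
      rw [redE, Finset.mem_filter, Finset.mem_filter, mem_redF_mul hg, dvd_cont]
      exact ⟨⟨hf.1, hf.2.mul_left _⟩, Dvd.intro _ rfl, Dvd.intro _ rfl, Dvd.intro _ rfl⟩
    · intro f _ f' _ h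
      simp only [BForm.mk.injEq] at h
      exact BForm.ext (mul_left_cancel₀ hg'.ne' h.1) (mul_left_cancel₀ hg'.ne' h.2.1)
        (mul_left_cancel₀ hg'.ne' h.2.2)
    · intro f hf
      rw [redE, Finset.mem_filter, Finset.mem_filter, dvd_cont] at hf
      obtain ⟨⟨h1, h3⟩, ⟨a, ha⟩, ⟨b, hb⟩, ⟨c, hc⟩⟩ := hf
      have hf : f = ⟨g * a, g * b, g * c⟩ := BForm.ext ha hb hc
      refine ⟨⟨a, b, c⟩, ?_, hf.symm⟩
      rw [redE, Finset.mem_filter, ← mem_redF_mul hg]
      rw [hb] at h3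
      exact ⟨by rw [← hf]; exact h1, hcop.dvd_of_dvd_mul_left h3⟩

open Classical in
theorem card_prim_even {X : ℝ} {G : ℕ} (hG : √X < G + 1) :
    (((redE X).filter BForm.Prim).card : ℝ) = ∑ g ∈ Icc 1 G, (μ g : ℝ) * cE X g := by
  have h1 : ∀ f ∈ redE X, (if f.Prim then (1 : ℝ) else 0) =
      ∑ g ∈ Icc 1 G, if g ∣ cont f then (μ g : ℝ) else 0 := by
    intro f hf
    rw [redE, Finset.mem_filter, mem_redF] at hf
    obtain ⟨⟨h2, h3, h4⟩, -⟩ := hf
    have h5 : cont f ≠ 0 := by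
      intro h
      have h6 : (0 : ℤ) ∣ f.a := by
        have := (dvd_cont (g := 0) (f := f)).mp (by rw [h])
        exact_mod_cast this.1
      exact h3.ne' (zero_dvd_iff.mp h6)
    have h7 : f.a.toNat ≤ G := by
      have h8 := h2.three_mul_sq_le
      have h9 : f.a ^ 2 ≤ -f.disc := by nlinarith
      have h10 : (f.a : ℝ) ^ 2 ≤ X := le_trans (by exact_mod_cast h9) h4
      have h11 : (f.a : ℝ) ≤ √X := Real.le_sqrt_of_sq_le h10
      have h12 : (f.a : ℝ) < ((G + 1 : ℤ) : ℝ) := by push_cast; linarith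
      have h13 : f.a < G + 1 := by exact_mod_cast h12
      omega
    have h14 : (cont f).divisors = (Icc 1 G).filter fun g => g ∣ cont f := by
      ext g
      rw [Nat.mem_divisors, Finset.mem_filter, Finset.mem_Icc]
      constructor
      · rintro ⟨h15, -⟩
        have h16 : (g : ℤ) ≤ f.a := Int.le_of_dvd h3 (dvd_cont.mp h15).1
        have h17 : g ≠ 0 := by
          rintro rfl
          exact h5 (zero_dvd_iff.mp h15)
        exact ⟨⟨by omega, by omega⟩, h15⟩
      · rintro ⟨-, h15⟩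
        exact ⟨h15, h5⟩
    rw [← Finset.sum_filter, ← h14]
    have h18 := sum_moebius_dvd (cont f)
    have h19 : ∑ g ∈ (cont f).divisors, (μ g : ℝ) = ((if cont f = 1 then 1 else 0 : ℤ) : ℝ) := by
      rw [← h18]
      push_cast
      rfl
    rw [h19]
    have h20 : f.Prim ↔ cont f = 1 := BForm.prim_iff
    by_cases h21 : f.Prim
    · rw [if_pos h21, if_pos (h20.mp h21), Int.cast_one]
    · rw [if_neg h21, if_neg (fun h => h21 (h20.mpr h)), Int.cast_zero]
  rw [Finset.card_filter]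
  push_cast
  rw [Finset.sum_congr rfl h1, Finset.sum_comm]
  refine Finset.sum_congr rfl fun g hg => ?_
  rw [← card_dvd_even X (Finset.mem_Icc.mp hg).1, Finset.card_filter]
  push_cast
  rw [Finset.mul_sum]
  refine Finset.sum_congr rfl fun f _ => ?_
  split_ifs <;> simp

open Classical in
/-- **The number of the primitive reduced forms with an even middle coefficient** of discriminant
`≥ -X` is `π / (42 ζ(3)) X^{3/2} + O(X log X)`. -/
theorem card_prim_redE {X : ℝ} (hX : 1 ≤ X) :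
    |(((redE X).filter BForm.Prim).card : ℝ) - Real.pi / (42 * zeta3) * (X * √X)| ≤
      7 * X * (1 + Real.log X) := by
  have hX0 : 0 ≤ X := by linarith
  obtain ⟨G, hG⟩ : ∃ G, G = ⌊√X⌋₊ := ⟨_, rfl⟩
  have hlt : √X < G + 1 := by
    rw [hG]
    exact Nat.lt_floor_add_one _
  have hle : (G : ℝ) ≤ √X := by
    rw [hG]
    exact Nat.floor_le (Real.sqrt_nonneg _)
  have hlog := Real.log_nonneg hX
  rw [card_prim_even hlt]
  have h1 : ∀ g ∈ Icc 1 G, |(μ g : ℝ) * cE X g -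
      Real.pi / 36 * (X * √X) * (wt g * mm g)| ≤
        3 * X * (1 + Real.log X) * ((g : ℝ) ^ 2)⁻¹ := by
    intro g hg
    rw [Finset.mem_Icc] at hg
    have hg1 : (1 : ℝ) ≤ g := by exact_mod_cast hg.1
    have hg0 : (0 : ℝ) < g := by linarith
    have hgG : (g : ℝ) ≤ √X := le_trans (by exact_mod_cast hg.2) hle
    have h2 : (g : ℝ) ^ 2 ≤ X := by
      have := pow_le_pow_left₀ hg0.le hgG 2
      rwa [Real.sq_sqrt hX0] at this
    have h3 : 1 ≤ X / (g : ℝ) ^ 2 := by rwa [le_div_iff₀ (by positivity), one_mul]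
    have h5 : X / (g : ℝ) ^ 2 * √(X / (g : ℝ) ^ 2) = X * √X / (g : ℝ) ^ 3 := by
      rw [Real.sqrt_div hX0, Real.sqrt_sq hg0.le]
      field_simp
    have h6 : Real.log (X / (g : ℝ) ^ 2) ≤ Real.log X :=
      Real.log_le_log (by linarith) (div_le_self hX0 (by nlinarith))
    have h4 : |((cE X g : ℕ) : ℝ) - Real.pi / 36 * wt g * (X * √X / (g : ℝ) ^ 3)| ≤
        3 * (X / (g : ℝ) ^ 2) * (1 + Real.log (X / (g : ℝ) ^ 2)) := by
      rw [cE, wt]
      split_ifs
      · have h7 := card_redF h3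
        rw [h5] at h7
        rwa [show Real.pi / 36 * 2 = Real.pi / 18 by ring]
      · have h7 := card_redE h3
        rw [h5] at h7
        rwa [mul_one]
    have h7 : (μ g : ℝ) * cE X g - Real.pi / 36 * (X * √X) * (wt g * mm g) =
        (μ g : ℝ) * (cE X g - Real.pi / 36 * wt g * (X * √X / (g : ℝ) ^ 3)) := by
      rw [mm]
      ring
    have h8 : |(μ g : ℝ)| ≤ 1 := by exact_mod_cast ArithmeticFunction.abs_moebius_le_one (n := g)
    rw [h7, abs_mul]
    calc |(μ g : ℝ)| * |((cE X g : ℕ) : ℝ) - Real.pi / 36 * wt g * (X * √X / (g : ℝ) ^ 3)|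
        ≤ 1 * (3 * (X / (g : ℝ) ^ 2) * (1 + Real.log (X / (g : ℝ) ^ 2))) :=
          mul_le_mul h8 h4 (abs_nonneg _) zero_le_one
      _ ≤ 1 * (3 * (X / (g : ℝ) ^ 2) * (1 + Real.log X)) := by
          have : 0 ≤ X / (g : ℝ) ^ 2 := by positivity
          gcongr
      _ = 3 * X * (1 + Real.log X) * ((g : ℝ) ^ 2)⁻¹ := by
          rw [div_eq_mul_inv]
          ring
  have h9 : |∑ g ∈ Icc 1 G, (μ g : ℝ) * cE X g -
      Real.pi / 36 * (X * √X) * ∑ g ∈ Icc 1 G, wt g * mm g| ≤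
        6 * X * (1 + Real.log X) := by
    rw [Finset.mul_sum, ← Finset.sum_sub_distrib]
    refine (Finset.abs_sum_le_sum_abs _ _).trans ((Finset.sum_le_sum h1).trans ?_)
    rw [← Finset.mul_sum]
    have h10 := sum_Ioo_inv_sq_le (α := ℝ) 0 (G + 1)
    have h11 : Ioo 0 (G + 1) = Icc 1 G := by
      ext g
      simp only [Finset.mem_Ioo, Finset.mem_Icc]
      omega
    rw [h11, Nat.cast_zero, zero_add, div_one] at h10
    calc 3 * X * (1 + Real.log X) * ∑ g ∈ Icc 1 G, ((g : ℝ) ^ 2)⁻¹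
        ≤ 3 * X * (1 + Real.log X) * 2 := mul_le_mul_of_nonneg_left h10 (by positivity)
      _ = 6 * X * (1 + Real.log X) := by ring
  have h12 : |Real.pi / 36 * (X * √X) * ∑ g ∈ Icc 1 G, wt g * mm g -
      Real.pi / (42 * zeta3) * (X * √X)| ≤ X := by
    have h13 : Real.pi / 36 * (X * √X) * ∑ g ∈ Icc 1 G, wt g * mm g -
        Real.pi / (42 * zeta3) * (X * √X) =
        Real.pi / 36 * (X * √X) * (∑ g ∈ Icc 1 G, wt g * mm g - 6 / (7 * zeta3)) := by
      have := zeta3_pos.ne'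
      field_simp
      ring
    have hpi := Real.pi_pos
    have hpi4 := Real.pi_le_four
    rw [h13, abs_mul, abs_of_nonneg (by positivity : 0 ≤ Real.pi / 36 * (X * √X))]
    calc Real.pi / 36 * (X * √X) * |∑ g ∈ Icc 1 G, wt g * mm g - 6 / (7 * zeta3)|
        ≤ Real.pi / 36 * (X * √X) * (4 / (G + 1)) :=
          mul_le_mul_of_nonneg_left (abs_sum_wt_sub G) (by positivity)
      _ ≤ 1 / 4 * (X * (G + 1)) * (4 / (G + 1)) := by
          have h14 : 0 ≤ 4 / ((G : ℝ) + 1) := by positivity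
          refine mul_le_mul_of_nonneg_right ?_ h14
          have h15 : X * √X ≤ X * (G + 1) := mul_le_mul_of_nonneg_left hlt.le hX0
          have h16 : 0 ≤ X * √X := by positivity
          nlinarith
      _ = X := by field_simp
  rw [abs_le] at h9 h12 ⊢
  have h17 : 0 ≤ X * Real.log X := mul_nonneg hX0 hlog
  constructor <;> nlinarith [h9.1, h9.2, h12.1, h12.2]

theorem two_dvd_b_iff (f : BForm) : 2 ∣ f.b ↔ 4 ∣ f.disc := by
  rw [BForm.disc]
  constructor
  · rintro ⟨k, hk⟩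
    exact ⟨k ^ 2 - f.a * f.c, by rw [hk]; ring⟩
  · intro h
    have h1 : (2 : ℤ) ∣ f.b ^ 2 := by
      have h2 : (2 : ℤ) ∣ f.b ^ 2 - 4 * f.a * f.c := (by norm_num : (2 : ℤ) ∣ 4).trans h
      have h3 : (2 : ℤ) ∣ 4 * f.a * f.c := ⟨2 * f.a * f.c, by ring⟩
      exact (dvd_sub_left h3).mp h2
    exact Int.prime_two.dvd_of_dvd_pow h1

open Classical in
theorem sum_hForm_four_eq (N : ℕ) :
    ∑ n ∈ Icc 1 N, BForm.hForm (-(4 * (n : ℤ))) =
      ((redE (4 * (N : ℝ))).filter BForm.Prim).card := by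
  have h1 : ∀ f ∈ (redE (4 * (N : ℝ))).filter BForm.Prim, (-f.disc / 4).toNat ∈ Icc 1 N := by
    intro f hf
    rw [Finset.mem_filter, redE, Finset.mem_filter, mem_redF, two_dvd_b_iff] at hf
    obtain ⟨⟨⟨h2, h3, h4⟩, h8⟩, -⟩ := hf
    have h5 := h2.three_mul_sq_le
    have h6 : -f.disc ≤ 4 * N := by exact_mod_cast h4
    have h7 : 3 ≤ -f.disc := by nlinarith
    rw [Finset.mem_Icc]
    omega
  rw [Finset.card_eq_sum_card_fiberwise h1]
  refine Finset.sum_congr rfl fun n hn => ?_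
  rw [Finset.mem_Icc] at hn
  rw [BForm.hForm_eq_card_red (by omega)]
  have h2 : ∀ f : BForm, f ∈ ((redE (4 * (N : ℝ))).filter BForm.Prim).filter
      (fun f => (-f.disc / 4).toNat = n) ↔
        (f.Prim ∧ f.disc = -(4 * (n : ℤ)) ∧ 0 < f.a) ∧ f.Red := by
    intro f
    rw [Finset.mem_filter, Finset.mem_filter, redE, Finset.mem_filter, mem_redF, two_dvd_b_iff]
    constructor
    · rintro ⟨⟨⟨⟨h3, h4, h5⟩, h10⟩, h6⟩, h7⟩
      have h8 := h3.three_mul_sq_le
      have h9 : 3 ≤ -f.disc := by nlinarith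
      exact ⟨⟨h6, by omega, h4⟩, h3⟩
    · rintro ⟨⟨h3, h4, h5⟩, h6⟩
      refine ⟨⟨⟨⟨h6, h5, ?_⟩, by omega⟩, h3⟩, by omega⟩
      rw [h4, neg_neg]
      push_cast
      have : (n : ℝ) ≤ N := by exact_mod_cast hn.2
      linarith
  rw [← Fintype.card_coe, ← Nat.card_eq_fintype_card]
  exact Nat.card_congr
    { toFun := fun f => ⟨f.1.1, (h2 _).mpr ⟨f.1.2, f.2⟩⟩
      invFun := fun f => ⟨⟨f.1, ((h2 _).mp f.2).1⟩, ((h2 _).mp f.2).2⟩
      left_inv := fun _ => rfl
      right_inv := fun _ => rfl }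

/-- **Gauss's mean value** (*Disquisitiones Arithmeticae* art. 302): `h(-4 n)` the number of the
proper equivalence classes of the primitive positive definite forms of discriminant `-4 n` (the
forms `a x² + 2 b x y + c y²`, `a c - b² = n`, `(a, 2 b, c) = 1`),
`Σ_{n ≤ N} h(-4 n) = 4 π / (21 ζ(3)) N^{3/2} + O(N log N)`. -/
theorem sum_hForm_four {N : ℕ} (hN : 1 ≤ N) :
    |∑ n ∈ Icc 1 N, (BForm.hForm (-(4 * (n : ℤ))) : ℝ) -
      4 * Real.pi / (21 * (riemannZeta 3).re) * (N : ℝ) ^ (3 / 2 : ℝ)| ≤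
        84 * N * (1 + Real.log N) := by
  classical
  have hN' : (1 : ℝ) ≤ N := by exact_mod_cast hN
  have h1 := card_prim_redE (X := 4 * (N : ℝ)) (by linarith)
  have h2 : ∑ n ∈ Icc 1 N, (BForm.hForm (-(4 * (n : ℤ))) : ℝ) =
      (((redE (4 * (N : ℝ))).filter BForm.Prim).card : ℝ) := by
    rw [← sum_hForm_four_eq]
    push_cast
    rfl
  have h3 : (N : ℝ) ^ (3 / 2 : ℝ) = N * √N := by
    rw [Real.sqrt_eq_rpow, show (3 / 2 : ℝ) = 1 + 1 / 2 by norm_num,
      Real.rpow_add (by linarith), Real.rpow_one]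
  have h4 : 4 * (N : ℝ) * √(4 * (N : ℝ)) = 8 * (N * √N) := by
    rw [Real.sqrt_mul (by norm_num), show (4 : ℝ) = 2 ^ 2 by norm_num,
      Real.sqrt_sq (by norm_num)]
    ring
  have h5 : Real.log (4 * (N : ℝ)) ≤ 2 + Real.log N := by
    rw [Real.log_mul (by norm_num) (by linarith)]
    have h6 : Real.log 4 ≤ 2 := by
      rw [show (4 : ℝ) = 2 ^ 2 by norm_num, Real.log_pow]
      have := Real.log_two_lt_d9
      push_cast
      linarith
    linarith
  have h7 : Real.pi / (42 * zeta3) * (4 * (N : ℝ) * √(4 * (N : ℝ))) =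
      4 * Real.pi / (21 * zeta3) * (N * √N) := by
    rw [h4]
    have := zeta3_pos.ne'
    field_simp
    ring
  rw [h2, h3, riemannZeta_three, Complex.ofReal_re, ← h7]
  refine h1.trans ?_
  have h8 := Real.log_nonneg hN'
  nlinarith [mul_nonneg (by linarith : (0 : ℝ) ≤ N) h8]

/-- `Σ_{n ≤ N} h(-4 n) ~ 4 π / (21 ζ(3)) N^{3/2}` -/
theorem tendsto_sum_hForm_four :
    Tendsto (fun N : ℕ => (∑ n ∈ Icc 1 N, (BForm.hForm (-(4 * (n : ℤ))) : ℝ)) /
      (N : ℝ) ^ (3 / 2 : ℝ)) atTop (𝓝 (4 * Real.pi / (21 * (riemannZeta 3).re))) := by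
  rw [tendsto_iff_norm_sub_tendsto_zero]
  have h1 : Tendsto (fun x : ℝ => 84 * (x ^ (-(1 / 2) : ℝ)) +
      84 * (Real.log x / x ^ (1 / 2 : ℝ))) atTop (𝓝 (84 * 0 + 84 * 0)) := by
    refine ((tendsto_rpow_neg_atTop (by norm_num)).const_mul 84).add
      (Tendsto.const_mul 84 ?_)
    exact (isLittleO_log_rpow_atTop (by norm_num : (0 : ℝ) < 1 / 2)).tendsto_div_nhds_zero
  rw [mul_zero, add_zero] at h1
  refine squeeze_zero' (Eventually.of_forall fun _ => norm_nonneg _) ?_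
    (h1.comp tendsto_natCast_atTop_atTop)
  filter_upwards [eventually_ge_atTop 1] with N hN
  have hN' : (1 : ℝ) ≤ N := by exact_mod_cast hN
  have hN0 : (0 : ℝ) < N := by linarith
  have h2 := sum_hForm_four hN
  have h3 : (0 : ℝ) < (N : ℝ) ^ (3 / 2 : ℝ) := by positivity
  rw [Real.norm_eq_abs, Function.comp_apply]
  have h4 : (∑ n ∈ Icc 1 N, (BForm.hForm (-(4 * (n : ℤ))) : ℝ)) / (N : ℝ) ^ (3 / 2 : ℝ) -
      4 * Real.pi / (21 * (riemannZeta 3).re) =
      (∑ n ∈ Icc 1 N, (BForm.hForm (-(4 * (n : ℤ))) : ℝ) -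
        4 * Real.pi / (21 * (riemannZeta 3).re) * (N : ℝ) ^ (3 / 2 : ℝ)) /
        (N : ℝ) ^ (3 / 2 : ℝ) := by
    rw [sub_div, mul_div_cancel_right₀ _ h3.ne']
  rw [h4, abs_div, abs_of_pos h3, div_le_iff₀ h3]
  refine h2.trans (le_of_eq ?_)
  have h5 : (N : ℝ) ^ (3 / 2 : ℝ) = N * (N : ℝ) ^ (1 / 2 : ℝ) := by
    rw [show (3 / 2 : ℝ) = 1 + 1 / 2 by norm_num, Real.rpow_add hN0, Real.rpow_one]
  have h6 : (N : ℝ) ^ (-(1 / 2) : ℝ) * (N : ℝ) ^ (1 / 2 : ℝ) = 1 := by
    rw [← Real.rpow_add hN0]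
    norm_num
  have h7 : (N : ℝ) ^ (1 / 2 : ℝ) ≠ 0 := (by positivity : (0 : ℝ) < (N : ℝ) ^ (1 / 2 : ℝ)).ne'
  rw [h5]
  field_simp
  linear_combination (-1 : ℝ) * h6

/-- **The odd discriminants**: `Σ_{n ≤ N, n ≡ 3 (4)} h(-n) = 2 π / (63 ζ(3)) N^{3/2} + O(N log N)`. -/
theorem sum_hForm_odd {N : ℕ} (hN : 1 ≤ N) :
    |∑ n ∈ (Icc 1 N).filter (fun n => n % 4 = 3), (BForm.hForm (-(n : ℤ)) : ℝ) -
      2 * Real.pi / (63 * (riemannZeta 3).re) * (N : ℝ) ^ (3 / 2 : ℝ)| ≤
        14 * N * (1 + Real.log N) := by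
  classical
  have hN' : (1 : ℝ) ≤ N := by exact_mod_cast hN
  obtain ⟨P, hP⟩ : ∃ P, P = (redF (N : ℝ)).filter BForm.Prim := ⟨_, rfl⟩
  have h0 : (P.filter fun f => 2 ∣ f.b).card + (P.filter fun f => ¬ 2 ∣ f.b).card = P.card :=
    Finset.card_filter_add_card_filter_not _
  have h0' : P.filter (fun f => 2 ∣ f.b) = (redE (N : ℝ)).filter BForm.Prim := by
    rw [hP, redE, Finset.filter_comm]
  have hsum : ∑ n ∈ (Icc 1 N).filter (fun n => n % 4 = 3), BForm.hForm (-(n : ℤ)) =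
      (P.filter fun f => ¬ 2 ∣ f.b).card := by
    have h1 : ∀ f ∈ P.filter (fun f => ¬ 2 ∣ f.b),
        (-f.disc).toNat ∈ (Icc 1 N).filter (fun n => n % 4 = 3) := by
      intro f hf
      rw [Finset.mem_filter, hP, Finset.mem_filter, mem_redF] at hf
      obtain ⟨⟨⟨h2, h3, h4⟩, -⟩, h8⟩ := hf
      have h5 := h2.three_mul_sq_le
      have h6 : -f.disc ≤ N := by exact_mod_cast h4
      have h7 : 3 ≤ -f.disc := by nlinarith
      have h9 : ∃ k : ℤ, f.disc = 4 * k + 1 := by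
        obtain ⟨m, hm⟩ : ∃ m : ℤ, f.b = 2 * m + 1 := ⟨f.b / 2, by omega⟩
        exact ⟨m ^ 2 + m - f.a * f.c, by rw [BForm.disc, hm]; ring⟩
      obtain ⟨k, hk⟩ := h9
      rw [Finset.mem_filter, Finset.mem_Icc]
      omega
    rw [Finset.card_eq_sum_card_fiberwise h1]
    refine Finset.sum_congr rfl fun n hn => ?_
    rw [Finset.mem_filter, Finset.mem_Icc] at hn
    rw [BForm.hForm_eq_card_red (by omega)]
    have h2 : ∀ f : BForm, f ∈ (P.filter (fun f => ¬ 2 ∣ f.b)).filter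
        (fun f => (-f.disc).toNat = n) ↔ (f.Prim ∧ f.disc = -(n : ℤ) ∧ 0 < f.a) ∧ f.Red := by
      intro f
      rw [Finset.mem_filter, Finset.mem_filter, hP, Finset.mem_filter, mem_redF,
        two_dvd_b_iff]
      constructor
      · rintro ⟨⟨⟨⟨h3, h4, h5⟩, h6⟩, -⟩, h7⟩
        have h8 := h3.three_mul_sq_le
        have h9 : 3 ≤ -f.disc := by nlinarith
        exact ⟨⟨h6, by omega, h4⟩, h3⟩
      · rintro ⟨⟨h3, h4, h5⟩, h6⟩
        refine ⟨⟨⟨⟨h6, h5, ?_⟩, h3⟩, by omega⟩, by omega⟩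
        rw [h4, neg_neg]
        exact_mod_cast hn.1.2
    rw [← Fintype.card_coe, ← Nat.card_eq_fintype_card]
    exact Nat.card_congr
      { toFun := fun f => ⟨f.1.1, (h2 _).mpr ⟨f.1.2, f.2⟩⟩
        invFun := fun f => ⟨⟨f.1, ((h2 _).mp f.2).1⟩, ((h2 _).mp f.2).2⟩
        left_inv := fun _ => rfl
        right_inv := fun _ => rfl }
  have h3 : (N : ℝ) ^ (3 / 2 : ℝ) = N * √N := by
    rw [Real.sqrt_eq_rpow, show (3 / 2 : ℝ) = 1 + 1 / 2 by norm_num,
      Real.rpow_add (by linarith), Real.rpow_one]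
  have h4 := card_prim_redF hN'
  have h5 := card_prim_redE hN'
  rw [← hP] at h4
  rw [← h0'] at h5
  have h6 : ((P.filter fun f => 2 ∣ f.b).card : ℝ) + ((P.filter fun f => ¬ 2 ∣ f.b).card : ℝ) =
      P.card := by exact_mod_cast h0
  have h7 : ∑ n ∈ (Icc 1 N).filter (fun n => n % 4 = 3), (BForm.hForm (-(n : ℤ)) : ℝ) =
      ((P.filter fun f => ¬ 2 ∣ f.b).card : ℝ) := by
    rw [← hsum]
    push_cast
    rfl
  have h8 : 2 * Real.pi / (63 * zeta3) * (N * √N) =
      Real.pi / (18 * zeta3) * (N * √N) - Real.pi / (42 * zeta3) * (N * √N) := by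
    have := zeta3_pos.ne'
    field_simp
    ring
  rw [h7, h3, riemannZeta_three, Complex.ofReal_re, h8]
  rw [abs_le] at h4 h5 ⊢
  constructor <;> linarith [h4.1, h4.2, h5.1, h5.2]

end Fermat.Agent.Cor.Diri.Mean
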