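import Mathlib

/-!
# The average of the class numbers: the analytic part

The number of the points `(a, b, c)` with `-a < b ≤ a ≤ c`, `4 a c - b² ≤ X`.
-/

set_option autoImplicit false

open Finset

namespace Fermat.Agent.Cor.Diri.Mean

/-- `Σ_{1 ≤ a ≤ A} max(0, X - c a²) = (2/3) X √(X / c) + O(X)` -/
theorem sum_max_sub {X c : ℝ} (hX : 0 ≤ X) (hc : 0 < c) {A : ℕ} (hA : √(X / c) < A + 1) :
    |∑ a ∈ range A, max 0 (X - c * ((a : ℝ) + 1) ^ 2) - 2 / 3 * X * √(X / c)| ≤ 5 / 3 * X := by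
  obtain ⟨Y, hY⟩ : ∃ Y, Y = √(X / c) := ⟨_, rfl⟩
  have hY0 : 0 ≤ Y := hY ▸ Real.sqrt_nonneg _
  have hXY : X = c * Y ^ 2 := by
    rw [hY, Real.sq_sqrt (div_nonneg hX hc.le)]
    field_simp
  rw [← hY] at hA ⊢
  obtain ⟨m, hm⟩ : ∃ m, m = ⌊Y⌋₊ := ⟨_, rfl⟩
  have hm1 : (m : ℝ) ≤ Y := hm ▸ Nat.floor_le hY0
  have hm2 : Y < m + 1 := hm ▸ Nat.lt_floor_add_one Y
  have hmA : m ≤ A := by
    have h1 : (m : ℝ) < A + 1 := hm1.trans_lt hA
    have h2 : m < A + 1 := by exact_mod_cast h1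
    omega
  have h1 : ∑ a ∈ range A, max 0 (X - c * ((a : ℝ) + 1) ^ 2) =
      ∑ a ∈ range m, (X - c * ((a : ℝ) + 1) ^ 2) := by
    symm
    have h2 : ∑ a ∈ range m, (X - c * ((a : ℝ) + 1) ^ 2) =
        ∑ a ∈ range m, max 0 (X - c * ((a : ℝ) + 1) ^ 2) := by
      refine Finset.sum_congr rfl fun a ha => ?_
      rw [max_eq_right]
      have h3 : (a : ℝ) + 1 ≤ m := by exact_mod_cast Finset.mem_range.mp ha
      have h4 : ((a : ℝ) + 1) ^ 2 ≤ Y ^ 2 :=
        pow_le_pow_left₀ (by positivity) (h3.trans hm1) 2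
      rw [hXY]
      nlinarith
    rw [h2]
    refine Finset.sum_subset (Finset.range_subset_range.mpr hmA) fun a _ ha => ?_
    rw [max_eq_left]
    have h3 : (m : ℝ) ≤ a := by exact_mod_cast not_lt.mp (Finset.mem_range.not.mp ha)
    have h4 : Y ^ 2 ≤ ((a : ℝ) + 1) ^ 2 := pow_le_pow_left₀ hY0 (by linarith) 2
    rw [hXY]
    nlinarith
  have h5 : ∀ n : ℕ, ∑ a ∈ range n, (X - c * ((a : ℝ) + 1) ^ 2) =
      n * X - c * ((n : ℝ) * (n + 1) * (2 * n + 1) / 6) := by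
    intro n
    induction n with
    | zero => simp
    | succ n ih =>
      rw [Finset.sum_range_succ, ih]
      push_cast
      ring
  rw [h1, h5, hXY]
  have hm0 : (0 : ℝ) ≤ m := Nat.cast_nonneg m
  have hmm : (m : ℝ) ≤ (m : ℝ) ^ 2 := by
    have : m ≤ m ^ 2 := Nat.le_self_pow (by norm_num) m
    exact_mod_cast this
  have key1 : (m : ℝ) * Y ^ 2 - (m : ℝ) * (m + 1) * (2 * m + 1) / 6 - 2 / 3 * Y ^ 3 ≤ 0 := by
    have : 0 ≤ (Y - m) ^ 2 * (2 * Y + m) := by positivity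
    nlinarith
  have key2 : -(5 / 3 * Y ^ 2) ≤
      (m : ℝ) * Y ^ 2 - (m : ℝ) * (m + 1) * (2 * m + 1) / 6 - 2 / 3 * Y ^ 3 := by
    have ht0 : 0 ≤ Y - m := by linarith
    have ht1 : Y - m ≤ 1 := by linarith
    have h6 : (Y - m) ^ 2 * (2 * Y + m) ≤ 3 * Y ^ 2 := by
      have h7 : (Y - m) ^ 2 ≤ Y := by nlinarith
      have h8 : 2 * Y + m ≤ 3 * Y := by linarith
      calc (Y - m) ^ 2 * (2 * Y + m) ≤ Y * (3 * Y) :=
            mul_le_mul h7 h8 (by positivity) hY0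
        _ = 3 * Y ^ 2 := by ring
    have h9 : (m : ℝ) ^ 2 ≤ Y ^ 2 := pow_le_pow_left₀ hm0 hm1 2
    nlinarith
  rw [show (m : ℝ) * (c * Y ^ 2) - c * ((m : ℝ) * (m + 1) * (2 * m + 1) / 6) -
      2 / 3 * (c * Y ^ 2) * Y =
      c * ((m : ℝ) * Y ^ 2 - (m : ℝ) * (m + 1) * (2 * m + 1) / 6 - 2 / 3 * Y ^ 3) by ring,
    show 5 / 3 * (c * Y ^ 2) = c * (5 / 3 * Y ^ 2) by ring, abs_mul, abs_of_pos hc]
  refine mul_le_mul_of_nonneg_left ?_ hc.le
  rw [abs_le]
  exact ⟨key2, key1.trans (by positivity)⟩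

/-- `∫_0^1 dr / √(4 - r²) = π / 6` -/
theorem integral_inv_sqrt : ∫ r in (0 : ℝ)..1, 1 / √(4 - r ^ 2) = Real.pi / 6 := by
  have h1 : ∀ r ∈ Set.uIcc (0 : ℝ) 1,
      HasDerivAt (fun r : ℝ => Real.arcsin (r / 2)) (1 / √(4 - r ^ 2)) r := by
    intro r hr
    rw [Set.uIcc_of_le zero_le_one] at hr
    have h2 : HasDerivAt (fun r : ℝ => r / 2) (1 / 2) r := (hasDerivAt_id r).div_const 2
    have h3 := (Real.hasDerivAt_arcsin (x := r / 2) (by linarith [hr.1]) (by linarith [hr.2])).comp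
      r h2
    have h4 : √(4 - r ^ 2) = 2 * √(1 - (r / 2) ^ 2) := by
      rw [show (4 : ℝ) - r ^ 2 = 2 ^ 2 * (1 - (r / 2) ^ 2) by ring,
        Real.sqrt_mul (by norm_num), Real.sqrt_sq (by norm_num)]
    have h5 : √(1 - (r / 2) ^ 2) ≠ 0 := by
      refine (Real.sqrt_pos.mpr ?_).ne'
      nlinarith [hr.1, hr.2]
    refine h3.congr_deriv ?_
    rw [h4]
    field_simp
  have h6 : Real.arcsin (1 / 2) = Real.pi / 6 := by
    rw [← Real.sin_pi_div_six, Real.arcsin_sin (by linarith [Real.pi_pos])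
      (by linarith [Real.pi_pos])]
  rw [intervalIntegral.integral_eq_sub_of_hasDerivAt h1, h6, zero_div, Real.arcsin_zero, sub_zero]
  refine ContinuousOn.intervalIntegrable fun r hr => ?_
  rw [Set.uIcc_of_le zero_le_one] at hr
  refine ContinuousAt.continuousWithinAt ?_
  have h7 : √(4 - r ^ 2) ≠ 0 := (Real.sqrt_pos.mpr (by nlinarith [hr.1, hr.2])).ne'
  exact continuousAt_const.div (by fun_prop) h7

/-- the integral of the section -/
noncomputable def J (X : ℝ) (a : ℕ) : ℝ :=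
  ∫ r in (0 : ℝ)..1, max 0 (X - (4 - r ^ 2) * (a : ℝ) ^ 2)

theorem sum_J {X : ℝ} (hX : 0 ≤ X) {A : ℕ} (hA : √(X / 3) < A + 1) :
    |∑ a ∈ range A, J X (a + 1) - Real.pi / 9 * (X * √X)| ≤ 5 / 3 * X := by
  have h1 : ∑ a ∈ range A, J X (a + 1) =
      ∫ r in (0 : ℝ)..1, ∑ a ∈ range A, max 0 (X - (4 - r ^ 2) * ((a : ℝ) + 1) ^ 2) := by
    rw [intervalIntegral.integral_finsetSum]
    · refine Finset.sum_congr rfl fun a _ => ?_
      rw [J, Nat.cast_add, Nat.cast_one]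
    · intro a _
      exact Continuous.intervalIntegrable (by fun_prop) _ _
  have h2 : Real.pi / 9 * (X * √X) = ∫ r in (0 : ℝ)..1, 2 / 3 * X * √(X / (4 - r ^ 2)) := by
    have h3 : ∀ r : ℝ, 2 / 3 * X * √(X / (4 - r ^ 2)) = 2 / 3 * X * √X * (1 / √(4 - r ^ 2)) := by
      intro r
      rw [Real.sqrt_div hX]
      ring
    simp_rw [h3]
    rw [intervalIntegral.integral_const_mul, integral_inv_sqrt]
    ring
  rw [h1, h2, ← intervalIntegral.integral_sub]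
  · have h4 := intervalIntegral.norm_integral_le_of_norm_le_const (a := (0 : ℝ)) (b := 1)
      (C := 5 / 3 * X) (f := fun r => ∑ a ∈ range A, max 0 (X - (4 - r ^ 2) * ((a : ℝ) + 1) ^ 2) -
        2 / 3 * X * √(X / (4 - r ^ 2))) ?_
    · simpa using h4
    · intro r hr
      rw [Set.uIoc_of_le zero_le_one] at hr
      rw [Real.norm_eq_abs]
      have hc : 3 ≤ 4 - r ^ 2 := by nlinarith [hr.1, hr.2]
      refine sum_max_sub hX (by linarith) (lt_of_le_of_lt (Real.sqrt_le_sqrt ?_) hA)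
      exact div_le_div_of_nonneg_left hX (by norm_num) hc
  · exact Continuous.intervalIntegrable (by fun_prop) _ _
  · refine ContinuousOn.intervalIntegrable fun r hr => ?_
    rw [Set.uIcc_of_le zero_le_one] at hr
    refine ContinuousAt.continuousWithinAt ?_
    have h7 : 4 - r ^ 2 ≠ 0 := by nlinarith [hr.1, hr.2]
    exact continuousAt_const.mul (Real.continuous_sqrt.continuousAt.comp
      (continuousAt_const.div (by fun_prop) h7))

/-- the sum over `-a < b ≤ a` -/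
theorem sum_section {X : ℝ} (hX : 0 ≤ X) (a : ℕ) :
    |(∑ i ∈ range a, max 0 (X - 4 * (a : ℝ) ^ 2 + (i : ℝ) ^ 2) +
      ∑ i ∈ range a, max 0 (X - 4 * (a : ℝ) ^ 2 + ((i : ℝ) + 1) ^ 2)) - 2 * a * J X a| ≤ X := by
  obtain ⟨f, hf⟩ : ∃ f : ℝ → ℝ, f = fun t => max 0 (X - 4 * (a : ℝ) ^ 2 + t ^ 2) := ⟨_, rfl⟩
  have hmono : MonotoneOn f (Set.Icc 0 (0 + (a : ℝ))) := by
    intro x hx y _ hxy
    rw [hf]
    refine max_le_max le_rfl ?_
    have := pow_le_pow_left₀ hx.1 hxy 2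
    linarith
  have h1 := hmono.sum_le_integral
  have h2 := hmono.integral_le_sum
  simp only [zero_add] at h1 h2
  have h3 : ∫ x in (0 : ℝ)..a, f x = a * J X a := by
    have h4 := intervalIntegral.mul_integral_comp_mul_left (a := 0) (b := 1) (f := f) (a : ℝ)
    rw [mul_zero, mul_one] at h4
    rw [← h4, J]
    congr 1
    refine intervalIntegral.integral_congr fun r _ => ?_
    simp only [hf]
    congr 1
    ring
  have h5 : ∑ i ∈ range a, f ((i + 1 : ℕ) : ℝ) = ∑ i ∈ range a, f i + f a - f 0 := by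
    have h6 := Finset.sum_range_succ (fun i : ℕ => f i) a
    have h7 := Finset.sum_range_succ' (fun i : ℕ => f i) a
    rw [Nat.cast_zero] at h7
    linarith
  have h8 : 0 ≤ f 0 := by rw [hf]; exact le_max_left _ _
  have h9 : f a ≤ X := by
    rw [hf]
    refine max_le hX ?_
    nlinarith [sq_nonneg (a : ℝ)]
  have e1 : ∑ i ∈ range a, max 0 (X - 4 * (a : ℝ) ^ 2 + (i : ℝ) ^ 2) =
      ∑ i ∈ range a, f i := by rw [hf]
  have e2 : ∑ i ∈ range a, max 0 (X - 4 * (a : ℝ) ^ 2 + ((i : ℝ) + 1) ^ 2) =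
      ∑ i ∈ range a, f ((i + 1 : ℕ) : ℝ) := by
    rw [hf]
    refine Finset.sum_congr rfl fun i _ => ?_
    push_cast
    rfl
  rw [e1, e2, abs_le]
  rw [h3] at h1 h2
  constructor <;> linarith

end Fermat.Agent.Cor.Diri.Mean
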