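import Fermat.Agent.Corollaries.Diri.MeanRed

/-!
# The CM points are equidistributed on the average

The CM point of a positive definite form `f = (a, b, c)` of discriminant `-n` is
`z_f = (-b + i √n) / 2a`. The points of the reduced forms of discriminant `≥ -X` (in the standard
fundamental domain) are equidistributed for the hyperbolic measure `dx dy / y²` as `X → ∞`:
the proportion of those with `|Re z_f| ≤ β`, `Im z_f ≥ T` tends to
`(3 / π) · 2 ∫_0^β dx / max(T, √(1 - x²))`, the normalized area of this part of the domain.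
-/

set_option autoImplicit false

open Finset Filter Topology
open Fermat.Agent.Cor.Ray (BForm)

namespace Fermat.Agent.Cor.Diri.Mean

/-- a sum over `|b| ≤ w` and an integral, for a monotone function -/
theorem sum_sym {h : ℝ → ℝ} {X w : ℝ} (hcont : Continuous h)
    (hmono : MonotoneOn h (Set.Ici 0)) (h0 : ∀ t, 0 ≤ h t) (hX : ∀ t, h t ≤ X) (hw : 0 ≤ w)
    {m m' : ℕ} (hm : m = ⌊w⌋₊) (hm' : m' = m ∨ m' + 1 = m) :
    |(∑ i ∈ range (m + 1), h i + ∑ i ∈ range m', h ((i : ℝ) + 1)) -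
      2 * ∫ x in (0 : ℝ)..w, h x| ≤ 4 * X := by
  have hm1 : (m : ℝ) ≤ w := hm ▸ Nat.floor_le hw
  have hm2 : w < m + 1 := hm ▸ Nat.lt_floor_add_one w
  have hm0 : (0 : ℝ) ≤ m := Nat.cast_nonneg m
  have hmono' : MonotoneOn h (Set.Icc 0 (0 + (m : ℝ))) :=
    hmono.mono fun x hx => hx.1
  have h1 := hmono'.sum_le_integral
  have h2 := hmono'.integral_le_sum
  simp only [zero_add] at h1 h2
  have h5 : ∑ i ∈ range m, h ((i + 1 : ℕ) : ℝ) = ∑ i ∈ range m, h i + h m - h 0 := by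
    have h6 := Finset.sum_range_succ (fun i : ℕ => h i) m
    have h7 := Finset.sum_range_succ' (fun i : ℕ => h i) m
    rw [Nat.cast_zero] at h7
    linarith
  have hint : ∀ u v : ℝ, IntervalIntegrable h MeasureTheory.volume u v := fun u v =>
    hcont.intervalIntegrable u v
  have h10 : ∫ x in (0 : ℝ)..w, h x = (∫ x in (0 : ℝ)..m, h x) + ∫ x in (m : ℝ)..w, h x :=
    (intervalIntegral.integral_add_adjacent_intervals (hint _ _) (hint _ _)).symm
  have h11 : 0 ≤ ∫ x in (m : ℝ)..w, h x :=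
    intervalIntegral.integral_nonneg hm1 fun u _ => h0 u
  have hX0 : 0 ≤ X := (h0 0).trans (hX 0)
  have h12 : ∫ x in (m : ℝ)..w, h x ≤ X := by
    have h13 := intervalIntegral.norm_integral_le_of_norm_le_const (a := (m : ℝ))
      (b := w) (C := X) (f := h) ?_
    · rw [abs_of_nonneg (by linarith), Real.norm_eq_abs] at h13
      have h14 := le_abs_self (∫ x in (m : ℝ)..w, h x)
      nlinarith
    · intro t _
      rw [Real.norm_eq_abs, abs_of_nonneg (h0 t)]
      exact hX t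
  have e1 : ∑ i ∈ range (m + 1), h i = ∑ i ∈ range m, h i + h m := Finset.sum_range_succ _ _
  have e2 : ∃ ε : ℝ, 0 ≤ ε ∧ ε ≤ X ∧
      ∑ i ∈ range m', h ((i : ℝ) + 1) = ∑ i ∈ range m, h ((i + 1 : ℕ) : ℝ) - ε := by
    rcases hm' with hmm | hmm
    · refine ⟨0, le_rfl, hX0, ?_⟩
      rw [hmm, sub_zero]
      refine Finset.sum_congr rfl fun i _ => ?_
      push_cast
      rfl
    · refine ⟨h m, h0 _, hX _, ?_⟩
      rw [← hmm, Finset.sum_range_succ]
      push_cast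
      ring
  obtain ⟨ε, hε0, hε1, hε⟩ := e2
  have h8 := h0 0
  have h9 := hX m
  have h9' := h0 m
  rw [hε, e1, h10, abs_le]
  constructor <;> linarith

/-- the section of the region `|x| ≤ β`, `y ≥ T` of the fundamental domain -/
noncomputable def JP (β T X : ℝ) (a : ℕ) : ℝ :=
  ∫ x in (0 : ℝ)..β, max 0 (X - 4 * max (T ^ 2) (1 - x ^ 2) * (a : ℝ) ^ 2)

theorem sum_JP {β T X : ℝ} (hβ : 0 ≤ β) (hβ' : β ≤ 1 / 2) (hT : 0 ≤ T) (hX : 0 ≤ X) {A : ℕ}
    (hA : √(X / 3) < A + 1) :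
    |∑ a ∈ range A, JP β T X (a + 1) -
      X * √X / 3 * ∫ x in (0 : ℝ)..β, 1 / max T √(1 - x ^ 2)| ≤ 5 / 3 * X := by
  have hc : ∀ x ∈ Set.Icc (0 : ℝ) β, 3 ≤ 4 * max (T ^ 2) (1 - x ^ 2) := by
    intro x hx
    have h1 : 3 / 4 ≤ 1 - x ^ 2 := by nlinarith [hx.1, hx.2]
    have h2 := h1.trans (le_max_right (T ^ 2) (1 - x ^ 2))
    linarith
  have hsqrt : ∀ x : ℝ, √(4 * max (T ^ 2) (1 - x ^ 2)) = 2 * max T √(1 - x ^ 2) := by
    intro x
    have hm : Monotone Real.sqrt := fun _ _ h => Real.sqrt_le_sqrt h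
    rw [Real.sqrt_mul (by norm_num), hm.map_max, Real.sqrt_sq hT,
      show (4 : ℝ) = 2 ^ 2 by norm_num, Real.sqrt_sq (by norm_num)]
  have h1 : ∑ a ∈ range A, JP β T X (a + 1) = ∫ x in (0 : ℝ)..β,
      ∑ a ∈ range A, max 0 (X - 4 * max (T ^ 2) (1 - x ^ 2) * ((a : ℝ) + 1) ^ 2) := by
    rw [intervalIntegral.integral_finsetSum]
    · refine Finset.sum_congr rfl fun a _ => ?_
      rw [JP, Nat.cast_add, Nat.cast_one]
    · intro a _
      exact Continuous.intervalIntegrable (by fun_prop) _ _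
  have h2 : X * √X / 3 * ∫ x in (0 : ℝ)..β, 1 / max T √(1 - x ^ 2) =
      ∫ x in (0 : ℝ)..β, 2 / 3 * X * √(X / (4 * max (T ^ 2) (1 - x ^ 2))) := by
    have h3 : ∀ x : ℝ, 2 / 3 * X * √(X / (4 * max (T ^ 2) (1 - x ^ 2))) =
        X * √X / 3 * (1 / max T √(1 - x ^ 2)) := by
      intro x
      rw [Real.sqrt_div hX, hsqrt]
      ring
    simp_rw [h3]
    rw [intervalIntegral.integral_const_mul]
  rw [h1, h2, ← intervalIntegral.integral_sub]
  · have h4 := intervalIntegral.norm_integral_le_of_norm_le_const (a := (0 : ℝ)) (b := β)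
      (C := 5 / 3 * X) (f := fun x => ∑ a ∈ range A,
        max 0 (X - 4 * max (T ^ 2) (1 - x ^ 2) * ((a : ℝ) + 1) ^ 2) -
        2 / 3 * X * √(X / (4 * max (T ^ 2) (1 - x ^ 2)))) ?_
    · rw [Real.norm_eq_abs, sub_zero, abs_of_nonneg hβ] at h4
      exact h4.trans (by nlinarith)
    · intro x hx
      rw [Set.uIoc_of_le hβ] at hx
      rw [Real.norm_eq_abs]
      have hc' := hc x ⟨hx.1.le, hx.2⟩
      refine sum_max_sub hX (by linarith) (lt_of_le_of_lt (Real.sqrt_le_sqrt ?_) hA)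
      exact div_le_div_of_nonneg_left hX (by norm_num) hc'
  · exact Continuous.intervalIntegrable (by fun_prop) _ _
  · refine ContinuousOn.intervalIntegrable fun x hx => ?_
    rw [Set.uIcc_of_le hβ] at hx
    refine ContinuousAt.continuousWithinAt ?_
    have h7 : 4 * max (T ^ 2) (1 - x ^ 2) ≠ 0 := by
      have := hc x hx
      linarith
    exact continuousAt_const.mul (Real.continuous_sqrt.continuousAt.comp
      (continuousAt_const.div (by fun_prop) h7))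

/-- the number of integers between two real numbers -/
theorem card_Icc_ceil_floor (u y : ℝ) :
    |((Icc ⌈u⌉ ⌊y⌋).card : ℝ) - max 0 (y - u)| ≤ 1 := by
  rw [Int.card_Icc]
  have h1 := Int.floor_le y
  have h2 := Int.lt_floor_add_one y
  have h3 := Int.le_ceil u
  have h4 := Int.ceil_lt_add_one u
  rcases le_or_gt 0 (⌊y⌋ + 1 - ⌈u⌉) with h5 | h5
  · have h6 : (((⌊y⌋ + 1 - ⌈u⌉).toNat : ℕ) : ℝ) = (⌊y⌋ : ℝ) + 1 - ⌈u⌉ := by
      have h7 : (((⌊y⌋ + 1 - ⌈u⌉).toNat : ℕ) : ℤ) = ⌊y⌋ + 1 - ⌈u⌉ := Int.toNat_of_nonneg h5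
      exact_mod_cast congrArg (Int.cast : ℤ → ℝ) h7
    have h8 : (0 : ℝ) ≤ (⌊y⌋ : ℝ) + 1 - ⌈u⌉ := by exact_mod_cast h5
    rw [h6, abs_le]
    rcases le_total 0 (y - u) with h9 | h9
    · rw [max_eq_right h9]
      constructor <;> linarith
    · rw [max_eq_left h9]
      constructor <;> linarith
  · have h6 : (⌊y⌋ + 1 - ⌈u⌉).toNat = 0 := by omega
    have h7 : ((⌊y⌋ : ℝ) + 1 - ⌈u⌉) ≤ -1 := by
      have : ⌊y⌋ + 1 - ⌈u⌉ ≤ -1 := by omega
      exact_mod_cast this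
    rw [h6, Nat.cast_zero, max_eq_left (by linarith)]
    norm_num

open Classical in
/-- the reduced forms of discriminant `≥ -X` with `|Re z_f| ≤ β` and `Im z_f ≥ T` -/
noncomputable def redP (β T X : ℝ) : Finset BForm :=
  (redF X).filter fun f => |(f.b : ℝ)| ≤ 2 * f.a * β ∧ 4 * (f.a : ℝ) ^ 2 * T ^ 2 ≤ -f.disc

open Classical in
/-- the triples with `|b| ≤ 2 a β`, `4 a c - b² ≥ 4 a² T²` -/
noncomputable def tripP (β T X : ℝ) : Finset (Σ _ : ℤ, Σ _ : ℤ, ℤ) :=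
  (trip X).filter fun x => |(x.2.1 : ℝ)| ≤ 2 * x.1 * β ∧
    4 * (x.1 : ℝ) ^ 2 * T ^ 2 ≤ 4 * x.1 * x.2.2 - (x.2.1 : ℝ) ^ 2

open Classical in
theorem tripP_eq (β T X : ℝ) :
    tripP β T X = (Icc (1 : ℤ) (bd X)).sigma fun a =>
      ((Ioc (-a) a).filter fun b : ℤ => |(b : ℝ)| ≤ 2 * a * β).sigma fun b =>
        Icc ⌈max (a : ℝ) (((b : ℝ) ^ 2 + 4 * (a : ℝ) ^ 2 * T ^ 2) / (4 * a))⌉
          ⌊(X + (b : ℝ) ^ 2) / (4 * a)⌋ := by
  ext ⟨a, b, c⟩
  simp only [tripP, trip, Finset.mem_filter, Finset.mem_sigma, Finset.mem_Icc, Int.ceil_le,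
    max_le_iff, Int.cast_le]
  constructor
  · rintro ⟨⟨h1, h2, h3, h4⟩, h5, h6⟩
    have ha : (0 : ℝ) < a := by exact_mod_cast (by omega : 0 < a)
    refine ⟨h1, ⟨h2, h5⟩, ⟨h3, ?_⟩, h4⟩
    rw [div_le_iff₀ (by linarith)]
    linarith
  · rintro ⟨h1, ⟨h2, h5⟩, ⟨h3, h6⟩, h4⟩
    have ha : (0 : ℝ) < a := by exact_mod_cast (by omega : 0 < a)
    rw [div_le_iff₀ (by linarith)] at h6
    exact ⟨⟨h1, h2, h3, h4⟩, h5, by linarith⟩

open Classical in
theorem sum_filter_abs (n : ℕ) {β : ℝ} (hβ' : β ≤ 1 / 2) {m m' : ℕ}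
    (hn : 0 < n) (hm : ∀ k : ℕ, (k : ℝ) ≤ 2 * n * β ↔ k ≤ m) (hmm : m' = min m (n - 1))
    (g : ℤ → ℝ) :
    ∑ b ∈ (Ioc (-(n : ℤ)) n).filter (fun b : ℤ => |(b : ℝ)| ≤ 2 * ((n : ℤ) : ℝ) * β), g b =
      ∑ i ∈ range (m + 1), g i + ∑ i ∈ range m', g (-(i + 1)) := by
  have hmn : m ≤ n := by
    have h1 : (m : ℝ) ≤ 2 * n * β := (hm m).mpr le_rfl
    have hn' : (0 : ℝ) < n := by exact_mod_cast hn
    have h2 : (m : ℝ) ≤ n := by nlinarith
    exact_mod_cast h2
  have key : ∀ b : ℤ, |(b : ℝ)| ≤ 2 * ((n : ℤ) : ℝ) * β ↔ b.natAbs ≤ m := by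
    intro b
    rw [← hm]
    have h1 : ((b.natAbs : ℕ) : ℝ) = |(b : ℝ)| := by
      rw [Nat.cast_natAbs, Int.cast_abs]
    rw [h1, Int.cast_natCast]
  have h1 : ∑ b ∈ (Ioc (-(n : ℤ)) n).filter (fun b : ℤ => |(b : ℝ)| ≤ 2 * ((n : ℤ) : ℝ) * β), g b =
      ∑ b ∈ Icc (0 : ℤ) m, g b + ∑ b ∈ Icc (-(m' : ℤ)) (-1), g b := by
    rw [← Finset.sum_union]
    · congr 1
      ext b
      simp only [Finset.mem_Ioc, Finset.mem_union, Finset.mem_Icc, Finset.mem_filter, key]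
      omega
    · rw [Finset.disjoint_left]
      intro b
      simp only [Finset.mem_Icc]
      omega
  rw [h1]
  congr 1
  · refine Finset.sum_nbij' (fun b => b.toNat) (fun i => (i : ℤ)) ?_ ?_ ?_ ?_ ?_
    · intro b hb
      rw [Finset.mem_Icc] at hb
      rw [Finset.mem_range]
      omega
    · intro i hi
      rw [Finset.mem_range] at hi
      rw [Finset.mem_Icc]
      omega
    · intro b hb
      rw [Finset.mem_Icc] at hb
      omega
    · intro i _
      omega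
    · intro b hb
      rw [Finset.mem_Icc] at hb
      congr 1
      omega
  · refine Finset.sum_nbij' (fun b => (-b - 1).toNat) (fun i => -((i : ℤ) + 1)) ?_ ?_ ?_ ?_ ?_
    · intro b hb
      rw [Finset.mem_Icc] at hb
      rw [Finset.mem_range]
      omega
    · intro i hi
      rw [Finset.mem_range] at hi
      rw [Finset.mem_Icc]
      omega
    · intro b hb
      rw [Finset.mem_Icc] at hb
      omega
    · intro i _
      omega
    · intro b hb
      rw [Finset.mem_Icc] at hb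
      congr 1
      omega

theorem card_tripP {β T X : ℝ} (hβ : 0 ≤ β) (hβ' : β ≤ 1 / 2) (hT : 0 ≤ T) (hX : 1 ≤ X) :
    |((tripP β T X).card : ℝ) - X * √X / 3 * ∫ x in (0 : ℝ)..β, 1 / max T √(1 - x ^ 2)| ≤
      7 / 2 * X * (1 + Real.log X) := by
  classical
  have hX0 : 0 ≤ X := by linarith
  obtain ⟨A, hA⟩ : ∃ A, A = bd X := ⟨_, rfl⟩
  have hA2 : (A : ℝ) ^ 2 ≤ X / 3 := hA ▸ bd_sq_le hX0
  have hAA : (A : ℝ) ≤ (A : ℝ) ^ 2 := by
    have : A ≤ A ^ 2 := Nat.le_self_pow (by norm_num) A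
    exact_mod_cast this
  have hA0 : (0 : ℝ) ≤ A := Nat.cast_nonneg A
  have hlt : √(X / 3) < A + 1 := by
    rw [hA, bd]
    exact Nat.lt_floor_add_one _
  obtain ⟨T', hT'⟩ : ∃ T' : ℕ → ℝ, T' = fun a : ℕ =>
      ∑ b ∈ (Ioc (-(a : ℤ)) a).filter (fun b : ℤ => |(b : ℝ)| ≤ 2 * ((a : ℤ) : ℝ) * β),
      ((Icc ⌈max (((a : ℤ) : ℝ)) (((b : ℝ) ^ 2 + 4 * (((a : ℤ) : ℝ)) ^ 2 * T ^ 2) /
        (4 * ((a : ℤ) : ℝ)))⌉ ⌊(X + (b : ℝ) ^ 2) / (4 * ((a : ℤ) : ℝ))⌋).card : ℝ) := ⟨_, rfl⟩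
  have h1 : ((tripP β T X).card : ℝ) = ∑ i ∈ range A, T' (i + 1) := by
    rw [tripP_eq, Finset.card_sigma, ← hA]
    push_cast
    rw [sum_Icc_int]
    refine Finset.sum_congr rfl fun i _ => ?_
    rw [Finset.card_sigma, hT']
    push_cast
    rfl
  have h2 : ∀ i ∈ range A, |T' (i + 1) - JP β T X (i + 1)| ≤
      2 * ((i : ℝ) + 1) + X * (1 / ((i : ℝ) + 1)) := by
    intro i _
    obtain ⟨a, ha⟩ : ∃ a, a = i + 1 := ⟨_, rfl⟩
    have ha0 : 0 < a := by omega
    have ha' : (0 : ℝ) < a := by exact_mod_cast ha0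
    have hia : (i : ℝ) + 1 = a := by rw [ha]; push_cast; rfl
    rw [← ha, hia]
    obtain ⟨h, hh⟩ : ∃ h : ℝ → ℝ, h = fun t =>
        max 0 (X - max (4 * (a : ℝ) ^ 2 * T ^ 2) (4 * (a : ℝ) ^ 2 - t ^ 2)) := ⟨_, rfl⟩
    have hw : 0 ≤ 2 * (a : ℝ) * β := by positivity
    obtain ⟨m, hm⟩ : ∃ m, m = ⌊2 * (a : ℝ) * β⌋₊ := ⟨_, rfl⟩
    have hmle : m ≤ a := by
      have h3 : (m : ℝ) ≤ 2 * a * β := hm ▸ Nat.floor_le hw
      have h4 : (m : ℝ) ≤ a := by nlinarith
      exact_mod_cast h4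
    obtain ⟨m', hm'⟩ : ∃ m', m' = min m (a - 1) := ⟨_, rfl⟩
    have hmk : ∀ k : ℕ, (k : ℝ) ≤ 2 * a * β ↔ k ≤ m := by
      intro k
      rw [hm, Nat.le_floor_iff hw]
    have h3 := sum_sym (h := h) (X := X) (w := 2 * (a : ℝ) * β) (m := m) (m' := m')
      (by rw [hh]; fun_prop) (by
        intro x hx y _ hxy
        rw [hh]
        refine max_le_max le_rfl (sub_le_sub_left (max_le_max le_rfl ?_) _)
        have := pow_le_pow_left₀ hx hxy 2
        linarith)
      (fun t => by rw [hh]; exact le_max_left _ _)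
      (fun t => by
        rw [hh]
        refine max_le hX0 (sub_le_self _ ((?_ : (0 : ℝ) ≤ 4 * (a : ℝ) ^ 2 * T ^ 2).trans
          (le_max_left _ _)))
        positivity) hw hm (by omega)
    have h4 : ∫ x in (0 : ℝ)..(2 * (a : ℝ) * β), h x = 2 * a * JP β T X a := by
      have h5 := intervalIntegral.mul_integral_comp_mul_left (a := 0) (b := β) (f := h)
        (2 * (a : ℝ))
      rw [mul_zero] at h5
      rw [← h5, JP]
      congr 1
      refine intervalIntegral.integral_congr fun x _ => ?_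
      simp only [hh]
      congr 2
      rw [show 4 * max (T ^ 2) (1 - x ^ 2) * (a : ℝ) ^ 2 =
        4 * (a : ℝ) ^ 2 * max (T ^ 2) (1 - x ^ 2) by ring, mul_max_of_nonneg _ _ (by positivity)]
      congr 1
      ring
    rw [h4] at h3
    have h6 : ∑ b ∈ (Ioc (-(a : ℤ)) a).filter (fun b : ℤ => |(b : ℝ)| ≤ 2 * ((a : ℤ) : ℝ) * β),
        h b = ∑ i ∈ range (m + 1), h i + ∑ i ∈ range m', h ((i : ℝ) + 1) := by
      rw [sum_filter_abs a hβ' ha0 hmk hm' (fun b => h b)]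
      congr 1
      refine Finset.sum_congr rfl fun i _ => ?_
      rw [hh]
      push_cast
      rw [neg_sq]
    rw [← h6] at h3
    have h7 : |T' a - ∑ b ∈ (Ioc (-(a : ℤ)) a).filter
        (fun b : ℤ => |(b : ℝ)| ≤ 2 * ((a : ℤ) : ℝ) * β), h b / (4 * a)| ≤ 2 * a := by
      rw [hT', ← Finset.sum_sub_distrib]
      refine (Finset.abs_sum_le_sum_abs _ _).trans ?_
      have h8 : ∀ b ∈ (Ioc (-(a : ℤ)) a).filter (fun b : ℤ => |(b : ℝ)| ≤ 2 * ((a : ℤ) : ℝ) * β),
          |((Icc ⌈max (((a : ℤ) : ℝ)) (((b : ℝ) ^ 2 + 4 * (((a : ℤ) : ℝ)) ^ 2 * T ^ 2) /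
            (4 * ((a : ℤ) : ℝ)))⌉ ⌊(X + (b : ℝ) ^ 2) / (4 * ((a : ℤ) : ℝ))⌋).card : ℝ) -
              h b / (4 * a)| ≤ 1 := by
        intro b _
        have h9 : h b / (4 * a) = max 0 ((X + (b : ℝ) ^ 2) / (4 * ((a : ℤ) : ℝ)) -
            max (((a : ℤ) : ℝ)) (((b : ℝ) ^ 2 + 4 * (((a : ℤ) : ℝ)) ^ 2 * T ^ 2) /
              (4 * ((a : ℤ) : ℝ)))) := by
          rw [hh, Int.cast_natCast]
          simp only
          rw [← max_div_div_right (by linarith), zero_div]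
          congr 1
          have h10 : (a : ℝ) = 4 * (a : ℝ) ^ 2 / (4 * a) := by field_simp
          conv_rhs => rw [show max (a : ℝ) (((b : ℝ) ^ 2 + 4 * (a : ℝ) ^ 2 * T ^ 2) / (4 * a)) =
            max (4 * (a : ℝ) ^ 2 / (4 * a)) (((b : ℝ) ^ 2 + 4 * (a : ℝ) ^ 2 * T ^ 2) / (4 * a))
            by rw [← h10]]
          rw [max_div_div_right (by linarith), ← sub_div]
          congr 1
          rcases le_total (4 * (a : ℝ) ^ 2 * T ^ 2) (4 * (a : ℝ) ^ 2 - (b : ℝ) ^ 2) with h11 | h11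
          · rw [max_eq_right h11, max_eq_left (by linarith)]
            ring
          · rw [max_eq_left h11, max_eq_right (by linarith)]
            ring
        rw [h9]
        exact card_Icc_ceil_floor _ _
      refine (Finset.sum_le_sum h8).trans ?_
      rw [Finset.sum_const, nsmul_eq_mul, mul_one]
      have h12 : ((Ioc (-(a : ℤ)) a).filter
          (fun b : ℤ => |(b : ℝ)| ≤ 2 * ((a : ℤ) : ℝ) * β)).card ≤ 2 * a := by
        refine (Finset.card_filter_le _ _).trans ?_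
        rw [Int.card_Ioc]
        omega
      exact_mod_cast h12
    rw [← Finset.sum_div] at h7
    have h9 : |(∑ b ∈ (Ioc (-(a : ℤ)) a).filter
        (fun b : ℤ => |(b : ℝ)| ≤ 2 * ((a : ℤ) : ℝ) * β), h b) / (4 * a) - JP β T X a| ≤
          X * (1 / a) := by
      have h10 : (∑ b ∈ (Ioc (-(a : ℤ)) a).filter
          (fun b : ℤ => |(b : ℝ)| ≤ 2 * ((a : ℤ) : ℝ) * β), h b) / (4 * a) - JP β T X a =
          (∑ b ∈ (Ioc (-(a : ℤ)) a).filter
          (fun b : ℤ => |(b : ℝ)| ≤ 2 * ((a : ℤ) : ℝ) * β), h b - 2 * (2 * a * JP β T X a)) /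
            (4 * a) := by
        field_simp
        ring
      rw [h10, abs_div, abs_of_pos (by linarith : (0 : ℝ) < 4 * a)]
      rw [div_le_iff₀ (by linarith)]
      calc _ ≤ 4 * X := h3
        _ = X * (1 / a) * (4 * a) := by field_simp
    rw [abs_le] at h7 h9 ⊢
    constructor <;> linarith [h7.1, h7.2, h9.1, h9.2]
  have h11 : |∑ i ∈ range A, T' (i + 1) - ∑ i ∈ range A, JP β T X (i + 1)| ≤
      ∑ i ∈ range A, (2 * ((i : ℝ) + 1) + X * (1 / ((i : ℝ) + 1))) := by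
    rw [← Finset.sum_sub_distrib]
    exact (Finset.abs_sum_le_sum_abs _ _).trans (Finset.sum_le_sum h2)
  have h12 : ∑ i ∈ range A, (2 * ((i : ℝ) + 1) + X * (1 / ((i : ℝ) + 1))) ≤
      2 / 3 * X + X * (1 + Real.log X) := by
    rw [Finset.sum_add_distrib, ← Finset.mul_sum, ← Finset.mul_sum]
    have h13 : 2 * ∑ i ∈ range A, ((i : ℝ) + 1) = A * (A + 1) := by
      clear h11 h2 h1 hlt hAA hA2 hA hA0
      induction A with
      | zero => simp
      | succ n ih =>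
        rw [Finset.sum_range_succ, mul_add, ih]
        push_cast
        ring
    have h14 : ∑ i ∈ range A, 1 / ((i : ℝ) + 1) ≤ 1 + Real.log X := by
      have h15 : ∑ i ∈ range A, 1 / ((i : ℝ) + 1) = ((harmonic A : ℚ) : ℝ) := by
        rw [harmonic]
        push_cast
        refine Finset.sum_congr rfl fun i _ => ?_
        rw [one_div]
      rw [h15]
      refine (harmonic_le_one_add_log A).trans ?_
      rcases Nat.eq_zero_or_pos A with h16 | h16
      · rw [h16, Nat.cast_zero, Real.log_zero]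
        linarith [Real.log_nonneg hX]
      · have : Real.log A ≤ Real.log X :=
          Real.log_le_log (by exact_mod_cast h16) (by linarith)
        linarith
    have h17 : X * ∑ i ∈ range A, 1 / ((i : ℝ) + 1) ≤ X * (1 + Real.log X) :=
      mul_le_mul_of_nonneg_left h14 (by linarith)
    nlinarith
  have h18 := sum_JP hβ hβ' hT hX0 hlt
  have h19 : 0 ≤ X * Real.log X := mul_nonneg hX0 (Real.log_nonneg hX)
  rw [h1]
  rw [abs_le] at h11 h18 ⊢
  constructor <;> nlinarith [h11.1, h11.2, h18.1, h18.2]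

theorem card_redP {β T X : ℝ} (hβ : 0 ≤ β) (hβ' : β ≤ 1 / 2) (hT : 0 ≤ T) (hX : 1 ≤ X) :
    |((redP β T X).card : ℝ) - X * √X / 3 * ∫ x in (0 : ℝ)..β, 1 / max T √(1 - x ^ 2)| ≤
      4 * X * (1 + Real.log X) := by
  classical
  have hX0 : 0 ≤ X := by linarith
  have h1 : (redP β T X).card = ((tripP β T X).filter
      fun x => x.1 = x.2.2 → 0 ≤ x.2.1).card := by
    have h2 : redP β T X = ((tripP β T X).filter
        fun x => x.1 = x.2.2 → 0 ≤ x.2.1).image fun x => (⟨x.1, x.2.1, x.2.2⟩ : BForm) := by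
      have hd : ∀ f : BForm, -(f.disc : ℝ) = 4 * f.a * f.c - (f.b : ℝ) ^ 2 := by
        intro f
        rw [BForm.disc]
        push_cast
        ring
      ext f
      rw [redP, Finset.mem_filter, redF, Finset.mem_image, Finset.mem_image, hd]
      constructor
      · rintro ⟨⟨x, hx, rfl⟩, h3⟩
        rw [Finset.mem_filter] at hx
        exact ⟨x, Finset.mem_filter.mpr ⟨Finset.mem_filter.mpr ⟨hx.1, h3⟩, hx.2⟩, rfl⟩
      · rintro ⟨x, hx, rfl⟩
        rw [Finset.mem_filter, tripP, Finset.mem_filter] at hx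
        exact ⟨⟨x, Finset.mem_filter.mpr ⟨hx.1.1, hx.2⟩, rfl⟩, hx.1.2⟩
    rw [h2]
    refine Finset.card_image_of_injective _ ?_
    rintro ⟨a, b, c⟩ ⟨a', b', c'⟩ h
    simp only [BForm.mk.injEq] at h
    obtain ⟨rfl, rfl, rfl⟩ := h
    rfl
  have h11 := card_tripP hβ hβ' hT hX
  obtain ⟨E, hE⟩ : ∃ E, E = tripP β T X := ⟨_, rfl⟩
  have hEt : E ⊆ trip X := by
    rw [hE, tripP]
    exact Finset.filter_subset _ _
  rw [← hE] at h1 h11
  have h2 := Finset.card_filter_add_card_filter_not (s := E)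
    (fun x => x.1 = x.2.2 → 0 ≤ x.2.1)
  have h3 : (E.filter fun x => ¬ (x.1 = x.2.2 → 0 ≤ x.2.1)).card ≤ bd X * bd X := by
    have h4 : (Icc (1 : ℤ) (bd X) ×ˢ Icc (-(bd X : ℤ)) (-1)).card = bd X * bd X := by
      rw [Finset.card_product, Int.card_Icc, Int.card_Icc]
      congr 1 <;> omega
    rw [← h4]
    refine Finset.card_le_card_of_injOn (fun x => (x.1, x.2.1)) ?_ ?_
    · rintro ⟨a, b, c⟩ hx
      rw [Finset.mem_coe, Finset.mem_filter] at hx
      obtain ⟨h5, h6⟩ := hx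
      have h5 := hEt h5
      have h7 : a ∈ Icc (1 : ℤ) (bd X) := (Finset.mem_sigma.mp h5).1
      rw [mem_trip] at h5
      simp only [Classical.not_imp, not_le] at h6
      rw [Finset.mem_Icc] at h7
      simp only [Finset.coe_product, Finset.coe_Icc, Set.mem_prod, Set.mem_Icc]
      omega
    · rintro ⟨a, b, c⟩ hx ⟨a', b', c'⟩ hx' h
      rw [Finset.mem_coe, Finset.mem_filter] at hx hx'
      have h6 := hx.2
      have h6' := hx'.2
      simp only [Classical.not_imp, not_le] at h6 h6'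
      simp only [Prod.mk.injEq] at h
      obtain ⟨rfl, rfl⟩ := h
      have : c = c' := h6.1.symm.trans h6'.1
      rw [this]
  have h8 : ((E.filter fun x => ¬ (x.1 = x.2.2 → 0 ≤ x.2.1)).card : ℝ) ≤ X / 3 := by
    have h9 := bd_sq_le hX0
    have h10 : ((E.filter fun x => ¬ (x.1 = x.2.2 → 0 ≤ x.2.1)).card : ℝ) ≤
        bd X * bd X := by exact_mod_cast h3
    nlinarith
  have h12 : ((redP β T X).card : ℝ) +
      ((E.filter fun x => ¬ (x.1 = x.2.2 → 0 ≤ x.2.1)).card : ℝ) = E.card := by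
    rw [h1]
    exact_mod_cast h2
  have h13 : (0 : ℝ) ≤ ((E.filter fun x => ¬ (x.1 = x.2.2 → 0 ≤ x.2.1)).card : ℝ) :=
    Nat.cast_nonneg _
  have h19 : 0 ≤ X * Real.log X := mul_nonneg hX0 (Real.log_nonneg hX)
  rw [abs_le] at h11 ⊢
  constructor <;> nlinarith [h11.1, h11.2]

/-! ### The CM points -/

/-- the CM point `(-b + i √|D|) / 2a` of a form -/
noncomputable def cmPt (f : BForm) : ℂ :=
  ⟨-(f.b : ℝ) / (2 * f.a), √(-(f.disc : ℝ)) / (2 * f.a)⟩

/-- The CM point is the root of `a z² + b z + c` in the upper half plane. -/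
theorem cmPt_root {f : BForm} (ha : 0 < f.a) (hd : f.disc < 0) :
    (f.a : ℂ) * cmPt f ^ 2 + f.b * cmPt f + f.c = 0 ∧ 0 < (cmPt f).im := by
  have ha' : (0 : ℝ) < f.a := by exact_mod_cast ha
  have hd' : (0 : ℝ) < -(f.disc : ℝ) := by
    have : (f.disc : ℝ) < 0 := by exact_mod_cast hd
    linarith
  have hs := Real.sq_sqrt hd'.le
  have hd2 : -(f.disc : ℝ) = 4 * f.a * f.c - (f.b : ℝ) ^ 2 := by
    rw [BForm.disc]
    push_cast
    ring
  have hs' : √(-(f.disc : ℝ)) ^ 2 = 4 * f.a * f.c - (f.b : ℝ) ^ 2 := hs.trans hd2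
  refine ⟨?_, div_pos (Real.sqrt_pos.mpr hd') (by linarith)⟩
  apply Complex.ext
  · simp only [cmPt, pow_two, Complex.add_re, Complex.mul_re, Complex.intCast_re,
      Complex.intCast_im, Complex.zero_re, zero_mul, sub_zero]
    field_simp
    linear_combination (-1 : ℝ) * hs'
  · simp only [cmPt, pow_two, Complex.add_im, Complex.mul_im, Complex.mul_re, Complex.intCast_re,
      Complex.intCast_im, Complex.zero_im, zero_mul, add_zero]
    field_simp
    ring

open Classical in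
theorem redP_eq {β T : ℝ} (hT : 0 ≤ T) (X : ℝ) :
    redP β T X = (redF X).filter fun f => |(cmPt f).re| ≤ β ∧ T ≤ (cmPt f).im := by
  rw [redP]
  refine Finset.filter_congr fun f hf => ?_
  rw [mem_redF] at hf
  have ha : (0 : ℝ) < f.a := by exact_mod_cast hf.2.1
  refine and_congr ?_ ?_
  · rw [cmPt, abs_div, abs_neg, abs_of_pos (by linarith : (0 : ℝ) < 2 * f.a),
      div_le_iff₀ (by linarith), mul_comm β]
  · rw [cmPt]
    simp only
    have hd : (0 : ℝ) ≤ -(f.disc : ℝ) := by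
      have h1 := hf.1.three_mul_sq_le
      have h2 : (0 : ℤ) ≤ -f.disc := by nlinarith
      exact_mod_cast h2
    have h3 : (T * (2 * (f.a : ℝ))) ^ 2 = 4 * (f.a : ℝ) ^ 2 * T ^ 2 := by ring
    rw [le_div_iff₀ (by linarith), ← h3]
    constructor
    · intro h
      exact Real.le_sqrt_of_sq_le h
    · intro h
      have h4 := pow_le_pow_left₀ (by positivity : 0 ≤ T * (2 * (f.a : ℝ))) h 2
      rwa [Real.sq_sqrt hd] at h4

/-- from an error term to the limit -/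
theorem tendsto_of_abs_le {u : ℝ → ℝ} {κ C : ℝ}
    (h : ∀ X : ℝ, 1 ≤ X → |u X - κ * (X * √X)| ≤ C * X * (1 + Real.log X)) :
    Tendsto (fun X => u X / (X * √X)) atTop (𝓝 κ) := by
  rw [tendsto_iff_norm_sub_tendsto_zero]
  have h1 : Tendsto (fun x : ℝ => C * (x ^ (-(1 / 2) : ℝ)) +
      C * (Real.log x / x ^ (1 / 2 : ℝ))) atTop (𝓝 (C * 0 + C * 0)) := by
    refine ((tendsto_rpow_neg_atTop (by norm_num)).const_mul C).add
      (Tendsto.const_mul C ?_)
    exact (isLittleO_log_rpow_atTop (by norm_num : (0 : ℝ) < 1 / 2)).tendsto_div_nhds_zero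
  rw [mul_zero, add_zero] at h1
  refine squeeze_zero' (Eventually.of_forall fun _ => norm_nonneg _) ?_ h1
  filter_upwards [eventually_ge_atTop 1] with X hX
  have hX0 : (0 : ℝ) < X := by linarith
  have h3 : (0 : ℝ) < X * √X := by positivity
  rw [Real.norm_eq_abs]
  have h4 : u X / (X * √X) - κ = (u X - κ * (X * √X)) / (X * √X) := by
    rw [sub_div, mul_div_cancel_right₀ _ h3.ne']
  rw [h4, abs_div, abs_of_pos h3, div_le_iff₀ h3]
  refine (h X hX).trans (le_of_eq ?_)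
  have h6 : (X : ℝ) ^ (-(1 / 2) : ℝ) * X ^ (1 / 2 : ℝ) = 1 := by
    rw [← Real.rpow_add hX0]
    norm_num
  have h7 : X ^ (1 / 2 : ℝ) ≠ 0 := (by positivity : (0 : ℝ) < X ^ (1 / 2 : ℝ)).ne'
  rw [Real.sqrt_eq_rpow]
  field_simp
  linear_combination (-C) * h6

open Classical in
/-- **The CM points are equidistributed on the average over the discriminants**: for
`0 ≤ β ≤ 1/2`, `T ≥ 0` the proportion of the reduced forms `f` of discriminant `≥ -X` with
`|Re z_f| ≤ β` and `Im z_f ≥ T` tends for `X → ∞` to `(3 / π) · 2 ∫_0^β dx / max(T, √(1 - x²))`,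
the normalized hyperbolic area of the part `|x| ≤ β`, `y ≥ T` of the fundamental domain. -/
theorem tendsto_cm {β T : ℝ} (hβ : 0 ≤ β) (hβ' : β ≤ 1 / 2) (hT : 0 ≤ T) :
    Tendsto (fun X : ℝ => (((redF X).filter fun f => |(cmPt f).re| ≤ β ∧ T ≤ (cmPt f).im).card : ℝ) /
      (redF X).card) atTop
      (𝓝 (3 / Real.pi * (2 * ∫ x in (0 : ℝ)..β, 1 / max T √(1 - x ^ 2)))) := by
  have h1 := tendsto_of_abs_le (u := fun X => ((redP β T X).card : ℝ))
    (κ := (∫ x in (0 : ℝ)..β, 1 / max T √(1 - x ^ 2)) / 3) (C := 4) (by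
      intro X hX
      have := card_redP hβ hβ' hT hX
      rwa [show X * √X / 3 * ∫ x in (0 : ℝ)..β, 1 / max T √(1 - x ^ 2) =
        (∫ x in (0 : ℝ)..β, 1 / max T √(1 - x ^ 2)) / 3 * (X * √X) by ring] at this)
  have h2 := tendsto_of_abs_le (u := fun X => ((redF X).card : ℝ)) (κ := Real.pi / 18) (C := 3)
    fun X hX => card_redF hX
  have h3 := h1.div h2 (by positivity)
  have h4 : (∫ x in (0 : ℝ)..β, 1 / max T √(1 - x ^ 2)) / 3 / (Real.pi / 18) =
      3 / Real.pi * (2 * ∫ x in (0 : ℝ)..β, 1 / max T √(1 - x ^ 2)) := by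
    have := Real.pi_pos.ne'
    field_simp
    ring
  rw [h4] at h3
  refine h3.congr' ?_
  filter_upwards [eventually_ge_atTop 1] with X hX
  have hX0 : (0 : ℝ) < X := by linarith
  have h5 : X * √X ≠ 0 := by positivity
  simp only [Pi.div_apply]
  rw [div_div_div_cancel_right₀ h5, redP_eq hT]

open Classical in
/-- The CM points high in the cusp: for `T ≥ 1` the proportion of those with `|Re z_f| ≤ β`,
`Im z_f ≥ T` tends to `6 β / (π T)`. -/
theorem tendsto_cm_cusp {β T : ℝ} (hβ : 0 ≤ β) (hβ' : β ≤ 1 / 2) (hT : 1 ≤ T) :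
    Tendsto (fun X : ℝ => (((redF X).filter fun f => |(cmPt f).re| ≤ β ∧ T ≤ (cmPt f).im).card : ℝ) /
      (redF X).card) atTop (𝓝 (6 * β / (Real.pi * T))) := by
  have h1 := tendsto_cm hβ hβ' (zero_le_one.trans hT)
  have h2 : ∫ x in (0 : ℝ)..β, 1 / max T √(1 - x ^ 2) = β / T := by
    have h3 : ∫ x in (0 : ℝ)..β, 1 / max T √(1 - x ^ 2) = ∫ _ in (0 : ℝ)..β, 1 / T := by
      refine intervalIntegral.integral_congr fun x _ => ?_
      have h4 : √(1 - x ^ 2) ≤ T := by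
        refine le_trans ?_ hT
        rw [Real.sqrt_le_one]
        nlinarith [sq_nonneg x]
      rw [max_eq_left h4]
    rw [h3, intervalIntegral.integral_const, sub_zero, smul_eq_mul]
    ring
  rw [h2] at h1
  convert h1 using 2
  have := Real.pi_pos.ne'
  have : T ≠ 0 := by linarith
  field_simp
  ring

end Fermat.Agent.Cor.Diri.Mean
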