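import Fermat.Agent.Corollaries.Diri.Mean
import Fermat.Agent.Corollaries.Diri.MeanPoint

/-!
# The CM points of the primitive forms are equidistributed on the average

The Heegner points of discriminant `≥ -X` (one for every proper class of primitive forms, that is,
`h(-n)` points for every `n ≤ X`) are equidistributed in the standard fundamental domain for the
hyperbolic measure as `X → ∞`.
-/

set_option autoImplicit false

open Finset Filter Topology
open Fermat.Agent.Cor.Ray (BForm)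
open scoped ArithmeticFunction.Moebius ArithmeticFunction.zeta

namespace Fermat.Agent.Cor.Diri.Mean

/-- the multiple `g f` -/
def mulF (g : ℤ) (f : BForm) : BForm := ⟨g * f.a, g * f.b, g * f.c⟩

theorem cmPt_mulF {g : ℤ} (hg : 0 < g) (f : BForm) : cmPt (mulF g f) = cmPt f := by
  have hg' : (0 : ℝ) < g := by exact_mod_cast hg
  have hd : -((mulF g f).disc : ℝ) = (g : ℝ) ^ 2 * (-(f.disc : ℝ)) := by
    simp only [mulF, BForm.disc]
    push_cast
    ring
  have hs : √(-((mulF g f).disc : ℝ)) = g * √(-(f.disc : ℝ)) := by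
    rw [hd, Real.sqrt_mul (by positivity), Real.sqrt_sq hg'.le]
  apply Complex.ext
  · simp only [cmPt, mulF]
    push_cast
    rw [show -((g : ℝ) * f.b) = g * -(f.b : ℝ) by ring,
      show 2 * ((g : ℝ) * f.a) = g * (2 * (f.a : ℝ)) by ring, mul_div_mul_left _ _ hg'.ne']
  · show √(-((mulF g f).disc : ℝ)) / (2 * ((g * f.a : ℤ) : ℝ)) = √(-(f.disc : ℝ)) / (2 * f.a)
    rw [hs]
    push_cast
    rw [show 2 * ((g : ℝ) * f.a) = g * (2 * (f.a : ℝ)) by ring, mul_div_mul_left _ _ hg'.ne']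

theorem mem_redF_mulF {X : ℝ} {g : ℕ} (hg : 0 < g) {f : BForm} :
    mulF g f ∈ redF X ↔ f ∈ redF (X / (g : ℝ) ^ 2) := by
  have hg' : (0 : ℤ) < g := by exact_mod_cast hg
  have hgr : (0 : ℝ) < (g : ℝ) ^ 2 := by positivity
  have hdisc : (((-(mulF g f).disc : ℤ)) : ℝ) = ((-f.disc : ℤ) : ℝ) * (g : ℝ) ^ 2 := by
    simp only [mulF, BForm.disc]
    push_cast
    ring
  have habs : |(g : ℤ) * f.b| = g * |f.b| := by rw [abs_mul, abs_of_pos hg']
  rw [mem_redF, mem_redF, hdisc, le_div_iff₀ hgr]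
  refine and_congr ?_ (and_congr ?_ Iff.rfl)
  · constructor
    · rintro ⟨h1, h2, h3⟩
      simp only [mulF] at h1 h2 h3
      rw [habs] at h1 h3
      refine ⟨le_of_mul_le_mul_left h1 hg', le_of_mul_le_mul_left h2 hg', fun h => ?_⟩
      refine nonneg_of_mul_nonneg_right (h3 ?_) hg'
      rcases h with h | h
      · exact Or.inl (by rw [h])
      · exact Or.inr (by rw [h])
    · rintro ⟨h1, h2, h3⟩
      refine ⟨?_, mul_le_mul_of_nonneg_left h2 hg'.le, fun h => mul_nonneg hg'.le (h3 ?_)⟩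
      · simp only [mulF]
        rw [habs]
        exact mul_le_mul_of_nonneg_left h1 hg'.le
      · simp only [mulF] at h
        rw [habs] at h
        rcases h with h | h
        · exact Or.inl (mul_left_cancel₀ hg'.ne' h)
        · exact Or.inr (mul_left_cancel₀ hg'.ne' h)
  · exact mul_pos_iff_of_pos_left hg'

open Classical in
theorem card_dvd_pt (S : Set ℂ) (X : ℝ) {g : ℕ} (hg : 0 < g) :
    (((redF X).filter fun f => cmPt f ∈ S).filter fun f => g ∣ cont f).card =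
      ((redF (X / (g : ℝ) ^ 2)).filter fun f => cmPt f ∈ S).card := by
  have hg' : (0 : ℤ) < g := by exact_mod_cast hg
  symm
  refine Finset.card_bij (fun f _ => mulF g f) ?_ ?_ ?_
  · intro f hf
    rw [Finset.mem_filter] at hf
    rw [Finset.mem_filter, Finset.mem_filter, mem_redF_mulF hg, cmPt_mulF hg', dvd_cont]
    exact ⟨hf, Dvd.intro _ rfl, Dvd.intro _ rfl, Dvd.intro _ rfl⟩
  · intro f _ f' _ h
    simp only [mulF, BForm.mk.injEq] at h
    exact BForm.ext (mul_left_cancel₀ hg'.ne' h.1) (mul_left_cancel₀ hg'.ne' h.2.1)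
      (mul_left_cancel₀ hg'.ne' h.2.2)
  · intro f hf
    rw [Finset.mem_filter, Finset.mem_filter, dvd_cont] at hf
    obtain ⟨⟨h1, h3⟩, ⟨a, ha⟩, ⟨b, hb⟩, ⟨c, hc⟩⟩ := hf
    have hf : f = mulF g ⟨a, b, c⟩ := BForm.ext ha hb hc
    refine ⟨⟨a, b, c⟩, ?_, hf.symm⟩
    rw [Finset.mem_filter, ← mem_redF_mulF hg, ← cmPt_mulF hg', ← hf]
    exact ⟨h1, h3⟩

open Classical in
/-- **Moebius inversion** for the points in a given set. -/
theorem card_prim_pt (S : Set ℂ) {X : ℝ} {G : ℕ} (hG : √X < G + 1) :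
    ((((redF X).filter fun f => cmPt f ∈ S).filter BForm.Prim).card : ℝ) =
      ∑ g ∈ Icc 1 G, (μ g : ℝ) * ((redF (X / (g : ℝ) ^ 2)).filter fun f => cmPt f ∈ S).card := by
  have h1 : ∀ f ∈ (redF X).filter fun f => cmPt f ∈ S, (if f.Prim then (1 : ℝ) else 0) =
      ∑ g ∈ Icc 1 G, if g ∣ cont f then (μ g : ℝ) else 0 := by
    intro f hf
    rw [Finset.mem_filter, mem_redF] at hf
    obtain ⟨⟨h2, h3, h4⟩, -⟩ := hf
    have h5 : cont f ≠ 0 := by
      intro h
      have h6 : (0 : ℤ) ∣ f.a := by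
        have := (dvd_cont (g := 0) (f := f)).mp (by rw [h])
        exact_mod_cast this.1
      exact h3.ne' (zero_dvd_iff.mp h6)
    have h7 : f.a.toNat ≤ G := by
      have h8 := h2.three_mul_sq_le
      have h9 : f.a ^ 2 ≤ -f.disc := by nlinarith
      have h10 : (f.a : ℝ) ^ 2 ≤ X := le_trans (by exact_mod_cast h9) h4
      have h11 : (f.a : ℝ) ≤ √X := Real.le_sqrt_of_sq_le h10
      have h12 : (f.a : ℝ) < ((G + 1 : ℤ) : ℝ) := by push_cast; linarith
      have h13 : f.a < G + 1 := by exact_mod_cast h12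
      omega
    have h14 : (cont f).divisors = (Icc 1 G).filter fun g => g ∣ cont f := by
      ext g
      rw [Nat.mem_divisors, Finset.mem_filter, Finset.mem_Icc]
      constructor
      · rintro ⟨h15, -⟩
        have h16 : (g : ℤ) ≤ f.a := Int.le_of_dvd h3 (dvd_cont.mp h15).1
        have h17 : g ≠ 0 := by
          rintro rfl
          exact h5 (zero_dvd_iff.mp h15)
        exact ⟨⟨by omega, by omega⟩, h15⟩
      · rintro ⟨-, h15⟩
        exact ⟨h15, h5⟩
    rw [← Finset.sum_filter, ← h14]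
    have h18 := sum_moebius_dvd (cont f)
    have h19 : ∑ g ∈ (cont f).divisors, (μ g : ℝ) = ((if cont f = 1 then 1 else 0 : ℤ) : ℝ) := by
      rw [← h18]
      push_cast
      rfl
    rw [h19]
    have h20 : f.Prim ↔ cont f = 1 := BForm.prim_iff
    by_cases h21 : f.Prim
    · rw [if_pos h21, if_pos (h20.mp h21), Int.cast_one]
    · rw [if_neg h21, if_neg (fun h => h21 (h20.mpr h)), Int.cast_zero]
  rw [Finset.card_filter]
  push_cast
  rw [Finset.sum_congr rfl h1, Finset.sum_comm]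
  refine Finset.sum_congr rfl fun g hg => ?_
  rw [← card_dvd_pt S X (Finset.mem_Icc.mp hg).1, Finset.card_filter]
  push_cast
  rw [Finset.mul_sum]
  refine Finset.sum_congr rfl fun f _ => ?_
  split_ifs <;> simp

open Classical in
/-- from all forms to the primitive forms -/
theorem card_prim_of_card {S : Set ℂ} {κ : ℝ} (hκ : 0 ≤ κ) (hκ' : κ ≤ 1 / 4)
    (h : ∀ X : ℝ, 1 ≤ X → |(((redF X).filter fun f => cmPt f ∈ S).card : ℝ) - κ * (X * √X)| ≤
      4 * X * (1 + Real.log X)) {X : ℝ} (hX : 1 ≤ X) :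
    |((((redF X).filter fun f => cmPt f ∈ S).filter BForm.Prim).card : ℝ) -
      κ / zeta3 * (X * √X)| ≤ 9 * X * (1 + Real.log X) := by
  have hX0 : 0 ≤ X := by linarith
  obtain ⟨G, hG⟩ : ∃ G, G = ⌊√X⌋₊ := ⟨_, rfl⟩
  have hlt : √X < G + 1 := by
    rw [hG]
    exact Nat.lt_floor_add_one _
  have hle : (G : ℝ) ≤ √X := by
    rw [hG]
    exact Nat.floor_le (Real.sqrt_nonneg _)
  have hlog := Real.log_nonneg hX
  rw [card_prim_pt S hlt]
  have h1 : ∀ g ∈ Icc 1 G,
      |(μ g : ℝ) * ((redF (X / (g : ℝ) ^ 2)).filter fun f => cmPt f ∈ S).card -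
      κ * (X * √X) * ((μ g : ℝ) / (g : ℝ) ^ 3)| ≤
        4 * X * (1 + Real.log X) * ((g : ℝ) ^ 2)⁻¹ := by
    intro g hg
    rw [Finset.mem_Icc] at hg
    have hg1 : (1 : ℝ) ≤ g := by exact_mod_cast hg.1
    have hg0 : (0 : ℝ) < g := by linarith
    have hgG : (g : ℝ) ≤ √X := le_trans (by exact_mod_cast hg.2) hle
    have h2 : (g : ℝ) ^ 2 ≤ X := by
      have := pow_le_pow_left₀ hg0.le hgG 2
      rwa [Real.sq_sqrt hX0] at this
    have h3 : 1 ≤ X / (g : ℝ) ^ 2 := by rwa [le_div_iff₀ (by positivity), one_mul]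
    have h4 := h _ h3
    have h5 : X / (g : ℝ) ^ 2 * √(X / (g : ℝ) ^ 2) = X * √X / (g : ℝ) ^ 3 := by
      rw [Real.sqrt_div hX0, Real.sqrt_sq hg0.le]
      field_simp
    have h6 : Real.log (X / (g : ℝ) ^ 2) ≤ Real.log X :=
      Real.log_le_log (by linarith) (div_le_self hX0 (by nlinarith))
    rw [h5] at h4
    have h7 : (μ g : ℝ) * ((redF (X / (g : ℝ) ^ 2)).filter fun f => cmPt f ∈ S).card -
        κ * (X * √X) * ((μ g : ℝ) / (g : ℝ) ^ 3) =
        (μ g : ℝ) * (((redF (X / (g : ℝ) ^ 2)).filter fun f => cmPt f ∈ S).card -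
          κ * (X * √X / (g : ℝ) ^ 3)) := by
      ring
    have h8 : |(μ g : ℝ)| ≤ 1 := by exact_mod_cast ArithmeticFunction.abs_moebius_le_one (n := g)
    rw [h7, abs_mul]
    calc |(μ g : ℝ)| * |(((redF (X / (g : ℝ) ^ 2)).filter fun f => cmPt f ∈ S).card : ℝ) -
          κ * (X * √X / (g : ℝ) ^ 3)|
        ≤ 1 * (4 * (X / (g : ℝ) ^ 2) * (1 + Real.log (X / (g : ℝ) ^ 2))) :=
          mul_le_mul h8 h4 (abs_nonneg _) zero_le_one
      _ ≤ 1 * (4 * (X / (g : ℝ) ^ 2) * (1 + Real.log X)) := by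
          have : 0 ≤ X / (g : ℝ) ^ 2 := by positivity
          gcongr
      _ = 4 * X * (1 + Real.log X) * ((g : ℝ) ^ 2)⁻¹ := by
          rw [div_eq_mul_inv]
          ring
  have h9 : |∑ g ∈ Icc 1 G,
      (μ g : ℝ) * ((redF (X / (g : ℝ) ^ 2)).filter fun f => cmPt f ∈ S).card -
      κ * (X * √X) * ∑ g ∈ Icc 1 G, (μ g : ℝ) / (g : ℝ) ^ 3| ≤
        8 * X * (1 + Real.log X) := by
    rw [Finset.mul_sum, ← Finset.sum_sub_distrib]
    refine (Finset.abs_sum_le_sum_abs _ _).trans ((Finset.sum_le_sum h1).trans ?_)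
    rw [← Finset.mul_sum]
    have h10 := sum_Ioo_inv_sq_le (α := ℝ) 0 (G + 1)
    have h11 : Ioo 0 (G + 1) = Icc 1 G := by
      ext g
      simp only [Finset.mem_Ioo, Finset.mem_Icc]
      omega
    rw [h11, Nat.cast_zero, zero_add, div_one] at h10
    calc 4 * X * (1 + Real.log X) * ∑ g ∈ Icc 1 G, ((g : ℝ) ^ 2)⁻¹
        ≤ 4 * X * (1 + Real.log X) * 2 := mul_le_mul_of_nonneg_left h10 (by positivity)
      _ = 8 * X * (1 + Real.log X) := by ring
  have h12 : |κ * (X * √X) * ∑ g ∈ Icc 1 G, (μ g : ℝ) / (g : ℝ) ^ 3 -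
      κ / zeta3 * (X * √X)| ≤ X := by
    have h13 : κ * (X * √X) * ∑ g ∈ Icc 1 G, (μ g : ℝ) / (g : ℝ) ^ 3 -
        κ / zeta3 * (X * √X) =
        κ * (X * √X) * (∑ g ∈ Icc 1 G, (μ g : ℝ) / (g : ℝ) ^ 3 - 1 / zeta3) := by
      ring
    rw [h13, abs_mul, abs_of_nonneg (by positivity : 0 ≤ κ * (X * √X))]
    calc κ * (X * √X) * |∑ g ∈ Icc 1 G, (μ g : ℝ) / (g : ℝ) ^ 3 - 1 / zeta3|
        ≤ κ * (X * √X) * (2 / (G + 1)) :=
          mul_le_mul_of_nonneg_left (abs_sum_moebius_sub G) (by positivity)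
      _ ≤ 1 / 2 * (X * (G + 1)) * (2 / (G + 1)) := by
          have h14 : 0 ≤ 2 / ((G : ℝ) + 1) := by positivity
          refine mul_le_mul_of_nonneg_right ?_ h14
          have h15 : X * √X ≤ X * (G + 1) := mul_le_mul_of_nonneg_left hlt.le hX0
          have h16 : 0 ≤ X * √X := by positivity
          nlinarith
      _ = X := by field_simp
  rw [abs_le] at h9 h12 ⊢
  have h17 : 0 ≤ X * Real.log X := mul_nonneg hX0 hlog
  constructor <;> nlinarith [h9.1, h9.2, h12.1, h12.2]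

theorem integral_le {β T : ℝ} (hβ : 0 ≤ β) (hβ' : β ≤ 1 / 2) (hT : 0 ≤ T) :
    0 ≤ ∫ x in (0 : ℝ)..β, 1 / max T √(1 - x ^ 2) ∧
      ∫ x in (0 : ℝ)..β, 1 / max T √(1 - x ^ 2) ≤ 3 / 4 := by
  have h1 : ∀ x ∈ Set.Icc (0 : ℝ) β, 0 ≤ 1 / max T √(1 - x ^ 2) := by
    intro x _
    have : 0 ≤ max T √(1 - x ^ 2) := hT.trans (le_max_left _ _)
    positivity
  refine ⟨intervalIntegral.integral_nonneg hβ h1, ?_⟩
  have h2 := intervalIntegral.norm_integral_le_of_norm_le_const (a := (0 : ℝ)) (b := β)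
    (C := 3 / 2) (f := fun x => 1 / max T √(1 - x ^ 2)) ?_
  · rw [Real.norm_eq_abs, sub_zero, abs_of_nonneg hβ] at h2
    exact (le_abs_self _).trans (h2.trans (by linarith))
  · intro x hx
    rw [Set.uIoc_of_le hβ] at hx
    rw [Real.norm_eq_abs, abs_of_nonneg (h1 x ⟨hx.1.le, hx.2⟩)]
    have h3 : (2 : ℝ) / 3 ≤ √(1 - x ^ 2) := by
      refine Real.le_sqrt_of_sq_le ?_
      nlinarith [hx.1, hx.2]
    have h4 : (2 : ℝ) / 3 ≤ max T √(1 - x ^ 2) := h3.trans (le_max_right _ _)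
    rw [div_le_iff₀ (by linarith)]
    linarith

open Classical in
/-- **The Heegner points are equidistributed on the average over the discriminants**: for
`0 ≤ β ≤ 1/2`, `T ≥ 0` the proportion of the primitive reduced forms `f` of discriminant `≥ -X`
(`h(-n)` forms of discriminant `-n` for every `n ≤ X`) with `|Re z_f| ≤ β` and `Im z_f ≥ T` tends
for `X → ∞` to `(3 / π) · 2 ∫_0^β dx / max(T, √(1 - x²))`, the normalized hyperbolic area of the
part `|x| ≤ β`, `y ≥ T` of the fundamental domain. -/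
theorem tendsto_heegner {β T : ℝ} (hβ : 0 ≤ β) (hβ' : β ≤ 1 / 2) (hT : 0 ≤ T) :
    Tendsto (fun X : ℝ =>
      ((((redF X).filter fun f => |(cmPt f).re| ≤ β ∧ T ≤ (cmPt f).im).filter
        BForm.Prim).card : ℝ) / ((redF X).filter BForm.Prim).card) atTop
      (𝓝 (3 / Real.pi * (2 * ∫ x in (0 : ℝ)..β, 1 / max T √(1 - x ^ 2)))) := by
  obtain ⟨hI0, hI1⟩ := integral_le hβ hβ' hT
  obtain ⟨I, hI⟩ : ∃ I, I = ∫ x in (0 : ℝ)..β, 1 / max T √(1 - x ^ 2) := ⟨_, rfl⟩
  obtain ⟨S, hS⟩ : ∃ S : Set ℂ, ∀ z, z ∈ S ↔ |z.re| ≤ β ∧ T ≤ z.im :=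
    ⟨{z : ℂ | |z.re| ≤ β ∧ T ≤ z.im}, fun _ => Iff.rfl⟩
  have hfil : ∀ X : ℝ, ((redF X).filter fun f => |(cmPt f).re| ≤ β ∧ T ≤ (cmPt f).im) =
      (redF X).filter fun f => cmPt f ∈ S := by
    intro X
    ext f
    rw [Finset.mem_filter, Finset.mem_filter, hS]
  simp only [hfil]
  have h1 := tendsto_of_abs_le
    (u := fun X => ((((redF X).filter fun f => cmPt f ∈ S).filter BForm.Prim).card : ℝ))
    (κ := I / 3 / zeta3) (C := 9) (by
      intro X hX
      refine card_prim_of_card (S := S) (κ := I / 3)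
        (by rw [hI]; linarith) (by rw [hI]; linarith) (fun Y hY => ?_) hX
      have h2 := card_redP hβ hβ' hT hY
      rw [redP_eq hT, hfil, ← hI] at h2
      rwa [show Y * √Y / 3 * I = I / 3 * (Y * √Y) by ring] at h2)
  have h2 := tendsto_of_abs_le (u := fun X => (((redF X).filter BForm.Prim).card : ℝ))
    (κ := Real.pi / (18 * zeta3)) (C := 7) fun X hX => card_prim_redF hX
  have hz := zeta3_pos
  have h3 := h1.div h2 (by positivity)
  have h4 : I / 3 / zeta3 / (Real.pi / (18 * zeta3)) = 3 / Real.pi * (2 * I) := by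
    have := Real.pi_pos.ne'
    field_simp
    ring
  rw [h4, hI] at h3
  refine h3.congr' ?_
  filter_upwards [eventually_ge_atTop 1] with X hX
  have hX0 : (0 : ℝ) < X := by linarith
  have h5 : X * √X ≠ 0 := by positivity
  simp only [Pi.div_apply]
  rw [div_div_div_cancel_right₀ h5]

end Fermat.Agent.Cor.Diri.Mean
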