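import Fermat.Agent.Corollaries.Diri.MeanInt
import Fermat.Agent.Corollaries.Ray.ClassNum

/-!
# The number of the reduced forms of discriminant `≥ -X`

`#{reduced positive definite forms with |disc| ≤ X} = (π / 18) X^{3/2} + O(X log X)`.
-/

set_option autoImplicit false

open Finset
open Fermat.Agent.Cor.Ray (BForm)

namespace Fermat.Agent.Cor.Diri.Mean

/-- the bound for the first coefficient -/
noncomputable def bd (X : ℝ) : ℕ := ⌊√(X / 3)⌋₊

theorem bd_sq_le {X : ℝ} (hX : 0 ≤ X) : (bd X : ℝ) ^ 2 ≤ X / 3 := by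
  have h1 : (bd X : ℝ) ≤ √(X / 3) := Nat.floor_le (Real.sqrt_nonneg _)
  have h2 := pow_le_pow_left₀ (Nat.cast_nonneg _) h1 2
  rwa [Real.sq_sqrt (by positivity)] at h2

/-- the triples `(a, b, c)` with `-a < b ≤ a ≤ c`, `4 a c - b² ≤ X` -/
noncomputable def trip (X : ℝ) : Finset (Σ _ : ℤ, Σ _ : ℤ, ℤ) :=
  (Icc (1 : ℤ) (bd X)).sigma fun a => (Ioc (-a) a).sigma fun b =>
    Icc a ⌊(X + (b : ℝ) ^ 2) / (4 * a)⌋

theorem mem_trip {X : ℝ} {a b c : ℤ} :
    (⟨a, b, c⟩ : Σ _ : ℤ, Σ _ : ℤ, ℤ) ∈ trip X ↔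
      0 < a ∧ -a < b ∧ b ≤ a ∧ a ≤ c ∧ ((4 * a * c - b ^ 2 : ℤ) : ℝ) ≤ X := by
  have key : 0 < a → ((c : ℝ) ≤ (X + (b : ℝ) ^ 2) / (4 * a) ↔
      ((4 * a * c - b ^ 2 : ℤ) : ℝ) ≤ X) := by
    intro ha
    have ha' : (0 : ℝ) < a := by exact_mod_cast ha
    rw [le_div_iff₀ (by linarith)]
    push_cast
    constructor <;> intro h <;> linarith
  simp only [trip, Finset.mem_sigma, Finset.mem_Icc, Finset.mem_Ioc, Int.le_floor]
  constructor
  · rintro ⟨⟨h1, -⟩, ⟨h2, h3⟩, h4, h5⟩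
    exact ⟨by omega, h2, h3, h4, (key (by omega)).mp h5⟩
  · rintro ⟨h1, h2, h3, h4, h5⟩
    refine ⟨⟨by omega, ?_⟩, ⟨h2, h3⟩, h4, (key h1).mpr h5⟩
    have h6 : 3 * a ^ 2 ≤ 4 * a * c - b ^ 2 := by nlinarith
    have h7 : (3 : ℝ) * (a : ℝ) ^ 2 ≤ X := le_trans (by exact_mod_cast h6) h5
    have h8 : ((a.toNat : ℕ) : ℝ) ≤ √(X / 3) := by
      have h9 : ((a.toNat : ℕ) : ℝ) = (a : ℝ) := by
        exact_mod_cast congrArg (Int.cast : ℤ → ℝ) (Int.toNat_of_nonneg h1.le)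
      rw [h9]
      refine Real.le_sqrt_of_sq_le ?_
      linarith
    have h10 : a.toNat ≤ bd X := Nat.le_floor h8
    omega

theorem sum_Icc_int (n : ℕ) (g : ℤ → ℝ) :
    ∑ a ∈ Icc (1 : ℤ) n, g a = ∑ i ∈ range n, g (i + 1) := by
  refine Finset.sum_nbij' (fun a => (a - 1).toNat) (fun i => (i : ℤ) + 1) ?_ ?_ ?_ ?_ ?_
  · intro a ha
    rw [Finset.mem_Icc] at ha
    rw [Finset.mem_range]
    omega
  · intro i hi
    rw [Finset.mem_range] at hi
    rw [Finset.mem_Icc]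
    omega
  · intro a ha
    rw [Finset.mem_Icc] at ha
    omega
  · intro i _
    omega
  · intro a ha
    rw [Finset.mem_Icc] at ha
    congr 1
    omega

theorem sum_Ioc_int (n : ℕ) (g : ℤ → ℝ) :
    ∑ b ∈ Ioc (-(n : ℤ)) n, g b =
      ∑ i ∈ range n, g (-(i : ℤ)) + ∑ i ∈ range n, g (i + 1) := by
  have h1 : ∑ b ∈ Ioc (-(n : ℤ)) n, g b =
      ∑ b ∈ Ioc (-(n : ℤ)) 0, g b + ∑ b ∈ Icc (1 : ℤ) n, g b := by
    rw [← Finset.sum_union]
    · congr 1
      ext b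
      simp only [Finset.mem_Ioc, Finset.mem_union, Finset.mem_Icc]
      omega
    · rw [Finset.disjoint_left]
      intro b
      simp only [Finset.mem_Ioc, Finset.mem_Icc]
      omega
  rw [h1, sum_Icc_int]
  congr 1
  refine Finset.sum_nbij' (fun b => (-b).toNat) (fun i => -(i : ℤ)) ?_ ?_ ?_ ?_ ?_
  · intro b hb
    rw [Finset.mem_Ioc] at hb
    rw [Finset.mem_range]
    omega
  · intro i hi
    rw [Finset.mem_range] at hi
    rw [Finset.mem_Ioc]
    omega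
  · intro b hb
    rw [Finset.mem_Ioc] at hb
    omega
  · intro i _
    omega
  · intro b hb
    rw [Finset.mem_Ioc] at hb
    congr 1
    omega

theorem card_Icc_floor {X : ℝ} {a : ℤ} (ha : 0 < a) (b : ℝ) :
    max 0 (X - 4 * (a : ℝ) ^ 2 + b ^ 2) / (4 * (a : ℝ)) ≤
        (((Icc a ⌊(X + b ^ 2) / (4 * (a : ℝ))⌋).card : ℕ) : ℝ) ∧
      (((Icc a ⌊(X + b ^ 2) / (4 * (a : ℝ))⌋).card : ℕ) : ℝ) ≤
        max 0 (X - 4 * (a : ℝ) ^ 2 + b ^ 2) / (4 * (a : ℝ)) + 1 := by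
  have ha' : (0 : ℝ) < a := by exact_mod_cast ha
  obtain ⟨y, hy⟩ : ∃ y, y = (X + b ^ 2) / (4 * (a : ℝ)) := ⟨_, rfl⟩
  have h1 : max 0 (X - 4 * (a : ℝ) ^ 2 + b ^ 2) / (4 * (a : ℝ)) = max 0 (y - a) := by
    rw [← max_div_div_right (by linarith), zero_div, hy]
    congr 1
    field_simp
    ring
  rw [h1, ← hy, Int.card_Icc]
  rcases lt_or_ge y a with h2 | h2
  · have h3 : ⌊y⌋ < a := Int.floor_lt.mpr h2
    have h4 : (⌊y⌋ + 1 - a).toNat = 0 := by omega
    rw [h4, max_eq_left (by linarith)]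
    norm_num
  · have h3 : a ≤ ⌊y⌋ := Int.le_floor.mpr h2
    have h4 : (((⌊y⌋ + 1 - a).toNat : ℕ) : ℝ) = (⌊y⌋ : ℝ) + 1 - a := by
      have h5 : (((⌊y⌋ + 1 - a).toNat : ℕ) : ℤ) = ⌊y⌋ + 1 - a := Int.toNat_of_nonneg (by omega)
      exact_mod_cast congrArg (Int.cast : ℤ → ℝ) h5
    rw [h4, max_eq_right (by linarith)]
    have h6 := Int.floor_le y
    have h7 := Int.lt_floor_add_one y
    constructor <;> linarith

theorem card_trip {X : ℝ} (hX : 1 ≤ X) :
    |((trip X).card : ℝ) - Real.pi / 18 * (X * √X)| ≤ 7 / 4 * X * (1 + Real.log X) := by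
  have hX0 : 0 ≤ X := by linarith
  obtain ⟨A, hA⟩ : ∃ A, A = bd X := ⟨_, rfl⟩
  have hA2 : (A : ℝ) ^ 2 ≤ X / 3 := hA ▸ bd_sq_le hX0
  have hAA : (A : ℝ) ≤ (A : ℝ) ^ 2 := by
    have : A ≤ A ^ 2 := Nat.le_self_pow (by norm_num) A
    exact_mod_cast this
  have hA0 : (0 : ℝ) ≤ A := Nat.cast_nonneg A
  have hlt : √(X / 3) < A + 1 := by
    rw [hA, bd]
    exact Nat.lt_floor_add_one _
  -- the cardinality as a double sum
  obtain ⟨T, hT⟩ : ∃ T : ℕ → ℝ, T = fun a : ℕ => ∑ b ∈ Ioc (-(a : ℤ)) a,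
      ((Icc (a : ℤ) ⌊(X + (b : ℝ) ^ 2) / (4 * ((a : ℤ) : ℝ))⌋).card : ℝ) := ⟨_, rfl⟩
  have h1 : ((trip X).card : ℝ) = ∑ i ∈ range A, T (i + 1) := by
    rw [trip, Finset.card_sigma, ← hA]
    push_cast
    rw [sum_Icc_int]
    refine Finset.sum_congr rfl fun i _ => ?_
    rw [Finset.card_sigma, hT]
    push_cast
    rfl
  have h2 : ∀ i ∈ range A, |T (i + 1) - J X (i + 1) / 2| ≤
      2 * ((i : ℝ) + 1) + X / 4 * (1 / ((i : ℝ) + 1)) := by
    intro i _
    have h3 := sum_section hX0 (i + 1)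
    obtain ⟨a, ha⟩ : ∃ a, a = i + 1 := ⟨_, rfl⟩
    have ha0 : 0 < a := by omega
    have ha' : (0 : ℝ) < a := by exact_mod_cast ha0
    have hia : (i : ℝ) + 1 = a := by rw [ha]; push_cast; rfl
    rw [← ha] at h3
    rw [← ha, hia]
    obtain ⟨m, hm⟩ : ∃ m : ℤ → ℝ, m = fun b : ℤ => max 0 (X - 4 * (a : ℝ) ^ 2 + (b : ℝ) ^ 2) :=
      ⟨_, rfl⟩
    have h4 : ∑ i ∈ range a, max 0 (X - 4 * (a : ℝ) ^ 2 + (i : ℝ) ^ 2) +
        ∑ i ∈ range a, max 0 (X - 4 * (a : ℝ) ^ 2 + ((i : ℝ) + 1) ^ 2) =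
        ∑ b ∈ Ioc (-(a : ℤ)) a, m b := by
      rw [sum_Ioc_int, hm]
      push_cast
      simp only [neg_sq]
    rw [h4] at h3
    have h5 : ∑ b ∈ Ioc (-(a : ℤ)) a, m b / (4 * a) ≤ T a := by
      rw [hT]
      refine Finset.sum_le_sum fun b _ => ?_
      have := (card_Icc_floor (X := X) (a := (a : ℤ)) (by exact_mod_cast ha0) (b : ℝ)).1
      rw [hm]
      simpa using this
    have h6 : T a ≤ ∑ b ∈ Ioc (-(a : ℤ)) a, m b / (4 * a) + 2 * a := by
      have h7 : T a ≤ ∑ b ∈ Ioc (-(a : ℤ)) a, (m b / (4 * a) + 1) := by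
        rw [hT]
        refine Finset.sum_le_sum fun b _ => ?_
        have := (card_Icc_floor (X := X) (a := (a : ℤ)) (by exact_mod_cast ha0) (b : ℝ)).2
        rw [hm]
        simpa using this
      rw [Finset.sum_add_distrib, Finset.sum_const, Int.card_Ioc, nsmul_eq_mul, mul_one] at h7
      have h8 : (((a : ℤ) - -(a : ℤ)).toNat : ℝ) = 2 * a := by
        have : ((a : ℤ) - -(a : ℤ)).toNat = 2 * a := by omega
        rw [this]
        push_cast
        rfl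
      rwa [h8] at h7
    rw [← Finset.sum_div] at h5 h6
    have h9 : |(∑ b ∈ Ioc (-(a : ℤ)) a, m b) / (4 * a) - J X a / 2| ≤ X / 4 * (1 / a) := by
      have h10 : (∑ b ∈ Ioc (-(a : ℤ)) a, m b) / (4 * a) - J X a / 2 =
          (∑ b ∈ Ioc (-(a : ℤ)) a, m b - 2 * a * J X a) / (4 * a) := by
        field_simp
        ring
      rw [h10, abs_div, abs_of_pos (by linarith : (0 : ℝ) < 4 * a)]
      rw [div_le_iff₀ (by linarith)]
      calc _ ≤ X := h3
        _ = X / 4 * (1 / a) * (4 * a) := by field_simp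
    rw [abs_le] at h9 ⊢
    constructor <;> linarith [h9.1, h9.2]
  have h11 : |∑ i ∈ range A, T (i + 1) - (∑ i ∈ range A, J X (i + 1)) / 2| ≤
      ∑ i ∈ range A, (2 * ((i : ℝ) + 1) + X / 4 * (1 / ((i : ℝ) + 1))) := by
    rw [Finset.sum_div, ← Finset.sum_sub_distrib]
    exact (Finset.abs_sum_le_sum_abs _ _).trans (Finset.sum_le_sum h2)
  have h12 : ∑ i ∈ range A, (2 * ((i : ℝ) + 1) + X / 4 * (1 / ((i : ℝ) + 1))) ≤
      2 / 3 * X + X / 4 * (1 + Real.log X) := by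
    rw [Finset.sum_add_distrib, ← Finset.mul_sum, ← Finset.mul_sum]
    have h13 : 2 * ∑ i ∈ range A, ((i : ℝ) + 1) = A * (A + 1) := by
      clear h11 h2 h1 hlt hAA hA2 hA hA0
      induction A with
      | zero => simp
      | succ n ih =>
        rw [Finset.sum_range_succ, mul_add, ih]
        push_cast
        ring
    have h14 : ∑ i ∈ range A, 1 / ((i : ℝ) + 1) ≤ 1 + Real.log X := by
      have h15 : ∑ i ∈ range A, 1 / ((i : ℝ) + 1) = ((harmonic A : ℚ) : ℝ) := by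
        rw [harmonic]
        push_cast
        refine Finset.sum_congr rfl fun i _ => ?_
        rw [one_div]
      rw [h15]
      refine (harmonic_le_one_add_log A).trans ?_
      rcases Nat.eq_zero_or_pos A with h16 | h16
      · rw [h16, Nat.cast_zero, Real.log_zero]
        linarith [Real.log_nonneg hX]
      · have : Real.log A ≤ Real.log X :=
          Real.log_le_log (by exact_mod_cast h16) (by linarith)
        linarith
    have h17 : X / 4 * ∑ i ∈ range A, 1 / ((i : ℝ) + 1) ≤ X / 4 * (1 + Real.log X) :=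
      mul_le_mul_of_nonneg_left h14 (by linarith)
    nlinarith
  have h18 := sum_J hX0 hlt
  have h19 : 0 ≤ X * Real.log X := mul_nonneg hX0 (Real.log_nonneg hX)
  rw [h1]
  rw [abs_le] at h11 h18 ⊢
  constructor <;> nlinarith [h11.1, h11.2, h18.1, h18.2]

/-! ### The reduced forms -/

open Classical in
/-- the reduced forms of discriminant `≥ -X` -/
noncomputable def redF (X : ℝ) : Finset BForm :=
  ((trip X).filter fun x => x.1 = x.2.2 → 0 ≤ x.2.1).image fun x => ⟨x.1, x.2.1, x.2.2⟩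

theorem mem_redF {X : ℝ} {f : BForm} :
    f ∈ redF X ↔ f.Red ∧ 0 < f.a ∧ ((-f.disc : ℤ) : ℝ) ≤ X := by
  classical
  have hd : -f.disc = 4 * f.a * f.c - f.b ^ 2 := by
    rw [BForm.disc]
    ring
  rw [redF, Finset.mem_image]
  constructor
  · rintro ⟨⟨a, b, c⟩, hx, rfl⟩
    rw [Finset.mem_filter, mem_trip] at hx
    obtain ⟨⟨h1, h2, h3, h4, h5⟩, h6⟩ := hx
    refine ⟨⟨abs_le.mpr ⟨h2.le, h3⟩, h4, ?_⟩, h1, ?_⟩
    · rintro (h7 | h7)
      · by_contra hn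
        rw [not_le] at hn
        simp only at h7 hn
        rw [abs_of_neg hn] at h7
        omega
      · exact h6 h7
    · rw [hd]
      exact h5
  · rintro ⟨⟨h1, h2, h3⟩, h4, h5⟩
    refine ⟨⟨f.a, f.b, f.c⟩, ?_, rfl⟩
    rw [Finset.mem_filter, mem_trip]
    rw [abs_le] at h1
    refine ⟨⟨h4, ?_, h1.2, h2, by rwa [← hd]⟩, fun h => h3 (Or.inr h)⟩
    rcases h1.1.lt_or_eq with h6 | h6
    · exact h6
    · have h7 := h3 (Or.inl (by rw [← h6, abs_neg, abs_of_pos h4]))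
      omega

theorem redF_eq_empty {X : ℝ} (hX : X < 1) : redF X = ∅ := by
  rw [Finset.eq_empty_iff_forall_notMem]
  intro f hf
  rw [mem_redF] at hf
  obtain ⟨h1, h2, h3⟩ := hf
  have h4 := h1.three_mul_sq_le
  have h5 : (3 : ℤ) ≤ -f.disc := by nlinarith
  have h6 : (3 : ℝ) ≤ ((-f.disc : ℤ) : ℝ) := by exact_mod_cast h5
  linarith

/-- **The number of the reduced forms** (primitive or not) of discriminant `≥ -X` is
`(π / 18) X^{3/2} + O(X log X)`. -/
theorem card_redF {X : ℝ} (hX : 1 ≤ X) :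
    |((redF X).card : ℝ) - Real.pi / 18 * (X * √X)| ≤ 3 * X * (1 + Real.log X) := by
  classical
  have hX0 : 0 ≤ X := by linarith
  have h1 : (redF X).card = ((trip X).filter fun x => x.1 = x.2.2 → 0 ≤ x.2.1).card := by
    rw [redF]
    convert Finset.card_image_of_injective _ _
    rintro ⟨a, b, c⟩ ⟨a', b', c'⟩ h
    simp only [BForm.mk.injEq] at h
    obtain ⟨rfl, rfl, rfl⟩ := h
    rfl
  have h2 := Finset.card_filter_add_card_filter_not (s := trip X)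
    (fun x => x.1 = x.2.2 → 0 ≤ x.2.1)
  have h3 : ((trip X).filter fun x => ¬ (x.1 = x.2.2 → 0 ≤ x.2.1)).card ≤ bd X * bd X := by
    have h4 : (Icc (1 : ℤ) (bd X) ×ˢ Icc (-(bd X : ℤ)) (-1)).card = bd X * bd X := by
      rw [Finset.card_product, Int.card_Icc, Int.card_Icc]
      congr 1 <;> omega
    rw [← h4]
    refine Finset.card_le_card_of_injOn (fun x => (x.1, x.2.1)) ?_ ?_
    · rintro ⟨a, b, c⟩ hx
      rw [Finset.mem_coe, Finset.mem_filter] at hx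
      obtain ⟨h5, h6⟩ := hx
      have h7 : a ∈ Icc (1 : ℤ) (bd X) := (Finset.mem_sigma.mp h5).1
      rw [mem_trip] at h5
      simp only [Classical.not_imp, not_le] at h6
      rw [Finset.mem_Icc] at h7
      simp only [Finset.coe_product, Finset.coe_Icc, Set.mem_prod, Set.mem_Icc]
      omega
    · rintro ⟨a, b, c⟩ hx ⟨a', b', c'⟩ hx' h
      rw [Finset.mem_coe, Finset.mem_filter] at hx hx'
      have h6 := hx.2
      have h6' := hx'.2
      simp only [Classical.not_imp, not_le] at h6 h6'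
      simp only [Prod.mk.injEq] at h
      obtain ⟨rfl, rfl⟩ := h
      have : c = c' := h6.1.symm.trans h6'.1
      rw [this]
  have h8 : (((trip X).filter fun x => ¬ (x.1 = x.2.2 → 0 ≤ x.2.1)).card : ℝ) ≤ X / 3 := by
    have h9 := bd_sq_le hX0
    have h10 : (((trip X).filter fun x => ¬ (x.1 = x.2.2 → 0 ≤ x.2.1)).card : ℝ) ≤
        bd X * bd X := by exact_mod_cast h3
    nlinarith
  have h11 := card_trip hX
  have h12 : ((redF X).card : ℝ) +
      (((trip X).filter fun x => ¬ (x.1 = x.2.2 → 0 ≤ x.2.1)).card : ℝ) = (trip X).card := by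
    rw [h1]
    exact_mod_cast h2
  have h13 : (0 : ℝ) ≤ (((trip X).filter fun x => ¬ (x.1 = x.2.2 → 0 ≤ x.2.1)).card : ℝ) :=
    Nat.cast_nonneg _
  have h19 : 0 ≤ X * Real.log X := mul_nonneg hX0 (Real.log_nonneg hX)
  rw [abs_le] at h11 ⊢
  constructor <;> nlinarith [h11.1, h11.2]

end Fermat.Agent.Cor.Diri.Mean
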