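import Fermat.Agent.Corollaries.Diri.MeanGauss

/-!
# The mean value of `h(-n) / √n`

`(1 / N) Σ_{n ≤ N} h(-n) / √n → π / (12 ζ(3))` and, in Gauss's form (*Disquisitiones* art. 302),
`(1 / N) Σ_{n ≤ N} h(-4 n) / √n → 2 π / (7 ζ(3))`.
-/

set_option autoImplicit false

open Finset Filter Topology
open Fermat.Agent.Cor.Ray (BForm)

namespace Fermat.Agent.Cor.Diri.Mean

theorem abel_sqrt (a : ℕ → ℝ) {N : ℕ} (hN : 1 ≤ N) :
    ∑ n ∈ Icc 1 N, a n / √n = (∑ n ∈ Icc 1 N, a n) / √N +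
      ∑ m ∈ Ico 1 N, (∑ n ∈ Icc 1 m, a n) * (1 / √m - 1 / √((m + 1 : ℕ) : ℝ)) := by
  induction N, hN using Nat.le_induction with
  | base => simp
  | succ N hN ih =>
    rw [Finset.sum_Icc_succ_top (by omega), ih, Finset.sum_Icc_succ_top (by omega),
      Finset.sum_Ico_succ_top hN]
    ring

theorem one_div_sqrt_sub {m : ℕ} (hm : 1 ≤ m) :
    0 ≤ 1 / √(m : ℝ) - 1 / √((m + 1 : ℕ) : ℝ) ∧
      1 / √(m : ℝ) - 1 / √((m + 1 : ℕ) : ℝ) ≤ 1 / (2 * (m * √m)) ∧
      |(m * √m) * (1 / √(m : ℝ) - 1 / √((m + 1 : ℕ) : ℝ)) - 1 / 2| ≤ 1 / 2 * (1 / (m : ℝ)) := by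
  have hm' : (1 : ℝ) ≤ m := by exact_mod_cast hm
  obtain ⟨s, hs⟩ : ∃ s, s = √(m : ℝ) := ⟨_, rfl⟩
  obtain ⟨t, ht⟩ : ∃ t, t = √((m + 1 : ℕ) : ℝ) := ⟨_, rfl⟩
  have hs2 : s ^ 2 = m := by rw [hs, Real.sq_sqrt (by linarith)]
  have ht2 : t ^ 2 = m + 1 := by
    rw [ht, Real.sq_sqrt (by positivity)]
    push_cast
    ring
  have hs0 : 1 ≤ s := by
    rw [hs]
    exact Real.one_le_sqrt.mpr hm'
  have hst : s ≤ t := by
    rw [hs, ht]
    refine Real.sqrt_le_sqrt ?_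
    push_cast
    linarith
  have ht0 : 1 ≤ t := hs0.trans hst
  have key : 1 / s - 1 / t = 1 / (s * t * (s + t)) := by
    have h1 : (t - s) * (s + t) = 1 := by nlinarith
    rw [div_sub_div _ _ (by linarith) (by linarith), div_eq_div_iff (by positivity) (by positivity)]
    linear_combination (s * t) * h1
  rw [← hs, ← ht, key, ← hs2]
  refine ⟨by positivity, ?_, ?_⟩
  · refine one_div_le_one_div_of_le (by positivity) ?_
    nlinarith [mul_le_mul hst hst (by linarith : 0 ≤ s) (by linarith : 0 ≤ t)]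
  · have h2 : s ^ 2 * s * (1 / (s * t * (s + t))) = s ^ 2 / (t * (s + t)) := by
      field_simp
    rw [h2]
    have h3 : s ^ 2 / (t * (s + t)) ≤ 1 / 2 := by
      rw [div_le_iff₀ (by positivity)]
      nlinarith
    have h4 : 1 / 2 - 1 / 2 * (1 / s ^ 2) ≤ s ^ 2 / (t * (s + t)) := by
      rw [le_div_iff₀ (by positivity)]
      have h5 : t * (s + t) ≤ 2 * (s ^ 2 + 1) := by nlinarith
      have h6 : 0 ≤ 1 / 2 - 1 / 2 * (1 / s ^ 2) := by
        have : 1 / s ^ 2 ≤ 1 := by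
          rw [div_le_iff₀ (by positivity)]
          nlinarith
        linarith
      calc (1 / 2 - 1 / 2 * (1 / s ^ 2)) * (t * (s + t))
          ≤ (1 / 2 - 1 / 2 * (1 / s ^ 2)) * (2 * (s ^ 2 + 1)) :=
            mul_le_mul_of_nonneg_left h5 h6
        _ = s ^ 2 - 1 / s ^ 2 := by
            field_simp
            ring
        _ ≤ s ^ 2 := by
            have : 0 ≤ 1 / s ^ 2 := by positivity
            linarith
    rw [abs_le]
    constructor <;> linarith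

theorem sum_one_div_sqrt_le (N : ℕ) : ∑ m ∈ Ico 1 (N + 1), 1 / √(m : ℝ) ≤ 2 * √N := by
  induction N with
  | zero => simp
  | succ n ih =>
    rw [Finset.sum_Ico_succ_top (by omega)]
    obtain ⟨s, hs⟩ : ∃ s, s = √(n : ℝ) := ⟨_, rfl⟩
    obtain ⟨t, ht⟩ : ∃ t, t = √((n + 1 : ℕ) : ℝ) := ⟨_, rfl⟩
    have hs2 : s ^ 2 = n := by rw [hs, Real.sq_sqrt (by positivity)]
    have ht2 : t ^ 2 = n + 1 := by
      rw [ht, Real.sq_sqrt (by positivity)]
      push_cast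
      ring
    have hs0 : 0 ≤ s := hs ▸ Real.sqrt_nonneg _
    have ht0 : 0 < t := by
      rw [ht]
      exact Real.sqrt_pos.mpr (by positivity)
    rw [← hs] at ih
    rw [← ht]
    have h1 : 1 / t ≤ 2 * (t - s) := by
      rw [div_le_iff₀ ht0]
      nlinarith [sq_nonneg (t - s)]
    linarith

/-- **Partial summation** from `N^{3/2}` to the mean value of `a n / √n`. -/
theorem mean_of_sum {a : ℕ → ℝ} {κ C : ℝ} (hC : 0 ≤ C)
    (h : ∀ N : ℕ, 1 ≤ N → |∑ n ∈ Icc 1 N, a n - κ * (N * √N)| ≤ C * N * (1 + Real.log N))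
    {N : ℕ} (hN : 1 ≤ N) :
    |∑ n ∈ Icc 1 N, a n / √n - 3 / 2 * κ * N| ≤ (2 * C + |κ|) * √N * (1 + Real.log N) := by
  have hN' : (1 : ℝ) ≤ N := by exact_mod_cast hN
  have hlog : 0 ≤ Real.log N := Real.log_nonneg hN'
  have hsN : 1 ≤ √(N : ℝ) := Real.one_le_sqrt.mpr hN'
  have h1 : ∀ m ∈ Ico 1 N, |(∑ n ∈ Icc 1 m, a n) * (1 / √(m : ℝ) - 1 / √((m + 1 : ℕ) : ℝ)) -
      κ / 2| ≤ C * (1 + Real.log N) / 2 * (1 / √(m : ℝ)) + |κ| / 2 * (1 / (m : ℝ)) := by
    intro m hm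
    rw [Finset.mem_Ico] at hm
    have hm' : (1 : ℝ) ≤ m := by exact_mod_cast hm.1
    obtain ⟨h2, h3, h4⟩ := one_div_sqrt_sub hm.1
    have h5 := h m hm.1
    obtain ⟨δ, hδ⟩ : ∃ δ, δ = 1 / √(m : ℝ) - 1 / √((m + 1 : ℕ) : ℝ) := ⟨_, rfl⟩
    obtain ⟨S, hS⟩ : ∃ S, S = ∑ n ∈ Icc 1 m, a n := ⟨_, rfl⟩
    rw [← hδ] at h2 h3 h4
    rw [← hS] at h5
    rw [← hδ, ← hS]
    have h6 : S * δ - κ / 2 = (S - κ * (m * √m)) * δ + κ * (m * √m * δ - 1 / 2) := by ring
    have hsm : 0 < √(m : ℝ) := Real.sqrt_pos.mpr (by linarith)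
    have h7 : |(S - κ * (m * √m)) * δ| ≤ C * (1 + Real.log N) / 2 * (1 / √(m : ℝ)) := by
      rw [abs_mul, abs_of_nonneg h2]
      have h8 : Real.log m ≤ Real.log N :=
        Real.log_le_log (by linarith) (by exact_mod_cast hm.2.le)
      have h9 : 0 ≤ Real.log m := Real.log_nonneg hm'
      calc |S - κ * (m * √m)| * δ ≤ C * m * (1 + Real.log N) * (1 / (2 * (m * √m))) := by
            refine mul_le_mul (h5.trans ?_) h3 h2 (by positivity)
            gcongr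
        _ = C * (1 + Real.log N) / 2 * (1 / √(m : ℝ)) := by
            field_simp
    have h10 : |κ * (m * √m * δ - 1 / 2)| ≤ |κ| / 2 * (1 / (m : ℝ)) := by
      rw [abs_mul]
      calc |κ| * |m * √m * δ - 1 / 2| ≤ |κ| * (1 / 2 * (1 / (m : ℝ))) :=
            mul_le_mul_of_nonneg_left h4 (abs_nonneg _)
        _ = |κ| / 2 * (1 / (m : ℝ)) := by ring
    rw [h6]
    exact (abs_add_le _ _).trans (add_le_add h7 h10)
  have h2 : |∑ m ∈ Ico 1 N, (∑ n ∈ Icc 1 m, a n) * (1 / √(m : ℝ) - 1 / √((m + 1 : ℕ) : ℝ)) -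
      κ / 2 * (N - 1)| ≤ C * √N * (1 + Real.log N) + |κ| / 2 * (1 + Real.log N) := by
    have h3 : κ / 2 * ((N : ℝ) - 1) = ∑ _m ∈ Ico 1 N, κ / 2 := by
      rw [Finset.sum_const, Nat.card_Ico, nsmul_eq_mul, Nat.cast_sub hN, Nat.cast_one]
      ring
    rw [h3, ← Finset.sum_sub_distrib]
    refine (Finset.abs_sum_le_sum_abs _ _).trans ((Finset.sum_le_sum h1).trans ?_)
    rw [Finset.sum_add_distrib, ← Finset.mul_sum, ← Finset.mul_sum]
    obtain ⟨k, rfl⟩ : ∃ k, N = k + 1 := ⟨N - 1, by omega⟩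
    have h4 := sum_one_div_sqrt_le k
    have h5 : √(k : ℝ) ≤ √((k + 1 : ℕ) : ℝ) := by
      refine Real.sqrt_le_sqrt ?_
      push_cast
      linarith
    have h6 : ∑ m ∈ Ico 1 (k + 1), 1 / (m : ℝ) ≤ 1 + Real.log ((k + 1 : ℕ) : ℝ) := by
      have h7 : ∑ m ∈ Ico 1 (k + 1), 1 / (m : ℝ) = ((harmonic k : ℚ) : ℝ) := by
        rw [Finset.sum_Ico_eq_sum_range, harmonic, Nat.add_sub_cancel]
        push_cast
        refine Finset.sum_congr rfl fun i _ => ?_
        rw [one_div, add_comm]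
      rw [h7]
      refine (harmonic_le_one_add_log k).trans ?_
      rcases Nat.eq_zero_or_pos k with h16 | h16
      · rw [h16]
        simp
      · have : Real.log k ≤ Real.log ((k + 1 : ℕ) : ℝ) :=
          Real.log_le_log (by exact_mod_cast h16) (by push_cast; linarith)
        linarith
    refine add_le_add ?_ (mul_le_mul_of_nonneg_left h6 (by positivity))
    calc C * (1 + Real.log ((k + 1 : ℕ) : ℝ)) / 2 * ∑ m ∈ Ico 1 (k + 1), 1 / √(m : ℝ)
        ≤ C * (1 + Real.log ((k + 1 : ℕ) : ℝ)) / 2 * (2 * √((k + 1 : ℕ) : ℝ)) :=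
          mul_le_mul_of_nonneg_left (h4.trans (by linarith)) (by positivity)
      _ = C * √((k + 1 : ℕ) : ℝ) * (1 + Real.log ((k + 1 : ℕ) : ℝ)) := by ring
  have h3 : |(∑ n ∈ Icc 1 N, a n) / √N - κ * N| ≤ C * √N * (1 + Real.log N) := by
    have h4 := h N hN
    have hs0 : 0 < √(N : ℝ) := by linarith
    have hs2 : √(N : ℝ) * √N = N := Real.mul_self_sqrt (by linarith)
    have h5 : (∑ n ∈ Icc 1 N, a n) / √N - κ * N = (∑ n ∈ Icc 1 N, a n - κ * (N * √N)) / √N := by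
      field_simp
    rw [h5, abs_div, abs_of_pos hs0, div_le_iff₀ hs0]
    refine h4.trans (le_of_eq ?_)
    linear_combination (-(C * (1 + Real.log N))) * hs2
  rw [abel_sqrt a hN]
  have h6 : |κ| / 2 * (1 + Real.log N) ≤ |κ| / 2 * √N * (1 + Real.log N) := by
    refine mul_le_mul_of_nonneg_right ?_ (by linarith)
    exact le_mul_of_one_le_right (by positivity) hsN
  have h7 : |κ / 2| ≤ |κ| / 2 * √N * (1 + Real.log N) := by
    rw [abs_div, abs_of_pos (by norm_num : (0 : ℝ) < 2)]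
    refine le_trans ?_ h6
    exact le_mul_of_one_le_right (by positivity) (by linarith)
  rw [abs_le] at h2 h3 h7 ⊢
  constructor <;> nlinarith [h2.1, h2.2, h3.1, h3.2, h7.1, h7.2]

theorem one_le_zeta3 : 1 ≤ zeta3 := by
  have h1 : Summable fun n : ℕ => 1 / (n : ℝ) ^ 3 :=
    Real.summable_one_div_nat_pow.mpr (by norm_num)
  have h2 := h1.le_tsum 1 (fun n _ => by positivity)
  simpa [zeta3] using h2

theorem rpow_three_half {N : ℕ} (hN : 1 ≤ N) : (N : ℝ) ^ (3 / 2 : ℝ) = N * √N := by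
  have hN' : (1 : ℝ) ≤ N := by exact_mod_cast hN
  rw [Real.sqrt_eq_rpow, show (3 / 2 : ℝ) = 1 + 1 / 2 by norm_num,
    Real.rpow_add (by linarith), Real.rpow_one]

/-- **The mean value of `h(-n) / √n` is `π / (12 ζ(3))`.** -/
theorem mean_hForm {N : ℕ} (hN : 1 ≤ N) :
    |∑ n ∈ Icc 1 N, (BForm.hForm (-(n : ℤ)) : ℝ) / √n -
      Real.pi / (12 * (riemannZeta 3).re) * N| ≤ 15 * √N * (1 + Real.log N) := by
  have h1 := mean_of_sum (a := fun n => (BForm.hForm (-(n : ℤ)) : ℝ))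
    (κ := Real.pi / (18 * (riemannZeta 3).re)) (C := 7) (by norm_num) (fun M hM => by
      have := sum_hForm hM
      rwa [rpow_three_half hM] at this) hN
  rw [riemannZeta_three, Complex.ofReal_re] at h1 ⊢
  have hz := one_le_zeta3
  have hpi := Real.pi_pos
  have hpi4 := Real.pi_le_four
  have h2 : 3 / 2 * (Real.pi / (18 * zeta3)) = Real.pi / (12 * zeta3) := by
    field_simp
    norm_num
  have h3 : |Real.pi / (18 * zeta3)| ≤ 1 := by
    rw [abs_of_pos (by positivity), div_le_iff₀ (by positivity)]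
    linarith
  rw [h2] at h1
  refine h1.trans ?_
  have hN' : (1 : ℝ) ≤ N := by exact_mod_cast hN
  have hlog : 0 ≤ Real.log N := Real.log_nonneg hN'
  gcongr
  linarith

/-- **Gauss's mean value** (*Disquisitiones* art. 302): the mean value of `h(-4 n) / √n` is
`2 π / (7 ζ(3))`. -/
theorem mean_hForm_four {N : ℕ} (hN : 1 ≤ N) :
    |∑ n ∈ Icc 1 N, (BForm.hForm (-(4 * (n : ℤ))) : ℝ) / √n -
      2 * Real.pi / (7 * (riemannZeta 3).re) * N| ≤ 169 * √N * (1 + Real.log N) := by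
  have h1 := mean_of_sum (a := fun n => (BForm.hForm (-(4 * (n : ℤ))) : ℝ))
    (κ := 4 * Real.pi / (21 * (riemannZeta 3).re)) (C := 84) (by norm_num) (fun M hM => by
      have := sum_hForm_four hM
      rwa [rpow_three_half hM] at this) hN
  rw [riemannZeta_three, Complex.ofReal_re] at h1 ⊢
  have hz := one_le_zeta3
  have hpi := Real.pi_pos
  have hpi4 := Real.pi_le_four
  have h2 : 3 / 2 * (4 * Real.pi / (21 * zeta3)) = 2 * Real.pi / (7 * zeta3) := by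
    field_simp
    norm_num
  have h3 : |4 * Real.pi / (21 * zeta3)| ≤ 1 := by
    rw [abs_of_pos (by positivity), div_le_iff₀ (by positivity)]
    linarith
  rw [h2] at h1
  refine h1.trans ?_
  have hN' : (1 : ℝ) ≤ N := by exact_mod_cast hN
  have hlog : 0 ≤ Real.log N := Real.log_nonneg hN'
  gcongr
  linarith

end Fermat.Agent.Cor.Diri.Mean
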