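import Fermat.Agent.Corollaries.Diri.Every

/-!
# Mordell's congruence

`K` quadratic with `|d_K| = p > 3` prime, `p ≡ 3 mod 4`: `((p-1)/2)! ≡ (-1)^((h+1)/2) mod p`
(Mordell 1961).
-/

set_option autoImplicit false

open Finset NumberField Nat

universe u

namespace Fermat.Agent.Cor.Diri

/-- A product of signs is determined by their sum. -/
theorem prod_sign {ι : Type*} (s : Finset ι) (f : ι → ℤ) (hf : ∀ i ∈ s, f i = 1 ∨ f i = -1) :
    ∃ k : ℕ, ∏ i ∈ s, f i = (-1) ^ k ∧ ∑ i ∈ s, f i = s.card - 2 * k := by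
  classical
  induction s using Finset.induction_on with
  | empty => exact ⟨0, by simp⟩
  | insert a s ha ih =>
    obtain ⟨k, h1, h2⟩ := ih fun i hi => hf i (Finset.mem_insert_of_mem hi)
    rw [Finset.prod_insert ha, Finset.sum_insert ha, Finset.card_insert_of_notMem ha, h1, h2]
    rcases hf a (Finset.mem_insert_self a s) with h | h
    · exact ⟨k, by rw [h, one_mul], by rw [h]; push_cast; ring⟩
    · exact ⟨k + 1, by rw [h, pow_succ]; ring, by rw [h]; push_cast; ring⟩

variable {p : ℕ} [hp : Fact p.Prime]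

theorem prod_cast_eq_factorial (m : ℕ) :
    ∏ a ∈ range m, ((a + 1 : ℕ) : ZMod p) = ((m ! : ℕ) : ZMod p) := by
  rw [← Finset.prod_range_add_one_eq_factorial, Nat.cast_prod]

/-- Wilson: `(((p-1)/2)!)² ≡ 1 mod p` for `p ≡ 3 mod 4`. -/
theorem half_factorial_sq (h : p % 4 = 3) : ((((p - 1) / 2)! : ℕ) : ZMod p) ^ 2 = 1 := by
  obtain ⟨m, hm⟩ : ∃ m, (p - 1) / 2 = m := ⟨_, rfl⟩
  have hpm : p = 2 * m + 1 := by omega
  have hmo : Odd m := by
    rw [Nat.odd_iff]
    omega
  rw [hm]
  have h1 := ZMod.wilsons_lemma p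
  have h2 : (p - 1)! = m ! * (m + 1).ascFactorial m := by
    rw [Nat.factorial_mul_ascFactorial]
    congr 1
    omega
  have h3 : (((m + 1).ascFactorial m : ℕ) : ZMod p) = -((m ! : ℕ) : ZMod p) := by
    rw [Nat.ascFactorial_eq_prod_range, Nat.cast_prod, ← prod_cast_eq_factorial,
      ← Finset.prod_range_reflect]
    have h4 : ∀ j ∈ range m, ((m + 1 + (m - 1 - j) : ℕ) : ZMod p) =
        (-1) * ((j + 1 : ℕ) : ZMod p) := by
      intro j hj
      have hj' := Finset.mem_range.mp hj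
      have h5 : ((m + 1 + (m - 1 - j) : ℕ) : ZMod p) + ((j + 1 : ℕ) : ZMod p) = 0 := by
        rw [← Nat.cast_add, show m + 1 + (m - 1 - j) + (j + 1) = p by omega]
        exact ZMod.natCast_self p
      linear_combination h5
    rw [Finset.prod_congr rfl h4, Finset.prod_mul_distrib, Finset.prod_const, Finset.card_range,
      hmo.neg_one_pow, neg_one_mul]
  rw [h2, Nat.cast_mul, h3] at h1
  linear_combination -h1

variable {K : Type u} [Field K] [NumberField K]

/-- **Mordell's congruence (1961)**: `K` quadratic, `|d_K| = p > 3` prime, `p ≡ 3 mod 4`, `h` the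
class number of `K` (an odd number): `((p-1)/2)! ≡ (-1)^((h+1)/2) mod p`. -/
theorem half_factorial (h2 : Module.finrank ℚ K = 2) (hd : (discr K).natAbs = p)
    (h : p % 4 = 3) (h3 : 3 < p) :
    ((((p - 1) / 2)! : ℕ) : ZMod p) = (-1) ^ ((classNumber K + 1) / 2) := by
  have hsq := half_factorial_sq h
  have hT := classNumber_neg_prime h2 hd h h3
  have hho := odd_classNumber h2 hd h h3
  obtain ⟨m, hm⟩ : ∃ m, (p - 1) / 2 = m := ⟨_, rfl⟩
  rw [hm] at hsq hT ⊢
  have hpm : p = 2 * m + 1 := by omega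
  -- `m! = ∏ (a/p)`
  have e1 : ((m ! : ℕ) : ZMod p) = ((legendreSym p (m ! : ℕ) : ℤ) : ZMod p) := by
    rw [legendreSym.eq_pow, show p / 2 = 2 * (m / 2) + 1 by omega, pow_succ, pow_mul,
      Int.cast_natCast, hsq, one_pow, one_mul]
  have e2 : legendreSym p (m ! : ℕ) = ∏ a ∈ range m, legendreSym p ((a + 1 : ℕ) : ℤ) := by
    rw [← Finset.prod_range_add_one_eq_factorial, Nat.cast_prod]
    exact map_prod (legendreSym.hom p) _ _
  obtain ⟨k, hk1, hk2⟩ := prod_sign (range m) (fun a => legendreSym p ((a + 1 : ℕ) : ℤ))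
    (fun a ha => by
      have ha' := Finset.mem_range.mp ha
      refine legendreSym.eq_one_or_neg_one p ?_
      rw [Int.cast_natCast, Ne, ZMod.natCast_eq_zero_iff]
      intro hdvd
      have := Nat.le_of_dvd (by omega) hdvd
      omega)
  rw [Finset.card_range, ← hT] at hk2
  rw [e1, e2, hk1, Int.cast_pow, Int.cast_neg, Int.cast_one]
  obtain ⟨j, hj⟩ := hho
  have hpar : k % 2 = ((classNumber K + 1) / 2) % 2 := by
    have h8 : p % 8 = 3 ∨ p % 8 = 7 := by omega
    rcases h8 with h8 | h8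
    · have h4 : legendreSym p 2 = -1 := by
        rw [legendreSym.at_two (by omega), ZMod.χ₈_nat_mod_eight, h8]
        rfl
      rw [h4] at hk2
      omega
    · have h4 : legendreSym p 2 = 1 := by
        rw [legendreSym.at_two (by omega), ZMod.χ₈_nat_mod_eight, h8]
        rfl
      rw [h4] at hk2
      omega
  rw [neg_one_pow_eq_pow_mod_two, neg_one_pow_eq_pow_mod_two (n := (classNumber K + 1) / 2), hpar]

/-- `((p-1)/2)! ≡ 1 mod p` if and only if `h ≡ 3 mod 4`. -/
theorem half_factorial_eq_one_iff (h2 : Module.finrank ℚ K = 2) (hd : (discr K).natAbs = p)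
    (h : p % 4 = 3) (h3 : 3 < p) :
    ((((p - 1) / 2)! : ℕ) : ZMod p) = 1 ↔ classNumber K % 4 = 3 := by
  have hho := odd_classNumber h2 hd h h3
  rw [half_factorial h2 hd h h3]
  obtain ⟨j, hj⟩ := hho
  have hp2 : (2 : ZMod p) ≠ 0 := by
    intro h0
    have h4 : ((2 : ℕ) : ZMod p) = 0 := by exact_mod_cast h0
    rw [ZMod.natCast_eq_zero_iff] at h4
    have := Nat.le_of_dvd (by norm_num) h4
    omega
  have hne : (-1 : ZMod p) ≠ 1 := by
    intro h0
    exact hp2 (by linear_combination -h0)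
  rcases Nat.even_or_odd ((classNumber K + 1) / 2) with he | ho
  · rw [he.neg_one_pow]
    refine ⟨fun _ => ?_, fun _ => rfl⟩
    rw [Nat.even_iff] at he
    omega
  · rw [ho.neg_one_pow]
    refine ⟨fun h0 => absurd h0 hne, fun h0 => ?_⟩
    rw [Nat.odd_iff] at ho
    omega

end Fermat.Agent.Cor.Diri
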