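import Fermat.Agent.Corollaries.Diri.Elem
import Fermat.Agent.Corollaries.Diri.Mordell

/-!
# Prime numbers, quadratic residues and the number of classes of binary forms

The theorems of Jacobi, Dirichlet and Mordell for prime numbers, with `h(D)` the number of proper
equivalence classes of primitive positive definite forms of discriminant `D`; the Gauss sum of the
Kronecker symbol.
-/

set_option autoImplicit false

open Finset NumberField Nat
open Fermat.Agent.Cor.Ray (BForm)

universe u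

namespace Fermat.Agent.Cor.Diri

section Prime

variable {p : ℕ} [hp : Fact p.Prime]

theorem exists_field_neg_prime (h : p % 4 = 3) :
    ∃ (K : Type) (_ : Field K) (_ : NumberField K),
      Module.finrank ℚ K = 2 ∧ discr K = -p ∧ classNumber K = BForm.hForm (-p) := by
  have hpi : Prime (p : ℤ) := Nat.prime_iff_prime_int.mp hp.out
  obtain ⟨K, i1, i2, α, h2, hα, h3⟩ := exists_quadratic_field (m := -(p : ℤ)) (hpi.neg.squarefree)
    (by
      have := hp.out.pos
      omega)
  rw [if_pos (by omega)] at h3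
  have hneg : discr K < 0 := by
    have := hp.out.pos
    omega
  exact ⟨K, i1, i2, h2, h3, by rw [classNumber_eq_hForm h2 hneg, h3]⟩

/-- **Dirichlet (1839)**: `p ≡ 3 mod 4` prime, `p > 3`: `(2 - (2/p)) h(-p) = Σ_{0 < a < p/2} (a/p)`. -/
theorem hForm_neg_prime (h : p % 4 = 3) (h3 : 3 < p) :
    (2 - legendreSym p 2) * (BForm.hForm (-p) : ℤ) =
      ∑ a ∈ range ((p - 1) / 2), legendreSym p ((a + 1 : ℕ) : ℤ) := by
  obtain ⟨K, _, _, h2, hd, hh⟩ := exists_field_neg_prime h
  rw [← hh]
  exact classNumber_neg_prime h2 (by rw [hd]; simp) h h3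

/-- `h(-p)` is odd for every prime `p ≡ 3 mod 4`, `p > 3`. -/
theorem odd_hForm (h : p % 4 = 3) (h3 : 3 < p) : Odd (BForm.hForm (-p)) := by
  obtain ⟨K, _, _, h2, hd, hh⟩ := exists_field_neg_prime h
  rw [← hh]
  exact odd_classNumber h2 (by rw [hd]; simp) h h3

/-- **Jacobi (1832)**: `p ≡ 3 mod 4` prime, `p > 3`: the sum of the quadratic non-residues minus the
sum of the quadratic residues between `0` and `p` is `p h(-p)`. -/
theorem sum_nonresidues_sub_hForm (h : p % 4 = 3) (h3 : 3 < p) :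
    (∑ a ∈ (Finset.Ioo 0 p).filter (fun a : ℕ => ¬ IsSquare (a : ZMod p)), (a : ℤ)) -
      ∑ a ∈ (Finset.Ioo 0 p).filter (fun a : ℕ => IsSquare (a : ZMod p)), (a : ℤ) =
        p * BForm.hForm (-p) := by
  obtain ⟨K, _, _, h2, hd, hh⟩ := exists_field_neg_prime h
  rw [← hh]
  exact sum_nonresidues_sub h2 (by rw [hd]; simp) h h3

/-- `p ≡ 3 mod 4` prime, `p > 3`: the sum of the quadratic residues between `0` and `p` is smaller
than the sum of the non-residues. -/
theorem sum_residues_lt (h : p % 4 = 3) (h3 : 3 < p) :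
    ∑ a ∈ (Finset.Ioo 0 p).filter (fun a : ℕ => IsSquare (a : ZMod p)), a <
      ∑ a ∈ (Finset.Ioo 0 p).filter (fun a : ℕ => ¬ IsSquare (a : ZMod p)), a := by
  have h4 := sum_nonresidues_sub_hForm h h3
  have h5 : 0 < BForm.hForm (-p) := (odd_hForm h h3).pos
  have h6 : (0 : ℤ) < p * BForm.hForm (-p) :=
    mul_pos (by exact_mod_cast hp.out.pos) (by exact_mod_cast h5)
  have h7 : ((∑ a ∈ (Finset.Ioo 0 p).filter (fun a : ℕ => IsSquare (a : ZMod p)), a : ℕ) : ℤ) <
      ((∑ a ∈ (Finset.Ioo 0 p).filter (fun a : ℕ => ¬ IsSquare (a : ZMod p)), a : ℕ) : ℤ) := by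
    push_cast
    linarith
  exact_mod_cast h7

/-- **Mordell (1961)**: `p ≡ 3 mod 4` prime, `p > 3`: `((p-1)/2)! ≡ (-1)^((h(-p)+1)/2) mod p`. -/
theorem half_factorial_hForm (h : p % 4 = 3) (h3 : 3 < p) :
    ((((p - 1) / 2)! : ℕ) : ZMod p) = (-1) ^ ((BForm.hForm (-p) + 1) / 2) := by
  obtain ⟨K, _, _, h2, hd, hh⟩ := exists_field_neg_prime h
  rw [← hh]
  exact half_factorial h2 (by rw [hd]; simp) h h3

/-- **Dirichlet (1839)**: `p ≡ 1 mod 4` prime: `h(-4p) = 2 Σ_{0 < a < p/4} (a/p)`. -/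
theorem hForm_quarter (h : p % 4 = 1) :
    (BForm.hForm (-(4 * p)) : ℤ) =
      2 * ∑ a ∈ range ((p - 1) / 4), legendreSym p ((a + 1 : ℕ) : ℤ) := by
  have hpi : Prime (p : ℤ) := Nat.prime_iff_prime_int.mp hp.out
  obtain ⟨K, i1, i2, α, h2, hα, h3⟩ := exists_quadratic_field (m := -(p : ℤ)) (hpi.neg.squarefree)
    (by
      have := hp.out.pos
      omega)
  rw [if_neg (by omega)] at h3
  have hneg : discr K < 0 := by
    have := hp.out.pos
    omega
  have hd : discr K = -(4 * p) := by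
    rw [h3]
    ring
  rw [← classNumber_quarter h2 h hd, classNumber_eq_hForm h2 hneg, hd]

end Prime

/-! ### The Gauss sum of the Kronecker symbol -/

/-- **The Gauss sum of the Kronecker symbol** of a fundamental discriminant `D`:
`Σ_{a < |D|} (D/a) e(a/|D|)` is `√D` for `D > 0` and `i √|D|` for `D < 0` (for `|D| > 1`, all `D` of
the form `m ≡ 1 mod 4` or `4m`, `m ≢ 1 mod 4`, `m ≠ 1` squarefree). -/
theorem gauss_sum_kron {m D : ℤ} (hm : Squarefree m) (hm1 : m ≠ 1)
    (hD : D = if m % 4 = 1 then m else 4 * m) :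
    ∑ a ∈ (range D.natAbs).erase 0,
      (kron D a : ℂ) * Complex.exp (2 * Real.pi * Complex.I * a / D.natAbs) =
        if 0 < D then (Real.sqrt D.natAbs : ℂ) else Complex.I * Real.sqrt D.natAbs := by
  obtain ⟨K, _, _, α, h2, -, h3⟩ := exists_quadratic_field hm hm1
  rw [← hD] at h3
  obtain ⟨N, hN, χ, hNd, hp, h1, hsq, -, -, hev, hk⟩ := exists_kronecker_character h2
  rw [h3] at hNd hk
  have hg := gaussSum_quad hp h1 hsq
  have hchi0 : χ ((0 : ℕ) : ZMod N) = 0 := by
    refine MulChar.map_nonunit _ fun h => h1 ?_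
    have h4 : (0 : ZMod N) = 1 := by
      have h5 : IsUnit (0 : ZMod N) := by
        rwa [Nat.cast_zero] at h
      exact (isUnit_zero_iff.mp h5)
    have hsub : Subsingleton (ZMod N) := subsingleton_of_zero_eq_one h4
    ext u
    have : (u : ZMod N) = 1 := Subsingleton.elim _ _
    rw [this, map_one, map_one]
  have hsum : gaussSum χ ZMod.stdAddChar = ∑ a ∈ (range D.natAbs).erase 0,
      (kron D a : ℂ) * Complex.exp (2 * Real.pi * Complex.I * a / D.natAbs) := by
    rw [gaussSum, sum_zmod_eq, ← hNd, ← Finset.add_sum_erase (range N) _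
      (Finset.mem_range.mpr (NeZero.pos N)), hchi0, zero_mul, zero_add]
    refine Finset.sum_congr rfl fun a ha => ?_
    rw [hk a (Finset.ne_of_mem_erase ha)]
    congr 1
    have h6 := ZMod.stdAddChar_coe (N := N) (a : ℤ)
    rw [Int.cast_natCast, Int.cast_natCast] at h6
    exact h6
  rw [← hsum, ← hNd]
  have hD0 : D ≠ 0 := by
    rw [← h3]
    exact discr_ne_zero K
  split_ifs with hpos
  · have hc := nrComplexPlaces_eq_zero_of_discr_pos h2 (by rw [h3]; exact hpos)
    exact hg.1 (hev.mpr hc)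
  · have hc := nrComplexPlaces_ne_zero_of_discr_neg (K := K) (by rw [h3]; omega)
    exact hg.2 (χ.even_or_odd.resolve_left fun he => hc (hev.mp he))

end Fermat.Agent.Cor.Diri
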