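import Fermat.Agent.Corollaries.ZetaK.AbelDisc

/-!
# The quadratic field of a quadratic Dirichlet character

For a Dirichlet character `χ ≠ 1` modulo `N` with `χ² = 1` let `quadF χ ⊂ ℚ(ζ_N)` be the fixed field
of the kernel of `χ`. It is a quadratic field, its characters are `1` and `χ`; if `χ` is primitive,
then `ζ_F(s) = ζ(s) L(s, χ)`, `|d_F| = N`, and the root number of `χ` is `1`.
-/

set_option autoImplicit false

noncomputable section

namespace Fermat.Agent.Cor.Diri

open NumberField DirichletCharacter IsCyclotomicExtension.Rat Fermat.Agent.Cor.Abel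

variable {N : ℕ} [NeZero N]

/-- A primitive character of level `N` is its own primitive character. -/
theorem prim_transport {χ : DirichletCharacter ℂ N} (hp : χ.IsPrimitive) {α : Type*}
    (f : ∀ (m : ℕ) [NeZero m], DirichletCharacter ℂ m → α) :
    f χ.conductor χ.primitiveCharacter = f N χ := by
  have h : ∀ (d : ℕ) [NeZero d] (hd : d ∣ N) (ψ : DirichletCharacter ℂ d),
      changeLevel hd ψ = χ → d = N → f d ψ = f N χ := by
    intro d _ hd ψ h1 h2
    subst h2
    rw [changeLevel_self] at h1
    rw [h1]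
  exact h χ.conductor χ.conductor_dvd_level χ.primitiveCharacter
    (changeLevel_primitiveCharacter χ) hp

theorem level_one_transport {M : ℕ} [NeZero M] (h : M = 1) (χ : DirichletCharacter ℂ M)
    {α : Type*} (f : ∀ (m : ℕ) [NeZero m], DirichletCharacter ℂ m → α) :
    f M χ = f 1 (1 : DirichletCharacter ℂ 1) := by
  subst h
  congr 1
  exact level_one χ

theorem isCyclotomicExtension_field : IsCyclotomicExtension {N} ℚ (CyclotomicField N ℚ) :=
  have : NeZero ((N : ℕ) : ℚ) := ⟨Nat.cast_ne_zero.mpr (NeZero.ne N)⟩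
  CyclotomicField.isCyclotomicExtension N ℚ

attribute [local instance] isCyclotomicExtension_field

theorem sq_one {x : ℂ} (h : x ^ 2 = 1) : x = 1 ∨ x = -1 := by
  rw [sq] at h
  exact mul_self_eq_one_iff.mp h

/-- The composite of `χ` with the cyclotomic character. -/
def theta (χ : DirichletCharacter ℂ N) : Gal(CyclotomicField N ℚ/ℚ) →* ℂˣ :=
  χ.toUnitHom.comp (galEquivZMod N (CyclotomicField N ℚ)).toMonoidHom

theorem theta_apply (χ : DirichletCharacter ℂ N) (σ : Gal(CyclotomicField N ℚ/ℚ)) :
    (theta χ σ : ℂ) = χ (galEquivZMod N (CyclotomicField N ℚ) σ : (ZMod N)ˣ) := rfl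

/-- The field of a Dirichlet character. -/
def quadF (χ : DirichletCharacter ℂ N) : IntermediateField ℚ (CyclotomicField N ℚ) :=
  IntermediateField.fixedField (theta χ).ker

theorem fixingSubgroup_quadF (χ : DirichletCharacter ℂ N) :
    (quadF χ).fixingSubgroup = (theta χ).ker := IntermediateField.fixingSubgroup_fixedField _

theorem mem_chars_quadF {χ ψ : DirichletCharacter ℂ N} :
    ψ ∈ chars N (quadF χ) ↔ ∀ u : (ZMod N)ˣ, χ u = 1 → ψ u = 1 := by
  rw [mem_chars, fixingSubgroup_quadF]
  constructor
  · intro h u hu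
    have h1 := h ((galEquivZMod N (CyclotomicField N ℚ)).symm u) (by
      rw [MonoidHom.mem_ker]
      apply Units.ext
      rw [theta_apply, MulEquiv.apply_symm_apply, hu, Units.val_one])
    rwa [MulEquiv.apply_symm_apply] at h1
  · intro h σ hσ
    apply h
    rw [MonoidHom.mem_ker] at hσ
    rw [← theta_apply, hσ, Units.val_one]

section Quad

variable {χ : DirichletCharacter ℂ N} (hp : χ.IsPrimitive) (h1 : χ ≠ 1) (h2 : χ ^ 2 = 1)

omit [NeZero N] in
include h2 in
theorem apply_eq_one_or (u : (ZMod N)ˣ) : χ u = 1 ∨ χ u = -1 := by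
  have h : χ u ^ 2 = 1 := by
    have := congrArg (fun ψ : DirichletCharacter ℂ N => ψ u) h2
    simp only [MulChar.pow_apply_coe, MulChar.one_apply_coe] at this
    exact this
  exact sq_one h

include h1 h2 in
theorem exists_apply_eq_neg_one : ∃ u : (ZMod N)ˣ, χ u = -1 := by
  by_contra h
  push Not at h
  apply h1
  ext u
  rw [MulChar.one_apply_coe]
  exact (apply_eq_one_or h2 u).resolve_right (h u)

include h1 h2 in
theorem chars_quadF [DecidableEq (DirichletCharacter ℂ N)] : chars N (quadF χ) = {1, χ} := by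
  obtain ⟨u₀, hu₀⟩ := exists_apply_eq_neg_one h1 h2
  ext ψ
  rw [mem_chars_quadF, Finset.mem_insert, Finset.mem_singleton]
  constructor
  · intro h
    have hψ : ψ u₀ = 1 ∨ ψ u₀ = -1 := by
      have h3 := h (u₀ ^ 2) (by rw [Units.val_pow_eq_pow_val, map_pow, hu₀]; norm_num)
      rw [Units.val_pow_eq_pow_val, map_pow] at h3
      exact sq_one h3
    have key : ∀ u : (ZMod N)ˣ, χ u = -1 → ψ u = ψ u₀ := by
      intro u hu
      have h3 := h (u * u₀⁻¹) (by
        have e : (χ ((u * u₀⁻¹ : (ZMod N)ˣ) : ZMod N)) * χ u₀ = χ u := by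
          rw [← map_mul, ← Units.val_mul, inv_mul_cancel_right]
        rw [hu₀, hu] at e
        linear_combination -e)
      have e : (ψ ((u * u₀⁻¹ : (ZMod N)ˣ) : ZMod N)) * ψ u₀ = ψ u := by
        rw [← map_mul, ← Units.val_mul, inv_mul_cancel_right]
      rw [h3, one_mul] at e
      exact e.symm
    rcases hψ with h4 | h4
    · left
      ext u
      rw [MulChar.one_apply_coe]
      rcases apply_eq_one_or h2 u with h5 | h5
      · exact h u h5
      · rw [key u h5, h4]
    · right
      ext u
      rcases apply_eq_one_or h2 u with h5 | h5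
      · rw [h u h5, h5]
      · rw [key u h5, h4, h5]
  · rintro (rfl | rfl)
    · intro u _
      rw [MulChar.one_apply_coe]
    · intro u hu
      exact hu

include h1 h2 in
theorem finrank_quadF : Module.finrank ℚ (quadF χ) = 2 := by
  classical
  rw [← card_chars (n := N) (quadF χ), chars_quadF h1 h2, Finset.card_pair (Ne.symm h1)]

include hp h1 h2 in
/-- **`ζ_F(s) = ζ(s) L(s, χ)`.** -/
theorem zetaK_quadF {s : ℂ} (hs : s ≠ 1) :
    zetaK (quadF χ) s = riemannZeta s * χ.LFunction s := by
  classical
  rw [Abel.zetaK_eq_prod (n := N) (quadF χ) hs, chars_quadF h1 h2, Finset.prod_pair (Ne.symm h1)]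
  congr 1
  · rw [level_one_transport conductor_one (1 : DirichletCharacter ℂ N).primitiveCharacter
      (fun m _ ψ => DirichletCharacter.LFunction ψ s)]
    exact congrFun LFunction_modOne_eq s
  · exact prim_transport hp (fun m _ ψ => DirichletCharacter.LFunction ψ s)

include hp h1 h2 in
/-- The residue of `ζ_F` at `1` is `L(1, χ)`. -/
theorem residue_quadF : (dedekindZeta_residue (quadF χ) : ℂ) = χ.LFunction 1 := by
  classical
  have h3 := Abel.residue_eq_prod (n := N) (quadF χ)
  have h4 : (chars N (quadF χ)).erase 1 = {χ} := by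
    rw [chars_quadF h1 h2]
    ext ψ
    simp only [Finset.mem_erase, Finset.mem_insert, Finset.mem_singleton]
    constructor
    · rintro ⟨h5, h6⟩
      exact h6.resolve_left h5
    · rintro rfl
      exact ⟨h1, Or.inr rfl⟩
  rw [h3, h4, Finset.prod_singleton]
  exact prim_transport hp (fun m _ ψ => DirichletCharacter.LFunction ψ 1)

include hp h1 h2 in
/-- `|d_F| = N`. -/
theorem natAbs_discr_quadF : (discr (quadF χ)).natAbs = N := by
  classical
  rw [natAbs_discr_eq (n := N) (quadF χ), chars_quadF h1 h2, Finset.prod_pair (Ne.symm h1),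
    conductor_one, one_mul]
  exact hp

include hp h1 h2 in
/-- **The root number of a primitive quadratic character is `1`.** -/
theorem rootNumber_quad : χ.rootNumber = 1 := by
  classical
  have h3 := prod_rootNumber_eq_one (n := N) (quadF χ)
  rw [chars_quadF h1 h2, Finset.prod_pair (Ne.symm h1)] at h3
  have h4 : (1 : DirichletCharacter ℂ N).primitiveCharacter.rootNumber = 1 :=
    (level_one_transport conductor_one (1 : DirichletCharacter ℂ N).primitiveCharacter
      (fun m _ ψ => DirichletCharacter.rootNumber ψ)).trans (rootNumber_modOne _)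
  have h5 : χ.primitiveCharacter.rootNumber = χ.rootNumber :=
    prim_transport hp (fun m _ ψ => DirichletCharacter.rootNumber ψ)
  rw [h4, h5, one_mul] at h3
  exact h3

include hp h1 h2 in
/-- **Gauss**: `τ(χ) = √N` for `χ(-1) = 1`, `τ(χ) = i √N` for `χ(-1) = -1`, for every primitive
quadratic character `χ` modulo `N`. -/
theorem gaussSum_quad : (χ.Even → gaussSum χ ZMod.stdAddChar = (Real.sqrt N : ℂ)) ∧
    (χ.Odd → gaussSum χ ZMod.stdAddChar = Complex.I * (Real.sqrt N : ℂ)) := by
  classical
  have hN : (N : ℂ) ≠ 0 := Nat.cast_ne_zero.mpr (NeZero.ne N)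
  have hs : (N : ℂ) ^ (1 / 2 : ℂ) = (Real.sqrt N : ℂ) := by
    rw [Real.sqrt_eq_rpow, Complex.ofReal_cpow (Nat.cast_nonneg N)]
    norm_num
  have hs0 : (N : ℂ) ^ (1 / 2 : ℂ) ≠ 0 := by
    rw [Complex.cpow_ne_zero_iff]
    exact Or.inl hN
  have h3 := rootNumber_quad hp h1 h2
  rw [DirichletCharacter.rootNumber] at h3
  constructor
  · intro he
    rw [if_pos he, pow_zero, div_one, div_eq_one_iff_eq hs0, hs] at h3
    exact h3
  · intro ho
    rw [if_neg ho.not_even, pow_one, div_div,
      div_eq_one_iff_eq (mul_ne_zero Complex.I_ne_zero hs0), hs] at h3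
    exact h3

end Quad

end Fermat.Agent.Cor.Diri
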