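import Fermat.Agent.Corollaries.ZetaK.AbelField

/-!
# The ring of integers of a quadratic field

`K` quadratic with discriminant `d`: there is `δ ∈ 𝓞_K` with `δ² = d` and `2 𝓞_K ⊆ ℤ + ℤ δ`;
`d ≡ 0, 1 mod 4`; an odd prime `p` has a prime of degree one above it if and only if `d` is a square
modulo `p`.
-/

set_option autoImplicit false

open Finset NumberField Ideal

universe u

namespace Fermat.Agent.Cor.Diri

variable {K : Type u} [Field K] [NumberField K]

/-- The nontrivial automorphism of a quadratic field. -/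
theorem exists_conj (h2 : Module.finrank ℚ K = 2) :
    ∃ s : 𝓞 K ≃+* 𝓞 K, ∀ x : 𝓞 K, ((Algebra.trace ℤ (𝓞 K) x : ℤ) : 𝓞 K) = x + s x := by
  classical
  have hab := Abel.isAbelianGalois_of_finrank_two K h2
  have hc : Nat.card Gal(K/ℚ) = 2 := (IsGalois.card_aut_eq_finrank ℚ K).trans h2
  obtain ⟨σ, hσ1, hσ⟩ := (Nat.card_eq_two_iff' (1 : Gal(K/ℚ))).mp hc
  refine ⟨RingOfIntegers.mapRingEquiv σ.toRingEquiv, fun x => ?_⟩
  have huniv : (Finset.univ : Finset Gal(K/ℚ)) = {1, σ} := by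
    ext τ
    simp only [Finset.mem_univ, Finset.mem_insert, Finset.mem_singleton, true_iff]
    by_cases h : τ = 1
    · exact Or.inl h
    · exact Or.inr (hσ τ h)
  apply RingOfIntegers.coe_injective
  have h3 := trace_eq_sum_automorphisms (K := ℚ) (L := K) (x : K)
  rw [huniv, Finset.sum_pair (Ne.symm hσ1), ← Algebra.coe_trace_int] at h3
  simpa using h3

/-- **The ring of integers of a quadratic field.** -/
theorem exists_delta (h2 : Module.finrank ℚ K = 2) :
    ∃ δ : 𝓞 K, δ ^ 2 = ((discr K : ℤ) : 𝓞 K) ∧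
      (∀ α : 𝓞 K, ∃ a b : ℤ, 2 * α = (a : 𝓞 K) + b * δ) ∧
      ∃ (t : ℤ) (β : 𝓞 K), δ = (t : 𝓞 K) - 2 * β := by
  obtain ⟨s, hs⟩ := exists_conj h2
  let b := Module.finBasisOfFinrankEq ℤ (𝓞 K) ((RingOfIntegers.rank K).trans h2)
  have hss : ∀ x : 𝓞 K, s (s x) = x := by
    intro x
    have h3 := hs (s x)
    have h4 : ((Algebra.trace ℤ (𝓞 K) x : ℤ) : 𝓞 K) = s x + s (s x) := by
      have h5 := congrArg s (hs x)
      rwa [map_intCast, map_add] at h5
    have h6 := hs x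
    linear_combination h6 - h4
  have hd : ((discr K : ℤ) : 𝓞 K) = (b 0 * s (b 1) - s (b 0) * b 1) ^ 2 := by
    rw [← discr_eq_discr K b, Algebra.discr_def, Matrix.det_fin_two]
    simp only [Algebra.traceMatrix_apply, Algebra.traceForm_apply]
    push_cast
    rw [hs, hs, hs, hs, map_mul, map_mul, map_mul, map_mul]
    ring
  obtain ⟨m, n, h1⟩ : ∃ m n : ℤ, (m : 𝓞 K) * b 0 + (n : 𝓞 K) * b 1 = 1 := by
    refine ⟨b.repr 1 0, b.repr 1 1, ?_⟩
    have h1 := b.sum_repr (1 : 𝓞 K)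
    rwa [Fin.sum_univ_two, zsmul_eq_mul, zsmul_eq_mul] at h1
  have h1' : (m : 𝓞 K) * s (b 0) + (n : 𝓞 K) * s (b 1) = 1 := by
    have h3 := congrArg s h1
    rwa [map_add, map_mul, map_mul, map_intCast, map_intCast, map_one s] at h3
  refine ⟨b 0 * s (b 1) - s (b 0) * b 1, hd.symm, fun α => ?_,
    Algebra.trace ℤ (𝓞 K) (b 0 * s (b 1)), s (b 0) * b 1, ?_⟩
  · obtain ⟨x, y, hα⟩ : ∃ x y : ℤ, (x : 𝓞 K) * b 0 + (y : 𝓞 K) * b 1 = α := by
      refine ⟨b.repr α 0, b.repr α 1, ?_⟩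
      have h1 := b.sum_repr α
      rwa [Fin.sum_univ_two, zsmul_eq_mul, zsmul_eq_mul] at h1
    have hα' : (x : 𝓞 K) * s (b 0) + (y : 𝓞 K) * s (b 1) = s α := by
      have h3 := congrArg s hα
      rwa [map_add, map_mul, map_mul, map_intCast, map_intCast] at h3
    refine ⟨Algebra.trace ℤ (𝓞 K) α, x * n - y * m, ?_⟩
    rw [hs]
    push_cast
    have e0 : b 0 - s (b 0) = (n : 𝓞 K) * (b 0 * s (b 1) - s (b 0) * b 1) := by
      linear_combination (s (b 0)) * h1 - (b 0) * h1'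
    have e1 : b 1 - s (b 1) = -(m : 𝓞 K) * (b 0 * s (b 1) - s (b 0) * b 1) := by
      linear_combination (s (b 1)) * h1 - (b 1) * h1'
    linear_combination (-1 : 𝓞 K) * hα + hα' + (x : 𝓞 K) * e0 + (y : 𝓞 K) * e1
  · rw [hs, map_mul, hss]
    ring

/-- **Stickelberger's congruence** for quadratic fields: `d ≡ 0, 1 mod 4`. -/
theorem discr_mod_four (h2 : Module.finrank ℚ K = 2) : discr K % 4 = 0 ∨ discr K % 4 = 1 := by
  obtain ⟨δ, hδ, -, t, β, ht⟩ := exists_delta h2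
  have h3 : ((discr K - t ^ 2 : ℤ) : 𝓞 K) = ((4 : ℤ) : 𝓞 K) * (β ^ 2 - t * β) := by
    push_cast
    rw [← hδ, ht]
    ring
  have h4 : (4 : ℤ) ∣ discr K - t ^ 2 := by
    have h5 : IsIntegral ℤ ((((discr K - t ^ 2 : ℤ) : ℚ) / 4 : ℚ)) := by
      have h6 : IsIntegral ℤ (algebraMap ℚ K (((discr K - t ^ 2 : ℤ) : ℚ) / 4 : ℚ)) := by
        have h7 : algebraMap ℚ K (((discr K - t ^ 2 : ℤ) : ℚ) / 4 : ℚ) =
            ((β ^ 2 - t * β : 𝓞 K) : K) := by
          have h8 := congrArg (fun z : 𝓞 K => (z : K)) h3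
          simp only [map_intCast, map_mul] at h8
          rw [map_div₀, map_intCast, h8, map_ofNat]
          push_cast
          field_simp
        rw [h7]
        exact RingOfIntegers.isIntegral_coe _
      exact (isIntegral_algebraMap_iff (algebraMap ℚ K).injective).mp h6
    obtain ⟨c, hc⟩ := IsIntegrallyClosed.isIntegral_iff.mp h5
    refine ⟨c, ?_⟩
    have h6 : ((discr K - t ^ 2 : ℤ) : ℚ) = ((4 * c : ℤ) : ℚ) := by
      push_cast
      push_cast at hc
      rw [eq_div_iff (by norm_num)] at hc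
      simp only [algebraMap_int_eq, eq_intCast] at hc
      linarith
    exact_mod_cast h6
  obtain ⟨c, hc⟩ := h4
  have h5 : t ^ 2 % 4 = 0 ∨ t ^ 2 % 4 = 1 := by
    rcases Int.emod_two_eq_zero_or_one t with h | h
    · obtain ⟨k, rfl⟩ : ∃ k, t = 2 * k := ⟨t / 2, by omega⟩
      left
      ring_nf
      omega
    · obtain ⟨k, rfl⟩ : ∃ k, t = 2 * k + 1 := ⟨t / 2, by omega⟩
      right
      ring_nf
      omega
  omega

section Prime

variable {p : ℕ} (P : Ideal (𝓞 K)) [P.IsPrime] [P.LiesOver (span {(p : ℤ)})]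

omit [NumberField K] [P.IsPrime] in
theorem intCast_mem_iff (n : ℤ) : (n : 𝓞 K) ∈ P ↔ (p : ℤ) ∣ n := by
  rw [← Ideal.mem_span_singleton, Ideal.mem_of_liesOver P (span {(p : ℤ)}) n]
  simp

/-- If `d` is a square modulo `p` odd, every integer of `K` is congruent to a rational integer modulo
a prime above `p`. -/
theorem exists_int_of_isSquare (h2 : Module.finrank ℚ K = 2) (hp2 : Odd p) {x : ℤ}
    (hx : (p : ℤ) ∣ discr K - x ^ 2) (α : 𝓞 K) : ∃ n : ℤ, α - n ∈ P := by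
  obtain ⟨δ, hδ, hα, -⟩ := exists_delta h2
  obtain ⟨a, b, hab⟩ := hα α
  have h3 : (δ - x) * (δ + x) ∈ P := by
    have h4 := (intCast_mem_iff (K := K) (p := p) P _).mpr hx
    have h5 : (δ - x) * (δ + x) = ((discr K - x ^ 2 : ℤ) : 𝓞 K) := by
      push_cast
      rw [← hδ]
      ring
    rwa [h5]
  have hpP : ((p : ℤ) : 𝓞 K) ∈ P := (intCast_mem_iff (K := K) (p := p) P _).mpr dvd_rfl
  obtain ⟨k, hk⟩ := hp2
  have key : ∀ y : ℤ, δ - y ∈ P → ∃ n : ℤ, α - n ∈ P := by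
    intro y hy
    refine ⟨(a + b * y) * (-k), ?_⟩
    have h4 : α - (((a + b * y) * (-k) : ℤ) : 𝓞 K) =
        ((p : ℤ) : 𝓞 K) * α - (k : 𝓞 K) * ((b : 𝓞 K) * (δ - y)) := by
      rw [hk]
      push_cast
      linear_combination (-(k : 𝓞 K)) * hab
    rw [h4]
    exact P.sub_mem (P.mul_mem_right _ hpP) (P.mul_mem_left _ (P.mul_mem_left _ hy))
  rcases (inferInstance : P.IsPrime).mem_or_mem h3 with h | h
  · exact key x h
  · refine key (-x) ?_
    rwa [Int.cast_neg, sub_neg_eq_add]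

/-- `d` a square modulo `p` (odd): every prime above `p` has degree one. -/
theorem inertiaDeg_le_one_of_isSquare (h2 : Module.finrank ℚ K = 2) (hp : p.Prime) (hp2 : Odd p)
    {x : ℤ} (hx : (p : ℤ) ∣ discr K - x ^ 2) : P.inertiaDeg ℤ ≤ 1 := by
  have hcard : absNorm P ≤ p := by
    have hsurj : Function.Surjective (fun i : Fin p => Ideal.Quotient.mk P ((i : ℕ) : 𝓞 K)) := by
      intro y
      obtain ⟨α, rfl⟩ := Ideal.Quotient.mk_surjective y
      obtain ⟨n, hn⟩ := exists_int_of_isSquare P h2 hp2 hx α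
      have hp0 : (0 : ℤ) < p := by exact_mod_cast hp.pos
      have h3 : 0 ≤ n % p := Int.emod_nonneg _ hp0.ne'
      have h4 : n % p < p := Int.emod_lt_of_pos _ hp0
      refine ⟨⟨(n % p).toNat, by omega⟩, ?_⟩
      rw [Ideal.Quotient.eq]
      have h5 : (((n % p).toNat : ℕ) : 𝓞 K) = ((n % p : ℤ) : 𝓞 K) := by
        have : (((n % p).toNat : ℤ) : 𝓞 K) = ((n % p : ℤ) : 𝓞 K) := by rw [Int.toNat_of_nonneg h3]
        rw [← this, Int.cast_natCast]
      have h6 : ((n % p - n : ℤ) : 𝓞 K) ∈ P := by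
        rw [intCast_mem_iff (p := p)]
        exact ⟨-(n / p), by have := Int.emod_add_mul_ediv n p; linarith⟩
      have h7 : (((⟨(n % p).toNat, by omega⟩ : Fin p) : ℕ) : 𝓞 K) - α =
          ((n % p - n : ℤ) : 𝓞 K) - (α - n) := by
        simp only
        rw [h5]
        push_cast
        ring
      rw [h7]
      exact P.sub_mem h6 hn
    rw [absNorm_apply, Submodule.cardQuot_apply]
    have h8 := Nat.card_le_card_of_surjective _ hsurj
    rwa [Nat.card_fin] at h8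
  rw [← Ideal.pow_inertiaDeg p] at hcard
  by_contra h
  push Not at h
  have h3 : p ^ 2 ≤ p ^ P.inertiaDeg ℤ := Nat.pow_le_pow_right hp.pos h
  have h4 := hp.two_le
  nlinarith

/-- a prime of degree one above `p`: `d` is a square modulo `p`. -/
theorem exists_sq_of_inertiaDeg_eq_one (h2 : Module.finrank ℚ K = 2) (hp : p.Prime)
    (hf : P.inertiaDeg ℤ = 1) : ∃ x : ℤ, (p : ℤ) ∣ discr K - x ^ 2 := by
  obtain ⟨δ, hδ, -⟩ := exists_delta h2
  have hcard : Nat.card (𝓞 K ⧸ P) = p := by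
    have h3 := Ideal.pow_inertiaDeg p P
    rw [hf, pow_one, absNorm_apply, Submodule.cardQuot_apply] at h3
    exact h3.symm
  have hinj : Function.Injective (fun i : Fin p => Ideal.Quotient.mk P ((i : ℕ) : 𝓞 K)) := by
    intro i j hij
    simp only at hij
    rw [Ideal.Quotient.eq] at hij
    have h3 : (((i : ℕ) - (j : ℕ) : ℤ) : 𝓞 K) ∈ P := by
      push_cast
      exact hij
    rw [intCast_mem_iff (p := p)] at h3
    obtain ⟨c, hc⟩ := h3
    have hi := i.isLt
    have hj := j.isLt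
    have hc0 : c = 0 := by
      by_contra hne
      rcases lt_or_gt_of_ne hne with h | h
      · nlinarith
      · nlinarith
    rw [hc0] at hc
    ext
    omega
  have hfin : Finite (𝓞 K ⧸ P) := Nat.finite_of_card_ne_zero (by rw [hcard]; exact hp.ne_zero)
  have hbij := (Nat.bijective_iff_injective_and_card _).mpr ⟨hinj, by rw [Nat.card_fin, hcard]⟩
  obtain ⟨i, hi⟩ := hbij.2 (Ideal.Quotient.mk P δ)
  simp only at hi
  rw [Ideal.Quotient.eq] at hi
  refine ⟨(i : ℕ), ?_⟩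
  rw [← intCast_mem_iff (K := K) P]
  have h3 : ((discr K - ((i : ℕ) : ℤ) ^ 2 : ℤ) : 𝓞 K) =
      -((((i : ℕ) : 𝓞 K) - δ) * (((i : ℕ) : 𝓞 K) + δ)) := by
    push_cast
    rw [← hδ]
    ring
  rw [h3]
  exact P.neg_mem (P.mul_mem_right _ hi)

end Prime

end Fermat.Agent.Cor.Diri
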