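import Mathlib

/-!
# Roots of unity in quadratic fields

A quadratic field `K` with `|d_K| > 4` has only the roots of unity `± 1`.
-/

set_option autoImplicit false

namespace Fermat.Agent.Cor.Diri

open NumberField NumberField.Units

theorem totient_le_two {n : ℕ} (hn : n ≠ 0) (h : n.totient ≤ 2) :
    n = 1 ∨ n = 2 ∨ n = 3 ∨ n = 4 ∨ n = 6 := by
  have h1 : n ∣ 12 := by
    rw [Nat.dvd_iff_prime_pow_dvd_dvd]
    intro p k hp hk
    rcases Nat.eq_zero_or_pos k with rfl | hk0
    · simp
    have h2 : (p ^ k).totient ≤ 2 :=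
      (Nat.le_of_dvd (Nat.totient_pos.mpr (Nat.pos_of_ne_zero hn))
        (Nat.totient_dvd_of_dvd hk)).trans h
    rw [Nat.totient_prime_pow hp hk0] at h2
    have hpos : 0 < p ^ (k - 1) := pow_pos hp.pos _
    have h3 : p - 1 ≤ 2 := le_trans (Nat.le_mul_of_pos_left _ hpos) h2
    have h4 : p ≤ 3 := by omega
    have h5 := hp.two_le
    have h6 : p = 2 ∨ p = 3 := by omega
    rcases h6 with rfl | rfl
    · have h7 : 2 ^ (k - 1) ≤ 2 ^ 1 := by omega
      have h8 : k - 1 ≤ 1 := (Nat.pow_le_pow_iff_right (by norm_num)).mp h7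
      exact (pow_dvd_pow 2 (show k ≤ 2 by omega)).trans (by norm_num)
    · have h7 : 3 ^ (k - 1) ≤ 3 ^ 0 := by omega
      have h8 : k - 1 ≤ 0 := (Nat.pow_le_pow_iff_right (by norm_num)).mp h7
      exact (pow_dvd_pow 3 (show k ≤ 1 by omega)).trans (by norm_num)
  have h2 : n ∈ Nat.divisors 12 := Nat.mem_divisors.mpr ⟨h1, by norm_num⟩
  have h3 : Nat.divisors 12 = {1, 2, 3, 4, 6, 12} := by decide
  rw [h3] at h2
  simp only [Finset.mem_insert, Finset.mem_singleton] at h2
  rcases h2 with rfl | rfl | rfl | rfl | rfl | rfl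
  · simp
  · simp
  · simp
  · simp
  · simp
  · exfalso
    have : Nat.totient 12 = 4 := by decide
    omega

variable (K : Type*) [Field K] [NumberField K]

theorem exists_primitiveRoot_torsion : ∃ ζ : K, IsPrimitiveRoot ζ (torsionOrder K) := by
  obtain ⟨μ, hμ⟩ : ∃ μ : torsion K, orderOf μ = torsionOrder K :=
    IsCyclic.exists_ofOrder_eq_natCard
  rw [← IsPrimitiveRoot.iff_orderOf, ← IsPrimitiveRoot.coe_submonoidClass_iff,
    ← IsPrimitiveRoot.coe_units_iff] at hμ
  exact ⟨_, hμ.map_of_injective (FaithfulSMul.algebraMap_injective (𝓞 K) K)⟩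

variable {K}

/-- A quadratic field with a primitive `n`-th root of unity, `n > 2`, is cyclotomic. -/
theorem isCyclotomicExtension_of_root (h2 : Module.finrank ℚ K = 2) {n : ℕ} [NeZero n]
    (hn : n.totient = 2) {ζ : K} (hζ : IsPrimitiveRoot ζ n) : IsCyclotomicExtension {n} ℚ K := by
  have hint : IsIntegral ℚ ζ := Algebra.IsIntegral.isIntegral ζ
  have h3 : Module.finrank ℚ (IntermediateField.adjoin ℚ {ζ}) = Module.finrank ℚ K := by
    rw [IntermediateField.adjoin.finrank hint, ← Polynomial.cyclotomic_eq_minpoly_rat hζ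
      (NeZero.pos n), Polynomial.natDegree_cyclotomic, hn, h2]
  have h4 : IntermediateField.adjoin ℚ {ζ} = ⊤ :=
    IntermediateField.eq_of_le_of_finrank_eq le_top (by rw [h3, IntermediateField.finrank_top'])
  have h5 : IsCyclotomicExtension {n} ℚ (IntermediateField.adjoin ℚ {ζ}) :=
    hζ.intermediateField_adjoin_isCyclotomicExtension ℚ
  exact IsCyclotomicExtension.equiv {n} ℚ (IntermediateField.adjoin ℚ {ζ})
    ((IntermediateField.equivOfEq h4).trans IntermediateField.topEquiv)

/-- **Quadratic fields with `|d_K| > 4` have only the roots of unity `± 1`.** -/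
theorem torsionOrder_eq_two (h2 : Module.finrank ℚ K = 2) (hd : 4 < (discr K).natAbs) :
    torsionOrder K = 2 := by
  obtain ⟨ζ, hζ⟩ := exists_primitiveRoot_torsion K
  have h3 : (torsionOrder K).totient ≤ 2 := by
    have h4 := minpoly.natDegree_le (A := ℚ) ζ
    rwa [← Polynomial.cyclotomic_eq_minpoly_rat hζ (torsionOrder_pos K),
      Polynomial.natDegree_cyclotomic, h2] at h4
  have h5 := even_torsionOrder K
  rcases totient_le_two (torsionOrder_ne_zero K) h3 with h | h | h | h | h
  · rw [h] at h5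
    exact absurd h5 (by decide)
  · exact h
  · rw [h] at h5
    exact absurd h5 (by decide)
  · exfalso
    rw [h] at hζ
    have h6 := isCyclotomicExtension_of_root h2 (n := 4) (by decide) hζ
    have h7 := IsCyclotomicExtension.Rat.natAbs_discr 4 K
    have h8 : 4 ^ Nat.totient 4 / ∏ p ∈ (4 : ℕ).primeFactors, p ^ (Nat.totient 4 / (p - 1)) = 4 := by
      have : (4 : ℕ).primeFactors = {2} := by
        rw [show (4 : ℕ) = 2 ^ 2 by norm_num, Nat.primeFactors_prime_pow two_ne_zero Nat.prime_two]
      rw [this, Finset.prod_singleton, show Nat.totient 4 = 2 by decide]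
      norm_num
    rw [h8] at h7
    omega
  · exfalso
    rw [h] at hζ
    have h6 := isCyclotomicExtension_of_root h2 (n := 6) (by decide) hζ
    have h7 := IsCyclotomicExtension.Rat.natAbs_discr 6 K
    have h8 : 6 ^ Nat.totient 6 / ∏ p ∈ (6 : ℕ).primeFactors, p ^ (Nat.totient 6 / (p - 1)) = 3 := by
      have : (6 : ℕ).primeFactors = {2, 3} := by
        rw [show (6 : ℕ) = 2 * 3 by norm_num, Nat.primeFactors_mul two_ne_zero three_ne_zero,
          Nat.prime_two.primeFactors, Nat.prime_three.primeFactors]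
        rfl
      rw [this, Finset.prod_pair (by norm_num), show Nat.totient 6 = 2 by decide]
      norm_num
    rw [h8] at h7
    omega

end Fermat.Agent.Cor.Diri
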