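import Fermat.Agent.Corollaries.Diri.Legendre
import Fermat.Agent.Corollaries.Diri.Torsion

/-!
# Dirichlet's class number formula in finite terms, real quadratic fields

* `LFunction_one_even`: `L(1, χ) = -(τ(χ)/N) Σ_{a mod N} χ⁻¹(a) log |1 - e^{2πia/N}|` for a primitive
  even character `χ ≠ 1` modulo `N`;
* `class_number_formula_real`: for an even primitive quadratic character `χ` modulo `N` and its
  quadratic field `F`, `h R = -(1/2) Σ_{0 < a < N} χ(a) log (sin (π a / N))` (Dirichlet 1839);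
* `exp_class_number_mul_regulator`: for a prime `p ≡ 1 mod 4`, `exp (h R)` is the product of the
  `sin (π n / p)`, `n` the non-residues in `(0, p/2)`, divided by the same product over the
  residues.
-/

set_option autoImplicit false

noncomputable section

namespace Fermat.Agent.Cor.Diri

open NumberField NumberField.InfinitePlace NumberField.Units DirichletCharacter Finset

section One

variable {N : ℕ} [NeZero N] {χ : DirichletCharacter ℂ N}

theorem stdAddChar_neg_eq_conj (a : ZMod N) :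
    (ZMod.stdAddChar (-a) : ℂ) = (starRingEnd ℂ) (ZMod.stdAddChar a) := by
  have h1 : (ZMod.stdAddChar (-a) : ℂ) * ZMod.stdAddChar a = 1 := by
    rw [← AddChar.map_add_eq_mul, neg_add_cancel, AddChar.map_zero_eq_one]
  have h2 : (starRingEnd ℂ) (ZMod.stdAddChar a) * ZMod.stdAddChar a = 1 := by
    rw [mul_comm, Complex.mul_conj, Complex.normSq_eq_norm_sq, stdAddChar_eq_exp,
      norm_exp_two_pi]
    norm_num
  have h0 : (ZMod.stdAddChar a : ℂ) ≠ 0 := by
    intro h
    rw [h, mul_zero] at h1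
    exact zero_ne_one h1
  exact mul_right_cancel₀ h0 (h1.trans h2.symm)

theorem norm_one_sub_stdAddChar_neg (a : ZMod N) :
    ‖(1 : ℂ) - ZMod.stdAddChar (-a)‖ = ‖(1 : ℂ) - ZMod.stdAddChar a‖ := by
  rw [stdAddChar_neg_eq_conj, ← Complex.norm_conj (1 - _), map_sub, map_one, Complex.conj_conj]

theorem log_add_log_conj (w : ℂ) (hw : w.arg ≠ Real.pi) :
    Complex.log w + Complex.log ((starRingEnd ℂ) w) = 2 * (Real.log ‖w‖ : ℂ) := by
  rw [Complex.log_conj _ hw, Complex.add_conj, Complex.log_re]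
  push_cast
  ring

theorem arg_one_sub_stdAddChar_ne (a : ZMod N) :
    ((1 : ℂ) - ZMod.stdAddChar a).arg ≠ Real.pi := by
  by_cases ha : a = 0
  · subst ha
    rw [AddChar.map_zero_eq_one, sub_self, Complex.arg_zero]
    exact Real.pi_ne_zero.symm
  · have hz : ‖(ZMod.stdAddChar a : ℂ)‖ = 1 := by
      rw [stdAddChar_eq_exp, norm_exp_two_pi]
    have h1 := one_sub_mem_slitPlane hz (stdAddChar_ne_one ha) (le_refl 0)
    rw [neg_zero, Real.exp_zero, Complex.ofReal_one, mul_one] at h1
    exact (Complex.mem_slitPlane_iff_arg.mp h1).1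

/-- **`L(1, χ)` for an even primitive character.** -/
theorem LFunction_one_even (hp : χ.IsPrimitive) (h1 : χ ≠ 1) (he : χ.Even) :
    χ.LFunction 1 = -(gaussSum χ ZMod.stdAddChar / N) *
      ∑ a : ZMod N, χ⁻¹ a * (Real.log ‖(1 : ℂ) - ZMod.stdAddChar a‖ : ℂ) := by
  rw [LFunction_one hp h1]
  congr 1
  have hinv : ∀ a : ZMod N, χ⁻¹ (-a) = χ⁻¹ a := fun a => by
    rw [← neg_one_mul, map_mul]
    have : χ⁻¹ (-1) = 1 := by rw [MulChar.inv_apply_eq_inv', he, inv_one]
    rw [this, one_mul]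
  have e1 : ∑ a : ZMod N, χ⁻¹ a * Complex.log (1 - ZMod.stdAddChar (-a)) =
      ∑ a : ZMod N, χ⁻¹ a * Complex.log (1 - ZMod.stdAddChar a) := by
    rw [← Equiv.sum_comp (Equiv.neg (ZMod N))]
    refine Finset.sum_congr rfl fun a _ => ?_
    rw [Equiv.neg_apply, neg_neg, hinv]
  have e2 : ∀ a : ZMod N, χ⁻¹ a * Complex.log (1 - ZMod.stdAddChar a) +
      χ⁻¹ a * Complex.log (1 - ZMod.stdAddChar (-a)) =
      2 * (χ⁻¹ a * (Real.log ‖(1 : ℂ) - ZMod.stdAddChar a‖ : ℂ)) := by
    intro a
    have h3 := log_add_log_conj (1 - ZMod.stdAddChar a) (arg_one_sub_stdAddChar_ne a)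
    rw [map_sub, map_one, ← stdAddChar_neg_eq_conj] at h3
    rw [← mul_add, h3]
    ring
  have e3 := Finset.sum_congr (s₁ := (Finset.univ : Finset (ZMod N))) rfl fun a _ => e2 a
  rw [Finset.sum_add_distrib, ← e1, ← Finset.mul_sum] at e3
  linear_combination e3 / 2

end One

section Sine

theorem norm_one_sub_exp {x : ℝ} (h0 : 0 ≤ x) (h1 : x ≤ Real.pi) :
    ‖(1 : ℂ) - Complex.exp ((2 * x : ℝ) * Complex.I)‖ = 2 * Real.sin x := by
  have h2 : (1 : ℂ) - Complex.exp ((2 * x : ℝ) * Complex.I) =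
      Complex.exp (x * Complex.I) * ((-2 * Real.sin x : ℝ) * Complex.I) := by
    have e1 : Complex.exp ((2 * x : ℝ) * Complex.I) =
        Complex.exp (x * Complex.I) * Complex.exp (x * Complex.I) := by
      rw [← Complex.exp_add]
      congr 1
      push_cast
      ring
    rw [e1, Complex.exp_mul_I, Complex.ofReal_mul, ← Complex.ofReal_cos, ← Complex.ofReal_sin]
    push_cast
    have h3 : (Complex.sin x) ^ 2 + (Complex.cos x) ^ 2 = 1 := Complex.sin_sq_add_cos_sq x
    have h4 : Complex.I ^ 2 = -1 := Complex.I_sq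
    linear_combination (-1 : ℂ) * h3 + (Complex.sin x ^ 2) * h4
  rw [h2, norm_mul, Complex.norm_exp_ofReal_mul_I, one_mul, norm_mul, Complex.norm_I, mul_one,
    Complex.norm_real, Real.norm_eq_abs, neg_mul, abs_neg, abs_of_nonneg]
  exact mul_nonneg (by norm_num) (Real.sin_nonneg_of_nonneg_of_le_pi h0 h1)

theorem norm_one_sub_stdAddChar {N : ℕ} [NeZero N] {a : ℕ} (ha : a < N) :
    ‖(1 : ℂ) - ZMod.stdAddChar (a : ZMod N)‖ = 2 * Real.sin (Real.pi * a / N) := by
  have hN : (0 : ℝ) < N := Nat.cast_pos.mpr (NeZero.pos N)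
  have h := norm_one_sub_exp (x := Real.pi * a / N) (by positivity) (by
    rw [div_le_iff₀ hN]
    exact mul_le_mul_of_nonneg_left (by exact_mod_cast ha.le) Real.pi_pos.le)
  rw [← h]
  congr 2
  have h2 := ZMod.stdAddChar_coe (N := N) (a : ℤ)
  rw [Int.cast_natCast] at h2
  rw [h2]
  congr 1
  push_cast
  ring

end Sine

section Torsion

theorem torsionOrder_of_real {K : Type*} [Field K] [NumberField K] (h : nrRealPlaces K ≠ 0) :
    torsionOrder K = 2 := by
  classical
  obtain ⟨ζ, hζ⟩ := exists_primitiveRoot_torsion K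
  obtain ⟨⟨w, hw⟩⟩ : Nonempty {w : InfinitePlace K // w.IsReal} := by
    rw [← Fintype.card_pos_iff]
    exact Nat.pos_of_ne_zero h
  let φ : K →+* ℝ := embedding_of_isReal hw
  have h1 : IsPrimitiveRoot (φ ζ) (torsionOrder K) := hζ.map_of_injective φ.injective
  have h2 : |φ ζ| = 1 := by
    have h3 : |φ ζ| ^ torsionOrder K = 1 := by rw [← abs_pow, h1.pow_eq_one, abs_one]
    exact (pow_eq_one_iff_of_nonneg (abs_nonneg _) (torsionOrder_ne_zero K)).mp h3
  have h3 : φ ζ ^ 2 = 1 := by rw [← sq_abs, h2, one_pow]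
  have h4 := h1.dvd_of_pow_eq_one 2 h3
  have h5 := even_torsionOrder K
  have h6 := torsionOrder_pos K
  have h7 := Nat.le_of_dvd two_pos h4
  obtain ⟨c, hc⟩ := h5
  omega

end Torsion

section Real

attribute [local instance] isCyclotomicExtension_field

variable {N : ℕ} [NeZero N] {χ : DirichletCharacter ℂ N} (hp : χ.IsPrimitive) (h1 : χ ≠ 1)
  (h2 : χ ^ 2 = 1)

include h2 in
omit [NeZero N] in
theorem inv_eq_self : χ⁻¹ = χ := by
  rw [sq] at h2
  exact (eq_inv_of_mul_eq_one_left h2).symm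

include h2 in
theorem apply_eq_ofReal (a : ZMod N) : χ a = ((χ a).re : ℂ) := by
  by_cases ha : IsUnit a
  · obtain ⟨u, rfl⟩ := ha
    rcases apply_eq_one_or h2 u with h | h <;> rw [h] <;> norm_num
  · rw [MulChar.map_nonunit _ ha]
    norm_num

include hp h1 h2 in
/-- **Dirichlet's class number formula, real quadratic fields**:
`h R = -(1/2) Σ_{0 ≤ a < N} χ(a) log (sin (π a / N))`. -/
theorem class_number_formula_real (he : χ.Even) :
    (classNumber (quadF χ) : ℝ) * regulator (quadF χ) =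
      -(1 / 2) * ∑ a ∈ range N, (χ (a : ZMod N)).re * Real.log (Real.sin (Real.pi * a / N)) := by
  classical
  have hN : (0 : ℝ) < N := Nat.cast_pos.mpr (NeZero.pos N)
  have hsN : 0 < Real.sqrt N := Real.sqrt_pos.mpr hN
  have hr2 := nrComplexPlaces_of_even h1 h2 he
  have hr1 : nrRealPlaces (quadF χ) = 2 := by
    have := nrRealPlaces_add h1 h2
    omega
  have hw : torsionOrder (quadF χ) = 2 := torsionOrder_of_real (by rw [hr1]; norm_num)
  have hd : Real.sqrt |(discr (quadF χ) : ℝ)| = Real.sqrt N := by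
    congr 1
    have h3 := natAbs_discr_quadF hp h1 h2
    rw [← Int.cast_abs, Int.abs_eq_natAbs, h3]
    rfl
  have hres := residue_quadF hp h1 h2
  rw [LFunction_one_even hp h1 he, (gaussSum_quad hp h1 h2).1 he, inv_eq_self h2] at hres
  have hsum : ∑ a : ZMod N, χ a * (Real.log ‖(1 : ℂ) - ZMod.stdAddChar a‖ : ℂ) =
      ((∑ a ∈ range N, (χ (a : ZMod N)).re * Real.log (Real.sin (Real.pi * a / N)) : ℝ) : ℂ) := by
    have h0 : ∑ a : ZMod N, χ a * (Real.log 2 : ℂ) = 0 := by
      rw [← Finset.sum_mul, χ.sum_eq_zero_of_ne_one h1, zero_mul]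
    rw [← sub_zero (∑ a : ZMod N, χ a * (Real.log ‖(1 : ℂ) - ZMod.stdAddChar a‖ : ℂ)), ← h0,
      ← Finset.sum_sub_distrib, sum_zmod_eq, Complex.ofReal_sum]
    refine Finset.sum_congr rfl fun a ha => ?_
    rw [norm_one_sub_stdAddChar (Finset.mem_range.mp ha), ← mul_sub, apply_eq_ofReal h2,
      ← Complex.ofReal_sub, ← Complex.ofReal_mul]
    congr 1
    rcases Nat.eq_zero_or_pos a with rfl | ha0
    · have : (χ ((0 : ℕ) : ZMod N)).re = 0 := by
        rw [Nat.cast_zero, apply_zero_of_ne_one h1, Complex.zero_re]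
      rw [Complex.ofReal_re, this, zero_mul, zero_mul]
    · have hs : 0 < Real.sin (Real.pi * a / N) := by
        refine Real.sin_pos_of_pos_of_lt_pi (by positivity) ?_
        rw [div_lt_iff₀ hN]
        exact mul_lt_mul_of_pos_left (by exact_mod_cast Finset.mem_range.mp ha) Real.pi_pos
      rw [Complex.ofReal_re, Real.log_mul two_ne_zero hs.ne', add_sub_cancel_left]
  rw [hsum] at hres
  have hres' : dedekindZeta_residue (quadF χ) = -(Real.sqrt N / N) *
      ∑ a ∈ range N, (χ (a : ZMod N)).re * Real.log (Real.sin (Real.pi * a / N)) := by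
    exact_mod_cast hres
  rw [dedekindZeta_residue_def, hr1, hr2, hw, hd] at hres'
  have hss : Real.sqrt N * Real.sqrt N = N := Real.mul_self_sqrt hN.le
  generalize ∑ a ∈ range N, (χ (a : ZMod N)).re * Real.log (Real.sin (Real.pi * a / N)) = S at hres' ⊢
  have e : Real.sqrt N / N = 1 / Real.sqrt N := by
    rw [div_eq_div_iff hN.ne' hsN.ne', hss, one_mul]
  rw [e] at hres'
  field_simp at hres'
  push_cast at hres'
  linarith

end Real

section Legendre

variable {p : ℕ} [hp : Fact p.Prime]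

theorem legendreSym_neg_one_of_one (h : p % 4 = 1) (a : ℤ) :
    legendreSym p (-a) = legendreSym p a := by
  have h1 : legendreSym p (-1) = 1 := by
    rw [legendreSym.at_neg_one (by omega), ZMod.χ₄_nat_one_mod_four h]
  rw [← neg_one_mul, legendreSym.mul, h1, one_mul]

/-- **Dirichlet's class number formula for `ℚ(√p)`, `p ≡ 1 mod 4`**:
`h R = - Σ_{0 < a < p/2} (a/p) log (sin (π a / p))`. -/
theorem class_number_formula_prime (h : p % 4 = 1) :
    (classNumber (quadF (leg p)) : ℝ) * regulator (quadF (leg p)) =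
      -∑ a ∈ range ((p - 1) / 2), (legendreSym p ((a + 1 : ℕ) : ℤ) : ℝ) *
        Real.log (Real.sin (Real.pi * (a + 1 : ℕ) / p)) := by
  have h2 : p ≠ 2 := by omega
  have hp0 : (p : ℝ) ≠ 0 := Nat.cast_ne_zero.mpr hp.out.ne_zero
  rw [class_number_formula_real (leg_isPrimitive h2) (leg_ne_one h2) (leg_sq p) (leg_even h)]
  have e1 : ∀ a : ℕ, (leg p (a : ZMod p)).re = (legendreSym p a : ℝ) := fun a => by
    rw [leg_natCast]
    exact Complex.intCast_re _
  have e2 : ∑ a ∈ range p, (leg p (a : ZMod p)).re * Real.log (Real.sin (Real.pi * a / p)) =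
      ∑ a ∈ range (2 * ((p - 1) / 2) + 1), (legendreSym p a : ℝ) *
        Real.log (Real.sin (Real.pi * a / p)) := by
    rw [show 2 * ((p - 1) / 2) + 1 = p by omega]
    exact Finset.sum_congr rfl fun a _ => by rw [e1]
  rw [e2, sum_range_reflect_half]
  have e3 : ∀ c ∈ range ((p - 1) / 2), (legendreSym p ((c + 1 : ℕ) : ℤ) : ℝ) *
      Real.log (Real.sin (Real.pi * (c + 1 : ℕ) / p)) +
      (legendreSym p ((2 * ((p - 1) / 2) + 1 - (c + 1) : ℕ) : ℤ) : ℝ) *
        Real.log (Real.sin (Real.pi * (2 * ((p - 1) / 2) + 1 - (c + 1) : ℕ) / p)) =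
      2 * ((legendreSym p ((c + 1 : ℕ) : ℤ) : ℝ) *
        Real.log (Real.sin (Real.pi * (c + 1 : ℕ) / p))) := by
    intro c hc
    have hc' := Finset.mem_range.mp hc
    rw [show 2 * ((p - 1) / 2) + 1 = p by omega]
    have h3 : legendreSym p ((p - (c + 1) : ℕ) : ℤ) = legendreSym p ((c + 1 : ℕ) : ℤ) := by
      rw [← legendreSym_neg_one_of_one h ((c + 1 : ℕ) : ℤ), legendreSym, legendreSym]
      congr 1
      rw [Nat.cast_sub (by omega)]
      push_cast
      simp
    have h4 : Real.sin (Real.pi * (p - (c + 1) : ℕ) / p) = Real.sin (Real.pi * (c + 1 : ℕ) / p) := by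
      rw [Nat.cast_sub (by omega), ← Real.sin_pi_sub]
      congr 1
      field_simp
      ring
    rw [h3, h4]
    ring
  rw [Finset.sum_congr rfl e3, ← Finset.mul_sum]
  have h0 : (legendreSym p ((0 : ℕ) : ℤ) : ℝ) = 0 := by
    rw [Nat.cast_zero, legendreSym.at_zero, Int.cast_zero]
  rw [h0, zero_mul, zero_add]
  ring

/-- **Dirichlet (1839)**: for a prime `p ≡ 1 mod 4` the exponential of `h R`, `h` the class number
and `R` the regulator (the logarithm of the fundamental unit) of the quadratic field of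
discriminant `p`, is the product of `sin (π n / p)` over the quadratic non-residues `n` with
`0 < n < p/2`, divided by the same product over the quadratic residues. -/
theorem exp_class_number_mul_regulator (h : p % 4 = 1) :
    Real.exp (classNumber (quadF (leg p)) * regulator (quadF (leg p))) =
      (∏ n ∈ (Finset.Icc 1 ((p - 1) / 2)).filter (fun n : ℕ => ¬ IsSquare (n : ZMod p)),
        Real.sin (Real.pi * n / p)) /
      ∏ r ∈ (Finset.Icc 1 ((p - 1) / 2)).filter (fun r : ℕ => IsSquare (r : ZMod p)),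
        Real.sin (Real.pi * r / p) := by
  classical
  have hp0 : (0 : ℝ) < p := Nat.cast_pos.mpr hp.out.pos
  have hsin : ∀ a ∈ Finset.Icc 1 ((p - 1) / 2), 0 < Real.sin (Real.pi * a / p) := by
    intro a ha
    rw [Finset.mem_Icc] at ha
    have ha0 : (0 : ℝ) < a := by exact_mod_cast ha.1
    refine Real.sin_pos_of_pos_of_lt_pi (by positivity) ?_
    rw [div_lt_iff₀ hp0]
    refine mul_lt_mul_of_pos_left ?_ Real.pi_pos
    have : a < p := by omega
    exact_mod_cast this
  have hne : ∀ a ∈ Finset.Icc 1 ((p - 1) / 2), (((a : ℕ) : ℤ) : ZMod p) ≠ 0 := by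
    intro a ha hz
    rw [Finset.mem_Icc] at ha
    rw [ZMod.intCast_zmod_eq_zero_iff_dvd, Int.natCast_dvd_natCast] at hz
    have := Nat.le_of_dvd (by omega) hz
    have := hp.out.two_le
    omega
  have h4 : ∑ a ∈ range ((p - 1) / 2), (legendreSym p ((a + 1 : ℕ) : ℤ) : ℝ) *
      Real.log (Real.sin (Real.pi * (a + 1 : ℕ) / p)) =
      ∑ a ∈ Finset.Icc 1 ((p - 1) / 2), (legendreSym p (a : ℤ) : ℝ) *
        Real.log (Real.sin (Real.pi * a / p)) := by
    rw [Finset.range_eq_Ico, Finset.sum_Ico_add' (fun a : ℕ => (legendreSym p (a : ℤ) : ℝ) *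
      Real.log (Real.sin (Real.pi * a / p))) 0 ((p - 1) / 2) 1]
    rfl
  rw [class_number_formula_prime h, h4,
    ← Finset.sum_filter_add_sum_filter_not _ (fun a : ℕ => IsSquare (a : ZMod p))]
  have e1 : ∑ a ∈ (Finset.Icc 1 ((p - 1) / 2)).filter (fun a : ℕ => IsSquare (a : ZMod p)),
      (legendreSym p (a : ℤ) : ℝ) * Real.log (Real.sin (Real.pi * a / p)) =
      Real.log (∏ r ∈ (Finset.Icc 1 ((p - 1) / 2)).filter (fun r : ℕ => IsSquare (r : ZMod p)),
        Real.sin (Real.pi * r / p)) := by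
    rw [Real.log_prod fun a ha => (hsin a (Finset.mem_filter.mp ha).1).ne']
    refine Finset.sum_congr rfl fun a ha => ?_
    rw [Finset.mem_filter] at ha
    rw [(legendreSym.eq_one_iff p (hne a ha.1)).mpr (by simpa using ha.2), Int.cast_one, one_mul]
  have e2 : ∑ a ∈ (Finset.Icc 1 ((p - 1) / 2)).filter (fun a : ℕ => ¬ IsSquare (a : ZMod p)),
      (legendreSym p (a : ℤ) : ℝ) * Real.log (Real.sin (Real.pi * a / p)) =
      -Real.log (∏ r ∈ (Finset.Icc 1 ((p - 1) / 2)).filter (fun r : ℕ => ¬ IsSquare (r : ZMod p)),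
        Real.sin (Real.pi * r / p)) := by
    rw [Real.log_prod fun a ha => (hsin a (Finset.mem_filter.mp ha).1).ne',
      ← Finset.sum_neg_distrib]
    refine Finset.sum_congr rfl fun a ha => ?_
    rw [Finset.mem_filter] at ha
    rw [(legendreSym.eq_neg_one_iff p).mpr (by simpa using ha.2), Int.cast_neg, Int.cast_one,
      neg_one_mul]
  have p1 : 0 < ∏ r ∈ (Finset.Icc 1 ((p - 1) / 2)).filter (fun r : ℕ => IsSquare (r : ZMod p)),
      Real.sin (Real.pi * r / p) :=
    Finset.prod_pos fun a ha => hsin a (Finset.mem_filter.mp ha).1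
  have p2 : 0 < ∏ r ∈ (Finset.Icc 1 ((p - 1) / 2)).filter (fun r : ℕ => ¬ IsSquare (r : ZMod p)),
      Real.sin (Real.pi * r / p) :=
    Finset.prod_pos fun a ha => hsin a (Finset.mem_filter.mp ha).1
  rw [e1, e2, neg_add, neg_neg, add_comm, ← sub_eq_add_neg, Real.exp_sub, Real.exp_log p2,
    Real.exp_log p1]

end Legendre

end Fermat.Agent.Cor.Diri
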